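import Fermat.Agent.PT.Perm

/-!
# Euler characteristics up to degree 2

For a short exact sequence `0 → A → B → C → 0` of representations (over a field) with finite
cohomology in degrees `≤ 2`:  `χ(B) + ε = χ(A) + χ(C)` where `ε = dim coker (H²(B) → H²(C))`.
-/

set_option autoImplicit false
set_option linter.unusedVariables false

namespace Fermat.Agent.PT

open Module

section LinAlg

variable {k : Type*} [Field k] {U V W : Type*} [AddCommGroup U] [Module k U] [AddCommGroup V]
  [Module k V] [AddCommGroup W] [Module k W]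

/-- Rank count at an exact spot. -/
lemma finrank_of_exact [Module.Finite k V] {f : U →ₗ[k] V} {g : V →ₗ[k] W}
    (h : ∀ v, g v = 0 ↔ ∃ u, f u = v) :
    finrank k V = finrank k (LinearMap.range f) + finrank k (LinearMap.range g) := by
  rw [← LinearMap.finrank_range_add_finrank_ker g, add_comm]
  congr 1
  have : LinearMap.ker g = LinearMap.range f := by
    ext v
    rw [LinearMap.mem_ker, LinearMap.mem_range, h]
  rw [this]

lemma finite_of_exact [Module.Finite k U] [Module.Finite k W] {f : U →ₗ[k] V} {g : V →ₗ[k] W}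
    (h : ∀ v, g v = 0 ↔ ∃ u, f u = v) : Module.Finite k V := by
  have h1 : LinearMap.ker g = LinearMap.range f := by
    ext v
    rw [LinearMap.mem_ker, LinearMap.mem_range, h]
  have h2 : Module.Finite k (LinearMap.ker g) := by
    rw [h1]
    infer_instance
  have h3 : Module.Finite k (V ⧸ LinearMap.ker g) :=
    Module.Finite.equiv g.quotKerEquivRange.symm
  exact Module.Finite.of_submodule_quotient (LinearMap.ker g)

end LinAlg

section

variable {k : Type*} [Field k] {G : Type*} [Group G] (𝓛 : LevelSys G)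
variable {A : Type*} [AddCommGroup A] [Module k A] (ρA : Representation k G A)
variable {B : Type*} [AddCommGroup B] [Module k B] (ρB : Representation k G B)
variable {C : Type*} [AddCommGroup C] [Module k C] (ρC : Representation k G C)

/-- Truncated Euler characteristic. -/
noncomputable def chi : ℤ :=
  (finrank k ρA.invariants : ℤ) - finrank k (H1 𝓛 ρA) + finrank k (H2 𝓛 ρA)

/-- Finiteness of the cohomology in degrees `≤ 2`. -/
structure HFin : Prop where
  h0 : Module.Finite k ρA.invariants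
  h1 : Module.Finite k (H1 𝓛 ρA)
  h2 : Module.Finite k (H2 𝓛 ρA)

variable {𝓛 ρA ρB ρC}

/-- Change of coefficients on invariants. -/
noncomputable def H0coef (f : A →ₗ[k] B) (hf : Equivar ρA ρB f) : ρA.invariants →ₗ[k] ρB.invariants :=
  f.restrict (fun a ha => fun s => by
    rw [← hf s a, ha s])

@[simp] lemma H0coef_coe (f : A →ₗ[k] B) (hf : Equivar ρA ρB f) (a : ρA.invariants) :
    (H0coef f hf a : B) = f a := rfl

variable {f : A →ₗ[k] B} {g : B →ₗ[k] C}

namespace SES

variable (h : SES 𝓛 ρA ρB ρC f g)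
include h

lemma exact_H0B (x : ρB.invariants) : H0coef g h.eqg x = 0 ↔ ∃ y, H0coef f h.eqf y = x := by
  constructor
  · intro hx
    obtain ⟨a, ha⟩ := h.exact x.1 (congrArg Subtype.val hx)
    refine ⟨⟨a, fun s => h.inj ?_⟩, Subtype.ext ha⟩
    rw [h.eqf, ha]
    exact x.2 s
  · rintro ⟨y, rfl⟩
    exact Subtype.ext (h.zero y.1)

lemma exact_H0C' (c : ρC.invariants) :
    h.delta0 c = 0 ↔ ∃ b, H0coef g h.eqg b = c := by
  rw [h.exact_H0C]
  constructor
  · rintro ⟨b, hb, hbc⟩
    exact ⟨⟨b, hb⟩, Subtype.ext hbc⟩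
  · rintro ⟨b, rfl⟩
    exact ⟨b.1, b.2, rfl⟩

lemma H1coef_zero (y : H1 𝓛 ρA) : H1coef 𝓛 g h.eqg (H1coef 𝓛 f h.eqf y) = 0 := by
  obtain ⟨y, rfl⟩ := H1mk_surjective y
  refine H1mk_eq_zero.2 ⟨0, fun s => ?_⟩
  rw [map_zero, sub_zero]
  exact h.zero _

lemma H2coef_zero (y : H2 𝓛 ρA) : H2coef 𝓛 g h.eqg (H2coef 𝓛 f h.eqf y) = 0 := by
  obtain ⟨y, rfl⟩ := H2mk_surjective y
  refine H2mk_eq_zero.2 ⟨fun _ => 0, LC1.const 0, fun s t => ?_⟩
  rw [map_zero, sub_zero, add_zero]
  exact h.zero _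

lemma exact_H1' (x : H1 𝓛 ρB) : H1coef 𝓛 g h.eqg x = 0 ↔ ∃ y, H1coef 𝓛 f h.eqf y = x :=
  ⟨h.exact_H1 x, by rintro ⟨y, rfl⟩; exact h.H1coef_zero y⟩

lemma exact_H2' (x : H2 𝓛 ρB) : H2coef 𝓛 g h.eqg x = 0 ↔ ∃ y, H2coef 𝓛 f h.eqf y = x :=
  ⟨h.exact_H2 x, by rintro ⟨y, rfl⟩; exact h.H2coef_zero y⟩

lemma H0coef_injective : Function.Injective (H0coef f h.eqf) := fun a b hab =>
  Subtype.ext (h.inj (congrArg Subtype.val hab))

theorem hfin_mid (hA : HFin 𝓛 ρA) (hC : HFin 𝓛 ρC) : HFin 𝓛 ρB where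
  h0 := by
    have := hA.h0
    have := hC.h0
    exact finite_of_exact h.exact_H0B
  h1 := by
    have := hA.h1
    have := hC.h1
    exact finite_of_exact h.exact_H1'
  h2 := by
    have := hA.h2
    have := hC.h2
    exact finite_of_exact h.exact_H2'

/-- **The count.** -/
theorem chi_add (hA : HFin 𝓛 ρA) (hC : HFin 𝓛 ρC) :
    chi 𝓛 ρB + (finrank k (H2 𝓛 ρC) - finrank k (LinearMap.range (H2coef 𝓛 g h.eqg))) =
      chi 𝓛 ρA + chi 𝓛 ρC := by
  have hB := h.hfin_mid hA hC
  have a0 := hA.h0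
  have a1 := hA.h1
  have a2 := hA.h2
  have b0 := hB.h0
  have b1 := hB.h1
  have b2 := hB.h2
  have c0 := hC.h0
  have c1 := hC.h1
  have c2 := hC.h2
  have e1 : finrank k ρA.invariants = finrank k (LinearMap.range (H0coef f h.eqf)) :=
    (LinearMap.finrank_range_of_inj h.H0coef_injective).symm
  have e2 := finrank_of_exact (f := H0coef f h.eqf) (g := H0coef g h.eqg) h.exact_H0B
  have e3 := finrank_of_exact (f := H0coef g h.eqg) (g := h.delta0) h.exact_H0C'
  have e4 := finrank_of_exact (f := h.delta0) (g := H1coef 𝓛 f h.eqf) h.exact_H1A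
  have e5 := finrank_of_exact (f := H1coef 𝓛 f h.eqf) (g := H1coef 𝓛 g h.eqg) h.exact_H1'
  have e6 := finrank_of_exact (f := H1coef 𝓛 g h.eqg) (g := h.delta1) h.exact_H1C
  have e7 := finrank_of_exact (f := h.delta1) (g := H2coef 𝓛 f h.eqf) h.exact_H2A
  have e8 := finrank_of_exact (f := H2coef 𝓛 f h.eqf) (g := H2coef 𝓛 g h.eqg) h.exact_H2'
  unfold chi
  rw [e2, e3, e4, e5, e6, e7, e8, e1]
  push_cast
  ring

theorem chi_le (hA : HFin 𝓛 ρA) (hC : HFin 𝓛 ρC) : chi 𝓛 ρB ≤ chi 𝓛 ρA + chi 𝓛 ρC := by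
  have h1 := h.chi_add hA hC
  have c2 := hC.h2
  have h2 : finrank k (LinearMap.range (H2coef 𝓛 g h.eqg)) ≤ finrank k (H2 𝓛 ρC) :=
    Submodule.finrank_le _
  omega

theorem surjective_of_chi (hA : HFin 𝓛 ρA) (hC : HFin 𝓛 ρC)
    (he : chi 𝓛 ρA + chi 𝓛 ρC ≤ chi 𝓛 ρB) : Function.Surjective (H2coef 𝓛 g h.eqg) := by
  have h1 := h.chi_add hA hC
  have c2 := hC.h2
  rw [← LinearMap.range_eq_top]
  apply Submodule.eq_top_of_finrank_eq
  have h2 : finrank k (LinearMap.range (H2coef 𝓛 g h.eqg)) ≤ finrank k (H2 𝓛 ρC) :=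
    Submodule.finrank_le _
  omega

end SES

/-- Subrepresentations. -/
def subRep (ρ : Representation k G B) (W : Submodule k B) (hW : ∀ s, ∀ w ∈ W, ρ s w ∈ W) :
    Representation k G W where
  toFun s := (ρ s).restrict (hW s)
  map_one' := by
    ext w
    simp
  map_mul' s t := by
    ext w
    simp

@[simp] lemma subRep_coe (ρ : Representation k G B) (W : Submodule k B)
    (hW : ∀ s, ∀ w ∈ W, ρ s w ∈ W) (s : G) (w : W) : (subRep ρ W hW s w : B) = ρ s w := rfl

lemma ker_stable {g : B →ₗ[k] C} (hg : Equivar ρB ρC g) : ∀ s, ∀ w ∈ LinearMap.ker g,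
    ρB s w ∈ LinearMap.ker g := fun s w hw => by
  rw [LinearMap.mem_ker] at hw ⊢
  rw [hg, hw, map_zero]

/-- The short exact sequence attached to an equivariant surjection. -/
lemma ses_ker (hd : Discrete 𝓛 ρB) {g : B →ₗ[k] C} (hg : Equivar ρB ρC g)
    (hs : Function.Surjective g) :
    SES 𝓛 (subRep ρB (LinearMap.ker g) (ker_stable hg)) ρB ρC (LinearMap.ker g).subtype g where
  inj := Subtype.val_injective
  surj := hs
  exact b hb := ⟨⟨b, hb⟩, rfl⟩
  zero a := a.2
  eqf _ _ := rfl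
  eqg := hg
  disc := hd

end

section Transport

variable {k : Type*} [CommRing k] {G : Type*} [Group G] {𝓛 : LevelSys G}
variable {H : Type*} [Group H] {𝓛' : LevelSys H}
variable {M : Type*} [AddCommGroup M] [Module k M] {ρ : Representation k G M}
  {σ : Representation k H M}

/-- Transport along an isomorphism of groups. -/
noncomputable def H1equiv (u : H ≃* G) (hu : 𝓛.Compat u.toMonoidHom 𝓛')
    (hu' : 𝓛'.Compat u.symm.toMonoidHom 𝓛) (hf : ∀ h m, ρ (u h) m = σ h m) :
    H1 𝓛 ρ ≃ₗ[k] H1 𝓛' σ where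
  __ := H1map u.toMonoidHom hu LinearMap.id hf
  invFun := H1map u.symm.toMonoidHom hu' LinearMap.id (fun g m => by
    have := hf (u.symm g) m
    rw [u.apply_symm_apply] at this
    exact this.symm)
  left_inv := by
    intro x
    obtain ⟨x, rfl⟩ := H1mk_surjective x
    refine congrArg (H1mk 𝓛 ρ) (Subtype.ext (funext fun g => ?_))
    exact congrArg x.1 (u.apply_symm_apply g)
  right_inv := by
    intro x
    obtain ⟨x, rfl⟩ := H1mk_surjective x
    refine congrArg (H1mk 𝓛' σ) (Subtype.ext (funext fun g => ?_))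
    exact congrArg x.1 (u.symm_apply_apply g)

/-- Transport along an isomorphism of groups. -/
noncomputable def H2equiv (u : H ≃* G) (hu : 𝓛.Compat u.toMonoidHom 𝓛')
    (hu' : 𝓛'.Compat u.symm.toMonoidHom 𝓛) (hf : ∀ h m, ρ (u h) m = σ h m) :
    H2 𝓛 ρ ≃ₗ[k] H2 𝓛' σ where
  __ := H2map u.toMonoidHom hu LinearMap.id hf
  invFun := H2map u.symm.toMonoidHom hu' LinearMap.id (fun g m => by
    have := hf (u.symm g) m
    rw [u.apply_symm_apply] at this
    exact this.symm)
  left_inv := by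
    intro x
    obtain ⟨x, rfl⟩ := H2mk_surjective x
    refine congrArg (H2mk 𝓛 ρ) (Subtype.ext (funext fun g => ?_))
    exact congrArg x.1 (Prod.ext (u.apply_symm_apply g.1) (u.apply_symm_apply g.2))
  right_inv := by
    intro x
    obtain ⟨x, rfl⟩ := H2mk_surjective x
    refine congrArg (H2mk 𝓛' σ) (Subtype.ext (funext fun g => ?_))
    exact congrArg x.1 (Prod.ext (u.symm_apply_apply g.1) (u.symm_apply_apply g.2))

end Transport

end Fermat.Agent.PT
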