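import Fermat.Agent.PT.Exact

/-!
# Functions on a finite `G`-set: Shapiro's lemma / Mackey decomposition in degrees 1 and 2
-/

set_option autoImplicit false

namespace Fermat.Agent.PT

variable {k : Type*} [CommRing k] {G : Type*} [Group G] {𝓛 : LevelSys G}
variable {A : Type*} [AddCommGroup A] [Module k A]

/-- The representation of `G` on functions `X → A`: `(g • f) x = g (f (g⁻¹ x))`. -/
def funRep (X : Type*) [MulAction G X] (ρ : Representation k G A) :
    Representation k G (X → A) where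
  toFun g :=
    { toFun := fun f x => ρ g (f (g⁻¹ • x))
      map_add' := fun f f' => by ext x; simp
      map_smul' := fun r f => by ext x; simp }
  map_one' := by ext f x; simp
  map_mul' g h := by
    apply LinearMap.ext
    intro f
    funext x
    show ρ (g * h) (f ((g * h)⁻¹ • x)) = ρ g (ρ h (f (h⁻¹ • g⁻¹ • x)))
    rw [map_mul, Module.End.mul_apply, mul_inv_rev, mul_smul]

@[simp] lemma funRep_apply {X : Type*} [MulAction G X] (ρ : Representation k G A) (g : G)
    (f : X → A) (x : X) : funRep X ρ g f x = ρ g (f (g⁻¹ • x)) := rfl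

lemma funRep_discrete {X : Type*} [MulAction G X] [Finite X] {ρ : Representation k G A}
    (hρ : Discrete 𝓛 ρ) (hX : ∀ x : X, MulAction.stabilizer G x ∈ 𝓛) :
    Discrete 𝓛 (funRep X ρ) := by
  intro f
  obtain ⟨U, hU, h⟩ := hρ.exists_of_finite (Set.finite_range f)
  obtain ⟨V, hV, h'⟩ := LevelSys.exists_le_of_finite (𝓛 := 𝓛) (ι := X)
    (fun x V => V ≤ MulAction.stabilizer G x) (fun i U V h1 h2 => h1.trans h2)
    (fun x => ⟨_, hX x, le_rfl⟩)
  refine ⟨U ⊓ V, LevelSys.inf_mem hU hV, fun s hs => ?_⟩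
  funext x
  have h1 : s⁻¹ • x = x := h' x (V.inv_mem hs.2)
  rw [funRep_apply, h1, h s hs.1 _ ⟨x, rfl⟩]

/-- A `U`-equivariant retraction `G → U`. -/
lemma exists_retraction (U : Subgroup G) : ∃ s : G → U, (∀ (u : U) g, s (u * g) = u * s g) ∧
    s 1 = 1 ∧ ∀ V : Subgroup G, V.Normal → V ≤ U → ∀ g, ∀ v ∈ V, ∃ v' : U, (v' : G) ∈ V ∧
      s (g * v) = s g * v' := by
  classical
  -- first without normalisation
  have key : ∃ s : G → U, ∀ (u : U) g, s (u * g) = u * s g := by
    have hmem : ∀ g : G, g * ((g⁻¹ : G) : G ⧸ U).out ∈ U := fun g => by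
      have h1 : (((g⁻¹ : G) : G ⧸ U).out : G ⧸ U) = ((g⁻¹ : G) : G ⧸ U) := Quotient.out_eq' _
      have h2 := QuotientGroup.eq.1 h1.symm
      simpa using h2
    refine ⟨fun g => ⟨_, hmem g⟩, fun u g => ?_⟩
    apply Subtype.ext
    have h3 : (((u * g)⁻¹ : G) : G ⧸ U) = ((g⁻¹ : G) : G ⧸ U) := by
      rw [QuotientGroup.eq]
      simp
    show (u * g) * (((u * g)⁻¹ : G) : G ⧸ U).out = u * (g * ((g⁻¹ : G) : G ⧸ U).out)
    rw [h3, mul_assoc]
  obtain ⟨s, hs⟩ := key
  refine ⟨fun g => s g * (s 1)⁻¹, fun u g => by simp only [hs, mul_assoc], by simp,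
    fun V hV hVU g v hv => ?_⟩
  -- `g v = (g v g⁻¹) g`
  have h1 : g * v * g⁻¹ ∈ V := hV.conj_mem v hv g
  set w : U := ⟨g * v * g⁻¹, hVU h1⟩ with hw
  have h2 : s (g * v) = w * s g := by
    rw [← hs]
    congr 1
    simp [hw]
  set t : U := s g * (s 1)⁻¹ with ht
  refine ⟨t⁻¹ * w * t, ?_, ?_⟩
  · have := hV.conj_mem _ h1 (t : G)⁻¹
    simpa [hw] using this
  · show s (g * v) * (s 1)⁻¹ = t * (t⁻¹ * w * t)
    rw [h2, ht]; group

/-- The algebraic homotopy between `id` and `s` in degree 2 (homogeneous cochains). -/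
lemma homotopy2 {B : Type*} [AddCommGroup B] {E : Type*} (s : E → E) (Y : E → E → E → B)
    (hY : ∀ a b c d, Y b c d - Y a c d + Y a b d - Y a b c = 0) (a b c : E) :
    Y a b c - Y (s a) (s b) (s c) = (Y (s b) b c - Y (s b) (s c) c)
      - (Y (s a) a c - Y (s a) (s c) c) + (Y (s a) a b - Y (s a) (s b) b) := by
  have h1 := hY (s a) a b c
  have h2 := hY (s a) (s b) b c
  have h3 := hY (s a) (s b) (s c) c
  rw [← sub_eq_zero]
  have h4 : Y a b c - Y (s a) (s b) (s c) - ((Y (s b) b c - Y (s b) (s c) c)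
      - (Y (s a) a c - Y (s a) (s c) c) + (Y (s a) a b - Y (s a) (s b) b)) =
      (Y a b c - Y (s a) b c + Y (s a) a c - Y (s a) a b) -
      (Y (s b) b c - Y (s a) b c + Y (s a) (s b) c - Y (s a) (s b) b) +
      (Y (s b) (s c) c - Y (s a) (s c) c + Y (s a) (s b) c - Y (s a) (s b) (s c)) := by abel
  rw [h4, h1, h2, h3]
  simp

variable (G) in
/-- A system of representatives for the orbits of `G` on `X`. -/
structure OrbitReps {X : Type*} [MulAction G X] {J : Type*} (x : J → X) : Prop where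
  surj : ∀ y : X, ∃ (j : J) (g : G), g • x j = y
  inj : ∀ (i j : J) (g : G), g • x i = x j → i = j

lemma OrbitReps.injective {X : Type*} [MulAction G X] {J : Type*} {x : J → X}
    (hx : OrbitReps G x) : Function.Injective x := fun i j h =>
  hx.inj i j 1 (by rw [one_smul, h])

section Spread

variable {X : Type*} [MulAction G X] {J : Type*} {x : J → X} (hx : OrbitReps G x)
  (ρ : Representation k G A)

/-- The function on `X` attached to a family of equivariant functions. -/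
noncomputable def spread (e : J → G → A) : X → A := fun y =>
  ρ (hx.surj y).choose_spec.choose (e (hx.surj y).choose ((hx.surj y).choose_spec.choose)⁻¹)

lemma spread_smul {e : J → G → A}
    (he : ∀ j, ∀ u ∈ MulAction.stabilizer G (x j), ∀ g, e j (u * g) = ρ u (e j g)) (j : J)
    (c : G) : spread hx ρ e (c • x j) = ρ c (e j c⁻¹) := by
  unfold spread
  generalize hj' : (hx.surj (c • x j)).choose_spec.choose = c'
  have h1 : c' • x (hx.surj (c • x j)).choose = c • x j := by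
    rw [← hj']; exact (hx.surj (c • x j)).choose_spec.choose_spec
  generalize (hx.surj (c • x j)).choose = j' at h1 ⊢
  have hjj : j' = j := by
    refine hx.inj j' j (c⁻¹ * c') ?_
    rw [mul_smul, h1, inv_smul_smul]
  subst hjj
  have h2 : c⁻¹ * c' ∈ MulAction.stabilizer G (x j') := by
    rw [MulAction.mem_stabilizer_iff, mul_smul, h1, inv_smul_smul]
  have h3 : c' = c * (c⁻¹ * c') := by group
  have h4 : c'⁻¹ = (c⁻¹ * c')⁻¹ * c⁻¹ := by group
  rw [h4, he j' _ (Subgroup.inv_mem _ h2)]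
  have h5 : ρ c' = ρ c * ρ (c⁻¹ * c') := by rw [← map_mul, ← h3]
  rw [h5, Module.End.mul_apply, ← Module.End.mul_apply (ρ (c⁻¹ * c')), ← map_mul,
    mul_inv_cancel, map_one, Module.End.one_apply]

lemma spread_spec {e : J → G → A}
    (he : ∀ j, ∀ u ∈ MulAction.stabilizer G (x j), ∀ g, e j (u * g) = ρ u (e j g)) (j : J)
    (c : G) {y : X} (hy : c • x j = y) : spread hx ρ e y = ρ c (e j c⁻¹) := by
  rw [← hy, spread_smul hx ρ he]

end Spread

section Shapiro

variable {X : Type*} [MulAction G X] (ρ : Representation k G A)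

lemma stab_compat (x : X) : 𝓛.Compat (MulAction.stabilizer G x).subtype
    (𝓛.restrict (MulAction.stabilizer G x)) := LevelSys.compat_comap _

lemma proj_equivar (x : X) (h : MulAction.stabilizer G x) (f : X → A) :
    (LinearMap.proj x : (X → A) →ₗ[k] A) (funRep X ρ ((MulAction.stabilizer G x).subtype h) f) =
      (ρ.comp (MulAction.stabilizer G x).subtype) h ((LinearMap.proj x : (X → A) →ₗ[k] A) f) := by
  have h1 : ((h : G)⁻¹) • x = x := (MulAction.stabilizer G x).inv_mem h.2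
  simp [h1]

/-- Shapiro map in degree 2: restrict to the stabilizer of `x` and evaluate at `x`. -/
def sh2 (x : X) : H2 𝓛 (funRep X ρ) →ₗ[k]
    H2 (𝓛.restrict (MulAction.stabilizer G x)) (ρ.comp (MulAction.stabilizer G x).subtype) :=
  H2map (MulAction.stabilizer G x).subtype (stab_compat x) (LinearMap.proj x) (proj_equivar ρ x)

/-- Shapiro map in degree 1: restrict to the stabilizer of `x` and evaluate at `x`. -/
def sh1 (x : X) : H1 𝓛 (funRep X ρ) →ₗ[k]
    H1 (𝓛.restrict (MulAction.stabilizer G x)) (ρ.comp (MulAction.stabilizer G x).subtype) :=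
  H1map (MulAction.stabilizer G x).subtype (stab_compat x) (LinearMap.proj x) (proj_equivar ρ x)

variable {ρ}
variable {J : Type*} {x : J → X} (hx : OrbitReps G x)

include hx

/-- A common normal level. -/
lemma exists_common_level [Finite X] (hX : ∀ x : X, MulAction.stabilizer G x ∈ 𝓛)
    (P : J → Subgroup G → Prop) (hP : ∀ i U V, V ≤ U → P i U → P i V)
    (h : ∀ j, ∃ W ∈ 𝓛, P j W) : ∃ V ∈ 𝓛, V.Normal ∧
      (∀ j, V ≤ MulAction.stabilizer G (x j)) ∧ ∀ j, P j V := by
  have : Finite J := Finite.of_injective x hx.injective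
  obtain ⟨V, hV, h'⟩ := LevelSys.exists_le_of_finite (𝓛 := 𝓛) (ι := J)
    (fun j V => V ≤ MulAction.stabilizer G (x j) ∧ P j V)
    (fun i U V h1 h2 => ⟨h1.trans h2.1, hP _ _ _ h1 h2.2⟩)
    (fun j => by
      obtain ⟨W, hW, hPW⟩ := h j
      exact ⟨W ⊓ MulAction.stabilizer G (x j), LevelSys.inf_mem hW (hX _), inf_le_right,
        hP _ _ _ inf_le_left hPW⟩)
  obtain ⟨V', hV', hVV, hn⟩ := LevelSys.exists_normal hV
  exact ⟨V', hV', hn, fun j => hVV.trans (h' j).1, fun j => hP _ _ _ hVV (h' j).2⟩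

/-- Injectivity of the Shapiro maps in degree 2. -/
theorem sh2_injective [Finite X]
    (hX : ∀ x : X, MulAction.stabilizer G x ∈ 𝓛) (z : H2 𝓛 (funRep X ρ))
    (hz : ∀ j, sh2 ρ (x j) z = 0) : z = 0 := by
  obtain ⟨z, rfl⟩ := H2mk_surjective z
  have hz' : ∀ j, ∃ b : MulAction.stabilizer G (x j) → A,
      LC1 (𝓛.restrict (MulAction.stabilizer G (x j))) b ∧
      ∀ u v : MulAction.stabilizer G (x j),
        z.1 ((u : G), (v : G)) (x j) = ρ u (b v) - b (u * v) + b u := fun j =>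
    H2mk_eq_zero.1 (hz j)
  choose b hbl hb using hz'
  choose s hs1 hs2 hs3 using fun j => exists_retraction (MulAction.stabilizer G (x j))
  obtain ⟨W, hW, hzW⟩ := z.2.1
  obtain ⟨V, hV, hn, hVs, hVb⟩ := exists_common_level hx hX
    (fun j V => V ≤ W ∧ ∀ g w : MulAction.stabilizer G (x j), (w : G) ∈ V → b j (g * w) = b j g)
    (fun i U V h1 h2 => ⟨h1.trans h2.1, fun g w hw => h2.2 g w (h1 hw)⟩)
    (fun j => by
      obtain ⟨W', ⟨W'', hW'', hWW⟩, h⟩ := hbl j
      exact ⟨W ⊓ W'', LevelSys.inf_mem hW hW'', inf_le_left, fun g w hw =>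
        h g w (hWW (by exact hw.2))⟩)
  -- homogeneous cochains
  let Y : J → G → G → G → A := fun j a b c => ρ a (z.1 (a⁻¹ * b, b⁻¹ * c) (a⁻¹ • x j))
  have hYc : ∀ j a b c d, Y j b c d - Y j a c d + Y j a b d - Y j a b c = 0 := by
    intro j a b c d
    have h1 := congrFun (z.2.2 (a⁻¹ * b) (b⁻¹ * c) (c⁻¹ * d)) (a⁻¹ • x j)
    have h2 := congrArg (ρ a) h1
    simp only [Pi.add_apply, funRep_apply, map_add] at h2
    have e1 : a⁻¹ * b * (b⁻¹ * c) = a⁻¹ * c := by group
    have e2 : b⁻¹ * c * (c⁻¹ * d) = b⁻¹ * d := by group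
    have e3 : ρ a (ρ (a⁻¹ * b) (z.1 (b⁻¹ * c, c⁻¹ * d) ((a⁻¹ * b)⁻¹ • a⁻¹ • x j))) =
        Y j b c d := by
      rw [← Module.End.mul_apply, ← map_mul, mul_inv_cancel_left, ← mul_smul]
      have : (a⁻¹ * b)⁻¹ * a⁻¹ = b⁻¹ := by group
      rw [this]
    rw [e1, e2, e3] at h2
    have h3 : Y j a c d + Y j a b c = Y j b c d + Y j a b d := h2
    have h4 : Y j b c d - Y j a c d + Y j a b d - Y j a b c =
      (Y j b c d + Y j a b d) - (Y j a c d + Y j a b c) := by abel
    rw [h4, h3, sub_self]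
  have hYe : ∀ j, ∀ u ∈ MulAction.stabilizer G (x j), ∀ a b c,
      Y j (u * a) (u * b) (u * c) = ρ u (Y j a b c) := by
    intro j u hu a b c
    show ρ (u * a) (z.1 ((u * a)⁻¹ * (u * b), (u * b)⁻¹ * (u * c)) ((u * a)⁻¹ • x j)) = _
    have e1 : (u * a)⁻¹ * (u * b) = a⁻¹ * b := by group
    have e2 : (u * b)⁻¹ * (u * c) = b⁻¹ * c := by group
    have e3 : (u * a)⁻¹ • x j = a⁻¹ • x j := by
      rw [mul_inv_rev, mul_smul]
      have : u⁻¹ • x j = x j := (MulAction.stabilizer G (x j)).inv_mem hu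
      rw [this]
    rw [e1, e2, e3, map_mul, Module.End.mul_apply]
  let B : (j : J) → MulAction.stabilizer G (x j) → MulAction.stabilizer G (x j) → A :=
    fun j u v => ρ u (b j (u⁻¹ * v))
  have hBY : ∀ j, ∀ u v w : MulAction.stabilizer G (x j),
      Y j u v w = B j v w - B j u w + B j u v := by
    intro j u v w
    have h1 := hb j (u⁻¹ * v) (v⁻¹ * w)
    have h2 : ((u : G)⁻¹) • x j = x j := (MulAction.stabilizer G (x j)).inv_mem u.2
    show ρ (u : G) (z.1 ((u : G)⁻¹ * v, (v : G)⁻¹ * w) ((u : G)⁻¹ • x j)) = _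
    rw [h2]
    have h3 : z.1 ((u : G)⁻¹ * v, (v : G)⁻¹ * w) (x j) = _ := h1
    rw [h3, map_add, map_sub, ← Module.End.mul_apply, ← map_mul]
    have e1 : u⁻¹ * v * (v⁻¹ * w) = u⁻¹ * w := by group
    have e2 : (u : G) * ((u⁻¹ * v : MulAction.stabilizer G (x j)) : G) = v := by simp
    rw [e1, e2]
  let E : J → G → G → A := fun j a c => Y j (s j a) a c - Y j (s j a) (s j c) c +
    B j (s j a) (s j c)
  have hE : ∀ j a c d, Y j a c d = E j c d - E j a d + E j a c := by
    intro j a c d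
    have h1 := homotopy2 (fun g => (s j g : G)) (Y j) (hYc j) a c d
    rw [hBY] at h1
    rw [← sub_eq_zero] at h1 ⊢
    rw [← h1]
    simp only [E]
    abel
  have hEe : ∀ j, ∀ u ∈ MulAction.stabilizer G (x j), ∀ a c,
      E j (u * a) (u * c) = ρ u (E j a c) := by
    intro j u hu a c
    have e1 : s j (u * a) = (⟨u, hu⟩ : MulAction.stabilizer G (x j)) * s j a :=
      hs1 j ⟨u, hu⟩ a
    have e2 : s j (u * c) = (⟨u, hu⟩ : MulAction.stabilizer G (x j)) * s j c :=
      hs1 j ⟨u, hu⟩ c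
    simp only [E, B, e1, e2, Subgroup.coe_mul]
    rw [hYe j u hu, hYe j u hu, map_add, map_sub, map_mul, Module.End.mul_apply]
    have e3 : ((⟨u, hu⟩ : MulAction.stabilizer G (x j)) * s j a)⁻¹ *
        ((⟨u, hu⟩ : MulAction.stabilizer G (x j)) * s j c) = (s j a)⁻¹ * s j c := by group
    rw [e3]
  have hEl : ∀ j a c, ∀ v ∈ V, E j a (c * v) = E j a c := by
    intro j a c v hv
    obtain ⟨v', hv', hsv⟩ := hs3 j V hn (hVs j) c v hv
    have hVW := (hVb j).1
    have e1 : Y j (s j a) a (c * v) = Y j (s j a) a c := by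
      simp only [Y]
      have := hzW ((s j a : G)⁻¹ * a) (a⁻¹ * c) 1 v (W.one_mem) (hVW hv)
      rw [mul_one, mul_assoc] at this
      rw [this]
    have e2 : Y j (s j a) (s j (c * v)) (c * v) = Y j (s j a) (s j c) c := by
      simp only [Y]
      rw [hsv]
      have h1 : ((s j c * v' : MulAction.stabilizer G (x j)) : G)⁻¹ * (c * v) =
        ((s j c : G)⁻¹ * c) * (((s j c : G)⁻¹ * c)⁻¹ * (v' : G)⁻¹ * ((s j c : G)⁻¹ * c) * v) := by
        rw [Subgroup.coe_mul]; group
      have h2 : (((s j c : G)⁻¹ * c)⁻¹ * (v' : G)⁻¹ * ((s j c : G)⁻¹ * c) * v) ∈ V := by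
        refine V.mul_mem ?_ hv
        simpa using hn.conj_mem _ (V.inv_mem hv') ((s j c : G)⁻¹ * c)⁻¹
      have h3 : (s j a : G)⁻¹ * ((s j c * v' : MulAction.stabilizer G (x j)) : G) =
        ((s j a : G)⁻¹ * s j c) * v' := by rw [Subgroup.coe_mul, mul_assoc]
      rw [h1, h3, hzW _ _ _ _ (hVW hv') (hVW h2)]
    have e3 : B j (s j a) (s j (c * v)) = B j (s j a) (s j c) := by
      simp only [B]
      rw [hsv, ← mul_assoc, (hVb j).2 _ _ hv']
    simp only [E]
    rw [e1, e2, e3]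
  -- the cochain
  have hbe : ∀ g : G, ∀ j, ∀ u ∈ MulAction.stabilizer G (x j), ∀ a,
      (fun (j : J) (a : G) => E j a (a * g)) j (u * a) =
      ρ u ((fun (j : J) (a : G) => E j a (a * g)) j a) := by
    intro g j u hu a
    show E j (u * a) (u * a * g) = ρ u (E j a (a * g))
    rw [mul_assoc, hEe j u hu]
  rw [H2mk_eq_zero]
  refine ⟨fun g => spread hx ρ (fun j a => E j a (a * g)), ⟨V, hV, fun g v hv => ?_⟩,
    fun g h => ?_⟩
  · refine congrArg (spread hx ρ) ?_
    funext j a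
    rw [← mul_assoc, hEl j _ _ v hv]
  · funext y
    obtain ⟨j, c, hc⟩ := hx.surj y
    simp only [Pi.add_apply, Pi.sub_apply, funRep_apply]
    have hc' : (g⁻¹ * c) • x j = g⁻¹ • y := by rw [mul_smul, hc]
    rw [spread_spec hx ρ (hbe h) j (g⁻¹ * c) hc', spread_spec hx ρ (hbe (g * h)) j c hc,
      spread_spec hx ρ (hbe g) j c hc, ← Module.End.mul_apply, ← map_mul, mul_inv_cancel_left,
      ← map_sub, ← map_add]
    have e1 : (g⁻¹ * c)⁻¹ * h = c⁻¹ * (g * h) := by group
    have e2 : (g⁻¹ * c)⁻¹ = c⁻¹ * g := by group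
    rw [e1, e2, ← hE j c⁻¹ (c⁻¹ * g) (c⁻¹ * (g * h))]
    simp only [Y]
    rw [← Module.End.mul_apply, ← map_mul, mul_inv_cancel, map_one, Module.End.one_apply,
      inv_inv, hc]
    have e3 : c * (c⁻¹ * g) = g := by group
    have e4 : (c⁻¹ * g)⁻¹ * (c⁻¹ * (g * h)) = h := by group
    rw [e3, e4]

/-- Surjectivity of the Shapiro maps in degree 2. -/
theorem sh2_surjective [Finite X]
    (hX : ∀ x : X, MulAction.stabilizer G x ∈ 𝓛)
    (y : ∀ j, H2 (𝓛.restrict (MulAction.stabilizer G (x j)))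
      (ρ.comp (MulAction.stabilizer G (x j)).subtype)) :
    ∃ z : H2 𝓛 (funRep X ρ), ∀ j, sh2 ρ (x j) z = y j := by
  choose y' hy' using fun j => H2mk_surjective (y j)
  choose s hs1 hs2 hs3 using fun j => exists_retraction (MulAction.stabilizer G (x j))
  obtain ⟨V, hV, hn, hVs, hVb⟩ := exists_common_level hx hX
    (fun j V => ∀ g g' w w' : MulAction.stabilizer G (x j), (w : G) ∈ V → (w' : G) ∈ V →
      (y' j).1 (g * w, g' * w') = (y' j).1 (g, g'))
    (fun i U V h1 h2 => fun g g' w w' hw hw' => h2 g g' w w' (h1 hw) (h1 hw'))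
    (fun j => by
      obtain ⟨W', ⟨W'', hW'', hWW⟩, h⟩ := (y' j).2.1
      exact ⟨W'', hW'', fun g g' w w' hw hw' => h g g' w w' (hWW hw) (hWW hw')⟩)
  let Y : J → G → G → G → A := fun j a b c =>
    ρ (s j a) ((y' j).1 ((s j a)⁻¹ * s j b, (s j b)⁻¹ * s j c))
  have hYc : ∀ j a b c d, Y j b c d - Y j a c d + Y j a b d - Y j a b c = 0 := by
    intro j a b c d
    have h1 := (y' j).2.2 ((s j a)⁻¹ * s j b) ((s j b)⁻¹ * s j c) ((s j c)⁻¹ * s j d)
    have h2 := congrArg (ρ (s j a)) h1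
    simp only [map_add, MonoidHom.comp_apply] at h2
    have e1 : (s j a)⁻¹ * s j b * ((s j b)⁻¹ * s j c) = (s j a)⁻¹ * s j c := by group
    have e2 : (s j b)⁻¹ * s j c * ((s j c)⁻¹ * s j d) = (s j b)⁻¹ * s j d := by group
    have e3 : ρ (s j a) (ρ ((MulAction.stabilizer G (x j)).subtype ((s j a)⁻¹ * s j b))
        ((y' j).1 ((s j b)⁻¹ * s j c, (s j c)⁻¹ * s j d))) = Y j b c d := by
      rw [← Module.End.mul_apply, ← map_mul]
      simp only [Y]
      congr 2
      simp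
    rw [e1, e2] at h2
    rw [e3] at h2
    have h3 : Y j a c d + Y j a b c = Y j b c d + Y j a b d := h2
    have h4 : Y j b c d - Y j a c d + Y j a b d - Y j a b c =
      (Y j b c d + Y j a b d) - (Y j a c d + Y j a b c) := by abel
    rw [h4, h3, sub_self]
  have hYe : ∀ j, ∀ u ∈ MulAction.stabilizer G (x j), ∀ a b c,
      Y j (u * a) (u * b) (u * c) = ρ u (Y j a b c) := by
    intro j u hu a b c
    have e : ∀ a, s j (u * a) = (⟨u, hu⟩ : MulAction.stabilizer G (x j)) * s j a :=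
      fun a => hs1 j ⟨u, hu⟩ a
    simp only [Y, e, Subgroup.coe_mul, map_mul, Module.End.mul_apply]
    have e2 : ∀ a b, ((⟨u, hu⟩ : MulAction.stabilizer G (x j)) * s j a)⁻¹ *
        ((⟨u, hu⟩ : MulAction.stabilizer G (x j)) * s j b) = (s j a)⁻¹ * s j b := by
      intro a b; group
    rw [e2, e2]
  have hYl : ∀ j a b c, ∀ v ∈ V, ∀ w ∈ V, Y j a (b * v) (c * w) = Y j a b c := by
    intro j a b c v hv w hw
    obtain ⟨v', hv', hsv⟩ := hs3 j V hn (hVs j) b v hv
    obtain ⟨w', hw', hsw⟩ := hs3 j V hn (hVs j) c w hw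
    simp only [Y]
    rw [hsv, hsw, ← mul_assoc]
    have h1 : (s j b * v')⁻¹ * (s j c * w') = (s j b)⁻¹ * s j c *
      (((s j b)⁻¹ * s j c)⁻¹ * v'⁻¹ * ((s j b)⁻¹ * s j c) * w') := by group
    have h2 : ((((s j b)⁻¹ * s j c)⁻¹ * v'⁻¹ * ((s j b)⁻¹ * s j c) * w' :
        MulAction.stabilizer G (x j)) : G) ∈ V := by
      rw [Subgroup.coe_mul]
      refine V.mul_mem ?_ hw'
      simpa using hn.conj_mem _ (V.inv_mem hv') ((((s j b)⁻¹ * s j c :
        MulAction.stabilizer G (x j)) : G)⁻¹)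
    rw [h1, hVb j _ _ _ _ hv' h2]
  have hze : ∀ g h : G, ∀ j, ∀ u ∈ MulAction.stabilizer G (x j), ∀ a,
      (fun (j : J) (a : G) => Y j a (a * g) (a * (g * h))) j (u * a) =
      ρ u ((fun (j : J) (a : G) => Y j a (a * g) (a * (g * h))) j a) := by
    intro g h j u hu a
    show Y j (u * a) (u * a * g) (u * a * (g * h)) = ρ u (Y j a (a * g) (a * (g * h)))
    rw [mul_assoc, mul_assoc u, hYe j u hu]
  let z : G × G → X → A := fun p => spread hx ρ (fun j a => Y j a (a * p.1) (a * (p.1 * p.2)))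
  have hzl : LC2 𝓛 z := by
    refine ⟨V, hV, fun g g' v v' hv hv' => ?_⟩
    refine congrArg (spread hx ρ) ?_
    funext j a
    show Y j a (a * (g * v)) (a * (g * v * (g' * v'))) = Y j a (a * g) (a * (g * g'))
    have e1 : a * (g * v) = (a * g) * v := by group
    have e2 : a * (g * v * (g' * v')) = a * (g * g') * ((g'⁻¹ * v * g') * v') := by group
    rw [e1, e2, hYl j a _ _ v hv _ (V.mul_mem (by simpa using hn.conj_mem v hv g'⁻¹) hv')]
  have hzc : z ∈ Z2 𝓛 (funRep X ρ) := by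
    refine ⟨hzl, fun g h l => ?_⟩
    funext t
    obtain ⟨j, c, hc⟩ := hx.surj t
    simp only [Pi.add_apply, funRep_apply]
    have hc' : (g⁻¹ * c) • x j = g⁻¹ • t := by rw [mul_smul, hc]
    simp only [z]
    rw [spread_spec hx ρ (hze (g * h) l) j c hc, spread_spec hx ρ (hze g h) j c hc,
      spread_spec hx ρ (hze h l) j _ hc', spread_spec hx ρ (hze g (h * l)) j c hc,
      ← Module.End.mul_apply (ρ g) (ρ (g⁻¹ * c)), ← map_mul ρ g (g⁻¹ * c),
      mul_inv_cancel_left, ← map_add (ρ c), ← map_add (ρ c)]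
    congr 1
    have h1 := hYc j c⁻¹ (c⁻¹ * g) (c⁻¹ * (g * h)) (c⁻¹ * (g * h * l))
    have e1 : (g⁻¹ * c)⁻¹ = c⁻¹ * g := by group
    have e2 : (g⁻¹ * c)⁻¹ * h = c⁻¹ * (g * h) := by group
    have e3 : (g⁻¹ * c)⁻¹ * (h * l) = c⁻¹ * (g * h * l) := by group
    have e4 : c⁻¹ * (g * (h * l)) = c⁻¹ * (g * h * l) := by group
    rw [e2, e3, e4, e1]
    rw [← sub_eq_zero] at h1 ⊢
    rw [← neg_eq_zero, ← h1]
    abel
  refine ⟨H2mk 𝓛 (funRep X ρ) ⟨z, hzc⟩, fun j => ?_⟩
  rw [← hy' j]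
  refine congrArg (fun w => H2mk (𝓛.restrict (MulAction.stabilizer G (x j)))
    (ρ.comp (MulAction.stabilizer G (x j)).subtype) w) ?_
  apply Subtype.ext
  funext ⟨u, v⟩
  show z ((u : G), (v : G)) (x j) = (y' j).1 (u, v)
  simp only [z]
  rw [spread_spec hx ρ (hze _ _) j 1 (one_smul G _)]
  have e1 : s j u = u := by
    have := hs1 j u 1
    rwa [mul_one, hs2, mul_one] at this
  have e2 : s j (u * v) = u * v := by
    have := hs1 j (u * v) 1
    rwa [mul_one, hs2, mul_one] at this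
  simp only [Y, inv_one, one_mul, hs2, map_one, e1, e2, Module.End.one_apply]
  simp

/-- Injectivity of the Shapiro maps in degree 1. -/
theorem sh1_injective (z : H1 𝓛 (funRep X ρ)) (hz : ∀ j, sh1 ρ (x j) z = 0) : z = 0 := by
  obtain ⟨z, rfl⟩ := H1mk_surjective z
  have hz' : ∀ j, ∃ b : A, ∀ u : MulAction.stabilizer G (x j),
      z.1 (u : G) (x j) = ρ u b - b := fun j => H1mk_eq_zero.1 (hz j)
  choose b hb using hz'
  -- `e j a` is the value at `a⁻¹ x_j` of the wanted function, transported to `x_j`.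
  have he : ∀ j, ∀ u ∈ MulAction.stabilizer G (x j), ∀ a,
      (fun (j : J) (a : G) => b j + z.1 a (x j)) j (u * a) =
      ρ u ((fun (j : J) (a : G) => b j + z.1 a (x j)) j a) := by
    intro j u hu a
    have h1 := congrFun (z.2.2 u a) (x j)
    have h2 := hb j ⟨u, hu⟩
    have h3 : u⁻¹ • x j = x j := (MulAction.stabilizer G (x j)).inv_mem hu
    simp only [Pi.add_apply, funRep_apply, h3] at h1
    show b j + z.1 (u * a) (x j) = ρ u (b j + z.1 a (x j))
    have h4 : z.1 u (x j) = ρ u (b j) - b j := h2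
    rw [h1, h4, map_add]
    abel
  rw [H1mk_eq_zero]
  refine ⟨spread hx ρ (fun j a => b j + z.1 a (x j)), fun g => ?_⟩
  funext y
  obtain ⟨j, c, hc⟩ := hx.surj y
  have hc' : (g⁻¹ * c) • x j = g⁻¹ • y := by rw [mul_smul, hc]
  simp only [Pi.sub_apply, funRep_apply]
  rw [spread_spec hx ρ he j c hc, spread_spec hx ρ he j _ hc', ← Module.End.mul_apply,
    ← map_mul, mul_inv_cancel_left, ← map_sub]
  have h1 := congrFun (z.2.2 c⁻¹ g) (x j)
  simp only [Pi.add_apply, funRep_apply, inv_inv, hc] at h1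
  have e1 : (g⁻¹ * c)⁻¹ = c⁻¹ * g := by group
  rw [e1, h1]
  have h2 : b j + (ρ c⁻¹ (z.1 g y) + z.1 c⁻¹ (x j)) - (b j + z.1 c⁻¹ (x j)) =
    ρ c⁻¹ (z.1 g y) := by abel
  rw [h2, ← Module.End.mul_apply, ← map_mul, mul_inv_cancel, map_one, Module.End.one_apply]

/-- Surjectivity of the Shapiro maps in degree 1. -/
theorem sh1_surjective [Finite X] (hX : ∀ x : X, MulAction.stabilizer G x ∈ 𝓛)
    (y : ∀ j, H1 (𝓛.restrict (MulAction.stabilizer G (x j)))
      (ρ.comp (MulAction.stabilizer G (x j)).subtype)) :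
    ∃ z : H1 𝓛 (funRep X ρ), ∀ j, sh1 ρ (x j) z = y j := by
  choose y' hy' using fun j => H1mk_surjective (y j)
  choose s hs1 hs2 hs3 using fun j => exists_retraction (MulAction.stabilizer G (x j))
  obtain ⟨V, hV, hn, hVs, hVb⟩ := exists_common_level hx hX
    (fun j V => ∀ g w : MulAction.stabilizer G (x j), (w : G) ∈ V →
      (y' j).1 (g * w) = (y' j).1 g)
    (fun i U V h1 h2 => fun g w hw => h2 g w (h1 hw))
    (fun j => by
      obtain ⟨W', ⟨W'', hW'', hWW⟩, h⟩ := (y' j).2.1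
      exact ⟨W'', hW'', fun g w hw => h g w (hWW hw)⟩)
  let Y : J → G → G → A := fun j a b => ρ (s j a) ((y' j).1 ((s j a)⁻¹ * s j b))
  have hYc : ∀ j a b c, Y j a c = Y j b c + Y j a b := by
    intro j a b c
    have h1 := (y' j).2.2 ((s j a)⁻¹ * s j b) ((s j b)⁻¹ * s j c)
    have h2 := congrArg (ρ (s j a)) h1
    simp only [map_add, MonoidHom.comp_apply] at h2
    have e1 : (s j a)⁻¹ * s j b * ((s j b)⁻¹ * s j c) = (s j a)⁻¹ * s j c := by group
    have e3 : ρ (s j a) (ρ ((MulAction.stabilizer G (x j)).subtype ((s j a)⁻¹ * s j b))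
        ((y' j).1 ((s j b)⁻¹ * s j c))) = Y j b c := by
      rw [← Module.End.mul_apply, ← map_mul]
      simp only [Y]
      congr 2
      simp
    rw [e1, e3] at h2
    exact h2
  have hYe : ∀ j, ∀ u ∈ MulAction.stabilizer G (x j), ∀ a b,
      Y j (u * a) (u * b) = ρ u (Y j a b) := by
    intro j u hu a b
    have e : ∀ a, s j (u * a) = (⟨u, hu⟩ : MulAction.stabilizer G (x j)) * s j a :=
      fun a => hs1 j ⟨u, hu⟩ a
    simp only [Y, e, Subgroup.coe_mul, map_mul, Module.End.mul_apply]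
    have e2 : ∀ a b, ((⟨u, hu⟩ : MulAction.stabilizer G (x j)) * s j a)⁻¹ *
        ((⟨u, hu⟩ : MulAction.stabilizer G (x j)) * s j b) = (s j a)⁻¹ * s j b := by
      intro a b; group
    rw [e2]
  have hYl : ∀ j a b, ∀ v ∈ V, Y j a (b * v) = Y j a b := by
    intro j a b v hv
    obtain ⟨v', hv', hsv⟩ := hs3 j V hn (hVs j) b v hv
    simp only [Y]
    rw [hsv, ← mul_assoc, hVb j _ _ hv']
  have hze : ∀ g : G, ∀ j, ∀ u ∈ MulAction.stabilizer G (x j), ∀ a,
      (fun (j : J) (a : G) => Y j a (a * g)) j (u * a) =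
      ρ u ((fun (j : J) (a : G) => Y j a (a * g)) j a) := by
    intro g j u hu a
    show Y j (u * a) (u * a * g) = ρ u (Y j a (a * g))
    rw [mul_assoc, hYe j u hu]
  let z : G → X → A := fun g => spread hx ρ (fun j a => Y j a (a * g))
  have hzc : z ∈ Z1 𝓛 (funRep X ρ) := by
    refine ⟨⟨V, hV, fun g v hv => ?_⟩, fun g h => ?_⟩
    · refine congrArg (spread hx ρ) ?_
      funext j a
      rw [← mul_assoc, hYl j a _ v hv]
    · funext t
      obtain ⟨j, c, hc⟩ := hx.surj t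
      simp only [Pi.add_apply, funRep_apply]
      have hc' : (g⁻¹ * c) • x j = g⁻¹ • t := by rw [mul_smul, hc]
      simp only [z]
      rw [spread_spec hx ρ (hze (g * h)) j c hc, spread_spec hx ρ (hze g) j c hc,
        spread_spec hx ρ (hze h) j _ hc', ← Module.End.mul_apply (ρ g) (ρ (g⁻¹ * c)),
        ← map_mul ρ g (g⁻¹ * c), mul_inv_cancel_left, ← map_add (ρ c)]
      congr 1
      have e1 : (g⁻¹ * c)⁻¹ = c⁻¹ * g := by group
      have e2 : (g⁻¹ * c)⁻¹ * h = c⁻¹ * (g * h) := by group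
      rw [e2, e1]
      exact hYc j _ _ _
  refine ⟨H1mk 𝓛 (funRep X ρ) ⟨z, hzc⟩, fun j => ?_⟩
  rw [← hy' j]
  refine congrArg (fun w => H1mk (𝓛.restrict (MulAction.stabilizer G (x j)))
    (ρ.comp (MulAction.stabilizer G (x j)).subtype) w) ?_
  apply Subtype.ext
  funext u
  show z (u : G) (x j) = (y' j).1 u
  simp only [z]
  rw [spread_spec hx ρ (hze _) j 1 (one_smul G _)]
  have e1 : s j u = u := by
    have := hs1 j u 1
    rwa [mul_one, hs2, mul_one] at this
  simp only [Y, inv_one, one_mul, hs2, map_one, e1, Module.End.one_apply]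
  simp

end Shapiro

end Fermat.Agent.PT
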