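import Fermat.Agent.CFT.SKummer.Levels
import Fermat.Prelude.Def_GroupCohomology_ContinuousUnramified

/-!
# The mod `p` cyclotomic character of `Gal(ℚ̄/ℚ)`
-/

set_option autoImplicit false

namespace Fermat.Agent.PT.Frozen

open Fermat.Agent.PT Fermat.Agent.CFT.SKummer Fermat.Agent.Frob ExtCitation

variable {p : ℕ} [hp : Fact p.Prime]

lemma cycloChar_spec (σ : AlgebraicClosure ℚ ≃ₐ[ℚ] AlgebraicClosure ℚ) {μ : AlgebraicClosure ℚ}
    (hμ : μ ^ p = 1) : σ μ = μ ^ (cycloChar p σ : ZMod p).val := by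
  have : NeZero p := ⟨hp.out.ne_zero⟩
  have hu : IsUnit μ := IsUnit.of_pow_eq_one hμ hp.out.ne_zero
  obtain ⟨u, rfl⟩ := hu
  have hu' : u ∈ rootsOfUnity p (AlgebraicClosure ℚ) := by
    rw [mem_rootsOfUnity]
    exact Units.ext (by simpa using hμ)
  exact modularCyclotomicCharacter.spec (AlgebraicClosure ℚ) (card_rootsOfUnity_eq_self p)
    (σ : AlgebraicClosure ℚ ≃+* AlgebraicClosure ℚ) hu'

lemma cycloChar_eq_one_iff {ζ : AlgebraicClosure ℚ} (hζ : IsPrimitiveRoot ζ p)
    (σ : AlgebraicClosure ℚ ≃ₐ[ℚ] AlgebraicClosure ℚ) : cycloChar p σ = 1 ↔ σ ζ = ζ := by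
  have hp1 : 1 < p := hp.out.one_lt
  have : Fact (1 < p) := ⟨hp1⟩
  constructor
  · intro h
    rw [cycloChar_spec σ hζ.pow_eq_one, h, Units.val_one, ZMod.val_one, pow_one]
  · intro h
    rw [cycloChar_spec σ hζ.pow_eq_one] at h
    have h1 : ((cycloChar p σ : (ZMod p)ˣ) : ZMod p).val = 1 :=
      hζ.pow_inj (ZMod.val_lt _) hp1 (by rw [h, pow_one])
    apply Units.ext
    rw [Units.val_one]
    apply ZMod.val_injective
    rw [h1, ZMod.val_one]

lemma ker_cycloChar {ζ : AlgebraicClosure ℚ} (hζ : IsPrimitiveRoot ζ p) :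
    (cycloChar p).ker = (IntermediateField.adjoin ℚ {ζ}).fixingSubgroup := by
  ext σ
  rw [MonoidHom.mem_ker, cycloChar_eq_one_iff hζ, IntermediateField.mem_fixingSubgroup_iff]
  constructor
  · intro h x hx
    have h1 : IntermediateField.adjoin ℚ {ζ} ≤
        IntermediateField.fixedField (Subgroup.zpowers σ) := by
      rw [IntermediateField.adjoin_le_iff]
      intro y hy
      rw [Set.mem_singleton_iff.1 hy, SetLike.mem_coe, IntermediateField.mem_fixedField_iff]
      intro f hf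
      obtain ⟨n, rfl⟩ := hf
      have h2 : σ ∈ MulAction.stabilizer (AlgebraicClosure ℚ ≃ₐ[ℚ] AlgebraicClosure ℚ) ζ := h
      exact Subgroup.zpow_mem _ h2 n
    exact (IntermediateField.mem_fixedField_iff _ _).1 (h1 hx) σ (Subgroup.mem_zpowers σ)
  · intro h
    exact h ζ (IntermediateField.mem_adjoin_simple_self ℚ ζ)

instance finiteDimensional_adjoin_root (ζ : AlgebraicClosure ℚ) :
    FiniteDimensional ℚ (IntermediateField.adjoin ℚ {ζ}) :=
  IntermediateField.adjoin.finiteDimensional (Algebra.IsIntegral.isIntegral ζ)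

lemma adjoin_root_le_Omega {S : Finset Nat.Primes} (hpS : pPrime p ∈ S) {ζ : AlgebraicClosure ℚ}
    (hζ : ζ ^ p = 1) : IntermediateField.adjoin ℚ {ζ} ≤ Omega S := by
  rw [IntermediateField.adjoin_le_iff]
  rintro _ rfl
  exact rootOfUnity_mem_Omega hpS (n := 1) (by rw [pow_one]; exact hζ)

lemma exists_primitive (p : ℕ) [hp : Fact p.Prime] : ∃ ζ : AlgebraicClosure ℚ, IsPrimitiveRoot ζ p := by
  have : NeZero ((p : ℕ) : AlgebraicClosure ℚ) := ⟨Nat.cast_ne_zero.2 hp.out.ne_zero⟩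
  exact HasEnoughRootsOfUnity.exists_primitiveRoot _ p

lemma ker_cycloChar_mem {S : Finset Nat.Primes} (hpS : pPrime p ∈ S) :
    (cycloChar p).ker ∈ sLevels S := by
  obtain ⟨ζ, hζ⟩ := exists_primitive p
  rw [ker_cycloChar hζ]
  exact fixingSubgroup_mem_sLevels (adjoin_root_le_Omega hpS hζ.pow_eq_one)

/-- The index of the kernel of the cyclotomic character is prime to `p`. -/
lemma index_ker_cycloChar : ¬ p ∣ (cycloChar p).ker.index := by
  have h1 : (cycloChar p).ker.index ∣ p - 1 := by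
    rw [Subgroup.index_ker, ← ZMod.card_units p, ← Nat.card_eq_fintype_card]
    exact Subgroup.card_subgroup_dvd_card _
  intro h
  have h2 := Nat.le_of_dvd (Nat.sub_pos_of_lt hp.out.one_lt) (h.trans h1)
  have := hp.out.one_lt
  omega

end Fermat.Agent.PT.Frozen
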