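import Fermat.Agent.PT.Dual
import Fermat.Agent.CFT.Bridge.Levels
import Fermat.Agent.PT.CycloChar
import Fermat.Prelude.Def_GroupCohomology_ContinuousUnramified

/-!
# Comparison with the frozen definitions

* `sLevels S` : the level system of `Γ = Gal(ℚ̄/ℚ)` given by finite extensions unramified outside `S`.
* `h2S_equiv` etc.: `sha₂ S M` and `sha₁ S M` in the language of `PT`.
* `exists_pairing_of_finrank_eq` : `S55` follows from equality of dimensions.
-/

set_option autoImplicit false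
set_option linter.unusedSectionVars false

namespace Fermat.Agent.PT.Frozen

open Fermat.Agent.PT Fermat.Agent.CFT.Bridge Fermat.Agent.CFT.SKummer CategoryTheory
  groupCohomology ExtCitation

abbrev Γ := AlgebraicClosure ℚ ≃ₐ[ℚ] AlgebraicClosure ℚ

lemma isLevelConstantS₁_iff {S : Finset Nat.Primes} {X : Type*} {f : Γ → X} :
    IsLevelConstantS₁ S f ↔ LC1 (sLevels S) f := by
  constructor
  · rintro ⟨F, hF, h⟩
    exact ⟨F.fixingSubgroup, ⟨F, hF, le_rfl⟩, h⟩
  · rintro ⟨V, ⟨F, hF, hFV⟩, h⟩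
    exact ⟨F, hF, fun g s hs => h g s (hFV hs)⟩

lemma isLevelConstantS₂_iff {S : Finset Nat.Primes} {X : Type*} {f : Γ × Γ → X} :
    IsLevelConstantS₂ S f ↔ LC2 (sLevels S) f := by
  constructor
  · rintro ⟨F, hF, h⟩
    exact ⟨F.fixingSubgroup, ⟨F, hF, le_rfl⟩, h⟩
  · rintro ⟨V, ⟨F, hF, hFV⟩, h⟩
    exact ⟨F, hF, fun g g' s s' hs hs' => h g g' s s' (hFV hs) (hFV hs')⟩

/-- The level system on a group mapping to `Γ`. -/
noncomputable abbrev rLevels {G : Type} [Group G] (r : G →* Γ) : LevelSys G :=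
  (galLevels ℚ (AlgebraicClosure ℚ)).comap r

lemma isLevelConstant₁_iff {G : Type} [Group G] {r : G →* Γ} {X : Type*} {f : G → X} :
    IsLevelConstant₁ r f ↔ LC1 (rLevels r) f := by
  constructor
  · rintro ⟨F, hF, h⟩
    exact ⟨F.fixingSubgroup.comap r, ⟨F.fixingSubgroup, ⟨F, hF, le_rfl⟩, le_rfl⟩,
      fun g s hs => h g s hs⟩
  · rintro ⟨V, ⟨W, ⟨F, hF, hFW⟩, hWV⟩, h⟩
    exact ⟨F, hF, fun g s hs => h g s (hWV (hFW hs))⟩

lemma sLevels_compat {S : Finset Nat.Primes} {G : Type} [Group G] (r : G →* Γ) :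
    (sLevels S).Compat r (rLevels r) := fun W hW => ⟨W, sLevels_le hW, le_rfl⟩

section

variable {k : Type} [CommRing k] (S : Finset Nat.Primes) (M : Rep k Γ)

lemma levelCocyclesS₂_eq : levelCocyclesS₂ S M = Z2 (sLevels S) M.ρ := by
  ext f
  rw [mem_levelCocyclesS₂_iff, mem_Z2, isLevelConstantS₂_iff, and_comm]
  refine and_congr_right fun _ => ?_
  exact mem_cocycles₂_iff f

lemma mem_levelCoboundariesS₂ {f : Γ × Γ → M} : f ∈ levelCoboundariesS₂ S M ↔
    ∃ e : Γ → M, LC1 (sLevels S) e ∧ ∀ g h, f (g, h) = M.ρ g (e h) - e (g * h) + e g := by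
  rw [mem_levelCoboundariesS₂_iff]
  refine exists_congr fun e => ?_
  rw [isLevelConstantS₁_iff]
  refine and_congr_right fun _ => ?_
  constructor
  · rintro rfl g h
    rfl
  · intro h
    ext ⟨g, g'⟩
    rw [h]
    rfl

/-- `continuousH2S` in the language of `PT`. -/
noncomputable def h2Equiv : continuousH2S S M ≃ₗ[k] H2 (sLevels S) M.ρ :=
  Submodule.Quotient.equiv _ _ (LinearEquiv.ofEq _ _ (levelCocyclesS₂_eq S M)) (by
    ext ⟨f, hf⟩
    simp only [Submodule.mem_map, Submodule.mem_comap, Submodule.subtype_apply]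
    constructor
    · rintro ⟨⟨c, hc⟩, hc', hcf⟩
      have h1 : c = f := congrArg Subtype.val hcf
      subst h1
      obtain ⟨e, he, h⟩ := (mem_levelCoboundariesS₂ S M).1 hc'
      exact ⟨e, he, by ext ⟨g, g'⟩; exact (h g g').symm⟩
    · rintro ⟨e, he, h⟩
      refine ⟨⟨f, by rw [levelCocyclesS₂_eq]; exact hf⟩, ?_, rfl⟩
      refine (mem_levelCoboundariesS₂ S M).2 ⟨e, he, fun g g' => ?_⟩
      exact (congrFun h (g, g')).symm)

lemma h2Equiv_mk (c : ↥(levelCocyclesS₂ S M)) : h2Equiv S M (continuousH2Sπ S M c) =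
    H2mk (sLevels S) M.ρ ⟨c.1, by rw [← levelCocyclesS₂_eq]; exact c.2⟩ := rfl

lemma locRes₂S_eq_zero_iff {G : Type} [Group G] (r : G →* Γ) (x : continuousH2S S M) :
    locRes₂S S M r x = 0 ↔ res2 r (sLevels_compat r) M.ρ (h2Equiv S M x) = 0 := by
  obtain ⟨c, rfl⟩ := Submodule.mkQ_surjective _ x
  have h1 : h2Equiv S M (Submodule.mkQ _ c) =
    H2mk (sLevels S) M.ρ ⟨c.1, by rw [← levelCocyclesS₂_eq]; exact c.2⟩ := rfl
  rw [h1]
  have h2 : res2 r (sLevels_compat r) M.ρ (H2mk (sLevels S) M.ρ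
      ⟨c.1, by rw [← levelCocyclesS₂_eq]; exact c.2⟩) =
      H2mk (rLevels r) (M.ρ.comp r) (Z2map r (sLevels_compat r) LinearMap.id
        (fun _ _ => rfl) ⟨c.1, by rw [← levelCocyclesS₂_eq]; exact c.2⟩) := rfl
  rw [h2, H2mk_eq_zero]
  have h3 : locRes₂S S M r (Submodule.mkQ _ c) = 0 ↔ _ :=
    (Submodule.Quotient.mk_eq_zero _).trans (mem_levelCoboundaries₂_iff r (Rep.res r M) _)
  rw [h3]
  refine exists_congr fun e => ?_
  rw [isLevelConstant₁_iff]
  refine and_congr_right fun _ => ?_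
  constructor
  · intro h g g'
    exact (congrFun h (g, g')).symm
  · intro h
    ext ⟨g, g'⟩
    exact (h g g').symm

end

section

variable {K : Type} [Field K] (S : Finset Nat.Primes) (A : Rep K Γ)

/-- `Z1 → cocycles₁`. -/
def z1To : ↥(Z1 (sLevels S) A.ρ) →ₗ[K] ↥(cocycles₁ A) where
  toFun c := ⟨c.1, (mem_cocycles₁_iff c.1).2 c.2.2⟩
  map_add' _ _ := rfl
  map_smul' _ _ := rfl

lemma mem_coboundaries₁_iff' {G : Type} [Group G] (B : Rep K G) (f : G → B) :
    f ∈ coboundaries₁ B ↔ ∃ m : B, ∀ g, f g = B.ρ g m - m := by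
  constructor
  · rintro ⟨m, rfl⟩
    exact ⟨m, fun g => rfl⟩
  · rintro ⟨m, h⟩
    exact ⟨m, funext fun g => (h g).symm⟩

lemma H1π_hom_eq_zero_iff {G : Type} [Group G] (B : Rep K G) (c : cocycles₁ B) :
    (H1π B).hom c = 0 ↔ ∃ m : B, ∀ g, c.1 g = B.ρ g m - m :=
  (H1π_eq_zero_iff c).trans (mem_coboundaries₁_iff' B c.1)

/-- The comparison map on `H¹`. -/
noncomputable def h1Map : PT.H1 (sLevels S) A.ρ →ₗ[K] groupCohomology.H1 A :=
  Submodule.liftQ _ ((H1π A).hom ∘ₗ z1To S A) (by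
    rintro c ⟨m, hm⟩
    rw [LinearMap.mem_ker, LinearMap.comp_apply, H1π_hom_eq_zero_iff]
    exact ⟨m, fun g => (congrFun hm g).symm⟩)

lemma h1Map_mk (c : ↥(Z1 (sLevels S) A.ρ)) :
    h1Map S A (H1mk (sLevels S) A.ρ c) = (H1π A).hom (z1To S A c) := rfl

lemma h1Map_injective : Function.Injective (h1Map S A) := by
  rw [← LinearMap.ker_eq_bot, LinearMap.ker_eq_bot']
  intro x hx
  obtain ⟨c, rfl⟩ := H1mk_surjective x
  rw [h1Map_mk, H1π_hom_eq_zero_iff] at hx
  exact H1mk_eq_zero.2 hx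

lemma locRes_eq_zero_iff (v : extArithIndex S) (c : cocycles₁ A) :
    (locRes (extArithLoc S) A v).hom ((H1π A).hom c) = 0 ↔
      ∃ m : A, ∀ g, c.1 (extArithLoc S v g) = A.ρ (extArithLoc S v g) m - m := by
  have h1 : (locRes (extArithLoc S) A v).hom ((H1π A).hom c) =
      (H1π (Rep.res (extArithLoc S v) A)).hom
        ((mapCocycles₁ (extArithLoc S v) (𝟙 (Rep.res (extArithLoc S v) A))).hom c) :=
    H1π_comp_map_apply (extArithLoc S v) (𝟙 (Rep.res (extArithLoc S v) A)) c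
  rw [h1, H1π_hom_eq_zero_iff]
  rfl

/-- Averaging: one-cocycles of a finite group of order invertible in the coefficients. -/
lemma exists_h1_of_card {k : Type*} [Field k] {D : Type*} [Group D] [Finite D]
    (hD : (Nat.card D : k) ≠ 0) {M : Type*} [AddCommGroup M] [Module k M]
    (ρ : Representation k D M) {f : D → M} (hf : ∀ g h, f (g * h) = ρ g (f h) + f g) :
    ∃ m : M, ∀ g, f g = ρ g m - m := by
  classical
  have : Fintype D := Fintype.ofFinite D
  refine ⟨-((Nat.card D : k)⁻¹ • ∑ h, f h), fun g => ?_⟩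
  have h1 : ∑ h, f (g * h) = ∑ h, f h :=
    Fintype.sum_equiv (Equiv.mulLeft g) _ _ (fun h => rfl)
  have h2 : ∑ h, f (g * h) = ρ g (∑ h, f h) + (Nat.card D : k) • f g := by
    simp only [hf, Finset.sum_add_distrib, map_sum, Finset.sum_const, Finset.card_univ,
      Nat.card_eq_fintype_card, Nat.cast_smul_eq_nsmul]
  have h3 : (Nat.card D : k) • f g = ∑ h, f h - ρ g (∑ h, f h) := by
    rw [h1] at h2
    exact eq_sub_of_add_eq' h2.symm
  have h4 : f g = (Nat.card D : k)⁻¹ • ((Nat.card D : k) • f g) := by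
    rw [smul_smul, inv_mul_cancel₀ hD, one_smul]
  rw [h4, h3, map_neg, map_smul, smul_sub]
  abel

/-- Averaging: two-cocycles of a finite group of order invertible in the coefficients. -/
lemma h2_of_card {k : Type*} [Field k] {D : Type*} [Group D] [Fintype D]
    (hD : (Nat.card D : k) ≠ 0) {M : Type*} [AddCommGroup M] [Module k M]
    (ρ : Representation k D M) {c : D × D → M}
    (hc : ∀ g h j, c (g * h, j) + c (g, h) = ρ g (c (h, j)) + c (g, h * j)) (g h : D) :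
    c (g, h) = ρ g ((Nat.card D : k)⁻¹ • ∑ j, c (h, j)) -
      (Nat.card D : k)⁻¹ • ∑ j, c (g * h, j) + (Nat.card D : k)⁻¹ • ∑ j, c (g, j) := by
  have h1 : ∑ j, c (g, h * j) = ∑ j, c (g, j) :=
    Fintype.sum_equiv (Equiv.mulLeft h) _ _ (fun j => rfl)
  have h2 : ∑ j, (c (g * h, j) + c (g, h)) = ∑ j, (ρ g (c (h, j)) + c (g, h * j)) :=
    Finset.sum_congr rfl fun j _ => hc g h j
  rw [Finset.sum_add_distrib, Finset.sum_add_distrib, h1, Finset.sum_const, Finset.card_univ,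
    ← Nat.card_eq_fintype_card, ← Nat.cast_smul_eq_nsmul k, ← map_sum] at h2
  have h4 : c (g, h) = (Nat.card D : k)⁻¹ • ((Nat.card D : k) • c (g, h)) := by
    rw [smul_smul, inv_mul_cancel₀ hD, one_smul]
  rw [h4, eq_sub_of_add_eq' h2, map_smul, ← smul_sub, ← smul_add]
  congr 1
  abel

lemma card_arch_dvd : Nat.card ↥archimedeanDecomposition ∣ 2 := by
  rw [archimedeanDecomposition, Nat.card_zpowers]
  exact orderOf_dvd_of_pow_eq_one complexConjugation_sq

instance finite_arch : Finite ↥archimedeanDecomposition :=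
  Nat.finite_of_card_ne_zero fun h => by
    have := card_arch_dvd
    rw [h] at this
    omega

lemma card_arch_ne_zero {p : ℕ} [Fact p.Prime] (hp2 : p ≠ 2) :
    (Nat.card ↥archimedeanDecomposition : ZMod p) ≠ 0 := by
  intro h
  have h1 := (ZMod.natCast_eq_zero_iff _ _).1 h
  exact hp2 ((Nat.prime_dvd_prime_iff_eq Fact.out Nat.prime_two).1 (h1.trans card_arch_dvd))

end

/-- A level subgroup containing all the inertia groups outside `S` is an `S`-level. -/
lemma mem_sLevels_of_inertia {S : Finset Nat.Primes} {U : Subgroup Γ}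
    (hU : U ∈ galLevels ℚ (AlgebraicClosure ℚ))
    (hI : ∀ q : Nat.Primes, q ∉ S → ∀ A : ValuationSubring (AlgebraicClosure ℚ),
      A.LiesOverPrime (q : ℕ) → A.inertiaSubgroupIn ℚ ≤ U) : U ∈ sLevels S :=
  ⟨IntermediateField.fixedField U, ⟨fixedField_finite_of_mem hU, fun q hq A hA => by
    rw [fixingSubgroup_fixedField_of_mem hU]; exact hI q hq A hA⟩,
    (fixingSubgroup_fixedField_of_mem hU).le⟩

lemma discrete_of_unramified {k : Type} [Field k] {S : Finset Nat.Primes} (M : Rep k Γ)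
    [FiniteDimensional k M]
    (hsm : ∀ m : M, ∃ F : IntermediateField ℚ (AlgebraicClosure ℚ), FiniteDimensional ℚ F ∧
      ∀ s ∈ F.fixingSubgroup, M.ρ s m = m)
    (hMur : ∀ q : Nat.Primes, q ∉ S → ∀ A : ValuationSubring (AlgebraicClosure ℚ),
      A.LiesOverPrime (q : ℕ) → ∀ g ∈ A.inertiaSubgroupIn ℚ, M.ρ g = 1) :
    Discrete (sLevels S) M.ρ := by
  have h0 : Discrete (galLevels ℚ (AlgebraicClosure ℚ)) M.ρ := fun m => by
    obtain ⟨F, hF, h⟩ := hsm m
    exact ⟨F.fixingSubgroup, ⟨F, hF, le_rfl⟩, h⟩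
  obtain ⟨U, hU, hU1⟩ := h0.exists_trivial
  have h1 : (MonoidHom.ker M.ρ) ∈ galLevels ℚ (AlgebraicClosure ℚ) :=
    LevelSys.mono hU fun g hg => LinearMap.ext fun m => hU1 g hg m
  have h2 : (MonoidHom.ker M.ρ) ∈ sLevels S := mem_sLevels_of_inertia h1 fun q hq A hA g hg =>
    hMur q hq A hA g hg
  intro m
  refine ⟨MonoidHom.ker M.ρ, h2, fun s hs => ?_⟩
  have h3 : M.ρ s = 1 := hs
  rw [h3]
  rfl

section

variable {p : ℕ} [Fact p.Prime]

lemma arch_h2_zero (hp2 : p ≠ 2) {M : Type*} [AddCommGroup M] [Module (ZMod p) M]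
    {𝓛 : LevelSys ↥archimedeanDecomposition}
    (ρ : Representation (ZMod p) ↥archimedeanDecomposition M) (x : PT.H2 𝓛 ρ) : x = 0 := by
  obtain ⟨c, rfl⟩ := H2mk_surjective x
  have : Fintype ↥archimedeanDecomposition := Fintype.ofFinite _
  refine H2mk_eq_zero.2 ⟨fun g => (Nat.card ↥archimedeanDecomposition : ZMod p)⁻¹ •
    ∑ j, c.1 (g, j), ?_, fun g h => h2_of_card (card_arch_ne_zero hp2) ρ
      (mem_Z2.1 c.2).2 g h⟩
  obtain ⟨V, hV, h⟩ := (mem_Z2.1 c.2).1
  refine ⟨V, hV, fun g s hs => ?_⟩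
  show _ • ∑ j, c.1 (g * s, j) = _ • ∑ j, c.1 (g, j)
  congr 1
  refine Finset.sum_congr rfl fun j _ => ?_
  have := h g j s 1 hs V.one_mem
  rwa [mul_one] at this

/-- The concrete place data. -/
noncomputable abbrev placeData (S : Finset Nat.Primes) (hpS : pPrime p ∈ S)
    (inv : ∀ v : ↥S, PT.H2 (rLevels (primeLocalToGlobal v.1))
      ((chiRep (cycloChar p)).comp (primeLocalToGlobal v.1)) →ₗ[ZMod p] ZMod p) :
    PlaceData (ZMod p) Γ where
  𝓛 := sLevels S
  χ := cycloChar p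
  χ_level := ker_cycloChar_mem hpS
  V := ↥S
  fin := inferInstance
  ne := ⟨⟨pPrime p, hpS⟩⟩
  D v := primeLocalGaloisGroup v.1
  grp _ := inferInstance
  r v := primeLocalToGlobal v.1
  𝓛v v := rLevels (primeLocalToGlobal v.1)
  hr _ := sLevels_compat _
  inv := inv

variable {S : Finset Nat.Primes} (hpS : pPrime p ∈ S)
    (inv : ∀ v : ↥S, PT.H2 (rLevels (primeLocalToGlobal v.1))
      ((chiRep (cycloChar p)).comp (primeLocalToGlobal v.1)) →ₗ[ZMod p] ZMod p)

lemma mem_sha₂_iff (hp2 : p ≠ 2) (M : Rep (ZMod p) Γ) (x : continuousH2S S M) :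
    x ∈ sha₂ S M ↔ h2Equiv S M x ∈ (placeData S hpS inv).sha2 M.ρ := by
  rw [PlaceData.mem_sha2, sha₂, LinearMap.mem_ker]
  constructor
  · intro h v
    have h1 := congrFun h (Sum.inr v)
    exact (locRes₂S_eq_zero_iff S M (primeLocalToGlobal v.1) x).1 h1
  · intro h
    funext v
    rcases v with v | v
    · exact (locRes₂S_eq_zero_iff S M archimedeanLoc x).2 (arch_h2_zero hp2 _ _)
    · exact (locRes₂S_eq_zero_iff S M (primeLocalToGlobal v.1) x).2 (h v)

/-- `Ш²` in the language of `PT`. -/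
noncomputable def sha2Equiv (hp2 : p ≠ 2) (M : Rep (ZMod p) Γ) :
    ↥(sha₂ S M) ≃ₗ[ZMod p] ↥((placeData S hpS inv).sha2 M.ρ) :=
  (h2Equiv S M).ofSubmodules _ _ (by
    ext y
    rw [Submodule.mem_map]
    constructor
    · rintro ⟨x, hx, rfl⟩
      exact (mem_sha₂_iff hpS inv hp2 M x).1 hx
    · intro hy
      refine ⟨(h2Equiv S M).symm y, (mem_sha₂_iff hpS inv hp2 M _).2 ?_,
        (h2Equiv S M).apply_symm_apply y⟩
      rw [(h2Equiv S M).apply_symm_apply]
      exact hy)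

lemma mem_sha₁_iff (hp2 : p ≠ 2) (A : Rep (ZMod p) Γ) (x : PT.H1 (sLevels S) A.ρ) :
    h1Map S A x ∈ sha₁ S A ↔ x ∈ (placeData S hpS inv).sha1 A.ρ := by
  obtain ⟨c, rfl⟩ := H1mk_surjective x
  rw [PlaceData.mem_sha1, sha₁, Submodule.mem_inf, LinearMap.mem_ker, h1Map_mk]
  have hc : (H1π A).hom (z1To S A c) ∈ continuousH1S S A :=
    (mem_continuousH1S_iff S A _).2 ⟨z1To S A c, isLevelConstantS₁_iff.2 (mem_Z1.1 c.2).1, rfl⟩
  constructor
  · rintro ⟨-, h⟩ v
    have h1 := congrFun h (Sum.inr v)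
    obtain ⟨m, hm⟩ := (locRes_eq_zero_iff S A (Sum.inr v) (z1To S A c)).1 h1
    exact H1mk_eq_zero.2 ⟨m, hm⟩
  · intro h
    refine ⟨hc, ?_⟩
    funext v
    refine (locRes_eq_zero_iff S A v (z1To S A c)).2 ?_
    rcases v with v | v
    · exact exists_h1_of_card (card_arch_ne_zero hp2) (A.ρ.comp archimedeanLoc)
        (f := fun g => c.1 (archimedeanLoc g)) (fun g h => by
          rw [map_mul]
          exact (mem_Z1.1 c.2).2 _ _)
    · exact H1mk_eq_zero.1 (h v)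

lemma map_sha1 (hp2 : p ≠ 2) (A : Rep (ZMod p) Γ) :
    ((placeData S hpS inv).sha1 A.ρ).map (h1Map S A) = sha₁ S A := by
  ext y
  rw [Submodule.mem_map]
  constructor
  · rintro ⟨x, hx, rfl⟩
    exact (mem_sha₁_iff hpS inv hp2 A x).2 hx
  · intro hy
    obtain ⟨c, hc, rfl⟩ := (mem_continuousH1S_iff S A _).1 hy.1
    refine ⟨H1mk (sLevels S) A.ρ ⟨c.1, mem_Z1.2 ⟨isLevelConstantS₁_iff.1 hc,
      (mem_cocycles₁_iff c.1).1 c.2⟩⟩, ?_, rfl⟩
    exact (mem_sha₁_iff hpS inv hp2 A _).1 hy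

/-- `Ш¹` in the language of `PT`. -/
noncomputable def sha1Equiv (hp2 : p ≠ 2) (A : Rep (ZMod p) Γ) :
    ↥((placeData S hpS inv).sha1 A.ρ) ≃ₗ[ZMod p] ↥(sha₁ S A) :=
  (Submodule.equivMapOfInjective (h1Map S A) (h1Map_injective S A) _).trans
    (LinearEquiv.ofEq _ _ (map_sha1 hpS inv hp2 A))

end

lemma exists_pairing_of_finrank {k : Type*} [Field k] {V W : Type*} [AddCommGroup V]
    [AddCommGroup W] [Module k V] [Module k W] [FiniteDimensional k V] [FiniteDimensional k W]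
    (h : Module.finrank k V = Module.finrank k W) :
    ∃ B : V →ₗ[k] W →ₗ[k] k,
      (∀ y, (∀ x, B y x = 0) → y = 0) ∧ (∀ x, (∀ y, B y x = 0) → x = 0) := by
  let e : V ≃ₗ[k] Module.Dual k W :=
    LinearEquiv.ofFinrankEq _ _ (by rw [h, Subspace.dual_finrank_eq])
  refine ⟨e.toLinearMap, fun y hy => ?_, fun x hx => ?_⟩
  · have : e y = 0 := LinearMap.ext hy
    exact (LinearEquiv.map_eq_zero_iff e).1 this
  · refine (Module.forall_dual_apply_eq_zero_iff k x).1 fun f => ?_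
    obtain ⟨y, rfl⟩ := e.surjective f
    exact hx y

section

variable {p : ℕ} [Fact p.Prime]

/-- **S55 from equality of dimensions.** -/
theorem s55_of_finrank (hp2 : p ≠ 2) {S : Finset Nat.Primes} (hpS : pPrime p ∈ S)
    (inv : ∀ v : ↥S, PT.H2 (rLevels (primeLocalToGlobal v.1))
      ((chiRep (cycloChar p)).comp (primeLocalToGlobal v.1)) →ₗ[ZMod p] ZMod p)
    (M : Rep (ZMod p) Γ)
    (h1 : FiniteDimensional (ZMod p) ↥((placeData S hpS inv).sha1 (dualT (cycloChar p) M.ρ)))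
    (h2 : FiniteDimensional (ZMod p) ↥((placeData S hpS inv).sha2 M.ρ))
    (h : Module.finrank (ZMod p) ↥((placeData S hpS inv).sha1 (dualT (cycloChar p) M.ρ)) =
      Module.finrank (ZMod p) ↥((placeData S hpS inv).sha2 M.ρ)) :
    ∃ B : sha₁ S (M.dualTwist (cycloChar p)) →ₗ[ZMod p] sha₂ S M →ₗ[ZMod p] ZMod p,
      (∀ y, (∀ x, B y x = 0) → y = 0) ∧ (∀ x, (∀ y, B y x = 0) → x = 0) := by
  let e1 := sha1Equiv hpS inv hp2 (M.dualTwist (cycloChar p))
  let e2 := (sha2Equiv hpS inv hp2 M).symm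
  have : FiniteDimensional (ZMod p) ↥(sha₁ S (M.dualTwist (cycloChar p))) :=
    Module.Finite.equiv (M := ↥((placeData S hpS inv).sha1 (dualT (cycloChar p) M.ρ))) e1
  have : FiniteDimensional (ZMod p) ↥(sha₂ S M) := Module.Finite.equiv e2
  refine exists_pairing_of_finrank ?_
  rw [← LinearEquiv.finrank_eq e1, ← LinearEquiv.finrank_eq e2]
  exact h

end

end Fermat.Agent.PT.Frozen
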