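import Fermat.Agent.PT.GlobalChi
import Fermat.Agent.CFT.Global.Image
import Fermat.Agent.CFT.Bridge.UnramRes

/-!
# `GlobData` from class field theory
-/

set_option autoImplicit false

noncomputable section

namespace Fermat.Agent.PT.Frozen

open scoped NumberField
open Fermat.Agent.PT Fermat.Agent.CFT Fermat.Agent.CFT.SKummer Fermat.Agent.CFT.Bridge
  Fermat.Agent.CFT.Global Fermat.Agent.Frob Fermat.Agent.Minkowski IsDedekindDomain ExtCitation
  NumberField

variable {p : ℕ} [hp : Fact p.Prime] {S : Finset Nat.Primes} {K : IntermediateField ℚ Qbar}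

/-- Inflated classes are trivial at the places outside `S`. -/
theorem resW_infl2 [FiniteDimensional ℚ K] (x : PT.H2 (levS S K) (triv p K.fixingSubgroup)) (q : ℕ) [hq : Fact q.Prime]
    (hqS : (⟨q, hq.out⟩ : Nat.Primes) ∉ S) (g : Γ) :
    resW K q g (Formal.infl2 (levS_le_lev (S := S) (K := K)) (triv p K.fixingSubgroup) x) = 0 := by
  obtain ⟨c, rfl⟩ := H2mk_surjective x
  obtain ⟨W, ⟨V, hV, hVW⟩, hWc⟩ := (mem_Z2.1 c.2).1
  obtain ⟨W₀, hW₀, hW₀V, hn⟩ := LevelSys.exists_normal hV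
  obtain ⟨E, hE, hEW⟩ := id hW₀
  have hI : (placeW q g).inertiaSubgroupIn ℚ ≤ W₀ :=
    (hE.2 ⟨q, hq.out⟩ hqS _ (placeW_liesOverPrime q g)).trans hEW
  refine resW_eq_zero_of_unramified K q g W₀ (sLevels_le hW₀) hI _ ?_
  intro x y u v hu hv
  exact hWc x y u v (hVW (hW₀V hu)) (hVW (hW₀V hv))

variable (S K p) in
/-- Lifting of classes of `H²(G_K, ℤ/p)` which are trivial at the places outside `S`. -/
def LiftS : Prop := ∀ x : PT.H2 (lev K) (triv p K.fixingSubgroup),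
  (∀ (q : ℕ) [hq : Fact q.Prime], (⟨q, hq.out⟩ : Nat.Primes) ∉ S → ∀ g, resW K q g x = 0) →
    x ∈ LinearMap.range (Formal.infl2 (levS_le_lev (S := S) (K := K)) (triv p K.fixingSubgroup))

lemma placeOf_emb_mem_SKf [NumberField K] {q : ℕ} [hq : Fact q.Prime] {g : Γ} :
    placeOf (emb K q g) ∈ SKf S K ↔ (⟨q, hq.out⟩ : Nat.Primes) ∈ S := by
  rw [mem_SKf]
  constructor
  · rintro ⟨q', hq', h⟩
    have h1 : ((⟨q, hq.out⟩ : Nat.Primes) : ℕ) = q := rfl
    have h2 : ((((⟨q, hq.out⟩ : Nat.Primes) : ℕ)) : 𝓞 K) ∈ (placeOf (emb K q g)).asIdeal :=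
      q_mem_placeOf _
    rwa [prime_unique_of_mem h2 h]
  · intro h
    exact ⟨_, h, q_mem_placeOf _⟩

theorem globData_of_liftS [NumberField K] (hp2 : p ≠ 2) {ζ : K} (hζ : IsPrimitiveRoot ζ p)
    (hL : LiftS p S K) : GlobData S K p := by
  obtain ⟨c, hc, hr⟩ := exists_reciprocity hp2 hζ
  refine ⟨(invVec hp2 hζ).toZModLinearMap p, c, invVec_injective hp2 hζ, hc, hr, fun x => ?_⟩
  constructor
  · rintro ⟨y, rfl⟩ v hv
    have hP := (placeRep K v).h
    let _ := (placeRep K v).hq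
    show invAt hp2 hζ v _ = 0
    rw [invAt_eq_zero_iff hp2 hζ _ _ hP]
    refine resW_infl2 y _ ?_ _
    intro h
    apply hv
    rw [← hP]
    exact placeOf_emb_mem_SKf.2 h
  · intro h
    refine hL x fun q hq hqS g => ?_
    rw [← invAt_eq_zero_iff hp2 hζ q g rfl]
    refine h _ fun h' => hqS ?_
    exact placeOf_emb_mem_SKf.1 h'

/-- **Right exactness**, modulo lifting. -/
theorem rightExact_of_liftS (hp2 : p ≠ 2) (hpS : pPrime p ∈ S)
    (H : ∀ (K : IntermediateField ℚ Qbar) [NumberField K], K ≤ Omega S →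
      (∃ ζ : K, IsPrimitiveRoot ζ p) → LiftS p S K) : PlaceData.RightExact (ZMod p) (sLevels S) :=
  rightExact_sLevels hp2 hpS fun K _ hK ⟨_, hζ⟩ => globData_of_liftS hp2 hζ (H K hK ⟨_, hζ⟩)

end Fermat.Agent.PT.Frozen
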