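import Fermat.Agent.PT.Perm
import Fermat.Prelude.Def_GroupCohomology_Selmer

/-!
# Twisted duals, evaluation pairings, and the sheaf of local pairings
-/

set_option autoImplicit false

namespace Fermat.Agent.PT

/-- Help the elaborator with submodules of submodules of `M →ₗ k`. -/
noncomputable scoped instance addCommGroupSubHom {k : Type*} [Field k] {M : Type*}
    [AddCommGroup M] [Module k M] {p : Submodule k (M →ₗ[k] k)} : AddCommGroup ↥p :=
  Module.addCommMonoidToAddCommGroup k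

section Chi

variable {k : Type*} [Field k] {G : Type*} [Group G] (χ : G →* kˣ)
variable {M : Type*} [AddCommGroup M] [Module k M] (ρ : Representation k G M)

/-- The one-dimensional representation attached to a character. -/
abbrev chiRep : Representation k G k := (Representation.trivial k G k).twist χ

lemma chiRep_apply (g : G) (x : k) : chiRep χ g x = (χ g : k) * x := rfl

/-- The twisted dual `M' = Hom(M, k(χ))`. -/
abbrev dualT : Representation k G (Module.Dual k M) := ρ.dual.twist χ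

lemma dualT_apply (g : G) (f : Module.Dual k M) (m : M) :
    dualT χ ρ g f m = (χ g : k) * f (ρ g⁻¹ m) := rfl

/-- `Hom_G(M, k(χ))`. -/
def homG : Submodule k (Module.Dual k M) where
  carrier := {f | ∀ g m, f (ρ g m) = (χ g : k) * f m}
  add_mem' {f f'} hf hf' g m := by
    simp only [LinearMap.add_apply, hf g m, hf' g m, mul_add]
  zero_mem' g m := by simp
  smul_mem' c f hf g m := by
    simp only [LinearMap.smul_apply, hf g m, smul_eq_mul]; ring

lemma mem_homG {f : Module.Dual k M} :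
    f ∈ homG χ ρ ↔ ∀ g m, f (ρ g m) = (χ g : k) * f m := Iff.rfl

lemma homG_equivar {f : Module.Dual k M} (hf : f ∈ homG χ ρ) : Equivar ρ (chiRep χ) f := hf

lemma mem_homG_iff_invariants {f : Module.Dual k M} :
    f ∈ homG χ ρ ↔ f ∈ (dualT χ ρ).invariants := by
  constructor
  · intro hf g
    ext m
    rw [dualT_apply, hf, ← mul_assoc, map_inv, ← Units.val_mul, mul_inv_cancel, Units.val_one,
      one_mul]
  · intro hf g m
    have h1 := LinearMap.congr_fun (hf g) (ρ g m)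
    rw [dualT_apply, ← Module.End.mul_apply, ← map_mul, inv_mul_cancel, map_one,
      Module.End.one_apply] at h1
    exact h1.symm

variable {χ ρ}

lemma dualT_discrete {𝓛 : LevelSys G} [FiniteDimensional k M] (hρ : Discrete 𝓛 ρ)
    (hχ : χ.ker ∈ 𝓛) : Discrete 𝓛 (dualT χ ρ) := by
  let b := Module.finBasis k M
  obtain ⟨U, hU, h⟩ := hρ.exists_of_finite (Set.finite_range b)
  have hU' : ∀ g ∈ U, ∀ m, ρ g m = m := by
    intro g hg m
    have : ρ g = LinearMap.id := b.ext fun i => h g hg _ ⟨i, rfl⟩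
    rw [this]; rfl
  intro f
  refine ⟨U ⊓ χ.ker, LevelSys.inf_mem hU hχ, fun s hs => ?_⟩
  ext m
  rw [dualT_apply, hU' _ (U.inv_mem hs.1), (MonoidHom.mem_ker).1 hs.2, Units.val_one, one_mul]

lemma Discrete.exists_trivial {𝓛 : LevelSys G} [FiniteDimensional k M] (hρ : Discrete 𝓛 ρ) :
    ∃ U ∈ 𝓛, ∀ g ∈ U, ∀ m, ρ g m = m := by
  let b := Module.finBasis k M
  obtain ⟨U, hU, h⟩ := hρ.exists_of_finite (Set.finite_range b)
  refine ⟨U, hU, fun g hg m => ?_⟩
  have : ρ g = LinearMap.id := b.ext fun i => h g hg _ ⟨i, rfl⟩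
  rw [this]; rfl

end Chi

section Additivity

variable {k : Type*} [CommRing k] {G : Type*} [Group G] {𝓛 : LevelSys G}
variable {M : Type*} [AddCommGroup M] [Module k M] {ρ : Representation k G M}
variable {N : Type*} [AddCommGroup N] [Module k N] {σ : Representation k G N}

lemma H2coef_congr {f f' : M →ₗ[k] N} (hf : Equivar ρ σ f) (hf' : Equivar ρ σ f')
    (h : f = f') (x : H2 𝓛 ρ) : H2coef 𝓛 f hf x = H2coef 𝓛 f' hf' x := by
  subst h; rfl

lemma H1coef_congr {f f' : M →ₗ[k] N} (hf : Equivar ρ σ f) (hf' : Equivar ρ σ f')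
    (h : f = f') (x : H1 𝓛 ρ) : H1coef 𝓛 f hf x = H1coef 𝓛 f' hf' x := by
  subst h; rfl

lemma H2coef_add {f f' : M →ₗ[k] N} (hf : Equivar ρ σ f) (hf' : Equivar ρ σ f')
    (hff : Equivar ρ σ (f + f')) (x : H2 𝓛 ρ) :
    H2coef 𝓛 (f + f') hff x = H2coef 𝓛 f hf x + H2coef 𝓛 f' hf' x := by
  obtain ⟨c, rfl⟩ := H2mk_surjective x
  rfl

lemma H2coef_smul {f : M →ₗ[k] N} (c : k) (hf : Equivar ρ σ f)
    (hff : Equivar ρ σ (c • f)) (x : H2 𝓛 ρ) :
    H2coef 𝓛 (c • f) hff x = c • H2coef 𝓛 f hf x := by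
  obtain ⟨y, rfl⟩ := H2mk_surjective x
  rfl

lemma H2coef_zero (hf : Equivar ρ σ (0 : M →ₗ[k] N)) (x : H2 𝓛 ρ) :
    H2coef 𝓛 (0 : M →ₗ[k] N) hf x = 0 := by
  obtain ⟨y, rfl⟩ := H2mk_surjective x
  exact (H2mk_eq_zero.2 ⟨0, LC1.const 0, fun g h => by simp⟩)

lemma H1coef_add {f f' : M →ₗ[k] N} (hf : Equivar ρ σ f) (hf' : Equivar ρ σ f')
    (hff : Equivar ρ σ (f + f')) (x : H1 𝓛 ρ) :
    H1coef 𝓛 (f + f') hff x = H1coef 𝓛 f hf x + H1coef 𝓛 f' hf' x := by
  obtain ⟨c, rfl⟩ := H1mk_surjective x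
  rfl

lemma Discrete.comp {𝓛 : LevelSys G} {ρ : Representation k G M} (hρ : Discrete 𝓛 ρ)
    {H : Type*} [Group H] {𝓛' : LevelSys H} {u : H →* G} (hu : 𝓛.Compat u 𝓛') :
    Discrete 𝓛' (ρ.comp u) := fun m => by
  obtain ⟨U, hU, h⟩ := hρ m
  exact ⟨U.comap u, hu U hU, fun s hs => h (u s) hs⟩

lemma Equivar.comp_hom {f : M →ₗ[k] N} (hf : Equivar ρ σ f) {H : Type*} [Group H] (u : H →* G) :
    Equivar (ρ.comp u) (σ.comp u) f := fun h m => hf (u h) m

/-- Restriction commutes with change of coefficients. -/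
lemma res2_H2coef {f : M →ₗ[k] N} (hf : Equivar ρ σ f) {H : Type*} [Group H] {𝓛' : LevelSys H}
    (u : H →* G) (hu : 𝓛.Compat u 𝓛') (x : H2 𝓛 ρ) :
    res2 u hu σ (H2coef 𝓛 f hf x) = H2coef 𝓛' f (hf.comp_hom u) (res2 u hu ρ x) := by
  obtain ⟨y, rfl⟩ := H2mk_surjective x
  rfl

lemma res1_H1coef {f : M →ₗ[k] N} (hf : Equivar ρ σ f) {H : Type*} [Group H] {𝓛' : LevelSys H}
    (u : H →* G) (hu : 𝓛.Compat u 𝓛') (x : H1 𝓛 ρ) :
    res1 u hu σ (H1coef 𝓛 f hf x) = H1coef 𝓛' f (hf.comp_hom u) (res1 u hu ρ x) := by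
  obtain ⟨y, rfl⟩ := H1mk_surjective x
  rfl

end Additivity

/-- The data entering the duality theorems: a group with levels, a character, and a finite
nonempty family of "places", each with a local invariant map. -/
structure PlaceData (k G : Type) [Field k] [Group G] where
  𝓛 : LevelSys G
  χ : G →* kˣ
  χ_level : χ.ker ∈ 𝓛
  V : Type
  fin : Fintype V
  ne : Nonempty V
  D : V → Type
  grp : ∀ v, Group (D v)
  r : ∀ v, D v →* G
  𝓛v : ∀ v, LevelSys (D v)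
  hr : ∀ v, 𝓛.Compat (r v) (𝓛v v)
  inv : ∀ v, H2 (𝓛v v) ((chiRep χ).comp (r v)) →ₗ[k] k

attribute [instance] PlaceData.fin PlaceData.ne PlaceData.grp

namespace PlaceData

variable {k G : Type} [Field k] [Group G] (T : PlaceData k G)
variable {M : Type} [AddCommGroup M] [Module k M] (ρ : Representation k G M)
variable {N : Type} [AddCommGroup N] [Module k N] (σ : Representation k G N)
variable {P : Type} [AddCommGroup P] [Module k P] (τ : Representation k G P)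

/-- `Hom_{D_v}(M, k(χ))`. -/
def homv (v : T.V) : Submodule k (Module.Dual k M) where
  carrier := {f | ∀ d m, f (ρ (T.r v d) m) = (T.χ (T.r v d) : k) * f m}
  add_mem' {f f'} hf hf' g m := by
    simp only [LinearMap.add_apply, hf g m, hf' g m, mul_add]
  zero_mem' g m := by simp
  smul_mem' c f hf g m := by
    simp only [LinearMap.smul_apply, hf g m, smul_eq_mul]; ring

variable {ρ σ τ}

lemma mem_homv {v : T.V} {f : Module.Dual k M} :
    f ∈ T.homv ρ v ↔ ∀ d m, f (ρ (T.r v d) m) = (T.χ (T.r v d) : k) * f m := Iff.rfl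

lemma homv_equivar {v : T.V} {f : Module.Dual k M} (hf : f ∈ T.homv ρ v) :
    Equivar (ρ.comp (T.r v)) ((chiRep T.χ).comp (T.r v)) f := hf

lemma homG_le_homv (v : T.V) : homG T.χ ρ ≤ T.homv ρ v := fun _ hf d m => hf (T.r v d) m

lemma mem_homv_iff_invariants {v : T.V} {f : Module.Dual k M} :
    f ∈ T.homv ρ v ↔
      f ∈ Representation.invariants ((dualT T.χ ρ).comp (T.r v)) := by
  constructor
  · intro hf g
    ext m
    show (T.χ (T.r v g) : k) * f (ρ (T.r v g)⁻¹ m) = f m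
    have h1 := hf g⁻¹ m
    rw [map_inv] at h1
    rw [h1, ← mul_assoc, map_inv, ← Units.val_mul, mul_inv_cancel, Units.val_one, one_mul]
  · intro hf g m
    have h1 : (T.χ (T.r v g) : k) * f (ρ (T.r v g)⁻¹ (ρ (T.r v g) m)) = f (ρ (T.r v g) m) :=
      LinearMap.congr_fun (hf g) (ρ (T.r v g) m)
    rw [← Module.End.mul_apply, ← map_mul, inv_mul_cancel, map_one,
      Module.End.one_apply] at h1
    exact h1.symm

variable (ρ) in
/-- Local restriction in degree 2. -/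
abbrev loc2 (v : T.V) : H2 T.𝓛 ρ →ₗ[k] H2 (T.𝓛v v) (ρ.comp (T.r v)) := res2 (T.r v) (T.hr v) ρ

variable (ρ) in
/-- Local restriction in degree 1. -/
abbrev loc1 (v : T.V) : H1 T.𝓛 ρ →ₗ[k] H1 (T.𝓛v v) (ρ.comp (T.r v)) := res1 (T.r v) (T.hr v) ρ

variable (ρ) in
/-- `Ш²(M)`. -/
def sha2 : Submodule k (H2 T.𝓛 ρ) := ⨅ v, LinearMap.ker (T.loc2 ρ v)

variable (ρ) in
/-- `Ш¹(M)`. -/
def sha1 : Submodule k (H1 T.𝓛 ρ) := ⨅ v, LinearMap.ker (T.loc1 ρ v)

lemma mem_sha2 {x : H2 T.𝓛 ρ} : x ∈ T.sha2 ρ ↔ ∀ v, T.loc2 ρ v x = 0 := by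
  simp [sha2]

lemma mem_sha1 {x : H1 T.𝓛 ρ} : x ∈ T.sha1 ρ ↔ ∀ v, T.loc1 ρ v x = 0 := by
  simp [sha1]

lemma sha2_coef {f : M →ₗ[k] N} (hf : Equivar ρ σ f) {x : H2 T.𝓛 ρ} (hx : x ∈ T.sha2 ρ) :
    H2coef T.𝓛 f hf x ∈ T.sha2 σ := by
  rw [mem_sha2] at hx ⊢
  intro v
  rw [loc2, res2_H2coef, hx v, map_zero]

lemma sha1_coef {f : M →ₗ[k] N} (hf : Equivar ρ σ f) {x : H1 T.𝓛 ρ} (hx : x ∈ T.sha1 ρ) :
    H1coef T.𝓛 f hf x ∈ T.sha1 σ := by
  rw [mem_sha1] at hx ⊢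
  intro v
  rw [loc1, res1_H1coef, hx v, map_zero]

/-- The local pairing `Hom_{D_v}(M, μ) × H²(D_v, M) → k`. -/
noncomputable def pairv (v : T.V) :
    ↥(T.homv ρ v) →ₗ[k] H2 (T.𝓛v v) (ρ.comp (T.r v)) →ₗ[k] k where
  toFun f := T.inv v ∘ₗ H2coef (T.𝓛v v) f.1 (T.homv_equivar f.2)
  map_add' f f' := by
    refine LinearMap.ext fun x => ?_
    obtain ⟨y, rfl⟩ := H2mk_surjective x
    rw [LinearMap.comp_apply, LinearMap.add_apply, LinearMap.comp_apply, LinearMap.comp_apply,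
      ← map_add]
    rfl
  map_smul' c f := by
    refine LinearMap.ext fun x => ?_
    obtain ⟨y, rfl⟩ := H2mk_surjective x
    rw [LinearMap.comp_apply, LinearMap.smul_apply, LinearMap.comp_apply, ← map_smul]
    rfl

lemma pairv_apply (v : T.V) (f : ↥(T.homv ρ v)) (x : H2 (T.𝓛v v) (ρ.comp (T.r v))) :
    T.pairv v f x = T.inv v (H2coef (T.𝓛v v) f.1 (T.homv_equivar f.2) x) := rfl

/-- Pull back along an equivariant map. -/
def homvComp {f : M →ₗ[k] N} (hf : Equivar ρ σ f) (v : T.V) : ↥(T.homv σ v) →ₗ[k] ↥(T.homv ρ v) where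
  toFun φ := ⟨φ.1 ∘ₗ f, fun d m => by
    rw [LinearMap.comp_apply, hf, φ.2, LinearMap.comp_apply]⟩
  map_add' _ _ := rfl
  map_smul' _ _ := rfl

@[simp] lemma homvComp_coe {f : M →ₗ[k] N} (hf : Equivar ρ σ f) (v : T.V)
    (φ : ↥(T.homv σ v)) : (T.homvComp hf v φ : Module.Dual k M) = φ.1 ∘ₗ f := rfl

lemma pairv_comp {f : M →ₗ[k] N} (hf : Equivar ρ σ f) (v : T.V) (φ : ↥(T.homv σ v))
    (x : H2 (T.𝓛v v) (ρ.comp (T.r v))) :
    T.pairv v (T.homvComp hf v φ) x =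
      T.pairv v φ (H2coef (T.𝓛v v) f (hf.comp_hom (T.r v)) x) := by
  obtain ⟨y, rfl⟩ := H2mk_surjective x
  rfl

variable (ρ) in
/-- `X(M) = ⊕_v Hom_{D_v}(M, μ)`. -/
abbrev X : Type := ∀ v, ↥(T.homv ρ v)

/-- The map `γ : X(M) → H²(G,M)^*`. -/
noncomputable def gam : T.X ρ →ₗ[k] Module.Dual k (H2 T.𝓛 ρ) where
  toFun c := ∑ v, T.pairv v (c v) ∘ₗ T.loc2 ρ v
  map_add' c c' := by
    ext x
    simp only [Pi.add_apply, map_add, LinearMap.sum_apply, LinearMap.comp_apply,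
      LinearMap.add_apply, Finset.sum_add_distrib]
  map_smul' a c := by
    ext x
    simp only [Pi.smul_apply, map_smul, LinearMap.sum_apply, LinearMap.comp_apply,
      LinearMap.smul_apply, Finset.smul_sum, RingHom.id_apply]

lemma gam_apply (c : T.X ρ) (x : H2 T.𝓛 ρ) :
    T.gam c x = ∑ v, T.pairv v (c v) (T.loc2 ρ v x) := by
  simp [gam]

/-- Pull back on `X`. -/
def XComp {f : M →ₗ[k] N} (hf : Equivar ρ σ f) : T.X σ →ₗ[k] T.X ρ where
  toFun c v := T.homvComp hf v (c v)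
  map_add' _ _ := rfl
  map_smul' _ _ := rfl

@[simp] lemma XComp_coe {f : M →ₗ[k] N} (hf : Equivar ρ σ f) (c : T.X σ) (v : T.V) :
    (T.XComp hf c v : Module.Dual k M) = (c v : Module.Dual k N) ∘ₗ f := rfl

lemma gam_comp {f : M →ₗ[k] N} (hf : Equivar ρ σ f) (c : T.X σ) (x : H2 T.𝓛 ρ) :
    T.gam (T.XComp hf c) x = T.gam c (H2coef T.𝓛 f hf x) := by
  rw [gam_apply, gam_apply]
  refine Finset.sum_congr rfl fun v _ => ?_
  rw [loc2, loc2, res2_H2coef]
  exact T.pairv_comp hf v (c v) _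

/-- The diagonal map `Hom_G(M, μ) → X(M)`. -/
def diag : ↥(homG T.χ ρ) →ₗ[k] T.X ρ where
  toFun φ v := ⟨φ.1, T.homG_le_homv v φ.2⟩
  map_add' _ _ := rfl
  map_smul' _ _ := rfl

@[simp] lemma diag_coe (φ : ↥(homG T.χ ρ)) (v : T.V) :
    (T.diag φ v : Module.Dual k M) = φ.1 := rfl

/-- Reciprocity: the sum of the local invariants of a global class of `H²(G, μ)` vanishes. -/
def Recip : Prop := ∀ x : H2 T.𝓛 (chiRep T.χ), ∑ v, T.inv v (T.loc2 (chiRep T.χ) v x) = 0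

lemma gam_diag (hR : T.Recip) (φ : ↥(homG T.χ ρ)) : T.gam (T.diag φ) = 0 := by
  refine LinearMap.ext fun x => ?_
  rw [gam_apply, LinearMap.zero_apply, ← hR (H2coef T.𝓛 φ.1 (homG_equivar T.χ ρ φ.2) x)]
  refine Finset.sum_congr rfl fun v _ => ?_
  rw [pairv_apply]
  congr 1
  obtain ⟨y, rfl⟩ := H2mk_surjective x
  rfl

variable (ρ) in
/-- Exactness at `X(M)`: `ker γ = Hom_G(M, μ)`. -/
def ExactX : Prop := ∀ c : T.X ρ, T.gam c = 0 → ∃ φ : ↥(homG T.χ ρ), T.diag φ = c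

variable (ρ) in
/-- Nondegeneracy of the local pairings on the `H²` side. -/
def LocInj : Prop := ∀ v (z : H2 (T.𝓛v v) (ρ.comp (T.r v))),
  (∀ f : ↥(T.homv ρ v), T.pairv v f z = 0) → z = 0

/-- Exactness at `X` descends to quotients. -/
lemma ExactX.of_surjective {π : P →ₗ[k] M} (hπ : Equivar τ ρ π) (hs : Function.Surjective π)
    (hE : T.ExactX τ) : T.ExactX ρ := by
  intro c hc
  obtain ⟨φ, hφ⟩ := hE (T.XComp hπ c) (by
    refine LinearMap.ext fun x => ?_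
    rw [gam_comp, hc]; rfl)
  obtain ⟨v₀⟩ := T.ne
  have h1 : ∀ v, (c v : Module.Dual k M) ∘ₗ π = φ.1 := fun v => by
    have h2 := congrArg (fun d : T.X τ => (d v : Module.Dual k P)) hφ
    simpa using h2.symm
  refine ⟨⟨c v₀, fun g m => ?_⟩, ?_⟩
  · obtain ⟨p, rfl⟩ := hs m
    rw [← hπ, ← LinearMap.comp_apply, h1, φ.2, ← h1 v₀, LinearMap.comp_apply]
  · funext v
    apply Subtype.ext
    ext m
    obtain ⟨p, rfl⟩ := hs m
    have h2 : (c v₀ : Module.Dual k M) ∘ₗ π = (c v : Module.Dual k M) ∘ₗ π := by rw [h1, h1]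
    exact LinearMap.congr_fun h2 p

end PlaceData

end Fermat.Agent.PT
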