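import Fermat.Agent.PT.Defs

/-!
# Second cohomology and cyclic quotients

`χ : G →* Multiplicative (ZMod n)` a character with kernel `U ∈ 𝓛`, `s ∈ G` with `χ s = 1`.
`carry χ a` is the 2-cocycle `(g, h) ↦ a` if `χ̃ g + χ̃ h ≥ n` and `0` otherwise (`a ∈ M^G`).

* `carry_mem_Z2`
* `carry_coboundary_of_norm` : `carry χ a` is a coboundary if `a = N b`, `b ∈ M^U`.
* `norm_of_carry_coboundary` : the converse if `H¹(U, M) = 0`.
* `exists_carry_of_res` : every class in `H²(G, M)` whose restriction to `U` vanishes is the class of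
  some `carry χ a` if `H¹(U, M) = 0`.
-/

set_option autoImplicit false
set_option linter.unusedSectionVars false

namespace Fermat.Agent.PT

variable {k : Type*} [CommRing k] {G : Type*} [Group G] {𝓛 : LevelSys G}
variable {M : Type*} [AddCommGroup M] [Module k M] {ρ : Representation k G M}
variable {n : ℕ} [NeZero n]

/-- The representative in `[0, n)` of `χ g`. -/
def cval (χ : G →* Multiplicative (ZMod n)) (g : G) : ℕ := (χ g).toAdd.val

/-- The carry 2-cochain. -/
def carry (χ : G →* Multiplicative (ZMod n)) (a : M) : G × G → M :=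
  fun p => if n ≤ cval χ p.1 + cval χ p.2 then a else 0

lemma cval_lt (χ : G →* Multiplicative (ZMod n)) (g : G) : cval χ g < n := ZMod.val_lt _

lemma cval_mul (χ : G →* Multiplicative (ZMod n)) (g h : G) :
    cval χ (g * h) = (cval χ g + cval χ h) % n := by
  rw [cval, map_mul, toAdd_mul, ZMod.val_add]; rfl

lemma cval_one (χ : G →* Multiplicative (ZMod n)) : cval χ 1 = 0 := by
  rw [cval, map_one, toAdd_one, ZMod.val_zero]

lemma cval_eq_zero_iff {χ : G →* Multiplicative (ZMod n)} {g : G} :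
    cval χ g = 0 ↔ g ∈ χ.ker := by
  rw [cval, ZMod.val_eq_zero, MonoidHom.mem_ker]
  exact Iff.rfl

lemma cval_mul_of_mem {χ : G →* Multiplicative (ZMod n)} {g u : G} (hu : u ∈ χ.ker) :
    cval χ (g * u) = cval χ g := by
  rw [cval, map_mul, MonoidHom.mem_ker.1 hu, mul_one]; rfl

lemma cval_mul_of_mem_left {χ : G →* Multiplicative (ZMod n)} {g u : G} (hu : u ∈ χ.ker) :
    cval χ (u * g) = cval χ g := by
  rw [cval, map_mul, MonoidHom.mem_ker.1 hu, one_mul]; rfl

lemma cval_add_add (χ : G →* Multiplicative (ZMod n)) (g h : G) :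
    cval χ g + cval χ h = cval χ (g * h) + if n ≤ cval χ g + cval χ h then n else 0 := by
  have h1 := cval_lt χ g
  have h2 := cval_lt χ h
  rw [cval_mul]
  split_ifs with h3
  · rw [Nat.mod_eq_sub_mod h3, Nat.mod_eq_of_lt (by omega)]
    omega
  · rw [Nat.mod_eq_of_lt (by omega)]
    omega

@[simp] lemma carry_apply (χ : G →* Multiplicative (ZMod n)) (a : M) (g h : G) :
    carry χ a (g, h) = if n ≤ cval χ g + cval χ h then a else 0 := rfl

lemma LC1.cval {χ : G →* Multiplicative (ZMod n)} (hχ : χ.ker ∈ 𝓛) : LC1 𝓛 (cval χ) :=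
  ⟨χ.ker, hχ, fun _ _ hs => cval_mul_of_mem hs⟩

lemma LC2.carry {χ : G →* Multiplicative (ZMod n)} (hχ : χ.ker ∈ 𝓛) (a : M) :
    LC2 𝓛 (carry χ a) :=
  ((LC1.cval hχ).fst.prodMk (LC1.cval hχ).snd).comp (fun p => if n ≤ p.1 + p.2 then a else 0)

lemma carry_mem_Z2 {χ : G →* Multiplicative (ZMod n)} (hχ : χ.ker ∈ 𝓛) {a : M}
    (ha : ∀ g, ρ g a = a) : carry χ a ∈ Z2 𝓛 ρ := by
  refine ⟨LC2.carry hχ a, fun g h j => ?_⟩
  have e1 := cval_add_add χ g h
  have e2 := cval_add_add χ h j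
  have e3 := cval_add_add χ (g * h) j
  have e4 := cval_add_add χ g (h * j)
  rw [← mul_assoc] at e4
  have l1 := cval_lt χ g
  have l2 := cval_lt χ h
  have l3 := cval_lt χ j
  have l4 := cval_lt χ (g * h)
  have l5 := cval_lt χ (h * j)
  have l6 := cval_lt χ (g * h * j)
  have hn : 0 < n := Nat.pos_of_neZero n
  simp only [carry_apply]
  by_cases c1 : n ≤ cval χ g + cval χ h <;> by_cases c2 : n ≤ cval χ h + cval χ j <;>
    by_cases c3 : n ≤ cval χ (g * h) + cval χ j <;>
    by_cases c4 : n ≤ cval χ g + cval χ (h * j) <;>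
    simp only [c1, c2, c3, c4, if_true, if_false, ha, map_zero, add_zero, zero_add] at e1 e2 e3 e4 ⊢ <;>
    exfalso <;> omega

/-- Partial norms. -/
def pnorm (ρ : Representation k G M) (s : G) (b : M) (i : ℕ) : M :=
  ∑ l ∈ Finset.range i, ρ (s ^ l) b

lemma pnorm_zero (s : G) (b : M) : pnorm ρ s b 0 = 0 := by simp [pnorm]

lemma pnorm_add (s : G) (b : M) (i j : ℕ) :
    pnorm ρ s b (i + j) = pnorm ρ s b i + ρ (s ^ i) (pnorm ρ s b j) := by
  rw [pnorm, Finset.sum_range_add, pnorm, pnorm, map_sum]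
  congr 1
  refine Finset.sum_congr rfl fun l _ => ?_
  rw [pow_add, map_mul, Module.End.mul_apply]

lemma pnorm_succ (s : G) (b : M) (i : ℕ) :
    pnorm ρ s b (i + 1) = pnorm ρ s b i + ρ (s ^ i) b := by
  rw [pnorm, Finset.sum_range_succ, pnorm]

section

variable {χ : G →* Multiplicative (ZMod n)} {s : G} (hs : χ s = Multiplicative.ofAdd 1)

include hs

lemma cval_pow (i : ℕ) : cval χ (s ^ i) = i % n := by
  rw [cval, map_pow, hs, ← ofAdd_nsmul, toAdd_ofAdd, nsmul_one, ZMod.val_natCast]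

lemma pow_cval_inv_mul_mem (g : G) : (s ^ cval χ g)⁻¹ * g ∈ χ.ker := by
  rw [MonoidHom.mem_ker, map_mul, map_inv, map_pow, hs, ← ofAdd_nsmul, nsmul_one, inv_mul_eq_one,
    cval]
  simp

lemma pow_n_mem : s ^ n ∈ χ.ker := by
  rw [← cval_eq_zero_iff, cval_pow hs, Nat.mod_self]

lemma exists_eq_pow_mul (g : G) : ∃ u ∈ χ.ker, g = s ^ cval χ g * u :=
  ⟨_, pow_cval_inv_mul_mem hs g, by group⟩

lemma act_eq_pow {m : M} (hm : ∀ u ∈ χ.ker, ρ u m = m) (g : G) :
    ρ g m = ρ (s ^ cval χ g) m := by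
  obtain ⟨u, hu, h⟩ := exists_eq_pow_mul hs g
  conv_lhs => rw [h]
  rw [map_mul, Module.End.mul_apply, hm u hu]

omit hs [NeZero n] in
lemma fixed_act {m : M} (hm : ∀ u ∈ χ.ker, ρ u m = m) (g : G) :
    ∀ u ∈ χ.ker, ρ u (ρ g m) = ρ g m := by
  intro u hu
  have h1 : u * g = g * (g⁻¹ * u * g) := by group
  have h2 : g⁻¹ * u * g ∈ χ.ker := by
    simpa using (inferInstance : χ.ker.Normal).conj_mem u hu g⁻¹
  rw [← Module.End.mul_apply, ← map_mul, h1, map_mul, Module.End.mul_apply, hm _ h2]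

lemma pnorm_fixed {b : M} (hb : ∀ u ∈ χ.ker, ρ u b = b) (i : ℕ) :
    ∀ u ∈ χ.ker, ρ u (pnorm ρ s b i) = pnorm ρ s b i := by
  intro u hu
  rw [pnorm, map_sum]
  exact Finset.sum_congr rfl fun l _ => fixed_act hb _ u hu

/-- The norm of a vector fixed by `ker χ` is fixed by `G`. -/
lemma norm_fixed {b : M} (hb : ∀ u ∈ χ.ker, ρ u b = b) (g : G) :
    ρ g (pnorm ρ s b n) = pnorm ρ s b n := by
  rw [act_eq_pow hs (pnorm_fixed hs hb n) g]
  have key : ∀ i : ℕ, ρ (s ^ i) (pnorm ρ s b n) = pnorm ρ s b n := by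
    intro i
    have h1 := pnorm_add (ρ := ρ) s b i n
    rw [add_comm i n, pnorm_add] at h1
    have h2 : ρ (s ^ n) (pnorm ρ s b i) = pnorm ρ s b i := pnorm_fixed hs hb i _ (pow_n_mem hs)
    rw [h2, add_comm] at h1
    exact (add_left_cancel h1).symm
  exact key _

theorem carry_coboundary_of_norm (hχ : χ.ker ∈ 𝓛) {b : M} (hb : ∀ u ∈ χ.ker, ρ u b = b) :
    LC1 𝓛 (fun g => pnorm ρ s b (cval χ g)) ∧
      ∀ g h, carry χ (pnorm ρ s b n) (g, h) =
        ρ g (pnorm ρ s b (cval χ h)) - pnorm ρ s b (cval χ (g * h)) + pnorm ρ s b (cval χ g) := by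
  refine ⟨(LC1.cval hχ).comp _, fun g h => ?_⟩
  have e1 : ρ g (pnorm ρ s b (cval χ h)) + pnorm ρ s b (cval χ g)
      = pnorm ρ s b (cval χ g + cval χ h) := by
    rw [act_eq_pow hs (pnorm_fixed hs hb _) g, pnorm_add, add_comm]
  have e2 : pnorm ρ s b (cval χ g + cval χ h) =
      pnorm ρ s b (cval χ (g * h)) + carry χ (pnorm ρ s b n) (g, h) := by
    rw [cval_add_add χ g h, carry_apply]
    split_ifs with h3
    · rw [add_comm (cval χ (g * h)) n, pnorm_add, add_comm]
      congr 1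
      exact pnorm_fixed hs hb _ _ (pow_n_mem hs)
    · rw [add_zero, add_zero]
  rw [sub_add_eq_add_sub, e1, e2]
  abel

end

/-- Vanishing of `H¹(U, M)` (level-constant cocycles) for a subgroup `U ≤ G`. -/
def H1Van (𝓛 : LevelSys G) (ρ : Representation k G M) (U : Subgroup G) : Prop :=
  ∀ f : U → M, LC1 (𝓛.restrict U) f → (∀ u v : U, f (u * v) = ρ u (f v) + f u) →
    ∃ m : M, ∀ u : U, f u = ρ u m - m

lemma LC1.restrict {X : Type*} {f : G → X} (hf : LC1 𝓛 f) (U : Subgroup G) :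
    LC1 (𝓛.restrict U) (fun u : U => f u) :=
  hf.precomp (LevelSys.compat_comap _)

lemma LC2.restrict {X : Type*} {f : G × G → X} (hf : LC2 𝓛 f) (U : Subgroup G) :
    LC2 (𝓛.restrict U) (fun p : U × U => f (p.1, p.2)) :=
  hf.precomp (LevelSys.compat_comap _)

section

variable {χ : G →* Multiplicative (ZMod n)} {s : G} (hs : χ s = Multiplicative.ofAdd 1)

include hs

theorem norm_of_carry_coboundary (hv : H1Van 𝓛 ρ χ.ker) {a : M}
    (ha : ∀ g, ρ g a = a) {f : G → M} (hf : LC1 𝓛 f)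
    (hfa : ∀ g h, carry χ a (g, h) = ρ g (f h) - f (g * h) + f g) :
    ∃ b : M, (∀ u ∈ χ.ker, ρ u b = b) ∧ a = pnorm ρ s b n := by
  have hn : 0 < n := Nat.pos_of_neZero n
  by_cases h1n : n = 1
  · subst h1n
    exact ⟨a, fun u _ => ha u, by simp [pnorm]⟩
  -- `f` is a cocycle on the kernel
  have hcar0 : ∀ g u : G, u ∈ χ.ker → carry χ a (g, u) = 0 := by
    intro g u hu
    have h1 := cval_lt χ g
    rw [carry_apply, cval_eq_zero_iff.2 hu, if_neg (by omega)]
  have hcar0' : ∀ g u : G, u ∈ χ.ker → carry χ a (u, g) = 0 := by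
    intro g u hu
    have h1 := cval_lt χ g
    rw [carry_apply, cval_eq_zero_iff.2 hu, if_neg (by omega)]
  obtain ⟨m, hm⟩ := hv (fun u => f u) (hf.restrict _) (fun u v => by
    have h1 := hfa u v
    rw [hcar0 u v v.2] at h1
    have h2 : f (u * v) = ρ u (f v) + f u := by
      rw [sub_add_eq_add_sub, eq_comm, sub_eq_zero] at h1
      exact h1.symm
    exact h2)
  -- normalise
  set f' : G → M := fun g => f g - (ρ g m - m) with hf'
  have hf'a : ∀ g h, carry χ a (g, h) = ρ g (f' h) - f' (g * h) + f' g := by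
    intro g h
    rw [hfa g h, hf']
    simp only [map_sub, map_mul, Module.End.mul_apply]
    abel
  have hf'u : ∀ u ∈ χ.ker, f' u = 0 := by
    intro u hu
    have := hm ⟨u, hu⟩
    simp only [hf'] at this ⊢
    rw [this, sub_self]
  have hr : ∀ g, ∀ u ∈ χ.ker, f' (g * u) = f' g := by
    intro g u hu
    have h1 := hf'a g u
    rw [hcar0 g u hu, hf'u u hu, map_zero, zero_sub, eq_comm, neg_add_eq_zero] at h1
    exact h1
  have hl : ∀ g, ∀ u ∈ χ.ker, f' (u * g) = ρ u (f' g) := by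
    intro g u hu
    have h1 := hf'a u g
    rw [hcar0' g u hu, hf'u u hu, add_zero, eq_comm, sub_eq_zero] at h1
    exact h1.symm
  have hfix : ∀ g, ∀ u ∈ χ.ker, ρ u (f' g) = f' g := by
    intro g u hu
    rw [← hl g u hu]
    have h1 : u * g = g * (g⁻¹ * u * g) := by group
    rw [h1]
    exact hr _ _ (by simpa using (inferInstance : χ.ker.Normal).conj_mem u hu g⁻¹)
  refine ⟨f' s, hfix s, ?_⟩
  -- by induction
  have hind : ∀ i : ℕ, i < n → f' (s ^ i) = pnorm ρ s (f' s) i := by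
    intro i
    induction i with
    | zero =>
      intro _
      rw [pow_zero, pnorm_zero]
      exact hf'u 1 χ.ker.one_mem
    | succ i ih =>
      intro hi
      have h1 := hf'a (s ^ i) s
      have h2 : carry χ a (s ^ i, s) = 0 := by
        have h3 : cval χ s = 1 % n := by simpa using cval_pow hs 1
        rw [carry_apply, cval_pow hs, h3, Nat.mod_eq_of_lt (by omega), Nat.mod_eq_of_lt (by omega),
          if_neg (by omega)]
      rw [h2, ← pow_succ, ih (by omega), eq_comm, sub_add_eq_add_sub, sub_eq_zero] at h1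
      rw [← h1, pnorm_succ, add_comm]
  have h1 := hf'a (s ^ (n - 1)) s
  have h2 : carry χ a (s ^ (n - 1), s) = a := by
    have h3 : cval χ s = 1 % n := by simpa using cval_pow hs 1
    rw [carry_apply, cval_pow hs, h3, Nat.mod_eq_of_lt (by omega : n - 1 < n),
      Nat.mod_eq_of_lt (by omega), if_pos (by omega)]
  rw [← pow_succ, Nat.sub_add_cancel hn, hf'u _ (pow_n_mem hs), sub_zero, hind _ (by omega), h2,
    add_comm, ← pnorm_succ, Nat.sub_add_cancel hn] at h1
  exact h1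

/-- A two-cocycle which is trivial as soon as one variable lies in `ker χ` is cohomologous to a
carry cocycle. -/
theorem exists_carry_of_inflated (hχ : χ.ker ∈ 𝓛) {c : G × G → M} (hc : c ∈ Z2 𝓛 ρ)
    (hr : ∀ g, ∀ u ∈ χ.ker, c (g, u) = 0) (hl : ∀ g, ∀ u ∈ χ.ker, c (u, g) = 0) :
    ∃ a : M, (∀ g, ρ g a = a) ∧ ∃ f : G → M, LC1 𝓛 f ∧ ∀ g h,
      c (g, h) - carry χ a (g, h) = ρ g (f h) - f (g * h) + f g := by
  have hn : 0 < n := Nat.pos_of_neZero n
  have hc2 := hc.2
  -- invariance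
  have i1 : ∀ g h, ∀ u ∈ χ.ker, c (g, h * u) = c (g, h) := by
    intro g h u hu
    have h1 := hc2 g h u
    rw [hr _ u hu, hr h u hu, map_zero, zero_add, zero_add] at h1
    exact h1.symm
  have i2 : ∀ g h, ∀ u ∈ χ.ker, c (g, u * h) = c (g, h) := by
    intro g h u hu
    have h1 : u * h = h * (h⁻¹ * u * h) := by group
    rw [h1]
    exact i1 _ _ _ (by simpa using (inferInstance : χ.ker.Normal).conj_mem u hu h⁻¹)
  have i3 : ∀ g h, ∀ u ∈ χ.ker, c (g * u, h) = c (g, h) := by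
    intro g h u hu
    have h1 := hc2 g u h
    rw [hr _ u hu, hl h u hu, map_zero, zero_add, add_zero, i2 _ _ _ hu] at h1
    exact h1
  have i4 : ∀ g h, ∀ u ∈ χ.ker, ρ u (c (g, h)) = c (g, h) := by
    intro g h u hu
    have h1 := hc2 u g h
    rw [hl _ u hu, hl _ u hu, add_zero, add_zero] at h1
    rw [← h1]
    have h2 : u * g = g * (g⁻¹ * u * g) := by group
    rw [h2]
    exact i3 _ _ _ (by simpa using (inferInstance : χ.ker.Normal).conj_mem u hu g⁻¹)
  have hcv : ∀ g h, c (g, h) = c (s ^ cval χ g, s ^ cval χ h) := by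
    intro g h
    obtain ⟨u, hu, h1⟩ := exists_eq_pow_mul hs g
    obtain ⟨v, hv, h2⟩ := exists_eq_pow_mul hs h
    conv_lhs => rw [h1, h2]
    rw [i1 _ _ v hv, i3 _ _ u hu]
  have hmod : ∀ i j : ℕ, c (s ^ (i % n), s ^ (j % n)) = c (s ^ i, s ^ j) := by
    intro i j
    rw [hcv (s ^ i) (s ^ j), cval_pow hs, cval_pow hs]
  have hadd : ∀ i j : ℕ, c (s ^ (i + n), s ^ j) = c (s ^ i, s ^ j) := by
    intro i j
    rw [← hmod (i + n), Nat.add_mod_right, hmod]
  -- the function splitting the last variable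
  set F : ℕ → M := fun i => ∑ l ∈ Finset.range i, c (s ^ l, s) with hF
  set a : M := F n with ha
  have hstep : ∀ i j : ℕ, c (s ^ (i + j), s) + c (s ^ i, s ^ j) =
      ρ (s ^ i) (c (s ^ j, s)) + c (s ^ i, s ^ (j + 1)) := by
    intro i j
    have h1 := hc2 (s ^ i) (s ^ j) s
    rwa [← pow_add, ← pow_succ] at h1
  have hsum : ∀ i j : ℕ, c (s ^ i, s ^ j) = F (i + j) - F i - ρ (s ^ i) (F j) := by
    intro i j
    induction j with
    | zero =>
      rw [pow_zero, hr _ 1 χ.ker.one_mem]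
      simp [hF]
    | succ j ih =>
      have h1 := hstep i j
      have h2 : F (i + (j + 1)) = F (i + j) + c (s ^ (i + j), s) := by
        rw [← add_assoc, hF]
        simp only
        rw [Finset.sum_range_succ]
      have h3 : F (j + 1) = F j + c (s ^ j, s) := by
        rw [hF]
        simp only
        rw [Finset.sum_range_succ]
      rw [h2, h3, map_add]
      rw [ih] at h1
      rw [eq_sub_of_add_eq' h1.symm]
      abel
  have hFadd : ∀ i : ℕ, F (i + n) = F i + a := by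
    intro i
    induction i with
    | zero => simp [hF, ha]
    | succ i ih =>
      have h1 : F (i + 1 + n) = F (i + n) + c (s ^ (i + n), s) := by
        rw [add_right_comm, hF]
        simp only
        rw [Finset.sum_range_succ]
      have h3 : F (i + 1) = F i + c (s ^ i, s) := by
        rw [hF]
        simp only
        rw [Finset.sum_range_succ]
      have h4 := hadd i 1
      rw [pow_one] at h4
      rw [h1, h3, ih, h4]
      abel
  have hafix : ∀ i : ℕ, ρ (s ^ i) a = a := by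
    intro i
    have h1 := hsum i n
    have h2 : c (s ^ i, s ^ n) = 0 := hr _ _ (pow_n_mem hs)
    rw [h2, hFadd] at h1
    have h3 : (F i + a - F i - ρ (s ^ i) (F n)) = a - ρ (s ^ i) a := by
      rw [ha]; abel
    rw [h3, eq_comm, sub_eq_zero] at h1
    exact h1.symm
  have hafixU : ∀ u ∈ χ.ker, ρ u a = a := by
    intro u hu
    rw [ha, hF]
    simp only
    rw [map_sum]
    exact Finset.sum_congr rfl fun l _ => i4 _ _ u hu
  have haG : ∀ g, ρ g a = a := by
    intro g
    rw [act_eq_pow hs hafixU g]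
    exact hafix _
  have hFfix : ∀ i, ∀ u ∈ χ.ker, ρ u (F i) = F i := by
    intro i u hu
    rw [hF]
    simp only
    rw [map_sum]
    exact Finset.sum_congr rfl fun l _ => i4 _ _ u hu
  clear_value a F
  refine ⟨a, haG, fun g => -F (cval χ g), (LC1.cval hχ).comp (fun i => -F i), fun g h => ?_⟩
  have h5 := act_eq_pow hs (hFfix (cval χ h)) g
  have h6 : F (cval χ g + cval χ h) = F (cval χ (g * h)) + carry χ a (g, h) := by
    rw [cval_add_add χ g h, carry_apply]
    split_ifs with h3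
    · rw [hFadd]
    · rw [add_zero, add_zero]
  beta_reduce
  rw [hcv g h, hsum, h6, ← h5, map_neg, sub_neg_eq_add]
  abel

end

/-- **The main statement**: a class of `H²(G, M)` whose restriction to `ker χ` is trivial is the
class of a carry cocycle, if `H¹(ker χ, M) = 0`. -/
theorem exists_carry_of_res {χ : G →* Multiplicative (ZMod n)} {s : G}
    (hs : χ s = Multiplicative.ofAdd 1) (hχ : χ.ker ∈ 𝓛)
    (hρ : Discrete 𝓛 ρ) (hv : H1Van 𝓛 ρ χ.ker) {c : G × G → M} (hc : c ∈ Z2 𝓛 ρ)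
    {e : χ.ker → M} (he : LC1 (𝓛.restrict χ.ker) e)
    (hce : ∀ u v : χ.ker, c (u, v) = ρ u (e v) - e (u * v) + e u) :
    ∃ a : M, (∀ g, ρ g a = a) ∧ ∃ f : G → M, LC1 𝓛 f ∧ ∀ g h,
      c (g, h) - carry χ a (g, h) = ρ g (f h) - f (g * h) + f g := by
  classical
  -- Step 1: make `c` vanish when the second variable is in the kernel
  have hcc := hc.2
  have h11 : ∀ u, c (1, u) = c (1, 1) := by
    intro u
    have h1 := hcc 1 1 u
    simp only [one_mul, mul_one, map_one, Module.End.one_apply] at h1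
    exact (add_left_cancel h1).symm
  have hg1 : ∀ g, c (g, 1) = ρ g (c (1, 1)) := by
    intro g
    have h1 := hcc g 1 1
    simp only [mul_one] at h1
    exact add_right_cancel h1
  have he1 : e 1 = c (1, 1) := by
    have h1 := hce 1 1
    simp only [OneMemClass.coe_one, map_one, Module.End.one_apply, mul_one, sub_self,
      zero_add] at h1
    exact h1.symm
  set up : G → χ.ker := fun g => ⟨(s ^ cval χ g)⁻¹ * g, pow_cval_inv_mul_mem hs g⟩ with hup
  have hupv : ∀ g, s ^ cval χ g * (up g : G) = g := fun g => by simp [hup]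
  set f : G → M := fun g => ρ (s ^ cval χ g) (e (up g)) - c (s ^ cval χ g, (up g : G)) +
    ρ (s ^ cval χ g) (c (1, 1)) with hf
  have hfLC : LC1 𝓛 f := by
    obtain ⟨W₁, hW₁, hW₁'⟩ := he
    obtain ⟨W₁', hW₁'', hW₁'''⟩ := hW₁
    obtain ⟨W₂, hW₂, hW₂'⟩ := hc.1
    refine ⟨χ.ker ⊓ W₁' ⊓ W₂, LevelSys.inf_mem (LevelSys.inf_mem hχ hW₁'') hW₂, fun g w hw => ?_⟩
    have h1 : cval χ (g * w) = cval χ g := cval_mul_of_mem hw.1.1
    have h2 : up (g * w) = up g * ⟨w, hw.1.1⟩ := by
      apply Subtype.ext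
      simp only [hup, h1, Subgroup.coe_mul, mul_assoc]
    simp only [hf, h1, h2]
    rw [hW₁' (up g) ⟨w, hw.1.1⟩ (hW₁''' (Subgroup.mem_comap.2 hw.1.2))]
    have h3 := hW₂' (s ^ cval χ g) (up g) 1 w W₂.one_mem hw.2
    rw [mul_one] at h3
    rw [Subgroup.coe_mul, h3]
  set c' : G × G → M := c - d12 ρ f with hc'
  have hc'Z : c' ∈ Z2 𝓛 ρ := (Z2 𝓛 ρ).sub_mem hc (d12_mem_Z2 hρ hfLC)
  have hcc' := hc'Z.2
  have hfU : ∀ u : χ.ker, f u = e u := by
    intro u
    have h1 : cval χ (u : G) = 0 := cval_eq_zero_iff.2 u.2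
    have h2 : up u = u := by
      apply Subtype.ext
      simp [hup, h1]
    simp only [hf, h1, h2, pow_zero, map_one, Module.End.one_apply]
    rw [h11]
    abel
  have hfs : ∀ i < n, f (s ^ i) = ρ (s ^ i) (c (1, 1)) := by
    intro i hi
    have h1 : cval χ (s ^ i) = i := by rw [cval_pow hs, Nat.mod_eq_of_lt hi]
    have h2 : up (s ^ i) = 1 := by
      apply Subtype.ext
      simp [hup, h1]
    simp only [hf, h1, h2, OneMemClass.coe_one, he1]
    rw [hg1 (s ^ i)]
    abel
  have hfsu : ∀ i < n, ∀ u : χ.ker, f (s ^ i * u) = ρ (s ^ i) (e u) - c (s ^ i, (u : G)) +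
      ρ (s ^ i) (c (1, 1)) := by
    intro i hi u
    have h1 : cval χ (s ^ i * u) = i := by
      rw [cval_mul_of_mem u.2, cval_pow hs, Nat.mod_eq_of_lt hi]
    have h2 : up (s ^ i * u) = u := by
      apply Subtype.ext
      simp [hup, h1]
    simp only [hf, h1, h2]
  have ht : ∀ i < n, ∀ u : χ.ker, c' (s ^ i, (u : G)) = 0 := by
    intro i hi u
    simp only [hc', Pi.sub_apply, d12_apply]
    rw [hfU, hfs i hi, hfsu i hi u]
    abel
  have hU : ∀ u v : χ.ker, c' ((u : G), (v : G)) = 0 := by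
    intro u v
    simp only [hc', Pi.sub_apply, d12_apply]
    have h1 : f ((u : G) * v) = e (u * v) := hfU (u * v)
    rw [h1, hfU, hfU, hce u v]
    abel
  have hr : ∀ g, ∀ u ∈ χ.ker, c' (g, u) = 0 := by
    intro g u hu
    obtain ⟨v, hv, h1⟩ := exists_eq_pow_mul hs g
    have h2 := hcc' (s ^ cval χ g) v u
    have h3 : c' (s ^ cval χ g, v) = 0 := ht _ (cval_lt χ g) ⟨v, hv⟩
    have h4 : c' (s ^ cval χ g, v * u) = 0 := ht _ (cval_lt χ g) ⟨v * u, χ.ker.mul_mem hv hu⟩
    have h5 : c' (v, u) = 0 := hU ⟨v, hv⟩ ⟨u, hu⟩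
    rw [← h1, h3, h4, h5, map_zero, add_zero, add_zero] at h2
    exact h2
  have hri : ∀ g h, ∀ u ∈ χ.ker, c' (g, h * u) = c' (g, h) := by
    intro g h u hu
    have h1 := hcc' g h u
    rw [hr _ u hu, hr h u hu, map_zero, zero_add, zero_add] at h1
    exact h1.symm
  -- Step 2: `u ↦ c' (u, g)` is a cocycle on the kernel
  have hm : ∀ i : ℕ, ∃ m : M, ∀ u : χ.ker, c' ((u : G), s ^ i) = ρ u m - m := by
    intro i
    refine hv (fun u => c' ((u : G), s ^ i)) ?_ ?_
    · obtain ⟨W, hW, hW'⟩ := hc'Z.1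
      refine ⟨W.comap χ.ker.subtype, LevelSys.comap_mem_comap _ hW, fun g w hw => ?_⟩
      have := hW' g (s ^ i) w 1 hw W.one_mem
      rwa [mul_one] at this
    · intro u v
      have h1 := hcc' u v (s ^ i)
      have h2 : (v : G) * s ^ i = s ^ i * ((s ^ i)⁻¹ * v * s ^ i) := by group
      rw [hU u v, add_zero, h2,
        hri _ _ _ (by simpa using (inferInstance : χ.ker.Normal).conj_mem v v.2 (s ^ i)⁻¹)] at h1
      exact h1
  choose m hm using hm
  set f' : G → M := fun g => if cval χ g = 0 then 0 else m (cval χ g) with hf'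
  have hf'LC : LC1 𝓛 f' := (LC1.cval hχ).comp (fun i => if i = 0 then 0 else m i)
  have hf'U : ∀ u ∈ χ.ker, f' u = 0 := by
    intro u hu
    simp only [hf']
    rw [if_pos (cval_eq_zero_iff.2 hu)]
  set c'' : G × G → M := c' - d12 ρ f' with hc''
  have hc''Z : c'' ∈ Z2 𝓛 ρ := (Z2 𝓛 ρ).sub_mem hc'Z (d12_mem_Z2 hρ hf'LC)
  have hr'' : ∀ g, ∀ u ∈ χ.ker, c'' (g, u) = 0 := by
    intro g u hu
    have h1 : f' (g * u) = f' g := by
      simp only [hf', cval_mul_of_mem hu]
    simp only [hc'', Pi.sub_apply, d12_apply]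
    rw [hr g u hu, hf'U u hu, h1, map_zero]
    abel
  have hl'' : ∀ g, ∀ u ∈ χ.ker, c'' (u, g) = 0 := by
    intro g u hu
    have h1 : f' (u * g) = f' g := by
      simp only [hf', cval_mul_of_mem_left hu]
    have h2 : c' (u, g) = ρ u (f' g) - f' g := by
      obtain ⟨v, hv, h3⟩ := exists_eq_pow_mul hs g
      conv_lhs => rw [h3]
      rw [hri _ _ _ hv]
      by_cases h4 : cval χ g = 0
      · simp only [hf', h4, if_true, pow_zero, map_zero, sub_zero]
        exact hr u 1 χ.ker.one_mem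
      · simp only [hf', h4, if_false]
        exact hm _ ⟨u, hu⟩
    simp only [hc'', Pi.sub_apply, d12_apply]
    rw [h1, h2, hf'U u hu]
    abel
  obtain ⟨a, ha, F, hF, hFa⟩ := exists_carry_of_inflated hs hχ hc''Z hr'' hl''
  refine ⟨a, ha, f + f' + F, ?_, fun g h => ?_⟩
  · exact (C1 k 𝓛 M).add_mem ((C1 k 𝓛 M).add_mem hfLC hf'LC) hF
  · have h1 := hFa g h
    simp only [hc'', hc', Pi.sub_apply, d12_apply] at h1
    simp only [Pi.add_apply, map_add]
    have h2 : c (g, h) - carry χ a (g, h) =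
      (c (g, h) - (ρ g (f h) - f (g * h) + f g) - (ρ g (f' h) - f' (g * h) + f' g) -
        carry χ a (g, h)) + (ρ g (f h) - f (g * h) + f g) + (ρ g (f' h) - f' (g * h) + f' g) := by
      abel
    rw [h2, h1]
    abel

end Fermat.Agent.PT
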