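import Fermat.Agent.PT.Euler

/-!
# Right exactness of `H²` from multiplicativity of the Euler characteristic

Main result: `rightExact`.  Let `G₀` be a normal level subgroup of index prime to `p`, `ω` a
one-dimensional representation over `ZMod p` which is trivial on `G₀`.  If the cohomology
`H^i(U, ω)`, `i ≤ 2`, is finite for all levels `U ≤ G₀` and the (truncated) Euler characteristic
is multiplicative, then `H²(G, -)` is right exact on finite `F_p`-representations.
-/

set_option autoImplicit false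
set_option linter.unusedVariables false
set_option linter.unusedSectionVars false

namespace Fermat.Agent.PT

open Module

variable {p : ℕ} [hp : Fact p.Prime]

section PGroup

variable {H : Type*} [Group H] {𝓛 : LevelSys H}
variable {N : Type*} [AddCommGroup N] [Module (ZMod p) N]

/-- A nonzero representation factoring through a `p`-group has a nonzero invariant functional. -/
theorem exists_equivar_functional [Module.Finite (ZMod p) N] [Nontrivial N]
    (ρ : Representation (ZMod p) H N) (V : Subgroup H)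
    [V.Normal] {m : ℕ} (hV : V.index = p ^ m) (htriv : ∀ v ∈ V, ∀ n, ρ v n = n) :
    ∃ φ : N →ₗ[ZMod p] ZMod p, Function.Surjective φ ∧ ∀ g n, φ (ρ g n) = φ n := by
  classical
  let D := Module.Dual (ZMod p) N
  let θ : H →* Equiv.Perm D :=
    { toFun := fun g =>
        { toFun := fun φ => φ ∘ₗ ρ g⁻¹
          invFun := fun φ => φ ∘ₗ ρ g
          left_inv := fun φ => by
            ext n
            simp only [LinearMap.comp_apply]
            rw [← Module.End.mul_apply, ← map_mul, inv_mul_cancel, map_one, Module.End.one_apply]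
          right_inv := fun φ => by
            ext n
            simp only [LinearMap.comp_apply]
            rw [← Module.End.mul_apply, ← map_mul, mul_inv_cancel, map_one,
              Module.End.one_apply] }
      map_one' := by
        ext φ n
        simp
      map_mul' := fun g h => by
        ext φ n
        simp only [Equiv.coe_fn_mk, LinearMap.comp_apply, Equiv.Perm.mul_apply]
        rw [← Module.End.mul_apply, ← map_mul, mul_inv_rev] }
  have hθ : ∀ g φ n, θ g φ n = φ (ρ g⁻¹ n) := fun _ _ _ => rfl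
  have hR : IsPGroup p θ.range := by
    rintro ⟨_, ⟨g, rfl⟩⟩
    refine ⟨m, ?_⟩
    apply Subtype.ext
    have h1 : g ^ (p ^ m) ∈ V := by
      rw [← hV]
      exact Subgroup.pow_index_mem V g
    show (θ g) ^ (p ^ m) = 1
    rw [← map_pow]
    ext φ n
    rw [hθ, htriv _ (V.inv_mem h1)]
    rfl
  have hfinD : Finite D := Module.finite_of_finite (ZMod p)
  have hcard : p ∣ Nat.card D := by
    rw [Module.natCard_eq_pow_finrank (K := ZMod p), Nat.card_zmod, Subspace.dual_finrank_eq]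
    exact dvd_pow_self p (Module.finrank_pos).ne'
  have h0 : (0 : D) ∈ MulAction.fixedPoints θ.range D := by
    rintro ⟨_, ⟨g, rfl⟩⟩
    show θ g 0 = 0
    ext n
    rw [hθ]
    rfl
  obtain ⟨φ, hφ, hφ0⟩ := hR.exists_fixed_point_of_prime_dvd_card_of_fixed_point D hcard h0
  refine ⟨φ, ?_, fun g n => ?_⟩
  · have hne : ∃ n, φ n ≠ 0 := by
      by_contra hcon
      push Not at hcon
      exact hφ0 (LinearMap.ext fun n => (hcon n).symm)
    obtain ⟨n, hn⟩ := hne
    intro c
    exact ⟨(c / φ n) • n, by rw [map_smul, smul_eq_mul, div_mul_cancel₀ _ hn]⟩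
  · have h1 : θ g⁻¹ φ = φ := hφ ⟨θ g⁻¹, ⟨g⁻¹, rfl⟩⟩
    have h2 := LinearMap.congr_fun h1 n
    rw [hθ, inv_inv] at h2
    exact h2

variable {τ : Representation (ZMod p) H (ZMod p)} (hτ : ∀ g x, τ g x = x)

lemma hfin_of_subsingleton {k : Type*} [Field k] {A : Type*} [AddCommGroup A] [Module k A]
    [Subsingleton A] (ρ : Representation k H A) : HFin 𝓛 ρ ∧ chi 𝓛 ρ = 0 := by
  have s1 : Subsingleton (H1 𝓛 ρ) := by
    constructor
    intro x y
    obtain ⟨x, rfl⟩ := H1mk_surjective x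
    obtain ⟨y, rfl⟩ := H1mk_surjective y
    congr 1
    ext
    exact Subsingleton.elim _ _
  have s2 : Subsingleton (H2 𝓛 ρ) := by
    constructor
    intro x y
    obtain ⟨x, rfl⟩ := H2mk_surjective x
    obtain ⟨y, rfl⟩ := H2mk_surjective y
    congr 1
    ext
    exact Subsingleton.elim _ _
  refine ⟨⟨inferInstance, inferInstance, inferInstance⟩, ?_⟩
  rw [chi, finrank_zero_of_subsingleton, finrank_zero_of_subsingleton,
    finrank_zero_of_subsingleton]
  rfl

include hτ

/-- Cohomology of representations of `p`-groups: finiteness and an upper bound for `χ`. -/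
theorem hfin_chi_le (hk : HFin 𝓛 τ) (V : Subgroup H) [V.Normal] (hV𝓛 : V ∈ 𝓛) {m : ℕ}
    (hV : V.index = p ^ m) (n : ℕ) :
    ∀ {N : Type*} [AddCommGroup N] [Module (ZMod p) N] [Module.Finite (ZMod p) N]
      (ρ : Representation (ZMod p) H N), (∀ v ∈ V, ∀ n, ρ v n = n) →
      finrank (ZMod p) N = n → HFin 𝓛 ρ ∧ chi 𝓛 ρ ≤ n * chi 𝓛 τ := by
  induction n with
  | zero =>
    intro N _ _ _ ρ htriv hn
    have : Subsingleton N := finrank_zero_iff.1 hn
    obtain ⟨h1, h2⟩ := hfin_of_subsingleton (𝓛 := 𝓛) ρ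
    exact ⟨h1, by rw [h2]; simp⟩
  | succ n ih =>
    intro N _ _ _ ρ htriv hn
    have : Nontrivial N := nontrivial_of_finrank_pos (R := ZMod p) (by omega)
    obtain ⟨φ, hφ, hφ'⟩ := exists_equivar_functional ρ V hV htriv
    have hφe : Equivar ρ τ φ := fun g n => by rw [hφ', hτ]
    have hd : Discrete 𝓛 ρ := fun n => ⟨V, hV𝓛, fun v hv => htriv v hv n⟩
    have hses := ses_ker hd hφe hφ
    have hker : finrank (ZMod p) (LinearMap.ker φ) = n := by
      have h1 := LinearMap.finrank_range_add_finrank_ker φ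
      rw [LinearMap.range_eq_top.2 hφ, finrank_top, finrank_self] at h1
      omega
    obtain ⟨h1, h2⟩ := ih (subRep ρ (LinearMap.ker φ) (ker_stable hφe))
      (fun v hv w => Subtype.ext (htriv v hv w)) hker
    refine ⟨hses.hfin_mid h1 hk, (hses.chi_le h1 hk).trans ?_⟩
    push_cast
    linarith

omit hτ in
/-- The sum map `Fun(X, A) → A`. -/
def sumMap {k : Type*} [CommRing k] (X : Type*) [Fintype X] (A : Type*) [AddCommGroup A]
    [Module k A] : (X → A) →ₗ[k] A where
  toFun F := ∑ x, F x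
  map_add' F F' := by simp [Finset.sum_add_distrib]
  map_smul' r F := by simp [Finset.smul_sum]

omit hτ in
lemma sumMap_apply {k : Type*} [CommRing k] (X : Type*) [Fintype X] (A : Type*)
    [AddCommGroup A] [Module k A] (F : X → A) : sumMap (k := k) X A F = ∑ x, F x := rfl

omit hτ in
lemma sumMap_equivar {k : Type*} [CommRing k] {G : Type*} [Group G] (X : Type*) [Fintype X]
    [MulAction G X] {A : Type*} [AddCommGroup A]
    [Module k A] (ρ : Representation k G A) : Equivar (funRep X ρ) ρ (sumMap X A) := by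
  intro g F
  rw [sumMap_apply, sumMap_apply, map_sum]
  simp only [funRep_apply]
  exact Fintype.sum_equiv (MulAction.toPerm g⁻¹) _ _ (fun x => rfl)

omit hτ in
/-- The constant map `A → Fun(X, A)`. -/
def constMap {k : Type*} [CommRing k] (X : Type*) (A : Type*) [AddCommGroup A]
    [Module k A] : A →ₗ[k] (X → A) where
  toFun a := fun _ => a
  map_add' F F' := rfl
  map_smul' r F := rfl

omit hτ in
lemma constMap_equivar {k : Type*} [CommRing k] {G : Type*} [Group G] (X : Type*)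
    [MulAction G X] {A : Type*} [AddCommGroup A]
    [Module k A] (ρ : Representation k G A) : Equivar ρ (funRep X ρ) (constMap X A) := by
  intro g a
  funext x
  rfl

omit hτ in
lemma orbitReps_quotient {G : Type*} [Group G] (V : Subgroup G) :
    OrbitReps G (fun _ : Unit => (QuotientGroup.mk (1 : G) : G ⧸ V)) where
  surj y := by
    obtain ⟨g, rfl⟩ := QuotientGroup.mk_surjective y
    exact ⟨(), g, by rw [MulAction.Quotient.smul_mk, smul_eq_mul, mul_one]⟩
  inj i j g _ := rfl

omit hτ in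
lemma stab_quotient_mem {G : Type*} [Group G] {𝓛 : LevelSys G} {V : Subgroup G} (hV : V ∈ 𝓛)
    (x : G ⧸ V) : MulAction.stabilizer G x ∈ 𝓛 := by
  obtain ⟨W, hW, hWV, hn⟩ := LevelSys.exists_normal hV
  refine LevelSys.mono hW fun w hw => ?_
  obtain ⟨g, rfl⟩ := QuotientGroup.mk_surjective x
  rw [MulAction.mem_stabilizer_iff, MulAction.Quotient.smul_mk, smul_eq_mul]
  refine (QuotientGroup.eq.2 ?_).symm
  have h1 : g⁻¹ * (w * g) = g⁻¹ * w * g⁻¹⁻¹ := by group
  rw [h1]
  exact hWV (hn.conj_mem w hw g⁻¹)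

/-- `χ` of an induced representation. -/
theorem chi_funRep {V : Subgroup H} (hV𝓛 : V ∈ 𝓛)
    (hfin : HFin (𝓛.restrict V) (τ.comp V.subtype)) :
    HFin 𝓛 (funRep (H ⧸ V) τ) ∧
      chi 𝓛 (funRep (H ⧸ V) τ) = chi (𝓛.restrict V) (τ.comp V.subtype) := by
  have := LevelSys.finiteIndex hV𝓛
  have hdisc : Discrete 𝓛 τ := fun x => ⟨⊤, 𝓛.top_mem, fun g _ => hτ g x⟩
  -- generalise the subgroup
  have key : ∀ Q : Subgroup H, Q = V → HFin (𝓛.restrict Q) (τ.comp Q.subtype) ∧
      chi (𝓛.restrict Q) (τ.comp Q.subtype) = chi (𝓛.restrict V) (τ.comp V.subtype) := by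
    rintro Q rfl
    exact ⟨hfin, rfl⟩
  have hst : MulAction.stabilizer H (QuotientGroup.mk (1 : H) : H ⧸ V) = V :=
    MulAction.stabilizer_quotient V
  obtain ⟨hf, hc⟩ := key _ hst
  set x : Unit → H ⧸ V := fun _ => QuotientGroup.mk (1 : H) with hx
  have hor : OrbitReps H x := orbitReps_quotient V
  have hX := stab_quotient_mem (𝓛 := 𝓛) hV𝓛
  have b2 : Function.Bijective (sh2 (𝓛 := 𝓛) τ (x ())) := by
    constructor
    · rw [← LinearMap.ker_eq_bot, LinearMap.ker_eq_bot']
      intro z hz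
      exact sh2_injective hor hX z (fun _ => hz)
    · intro y
      obtain ⟨z, hz⟩ := sh2_surjective (ρ := τ) hor hX (fun _ => y)
      exact ⟨z, hz ()⟩
  have b1 : Function.Bijective (sh1 (𝓛 := 𝓛) τ (x ())) := by
    constructor
    · rw [← LinearMap.ker_eq_bot, LinearMap.ker_eq_bot']
      intro z hz
      exact sh1_injective hor z (fun _ => hz)
    · intro y
      obtain ⟨z, hz⟩ := sh1_surjective (ρ := τ) hor hX (fun _ => y)
      exact ⟨z, hz ()⟩
  let e2 := LinearEquiv.ofBijective _ b2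
  let e1 := LinearEquiv.ofBijective _ b1
  -- invariants
  have hinv : ∀ F : (funRep (H ⧸ V) τ).invariants, ∀ y, F.1 y = F.1 (x ()) := by
    intro F y
    obtain ⟨g, rfl⟩ := QuotientGroup.mk_surjective y
    have h1 : funRep (H ⧸ V) τ g F.1 = F.1 := F.2 g
    have h2 := congrFun h1 (QuotientGroup.mk g)
    rw [funRep_apply, hτ, MulAction.Quotient.smul_mk, smul_eq_mul, inv_mul_cancel] at h2
    exact h2.symm
  let ev : (funRep (H ⧸ V) τ).invariants →ₗ[ZMod p] ZMod p :=
    (LinearMap.proj (x ())) ∘ₗ (funRep (H ⧸ V) τ).invariants.subtype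
  have b0 : Function.Bijective ev := by
    constructor
    · rw [← LinearMap.ker_eq_bot, LinearMap.ker_eq_bot']
      intro F hF
      apply Subtype.ext
      funext y
      rw [hinv F y]
      exact hF
    · intro c
      exact ⟨⟨fun _ => c, fun g => by funext y; rw [funRep_apply, hτ]⟩, rfl⟩
  let e0 := LinearEquiv.ofBijective _ b0
  refine ⟨⟨Module.Finite.equiv e0.symm, ?_, ?_⟩, ?_⟩
  · have := hf.h1
    exact Module.Finite.equiv e1.symm
  · have := hf.h2
    exact Module.Finite.equiv e2.symm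
  · have f0' : finrank (ZMod p) (Representation.invariants
        (τ.comp (MulAction.stabilizer H (x ())).subtype)) = 1 := by
      have : Representation.invariants
          (τ.comp (MulAction.stabilizer H (x ())).subtype) = ⊤ := by
        rw [eq_top_iff]
        intro x _ g
        exact hτ g x
      rw [this, finrank_top, finrank_self]
    rw [← hc, chi, chi, e0.finrank_eq, e1.finrank_eq, e2.finrank_eq, f0', finrank_self]

/-- The corestriction is surjective for layers of `p`-power degree. -/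
theorem sum_surjective (hk : HFin 𝓛 τ) (V : Subgroup H) [V.Normal] (hV𝓛 : V ∈ 𝓛) {m : ℕ}
    (hV : V.index = p ^ m) [Fintype (H ⧸ V)]
    (hfin : HFin (𝓛.restrict V) (τ.comp V.subtype))
    (hχ : chi (𝓛.restrict V) (τ.comp V.subtype) = V.index * chi 𝓛 τ) :
    Function.Surjective (H2coef 𝓛 (sumMap (H ⧸ V) (ZMod p)) (sumMap_equivar (H ⧸ V) τ)) := by
  classical
  have hdisc : Discrete 𝓛 τ := fun x => ⟨⊤, 𝓛.top_mem, fun g _ => hτ g x⟩
  have htriv : ∀ v ∈ V, ∀ F, funRep (H ⧸ V) τ v F = F := by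
    intro v hv F
    funext y
    obtain ⟨g, rfl⟩ := QuotientGroup.mk_surjective y
    rw [funRep_apply, hτ, MulAction.Quotient.smul_mk, smul_eq_mul]
    congr 1
    refine (QuotientGroup.eq.2 ?_).symm
    have h1 : g⁻¹ * (v⁻¹ * g) = g⁻¹ * v⁻¹ * g⁻¹⁻¹ := by group
    rw [h1]
    exact (inferInstance : V.Normal).conj_mem _ (V.inv_mem hv) g⁻¹
  have hd : Discrete 𝓛 (funRep (H ⧸ V) τ) := fun F => ⟨V, hV𝓛, fun v hv => htriv v hv F⟩
  have hsurj : Function.Surjective (sumMap (k := ZMod p) (H ⧸ V) (ZMod p)) := by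
    intro c
    refine ⟨Pi.single (QuotientGroup.mk 1) c, ?_⟩
    rw [sumMap_apply, Finset.sum_pi_single']
    simp
  have hses := ses_ker hd (sumMap_equivar (H ⧸ V) τ) hsurj
  have hker : finrank (ZMod p) (LinearMap.ker (sumMap (k := ZMod p) (H ⧸ V) (ZMod p))) =
      V.index - 1 := by
    have h1 := LinearMap.finrank_range_add_finrank_ker
      (sumMap (k := ZMod p) (H ⧸ V) (ZMod p))
    rw [LinearMap.range_eq_top.2 hsurj, finrank_top, finrank_self, finrank_fintype_fun_eq_card,
      ← Nat.card_eq_fintype_card] at h1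
    have h2 : Nat.card (H ⧸ V) = V.index := rfl
    omega
  obtain ⟨h1, h2⟩ := hfin_chi_le hτ hk V hV𝓛 hV _ (subRep (funRep (H ⧸ V) τ) _
    (ker_stable (sumMap_equivar (H ⧸ V) τ))) (fun v hv w => Subtype.ext (htriv v hv w)) hker
  obtain ⟨h3, h4⟩ := chi_funRep (𝓛 := 𝓛) hτ hV𝓛 hfin
  refine hses.surjective_of_chi h1 hk ?_
  rw [h4, hχ]
  have hpos : 0 < V.index := by
    rw [hV]
    exact pow_pos hp.out.pos m
  have h5 : ((V.index - 1 : ℕ) : ℤ) = (V.index : ℤ) - 1 := by
    push_cast [hpos]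
    rfl
  rw [h5] at h2
  linarith

omit hτ in
/-- The map `Fun(H/V, k) → M` attached to a vector fixed by `V`. -/
noncomputable def orbMap {V : Subgroup H} [Fintype (H ⧸ V)] {M : Type*} [AddCommGroup M]
    [Module (ZMod p) M] (ρ : Representation (ZMod p) H M) (m : M) :
    (H ⧸ V → ZMod p) →ₗ[ZMod p] M where
  toFun F := ∑ x, F x • ρ x.out m
  map_add' F F' := by simp only [Pi.add_apply, add_smul, Finset.sum_add_distrib]
  map_smul' r F := by
    simp only [Pi.smul_apply, smul_eq_mul, mul_smul, Finset.smul_sum, RingHom.id_apply]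

lemma orbMap_equivar {V : Subgroup H} [Fintype (H ⧸ V)] {M : Type*} [AddCommGroup M]
    [Module (ZMod p) M] (ρ : Representation (ZMod p) H M) {m : M} (hm : ∀ v ∈ V, ρ v m = m) :
    Equivar (funRep (H ⧸ V) τ) ρ (orbMap (V := V) ρ m) := by
  intro g F
  have hout : ∀ x : H ⧸ V, ρ (g • x).out m = ρ g (ρ x.out m) := by
    intro x
    obtain ⟨a, rfl⟩ := QuotientGroup.mk_surjective x
    rw [MulAction.Quotient.smul_mk, smul_eq_mul]
    have h1 : ∀ b : H, ρ ((b : H ⧸ V)).out m = ρ b m := by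
      intro b
      have h2 : (((b : H ⧸ V)).out : H ⧸ V) = (b : H ⧸ V) := Quotient.out_eq' _
      have h3 : b⁻¹ * ((b : H ⧸ V)).out ∈ V := QuotientGroup.eq.1 h2.symm
      have h4 : ((b : H ⧸ V)).out = b * (b⁻¹ * ((b : H ⧸ V)).out) := by group
      rw [h4, map_mul, Module.End.mul_apply, hm _ h3]
    rw [h1, h1, map_mul, Module.End.mul_apply]
  show ∑ x, (funRep (H ⧸ V) τ g F) x • ρ x.out m = ρ g (∑ x, F x • ρ x.out m)
  rw [map_sum]
  refine Fintype.sum_equiv (MulAction.toPerm g⁻¹) _ _ (fun x => ?_)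
  rw [funRep_apply, hτ, map_smul]
  congr 1
  rw [← hout]
  simp

/-- **Right exactness for representations of `p`-groups.** -/
theorem surjective_of_pgroup (hk : HFin 𝓛 τ) (V : Subgroup H) [V.Normal] (hV𝓛 : V ∈ 𝓛) {m : ℕ}
    (hV : V.index = p ^ m)
    (hfin : HFin (𝓛.restrict V) (τ.comp V.subtype))
    (hχ : chi (𝓛.restrict V) (τ.comp V.subtype) = V.index * chi 𝓛 τ) (n : ℕ) :
    ∀ {M N : Type*} [AddCommGroup M] [Module (ZMod p) M] [AddCommGroup N] [Module (ZMod p) N]
      [Module.Finite (ZMod p) N] (ρM : Representation (ZMod p) H M)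
      (ρN : Representation (ZMod p) H N) (f : M →ₗ[ZMod p] N) (hf : Equivar ρM ρN f),
      (∀ v ∈ V, ∀ m, ρM v m = m) → Function.Surjective f → finrank (ZMod p) N = n →
      Function.Surjective (H2coef 𝓛 f hf) := by
  classical
  have := LevelSys.finiteIndex hV𝓛
  have : Fintype (H ⧸ V) := Fintype.ofFinite _
  induction n with
  | zero =>
    intro M N _ _ _ _ _ ρM ρN f hf htriv hfs hn y
    have : Subsingleton N := finrank_zero_iff.1 hn
    obtain ⟨y, rfl⟩ := H2mk_surjective y
    refine ⟨0, ?_⟩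
    rw [map_zero, ← map_zero (H2mk 𝓛 ρN)]
    congr 1
    ext
    exact Subsingleton.elim _ _
  | succ n ih =>
    intro M N _ _ _ _ _ ρM ρN f hf htriv hfs hn y
    have : Nontrivial N := nontrivial_of_finrank_pos (R := ZMod p) (by omega)
    have htrivN : ∀ v ∈ V, ∀ n, ρN v n = n := by
      intro v hv n
      obtain ⟨m, rfl⟩ := hfs n
      rw [← hf, htriv v hv]
    obtain ⟨φ, hφ, hφ'⟩ := exists_equivar_functional ρN V hV htrivN
    have hφe : Equivar ρN τ φ := fun g n => by rw [hφ', hτ]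
    have hdN : Discrete 𝓛 ρN := fun n => ⟨V, hV𝓛, fun v hv => htrivN v hv n⟩
    have hdM : Discrete 𝓛 ρM := fun n => ⟨V, hV𝓛, fun v hv => htriv v hv n⟩
    have hses := ses_ker hdN hφe hφ
    have hker : finrank (ZMod p) (LinearMap.ker φ) = n := by
      have h1 := LinearMap.finrank_range_add_finrank_ker φ
      rw [LinearMap.range_eq_top.2 hφ, finrank_top, finrank_self] at h1
      omega
    have hfφ : Equivar ρM τ (φ ∘ₗ f) := hφe.comp hf
    -- the kernel of `M → k` maps onto the kernel of `N → k`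
    let f' : LinearMap.ker (φ ∘ₗ f) →ₗ[ZMod p] LinearMap.ker φ :=
      f.restrict (fun m hm => hm)
    have hf' : Equivar (subRep ρM (LinearMap.ker (φ ∘ₗ f)) (ker_stable hfφ))
        (subRep ρN (LinearMap.ker φ) (ker_stable hφe)) f' := fun g m => Subtype.ext (hf g m)
    have hf's : Function.Surjective f' := by
      rintro ⟨n, hn⟩
      obtain ⟨m, rfl⟩ := hfs n
      exact ⟨⟨m, hn⟩, rfl⟩
    have hIH := ih (subRep ρM (LinearMap.ker (φ ∘ₗ f)) (ker_stable hfφ))
      (subRep ρN (LinearMap.ker φ) (ker_stable hφe)) f' hf'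
      (fun v hv w => Subtype.ext (htriv v hv w)) hf's hker
    -- `H²(M) → H²(k)` is onto
    obtain ⟨m₀, hm₀⟩ : ∃ m, φ (f m) = 1 := by
      obtain ⟨n, hn⟩ := hφ 1
      obtain ⟨m, rfl⟩ := hfs n
      exact ⟨m, hn⟩
    have hcomp : (φ ∘ₗ f) ∘ₗ orbMap (V := V) ρM m₀ = sumMap (H ⧸ V) (ZMod p) := by
      apply LinearMap.ext
      intro F
      show φ (f (∑ x, F x • ρM x.out m₀)) = ∑ x, F x
      rw [map_sum, map_sum]
      refine Finset.sum_congr rfl fun x _ => ?_
      rw [map_smul, map_smul, hf, hφ', hm₀, smul_eq_mul, mul_one]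
    have horb := orbMap_equivar hτ ρM (V := V) (m := m₀) (fun v hv => htriv v hv m₀)
    have hsum := sum_surjective (𝓛 := 𝓛) hτ hk V hV𝓛 hV hfin hχ
    have hMk : Function.Surjective (H2coef 𝓛 (φ ∘ₗ f) hfφ) := by
      intro z
      obtain ⟨w, hw⟩ := hsum z
      refine ⟨H2coef 𝓛 _ horb w, ?_⟩
      rw [← hw, ← H2coef_comp hfφ horb]
      congr 2
    obtain ⟨z, hz⟩ := hMk (H2coef 𝓛 φ hφe y)
    have h0 : H2coef 𝓛 φ hφe (y - H2coef 𝓛 f hf z) = 0 := by
      rw [map_sub, ← H2coef_comp hφe hf, hz, sub_self]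
    obtain ⟨w, hw⟩ := hses.exact_H2 _ h0
    obtain ⟨w', hw'⟩ := hIH w
    have hι : Equivar (subRep ρM (LinearMap.ker (φ ∘ₗ f)) (ker_stable hfφ)) ρM
        (LinearMap.ker (φ ∘ₗ f)).subtype := fun _ _ => rfl
    refine ⟨z + H2coef 𝓛 _ hι w', ?_⟩
    have h1 : H2coef 𝓛 f hf (H2coef 𝓛 _ hι w') =
        H2coef 𝓛 _ hses.eqf (H2coef 𝓛 f' hf' w') := by
      rw [← H2coef_comp hf hι, ← H2coef_comp hses.eqf hf']
      rfl
    rw [map_add, h1, hw', hw]
    abel

end PGroup

section General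

variable {G : Type*} [Group G] {𝓛 : LevelSys G}

/-- Naturality of the Shapiro map in the coefficients. -/
lemma sh2_natural {k : Type*} [CommRing k] {X : Type*} [MulAction G X]
    {M : Type*} [AddCommGroup M] [Module k M] {N : Type*} [AddCommGroup N] [Module k N]
    (ρM : Representation k G M) (ρN : Representation k G N) (f : M →ₗ[k] N)
    (hf : Equivar ρM ρN f) (x : X) (hF : Equivar (funRep X ρM) (funRep X ρN) (f.compLeft X))
    (hf' : Equivar (ρM.comp (MulAction.stabilizer G x).subtype)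
      (ρN.comp (MulAction.stabilizer G x).subtype) f) (z : H2 𝓛 (funRep X ρM)) :
    sh2 ρN x (H2coef 𝓛 (f.compLeft X) hF z) =
      H2coef (𝓛.restrict (MulAction.stabilizer G x)) f hf' (sh2 ρM x z) := by
  obtain ⟨z, rfl⟩ := H2mk_surjective z
  rfl

/-- Right exactness can be checked on a subgroup of index prime to the characteristic. -/
theorem surjective_of_subgroup {k : Type*} [Field k]
    {M : Type*} [AddCommGroup M] [Module k M] {N : Type*} [AddCommGroup N] [Module k N]
    (ρM : Representation k G M) (ρN : Representation k G N) (f : M →ₗ[k] N)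
    (hf : Equivar ρM ρN f) {P : Subgroup G} (hP : P ∈ 𝓛) (hcop : (P.index : k) ≠ 0)
    (hsur : Function.Surjective (H2coef (𝓛.restrict P) (ρ := ρM.comp P.subtype)
      (σ := ρN.comp P.subtype) f (fun g m => hf g m))) :
    Function.Surjective (H2coef 𝓛 f hf) := by
  classical
  intro y
  have := LevelSys.finiteIndex hP
  have : Fintype (G ⧸ P) := Fintype.ofFinite _
  have key : ∀ Q : Subgroup G, Q = P → Function.Surjective (H2coef (𝓛.restrict Q)
      (ρ := ρM.comp Q.subtype) (σ := ρN.comp Q.subtype) f (fun g m => hf g m)) := by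
    rintro Q rfl
    exact hsur
  have hst : MulAction.stabilizer G (QuotientGroup.mk (1 : G) : G ⧸ P) = P :=
    MulAction.stabilizer_quotient P
  have hQ := key _ hst
  set x : Unit → G ⧸ P := fun _ => QuotientGroup.mk (1 : G) with hx
  have hor : OrbitReps G x := orbitReps_quotient P
  have hX := stab_quotient_mem (𝓛 := 𝓛) hP
  set z := H2coef 𝓛 _ (constMap_equivar (G ⧸ P) ρN) y with hz
  obtain ⟨w, hw⟩ := hQ (sh2 ρN (x ()) z)
  obtain ⟨z', hz'⟩ := sh2_surjective (ρ := ρM) (𝓛 := 𝓛) hor hX (fun _ => w)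
  have hF : Equivar (funRep (G ⧸ P) ρM) (funRep (G ⧸ P) ρN) (f.compLeft (G ⧸ P)) := by
    intro g F
    funext t
    exact hf g _
  have h1 : H2coef 𝓛 _ hF z' = z := by
    rw [← sub_eq_zero]
    refine sh2_injective hor hX _ (fun _ => ?_)
    rw [map_sub, sh2_natural ρM ρN f hf _ hF (fun g m => hf g m), hz' (), ← hw]
    exact sub_self _
  have h2 : H2coef 𝓛 f hf (H2coef 𝓛 _ (sumMap_equivar (G ⧸ P) ρM) z') =
      H2coef 𝓛 _ (sumMap_equivar (G ⧸ P) ρN) (H2coef 𝓛 _ hF z') := by
    rw [← H2coef_comp hf (sumMap_equivar (G ⧸ P) ρM),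
      ← H2coef_comp (sumMap_equivar (G ⧸ P) ρN) hF]
    have e : f ∘ₗ sumMap (G ⧸ P) M = sumMap (G ⧸ P) N ∘ₗ f.compLeft (G ⧸ P) := by
      apply LinearMap.ext
      intro F
      show f (∑ x, F x) = ∑ x, f (F x)
      rw [map_sum]
    congr 1
    simp only [e]
  have h3 : H2coef 𝓛 _ (sumMap_equivar (G ⧸ P) ρN) z = (P.index : k) • y := by
    obtain ⟨y, rfl⟩ := H2mk_surjective y
    rw [hz]
    rw [← map_smul]
    refine congrArg (H2mk 𝓛 ρN) (Subtype.ext (funext fun q => ?_))
    show ∑ x : G ⧸ P, y.1 q = (P.index : k) • y.1 q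
    rw [Finset.sum_const, Finset.card_univ, ← Nat.card_eq_fintype_card, Nat.cast_smul_eq_nsmul]
    rfl
  refine ⟨(P.index : k)⁻¹ • H2coef 𝓛 _ (sumMap_equivar (G ⧸ P) ρM) z', ?_⟩
  rw [map_smul, h2, h1, h3, smul_smul, inv_mul_cancel₀ hcop, one_smul]

/-- Transport of `HFin` and `chi` along an isomorphism of groups. -/
lemma hfin_chi_transport {k : Type*} [Field k] {H : Type*} [Group H] {𝓛' : LevelSys H}
    {M : Type*} [AddCommGroup M] [Module k M] {ρ : Representation k G M}
    {σ : Representation k H M} (u : H ≃* G) (hu : 𝓛.Compat u.toMonoidHom 𝓛')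
    (hu' : 𝓛'.Compat u.symm.toMonoidHom 𝓛) (hf : ∀ h m, ρ (u h) m = σ h m) :
    (HFin 𝓛 ρ → HFin 𝓛' σ) ∧ chi 𝓛 ρ = chi 𝓛' σ := by
  have e0 : ρ.invariants = σ.invariants := by
    ext m
    constructor
    · intro h g
      rw [← hf]
      exact h (u g)
    · intro h g
      have := h (u.symm g)
      rwa [← hf, u.apply_symm_apply] at this
  let e1 := H1equiv u hu hu' hf
  let e2 := H2equiv u hu hu' hf
  constructor
  · intro h
    have a0 := h.h0
    have a1 := h.h1
    have a2 := h.h2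
    exact ⟨by rw [← e0]; exact a0, Module.Finite.equiv e1, Module.Finite.equiv e2⟩
  · rw [chi, chi, e0, e1.finrank_eq, e2.finrank_eq]

/-- Comparison of `U' = V.subgroupOf P ≤ P` and `V ≤ G`. -/
lemma hfin_chi_subgroupOf {k : Type*} [Field k] {M : Type*} [AddCommGroup M] [Module k M]
    (ρ : Representation k G M) {V P : Subgroup G} (h : V ≤ P) :
    (HFin (𝓛.restrict V) (ρ.comp V.subtype) → HFin ((𝓛.restrict P).restrict (V.subgroupOf P))
      ((ρ.comp P.subtype).comp (V.subgroupOf P).subtype)) ∧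
    chi (𝓛.restrict V) (ρ.comp V.subtype) = chi ((𝓛.restrict P).restrict (V.subgroupOf P))
      ((ρ.comp P.subtype).comp (V.subgroupOf P).subtype) := by
  refine hfin_chi_transport (Subgroup.subgroupOfEquivOfLe h) ?_ ?_ (fun _ _ => rfl)
  · rintro W ⟨W', hW', hWW⟩
    refine ⟨W'.subgroupOf P, ⟨W', hW', le_rfl⟩, ?_⟩
    intro v hv
    exact hWW (by exact hv)
  · rintro W ⟨W', ⟨W'', hW'', hWW'⟩, hWW⟩
    refine ⟨W'', hW'', ?_⟩
    intro v hv
    exact hWW (hWW' (by exact hv))

/-- **Right exactness of `H²`.** -/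
theorem rightExact (G₀ : Subgroup G) [hn : G₀.Normal] (hG₀ : G₀ ∈ 𝓛)
    (hcop : Nat.Coprime G₀.index p) (ω : Representation (ZMod p) G (ZMod p))
    (hω : ∀ g ∈ G₀, ∀ x, ω g x = x)
    (hfin : ∀ U ∈ 𝓛, U ≤ G₀ → HFin (𝓛.restrict U) (ω.comp U.subtype))
    (hχ : ∀ U ∈ 𝓛, ∀ V ∈ 𝓛, V ≤ U → U ≤ G₀ →
      chi (𝓛.restrict V) (ω.comp V.subtype) =
        (V.relIndex U : ℤ) * chi (𝓛.restrict U) (ω.comp U.subtype))
    {M : Type*} [AddCommGroup M] [Module (ZMod p) M] [Module.Finite (ZMod p) M]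
    {N : Type*} [AddCommGroup N] [Module (ZMod p) N]
    (ρM : Representation (ZMod p) G M) (hd : Discrete 𝓛 ρM)
    (ρN : Representation (ZMod p) G N) (f : M →ₗ[ZMod p] N)
    (hf : Equivar ρM ρN f) (hfs : Function.Surjective f) :
    Function.Surjective (H2coef 𝓛 f hf) := by
  classical
  have hNfin : Module.Finite (ZMod p) N := Module.Finite.of_surjective f hfs
  -- a normal level acting trivially on `M`
  have hMfin : Finite M := Module.finite_of_finite (ZMod p)
  obtain ⟨V₁, hV₁, hV₁'⟩ := hd.exists_of_finite (Set.finite_univ (α := M))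
  obtain ⟨V, hV, hVle, hVn⟩ := LevelSys.exists_normal (LevelSys.inf_mem hV₁ hG₀)
  have hVtriv : ∀ v ∈ V, ∀ m, ρM v m = m := fun v hv m => hV₁' v (hVle hv).1 m (Set.mem_univ m)
  have hVG₀ : V ≤ G₀ := fun v hv => (hVle hv).2
  have hVfi := LevelSys.finiteIndex hV
  -- Sylow subgroup
  obtain ⟨S⟩ : Nonempty (Sylow p (G ⧸ V)) := inferInstance
  set P : Subgroup G := (S : Subgroup (G ⧸ V)).comap (QuotientGroup.mk' V) with hPdef
  have hVP : V ≤ P := by
    intro v hv
    rw [hPdef, Subgroup.mem_comap]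
    have : QuotientGroup.mk' V v = 1 := (QuotientGroup.eq_one_iff v).2 hv
    rw [this]
    exact Subgroup.one_mem _
  have hP𝓛 : P ∈ 𝓛 := LevelSys.mono hV hVP
  have hPidx : P.index = (S : Subgroup (G ⧸ V)).index :=
    Subgroup.index_comap_of_surjective _ (QuotientGroup.mk'_surjective V)
  have hcopP : ¬ p ∣ P.index := by
    rw [hPidx]
    exact S.not_dvd_index
  have hcopP' : (P.index : ZMod p) ≠ 0 := by
    rw [Ne, ZMod.natCast_eq_zero_iff]
    exact hcopP
  obtain ⟨m, hm⟩ : ∃ m, (V.subgroupOf P).index = p ^ m := by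
    obtain ⟨m, hm⟩ := S.2.exists_card_eq
    refine ⟨m, ?_⟩
    have h1 := Subgroup.relIndex_mul_index hVP
    have h2 : V.index = Nat.card (G ⧸ V) := rfl
    have h3 := Subgroup.card_mul_index (S : Subgroup (G ⧸ V))
    rw [← h2, ← hPidx] at h3
    have h4 : P.index ≠ 0 := (LevelSys.finiteIndex hP𝓛).index_ne_zero
    have h5 : V.relIndex P = Nat.card (S : Subgroup (G ⧸ V)) := by
      have : V.relIndex P * P.index = Nat.card (S : Subgroup (G ⧸ V)) * P.index := by
        rw [h1, h3]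
      exact Nat.eq_of_mul_eq_mul_right (Nat.pos_of_ne_zero h4) this
    rw [← hm]
    exact h5
  have hPG₀ : P ≤ G₀ := by
    intro g hg
    have hVPn : (V.subgroupOf P).Normal := inferInstance
    have h1 : (⟨g, hg⟩ : P) ^ (p ^ m) ∈ V.subgroupOf P := by
      rw [← hm]
      exact Subgroup.pow_index_mem _ _
    have h2 : g ^ (p ^ m) ∈ G₀ := hVG₀ h1
    have h3 : g ^ G₀.index ∈ G₀ := Subgroup.pow_index_mem G₀ g
    have hc : IsCoprime ((p ^ m : ℕ) : ℤ) (G₀.index : ℤ) := by
      rw [Nat.isCoprime_iff_coprime]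
      exact Nat.Coprime.pow_left m hcop.symm
    obtain ⟨a, b, hab⟩ := hc
    have h4 : g = (g ^ (p ^ m)) ^ a * (g ^ G₀.index) ^ b := by
      rw [← zpow_natCast, ← zpow_natCast, ← zpow_mul, ← zpow_mul, ← zpow_add, mul_comm _ a,
        mul_comm _ b, hab, zpow_one]
    rw [h4]
    exact G₀.mul_mem (G₀.zpow_mem h2 a) (G₀.zpow_mem h3 b)
  refine surjective_of_subgroup ρM ρN f hf hP𝓛 hcopP' ?_
  have hVPn : (V.subgroupOf P).Normal := inferInstance
  have hτ : ∀ (g : P) (x : ZMod p), (ω.comp P.subtype) g x = x :=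
    fun g x => hω g (hPG₀ g.2) x
  obtain ⟨t1, t2⟩ := hfin_chi_subgroupOf (𝓛 := 𝓛) ω hVP
  exact surjective_of_pgroup (𝓛 := 𝓛.restrict P) hτ (hfin P hP𝓛 hPG₀) (V.subgroupOf P)
    ⟨V, hV, le_rfl⟩ hm (t1 (hfin V hV hVG₀))
    (by rw [← t2, hχ P hP𝓛 V hV hVP hPG₀]; rfl) _
    (ρM.comp P.subtype) (ρN.comp P.subtype) f (fun g m => hf g m)
    (fun v hv m => hVtriv v hv m) hfs rfl

end General

end Fermat.Agent.PT
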