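import Fermat.Agent.PT.Snake

/-!
# The inputs of the duality theorem, at "K-level"

`T : PlaceData k G`.  For `U ∈ T.𝓛` (think `U = K.fixingSubgroup`), a place `v` and `g : G`,
`T.locSub U v g = {d | g⁻¹ r_v(d) g ∈ U}` is the local group of the place of `K` given by `(v, g)`,
and `T.locHom U v g : locSub U v g →* U`, `d ↦ g⁻¹ r_v(d) g`.
-/

set_option autoImplicit false

namespace Fermat.Agent.PT

open Module

/-- trivial coefficients -/
abbrev trivRep (k G : Type*) [CommRing k] [Group G] : Representation k G k :=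
  Representation.trivial k G k

namespace PlaceData

variable {k G : Type} [Field k] [Group G] (T : PlaceData k G)

/-- The local group at the place `(v, g)` of the field of `U`. -/
def locSub (U : Subgroup G) (v : T.V) (g : G) : Subgroup (T.D v) :=
  U.comap ((MulAut.conj g⁻¹).toMonoidHom.comp (T.r v))

lemma mem_locSub {U : Subgroup G} {v : T.V} {g : G} {d : T.D v} :
    d ∈ T.locSub U v g ↔ g⁻¹ * T.r v d * g ∈ U := by
  simp [locSub]

/-- `d ↦ g⁻¹ r_v(d) g`. -/
def locHom (U : Subgroup G) (v : T.V) (g : G) : ↥(T.locSub U v g) →* ↥U where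
  toFun d := ⟨g⁻¹ * T.r v d.1 * g, (T.mem_locSub).1 d.2⟩
  map_one' := by simp
  map_mul' a b := by
    apply Subtype.ext
    simp only [Subgroup.coe_mul, map_mul]
    group

@[simp] lemma locHom_coe {U : Subgroup G} {v : T.V} {g : G} (d : ↥(T.locSub U v g)) :
    (T.locHom U v g d : G) = g⁻¹ * T.r v d.1 * g := rfl

lemma locHom_compat (U : Subgroup G) (v : T.V) (g : G) :
    (T.𝓛.restrict U).Compat (T.locHom U v g) ((T.𝓛v v).restrict (T.locSub U v g)) := by
  rintro W' ⟨W, hW, hWW⟩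
  obtain ⟨N, hN, hNW, hn⟩ := LevelSys.exists_normal hW
  refine ⟨N.comap (T.r v), T.hr v N hN, fun d hd => hWW ?_⟩
  show (T.locHom U v g d : G) ∈ W
  rw [locHom_coe]
  refine hNW ?_
  have hd' : T.r v d.1 ∈ N := hd
  simpa using hn.conj_mem _ hd' g⁻¹

/-- Restriction to the place `(v, g)` in degree 2, trivial coefficients. -/
def locU2 (U : Subgroup G) (v : T.V) (g : G) : H2 (T.𝓛.restrict U) (trivRep k ↥U) →ₗ[k]
    H2 ((T.𝓛v v).restrict (T.locSub U v g)) (trivRep k ↥(T.locSub U v g)) :=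
  H2map (T.locHom U v g) (T.locHom_compat U v g) LinearMap.id (fun _ _ => rfl)

/-- Restriction to the place `(v, g)` in degree 1, trivial coefficients. -/
def locU1 (U : Subgroup G) (v : T.V) (g : G) : H1 (T.𝓛.restrict U) (trivRep k ↥U) →ₗ[k]
    H1 ((T.𝓛v v).restrict (T.locSub U v g)) (trivRep k ↥(T.locSub U v g)) :=
  H1map (T.locHom U v g) (T.locHom_compat U v g) LinearMap.id (fun _ _ => rfl)

/-- `Ш²` of the field of `U`, trivial coefficients. -/
def shaU2 (U : Subgroup G) : Submodule k (H2 (T.𝓛.restrict U) (trivRep k ↥U)) :=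
  ⨅ v, ⨅ g, LinearMap.ker (T.locU2 U v g)

/-- `Ш¹` of the field of `U`, trivial coefficients. -/
def shaU1 (U : Subgroup G) : Submodule k (H1 (T.𝓛.restrict U) (trivRep k ↥U)) :=
  ⨅ v, ⨅ g, LinearMap.ker (T.locU1 U v g)

lemma mem_shaU2 {U : Subgroup G} {x : H2 (T.𝓛.restrict U) (trivRep k ↥U)} :
    x ∈ T.shaU2 U ↔ ∀ v g, T.locU2 U v g x = 0 := by
  simp [shaU2]

lemma mem_shaU1 {U : Subgroup G} {x : H1 (T.𝓛.restrict U) (trivRep k ↥U)} :
    x ∈ T.shaU1 U ↔ ∀ v g, T.locU1 U v g x = 0 := by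
  simp [shaU1]

/-- `g : J → G` is a system of representatives for `r(D_v) \ G / U`, i.e. of the places of the
field of `U` above `v`. -/
structure PlaceReps (U : Subgroup G) (v : T.V) {J : Type} (g : J → G) : Prop where
  surj : ∀ x : G, ∃ (j : J) (d : T.D v), ∃ u ∈ U, x = T.r v d * g j * u
  inj : ∀ (i j : J) (d : T.D v), ∀ u ∈ U, g j = T.r v d * g i * u → i = j

/-- The image of `H²(U) → ⊕_w H²(U_w)` has codimension `≤ 1`. -/
def CodimLeOne (U : Subgroup G) : Prop :=
  ∃ (J : T.V → Type) (g : ∀ v, J v → G), (∀ v, T.PlaceReps U v (g v)) ∧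
    ∃ Λ : (∀ v (j : J v), H2 ((T.𝓛v v).restrict (T.locSub U v (g v j)))
        (trivRep k ↥(T.locSub U v (g v j)))) →ₗ[k] k,
      ∀ y, Λ y = 0 → ∃ z : H2 (T.𝓛.restrict U) (trivRep k ↥U),
        ∀ v (j : J v), T.locU2 U v (g v j) z = y v j

/-- Right exactness of `H²` on finite discrete representations. -/
def RightExact {G : Type} [Group G] (k : Type) [Field k] (𝓛 : LevelSys G) : Prop :=
  ∀ (M N : Type) [AddCommGroup M] [Module k M] [AddCommGroup N] [Module k N]
    [FiniteDimensional k M] (ρ : Representation k G M) (σ : Representation k G N)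
    (f : M →ₗ[k] N) (hf : Equivar ρ σ f), Discrete 𝓛 ρ → Function.Surjective f →
    Function.Surjective (H2coef 𝓛 f hf)

/-- **All the inputs** of the duality theorem. -/
structure Inputs : Prop where
  /-- right exactness of `H²(G, -)` for the levels `𝓛` -/
  rightExact : RightExact k T.𝓛
  /-- right exactness of `H²(D_v, -)` for the local levels -/
  rightExact_loc : ∀ v, RightExact k (T.𝓛v v)
  /-- reciprocity over the base -/
  recip : T.Recip
  /-- the local invariants are nonzero -/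
  inv_ne_zero : ∀ v, T.inv v ≠ 0
  /-- local `H²` is at most one-dimensional for small level subgroups -/
  loc_dim : ∀ v, ∃ W₀ ∈ T.𝓛v v, ∀ W ∈ T.𝓛v v, W ≤ W₀ →
    FiniteDimensional k (H2 ((T.𝓛v v).restrict W) (trivRep k ↥W)) ∧
    finrank k (H2 ((T.𝓛v v).restrict W) (trivRep k ↥W)) ≤ 1
  /-- the K-level global inputs, for all small level subgroups -/
  glob : ∃ U₀ ∈ T.𝓛, ∀ U ∈ T.𝓛, U ≤ U₀ → T.CodimLeOne U ∧
    FiniteDimensional k ↥(T.shaU1 U) ∧ FiniteDimensional k ↥(T.shaU2 U) ∧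
    finrank k ↥(T.shaU2 U) ≤ finrank k ↥(T.shaU1 U)

/-- The conclusion: a perfect pairing between `Ш¹(M')` and `Ш²(M)`. -/
def ShaPairing {M : Type} [AddCommGroup M] [Module k M] (ρ : Representation k G M) : Prop :=
  ∃ B : ↥(T.sha1 (dualT T.χ ρ)) →ₗ[k] ↥(T.sha2 ρ) →ₗ[k] k,
    (∀ y, (∀ x, B y x = 0) → y = 0) ∧ (∀ x, (∀ y, B y x = 0) → x = 0)

end PlaceData

end Fermat.Agent.PT
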