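import Fermat.Agent.PT.LocalDuality

/-!
# The final chase: `Ш¹(M')` and `Ш²(M)` are in perfect duality
-/

set_option autoImplicit false

namespace Fermat.Agent.PT

open Module

namespace PlaceData

variable {k G : Type} [Field k] [Group G] (T : PlaceData k G)
variable {M : Type} [AddCommGroup M] [Module k M] {ρ : Representation k G M}
variable {N : Type} [AddCommGroup N] [Module k N] {σ : Representation k G N}

lemma chiRep_comp (v : T.V) : (chiRep T.χ).comp (T.r v) = chiRep (T.χ.comp (T.r v)) := rfl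

lemma homv_eq (v : T.V) : T.homv ρ v = homG (T.χ.comp (T.r v)) (ρ.comp (T.r v)) := rfl

lemma ker_comp_mem (v : T.V) : (T.χ.comp (T.r v)).ker ∈ T.𝓛v v := by
  have h := T.hr v _ T.χ_level
  have e : T.χ.ker.comap (T.r v) = (T.χ.comp (T.r v)).ker := by
    ext d; simp [MonoidHom.mem_ker]
  rwa [e] at h

/-- Left nondegeneracy of the local pairings. -/
lemma pairv_injective (hI : T.Inputs) [FiniteDimensional k M] (hρ : Discrete T.𝓛 ρ) (v : T.V) :
    Function.Injective (T.pairv (ρ := ρ) v) :=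
  lpair_injective (inv := T.inv v) (ρ := ρ.comp (T.r v)) (χ := T.χ.comp (T.r v))
    (hI.rightExact_loc v) (hI.inv_ne_zero v) (hρ.comp (T.hr v))

/-- Right nondegeneracy of the local pairings. -/
lemma locInj (hI : T.Inputs) [FiniteDimensional k M] (hρ : Discrete T.𝓛 ρ) : T.LocInj ρ :=
  fun v z hz => loc_inj (inv := T.inv v) (ρ := ρ.comp (T.r v)) (χ := T.χ.comp (T.r v))
    (hI.rightExact_loc v) (hI.inv_ne_zero v) (T.ker_comp_mem v) (hI.loc_dim v)
    (hρ.comp (T.hr v)) z hz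

/-- Exactness at `X` for `k[G/U]`. -/
lemma exactX_perm (hI : T.Inputs) {U : Subgroup G} (hU : U ∈ T.𝓛) (hχ : U ≤ T.χ.ker)
    (hC : T.CodimLeOne U) : T.ExactX (permRep k U) := by
  classical
  have := LevelSys.finiteIndex hU
  obtain ⟨J, g, hg, Λ, hΛ⟩ := hC
  -- the Mackey map
  let Mk : (∀ v, H2 (T.𝓛v v) ((permRep k U).comp (T.r v))) →ₗ[k]
      (∀ v (j : J v), H2 ((T.𝓛v v).restrict (T.locSub U v (g v j)))
        (trivRep k ↥(T.locSub U v (g v j)))) :=
    LinearMap.pi fun v => LinearMap.pi fun j => T.evL2 U v (g v j) ∘ₗ LinearMap.proj v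
  let F : T.X (permRep k U) → (∀ v, H2 (T.𝓛v v) ((permRep k U).comp (T.r v))) →ₗ[k] k :=
    fun c => ∑ v, T.pairv v (c v) ∘ₗ LinearMap.proj v
  have hF : ∀ c y, F c y = ∑ v, T.pairv v (c v) (y v) := fun c y => by
    simp only [F, LinearMap.sum_apply]; rfl
  have key : ∀ c : T.X (permRep k U), T.gam c = 0 → ∃ a : k, ∀ y, F c y = a * Λ (Mk y) := by
    intro c hc
    obtain ⟨s, hs⟩ := exists_factor (Λ ∘ₗ Mk) (F c) (fun y hy => by
      obtain ⟨z₀, hz₀⟩ := hΛ (Mk y) hy
      obtain ⟨z, rfl⟩ := shU2_surjective k hU z₀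
      have h1 : ∀ v, T.loc2 (permRep k U) v z = y v := by
        intro v
        rw [← sub_eq_zero]
        refine T.evL2_injective hU (hg v) _ fun j => ?_
        rw [map_sub, evL2_loc2, hz₀ v j, sub_eq_zero]
        rfl
      rw [hF, show (0 : k) = T.gam c z by rw [hc]; rfl, gam_apply]
      exact Finset.sum_congr rfl fun v _ => by rw [h1])
    refine ⟨s 1, fun y => ?_⟩
    rw [← hs y]
    show s ((Λ ∘ₗ Mk) y) = s 1 * (Λ ∘ₗ Mk) y
    rw [mul_comm, ← smul_eq_mul, ← map_smul, smul_eq_mul, mul_one]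
  obtain ⟨φ₀, hφ₀, hφ₀'⟩ := exists_homG_perm (k := k) hU hχ
  obtain ⟨a₀, ha₀⟩ := key (T.diag ⟨φ₀, hφ₀⟩) (T.gam_diag hI.recip _)
  have hdet : ∀ c : T.X (permRep k U), (∀ y, F c y = 0) → ∀ v, c v = 0 := by
    intro c hc v
    refine T.pairv_injective hI (permRep_discrete hU) v ?_
    rw [map_zero]
    refine LinearMap.ext fun y => ?_
    have h1 := hc (Pi.single v y)
    rw [hF, Finset.sum_eq_single v] at h1
    · rwa [Pi.single_eq_same] at h1
    · intro w _ hw
      rw [Pi.single_eq_of_ne hw, map_zero]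
    · intro h; exact absurd (Finset.mem_univ v) h
  have ha₀' : a₀ ≠ 0 := by
    rintro rfl
    obtain ⟨v₀⟩ := T.ne
    have h1 := hdet _ (fun y => by rw [ha₀ y, zero_mul]) v₀
    exact hφ₀' (congrArg Subtype.val h1)
  intro c hc
  obtain ⟨a, ha⟩ := key c hc
  refine ⟨(a * a₀⁻¹) • ⟨φ₀, hφ₀⟩, ?_⟩
  -- compare
  have h2 : ∀ v, c v + (-(a * a₀⁻¹)) • (T.diag ⟨φ₀, hφ₀⟩ v) = 0 := by
    refine hdet (fun v => c v + (-(a * a₀⁻¹)) • (T.diag ⟨φ₀, hφ₀⟩ v)) fun y => ?_
    rw [hF]
    simp only [map_add, map_smul, LinearMap.add_apply, LinearMap.smul_apply,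
      Finset.sum_add_distrib, ← Finset.smul_sum]
    rw [← hF, ← hF, ha, ha₀, smul_eq_mul]
    field_simp
    ring
  funext v
  apply Subtype.ext
  have h3 := congrArg Subtype.val (h2 v)
  rw [map_smul]
  refine LinearMap.ext fun x => ?_
  have h4 := LinearMap.congr_fun h3 x
  have h5 : (c v).1 x + (-(a * a₀⁻¹)) * φ₀ x = 0 := h4
  show (a * a₀⁻¹) * φ₀ x = (c v).1 x
  linear_combination -h5

/-- Exactness at `X` for `Fun(G/U, V₀)`. -/
lemma exactX_fun {U : Subgroup G} (hE : T.ExactX (permRep k U))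
    (V₀ : Type) [AddCommGroup V₀] [Module k V₀] [FiniteDimensional k V₀] :
    T.ExactX (funRep (G ⧸ U) (Representation.trivial k G V₀)) := by
  intro c hc
  let b := Module.finBasis k V₀
  have h1 : ∀ i, ∃ φ : ↥(homG T.χ (permRep k U)),
      T.diag φ = T.XComp (embV_equivar (G := G) (X := G ⧸ U) (b i)) c := by
    intro i
    refine hE _ ?_
    refine LinearMap.ext fun x => ?_
    rw [gam_comp, hc]; rfl
  choose φ hφ using h1
  have h2 : ∀ i v, (c v).1 ∘ₗ embV (G ⧸ U) (b i) = (φ i).1 := fun i v =>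
    (congrArg (fun d : T.X (permRep k U) => (d v).1) (hφ i)).symm
  have h3 : ∀ v, (c v).1 = ∑ i, (φ i).1 ∘ₗ prV (G ⧸ U) (b.coord i) := by
    intro v
    refine LinearMap.ext fun f => ?_
    have h4 : f = ∑ i, embV (G ⧸ U) (b i) (prV (G ⧸ U) (b.coord i) f) := by
      conv_lhs => rw [← LinearMap.id_apply (R := k) f, ← sum_embV_prV b]
      rw [LinearMap.sum_apply]; rfl
    conv_lhs => rw [h4]
    rw [map_sum, LinearMap.sum_apply]
    refine Finset.sum_congr rfl fun i _ => ?_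
    rw [← h2 i v]; rfl
  refine ⟨⟨∑ i, (φ i).1 ∘ₗ prV (G ⧸ U) (b.coord i), fun g m => ?_⟩, ?_⟩
  · rw [LinearMap.sum_apply, LinearMap.sum_apply, Finset.mul_sum]
    refine Finset.sum_congr rfl fun i _ => ?_
    rw [LinearMap.comp_apply, prV_equivar, (φ i).2, LinearMap.comp_apply]
  · funext v
    exact Subtype.ext (h3 v).symm

/-- Exactness at `X` for all finite discrete representations. -/
theorem exactX (hI : T.Inputs) [FiniteDimensional k M] (hρ : Discrete T.𝓛 ρ) :
    T.ExactX ρ := by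
  obtain ⟨U₀, hU₀, hglob⟩ := hI.glob
  obtain ⟨U₁, hU₁, hU₁t⟩ := hρ.exists_trivial
  set U := U₁ ⊓ U₀ ⊓ T.χ.ker with hUdef
  have hU : U ∈ T.𝓛 := LevelSys.inf_mem (LevelSys.inf_mem hU₁ hU₀) T.χ_level
  have hUt : ∀ g ∈ U, ∀ m, ρ g m = m := fun g hg => hU₁t g hg.1.1
  have := LevelSys.finiteIndex hU
  let _ : Fintype (G ⧸ U) := Fintype.ofFinite _
  have h1 := T.exactX_perm hI hU inf_le_right
    (hglob U hU (inf_le_left.trans inf_le_right)).1
  exact ExactX.of_surjective T (indMap_equivar hUt) (indMap_surjective hUt) (T.exactX_fun h1 M)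

end PlaceData

section Push

variable {k : Type*} [Field k] {G : Type*} [Group G] {𝓛 : LevelSys G}
variable {U' U : Subgroup G} (hle : U' ≤ U)
variable (V₀ : Type*) [AddCommGroup V₀] [Module k V₀]

open Classical in
/-- Push forward `Fun(G/U', V₀) → Fun(G/U, V₀)`. -/
noncomputable def pushMap [Fintype (G ⧸ U')] : (G ⧸ U' → V₀) →ₗ[k] (G ⧸ U → V₀) where
  toFun f x := ∑ y, if Subgroup.quotientMapOfLE hle y = x then f y else 0
  map_add' f f' := by
    funext x
    simp only [Pi.add_apply, ← Finset.sum_add_distrib]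
    refine Finset.sum_congr rfl fun y _ => ?_
    split_ifs <;> simp
  map_smul' r f := by
    funext x
    simp only [Pi.smul_apply, RingHom.id_apply, Finset.smul_sum]
    refine Finset.sum_congr rfl fun y _ => ?_
    split_ifs <;> simp

open Classical in
lemma pushMap_apply [Fintype (G ⧸ U')] (f : G ⧸ U' → V₀) (x : G ⧸ U) :
    pushMap (k := k) hle V₀ f x = ∑ y, if Subgroup.quotientMapOfLE hle y = x then f y else 0 :=
  rfl

lemma quotientMapOfLE_smul (g : G) (y : G ⧸ U') :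
    Subgroup.quotientMapOfLE hle (g • y) = g • Subgroup.quotientMapOfLE hle y := by
  obtain ⟨a, rfl⟩ := QuotientGroup.mk_surjective y
  rfl

lemma pushMap_equivar [Fintype (G ⧸ U')] :
    Equivar (funRep (G ⧸ U') (Representation.trivial k G V₀))
      (funRep (G ⧸ U) (Representation.trivial k G V₀)) (pushMap hle V₀) := by
  classical
  intro g f
  funext x
  show pushMap (k := k) hle V₀ (fun y => f (g⁻¹ • y)) x = pushMap (k := k) hle V₀ f (g⁻¹ • x)
  rw [pushMap_apply, pushMap_apply]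
  refine Fintype.sum_equiv (MulAction.toPerm g⁻¹) _ _ (fun y => ?_)
  show (if Subgroup.quotientMapOfLE hle y = x then f (g⁻¹ • y) else 0) =
    if Subgroup.quotientMapOfLE hle (g⁻¹ • y) = g⁻¹ • x then f (g⁻¹ • y) else 0
  rw [quotientMapOfLE_smul]
  simp only [smul_left_cancel_iff]

variable {V₀}

lemma pushMap_single [Fintype (G ⧸ U')] [DecidableEq (G ⧸ U')] [DecidableEq (G ⧸ U)]
    (y : G ⧸ U') (m : V₀) : pushMap (k := k) hle V₀ (Pi.single y m) =
      Pi.single (Subgroup.quotientMapOfLE hle y) m := by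
  classical
  funext x
  rw [pushMap_apply, Finset.sum_eq_single y]
  · rw [Pi.single_eq_same, Pi.single_apply]
    simp only [eq_comm]
  · intro w _ hw
    rw [Pi.single_eq_of_ne hw, ite_self]
  · intro h; exact absurd (Finset.mem_univ _) h

lemma pushMap_surjective [Fintype (G ⧸ U')] [Finite (G ⧸ U)] :
    Function.Surjective (pushMap (k := k) hle V₀) := by
  classical
  let _ : Fintype (G ⧸ U) := Fintype.ofFinite _
  intro f
  have hq : Function.Surjective (Subgroup.quotientMapOfLE hle) := by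
    intro x
    obtain ⟨a, rfl⟩ := QuotientGroup.mk_surjective x
    exact ⟨QuotientGroup.mk a, rfl⟩
  choose s hs using hq
  refine ⟨∑ x, Pi.single (s x) (f x), ?_⟩
  rw [map_sum]
  funext x
  rw [Finset.sum_apply, Finset.sum_eq_single x]
  · rw [pushMap_single, hs, Pi.single_eq_same]
  · intro w _ hw
    rw [pushMap_single, hs, Pi.single_eq_of_ne hw.symm]
  · intro h; exact absurd (Finset.mem_univ _) h

lemma prV_pushMap [Fintype (G ⧸ U')] (φ : V₀ →ₗ[k] k) :
    prV (G ⧸ U) φ ∘ₗ pushMap hle V₀ = pushMap hle k ∘ₗ prV (G ⧸ U') φ := by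
  classical
  refine LinearMap.ext fun f => funext fun x => ?_
  show φ (pushMap (k := k) hle V₀ f x) = pushMap (k := k) hle k (prV (G ⧸ U') φ f) x
  rw [pushMap_apply, pushMap_apply, map_sum]
  refine Finset.sum_congr rfl fun y _ => ?_
  split_ifs
  · rfl
  · exact map_zero _

end Push

namespace PlaceData

variable {k G : Type} [Field k] [Group G] (T : PlaceData k G)

lemma incl_compat {U' U : Subgroup G} (hle : U' ≤ U) :
    (T.𝓛.restrict U).Compat (Subgroup.inclusion hle) (T.𝓛.restrict U') := by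
  rintro W' ⟨W, hW, hWW⟩
  exact ⟨W, hW, fun d hd => hWW hd⟩

/-- Restriction `H¹(U) → H¹(U')`, trivial coefficients. -/
def resU1 {U' U : Subgroup G} (hle : U' ≤ U) : H1 (T.𝓛.restrict U) (trivRep k ↥U) →ₗ[k]
    H1 (T.𝓛.restrict U') (trivRep k ↥U') :=
  H1map (Subgroup.inclusion hle) (T.incl_compat hle) LinearMap.id (fun _ _ => rfl)

/-- Push forward on `H²` of permutation representations. -/
noncomputable def push2 {U' U : Subgroup G} (hle : U' ≤ U) [Fintype (G ⧸ U')] :
    H2 T.𝓛 (permRep k U') →ₗ[k] H2 T.𝓛 (permRep k U) :=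
  H2coef T.𝓛 (pushMap hle k) (pushMap_equivar hle k)

/-- Pull back on `H¹` of duals of permutation representations. -/
noncomputable def pull1 {U' U : Subgroup G} (hle : U' ≤ U) [Fintype (G ⧸ U')] :
    H1 T.𝓛 (dualT T.χ (permRep k U)) →ₗ[k] H1 T.𝓛 (dualT T.χ (permRep k U')) :=
  H1coef (ρ := dualT T.χ (permRep k U)) (σ := dualT T.χ (permRep k U')) T.𝓛
    (LinearMap.dualMap (pushMap hle k)) (Equivar.dualMap (pushMap_equivar hle k))

/-- A finite-dimensional space of classes dies on a small subgroup. -/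
lemma exists_kill {U : Subgroup G} (hU : U ∈ T.𝓛)
    (Y : Submodule k (H1 (T.𝓛.restrict U) (trivRep k ↥U))) [FiniteDimensional k ↥Y] :
    ∃ U' ∈ T.𝓛, ∃ hle : U' ≤ U, ∀ y ∈ Y, T.resU1 hle y = 0 := by
  let b := Module.finBasis k ↥Y
  have h1 : ∀ i, ∃ W ∈ T.𝓛, ∀ (W' : Subgroup G) (hle : W' ≤ U), W' ≤ W →
      T.resU1 hle (b i).1 = 0 := by
    intro i
    obtain ⟨z, hz⟩ := H1mk_surjective (b i).1
    obtain ⟨W', ⟨W, hW, hWW⟩, hzl⟩ := z.2.1
    refine ⟨W, hW, fun W'' hle hW'' => ?_⟩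
    rw [← hz]
    refine (H1mk_eq_zero (f := Z1map (Subgroup.inclusion hle) (T.incl_compat hle)
      LinearMap.id (fun _ _ => rfl) z)).2 ⟨0, fun u => ?_⟩
    rw [map_zero, sub_zero]
    show z.1 (Subgroup.inclusion hle u) = 0
    have h2 := hzl 1 (Subgroup.inclusion hle u) (hWW (hW'' u.2))
    have h3 := z.2.2 1 1
    rw [one_mul] at h2
    rw [mul_one, map_one, Module.End.one_apply] at h3
    rw [h2]
    simpa using h3
  obtain ⟨W, hW, hWk⟩ := LevelSys.exists_le_of_finite (𝓛 := T.𝓛)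
    (fun i W => ∀ (W' : Subgroup G) (hle : W' ≤ U), W' ≤ W → T.resU1 hle (b i).1 = 0)
    (fun i U V hVU h W' hle hW' => h W' hle (hW'.trans hVU)) h1
  refine ⟨W ⊓ U, LevelSys.inf_mem hW hU, inf_le_right, fun y hy => ?_⟩
  have h2 : (⟨y, hy⟩ : ↥Y) = ∑ i, b.repr ⟨y, hy⟩ i • b i := (b.sum_repr _).symm
  have h3 : y = ∑ i, b.repr ⟨y, hy⟩ i • (b i).1 := by
    have h4 := congrArg (Submodule.subtype Y) h2
    rw [map_sum] at h4
    exact h4
  rw [h3, map_sum]
  refine Finset.sum_eq_zero fun i _ => ?_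
  rw [map_smul, hWk i _ inf_le_right inf_le_left, smul_zero]

/-- The Shapiro map turns pull back along `pushMap` into restriction. -/
lemma shD1_push {U' U : Subgroup G} (hle : U' ≤ U) [Fintype (G ⧸ U')] [Finite (G ⧸ U)]
    (hχ : U ≤ T.χ.ker) (hχ' : U' ≤ T.χ.ker) (z : H1 T.𝓛 (dualT T.χ (permRep k U))) :
    T.shD1 hχ' (T.pull1 hle z) = T.resU1 hle (T.shD1 hχ z) := by
  classical
  obtain ⟨z, rfl⟩ := H1mk_surjective z
  have e0 : T.shD1 hχ' (T.pull1 hle (H1mk T.𝓛 (dualT T.χ (permRep k U)) z)) =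
      H1mk (T.𝓛.restrict U') (trivRep k ↥U') (Z1map U'.subtype (LevelSys.compat_comap _)
        (LinearMap.proj (QuotientGroup.mk 1)) (T.shF_aux U' hχ')
        (Z1map (MonoidHom.id G) LevelSys.compat_id (dualFunEquiv k (G ⧸ U')).toLinearMap
          (dualFunEquiv_equivar T.χ)
          (Z1map (σ := dualT T.χ (permRep k U')) (MonoidHom.id G) LevelSys.compat_id
            (LinearMap.dualMap (pushMap hle k))
            (Equivar.dualMap (pushMap_equivar hle k)) z))) := rfl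
  have e1 : T.resU1 hle (T.shD1 hχ (H1mk T.𝓛 (dualT T.χ (permRep k U)) z)) =
      H1mk (T.𝓛.restrict U') (trivRep k ↥U') (Z1map (Subgroup.inclusion hle) (T.incl_compat hle)
        LinearMap.id (fun _ _ => rfl) (Z1map U.subtype (LevelSys.compat_comap _)
        (LinearMap.proj (QuotientGroup.mk 1)) (T.shF_aux U hχ)
        (Z1map (MonoidHom.id G) LevelSys.compat_id (dualFunEquiv k (G ⧸ U)).toLinearMap
          (dualFunEquiv_equivar T.χ) z))) := rfl
  rw [e0, e1]
  congr 1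
  apply Subtype.ext
  funext u
  show dualFunEquiv k (G ⧸ U') (z.1 (u : G) ∘ₗ pushMap hle k) (QuotientGroup.mk 1) =
    dualFunEquiv k (G ⧸ U) (z.1 (u : G)) (QuotientGroup.mk 1)
  rw [dualFunEquiv_apply, dualFunEquiv_apply, LinearMap.comp_apply]
  congr 1
  exact @pushMap_single k _ G _ U' U hle k _ _ _ (fun a b => Classical.propDecidable _)
    (fun a b => Classical.propDecidable _) (QuotientGroup.mk 1) 1

/-- **Key step**: for small `U` there is `U' ≤ U` such that `Ш²(P_{U'}) → Ш²(P_U)` and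
`Ш¹(P_U') → Ш¹(P_{U'}')` are zero. -/
theorem exists_zero_perm (hI : T.Inputs) {U : Subgroup G} (hU : U ∈ T.𝓛) (hχ : U ≤ T.χ.ker)
    (hfin1 : FiniteDimensional k ↥(T.shaU1 U)) (hfin2 : FiniteDimensional k ↥(T.shaU2 U))
    (hdim : finrank k ↥(T.shaU2 U) ≤ finrank k ↥(T.shaU1 U)) :
    ∃ U' ∈ T.𝓛, ∃ hle : U' ≤ U, ∀ [Fintype (G ⧸ U')],
      (∀ z ∈ T.sha2 (permRep k U'), T.push2 hle z = 0) ∧
      (∀ z ∈ T.sha1 (dualT T.χ (permRep k U)), T.pull1 hle z = 0) := by
  obtain ⟨U', hU', hle, hkill⟩ := T.exists_kill hU (T.shaU1 U)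
  refine ⟨U', hU', hle, ?_⟩
  intro _
  have hχ' : U' ≤ T.χ.ker := hle.trans hχ
  have hfU := LevelSys.finiteIndex hU
  have hfU' := LevelSys.finiteIndex hU'
  have h1 : ∀ z ∈ T.sha1 (dualT T.χ (permRep k U)), T.pull1 hle z = 0 := by
    intro z hz
    apply T.shD1_injective hχ'
    rw [T.shD1_push hle hχ hχ', map_zero]
    exact hkill _ ((T.mem_sha1_dual hχ z).1 hz)
  refine ⟨?_, h1⟩
  have hπ : Equivar (permRep k U') (permRep k U) (pushMap hle k) :=
    pushMap_equivar (G := G) hle k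
  have hps : Function.Surjective (pushMap (k := k) hle k) := pushMap_surjective hle
  have hses := ses_ker (𝓛 := T.𝓛) (permRep_discrete hU') hπ hps
  obtain ⟨hfd, ⟨e⟩⟩ := T.snake hI.recip hses
    (hI.rightExact _ _ _ _ _ hπ (permRep_discrete hU') hps)
    (T.locInj hI (permRep_discrete hU)) (T.locInj hI (permRep_discrete hU'))
    (T.exactX hI (permRep_discrete hU')) (T.exactX hI hses.discA)
  -- dimension count
  have hle1 : T.sha1 (dualT T.χ (permRep k U)) ⊓
      LinearMap.ker (H1coef T.𝓛 (pushMap hle k).dualMap (hses.eqg.dualMap (χ := T.χ))) =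
      T.sha1 (dualT T.χ (permRep k U)) := inf_eq_left.2 fun z hz => h1 z hz
  have d1 : finrank k ↥(T.annSha (permRep k U) (permRep k U') (pushMap hle k) hses.eqg) =
      finrank k ↥(T.shaU1 U) := by
    rw [← e.finrank_eq, hle1, (T.sha1Equiv hU hχ).finrank_eq]
  have hfs2 : FiniteDimensional k ↥(T.sha2 (permRep k U)) :=
    LinearEquiv.finiteDimensional (T.sha2Equiv hU).symm
  have d2 : finrank k (Dual k ↥(T.sha2 (permRep k U))) = finrank k ↥(T.shaU2 U) := by
    rw [Subspace.dual_finrank_eq, (T.sha2Equiv hU).finrank_eq]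
  have htop : T.annSha (permRep k U) (permRep k U') (pushMap hle k) hses.eqg = ⊤ := by
    apply Submodule.eq_top_of_finrank_eq
    apply le_antisymm (Submodule.finrank_le _)
    rw [d1, d2]
    exact hdim
  intro z hz
  have h3 : (⟨_, T.sha2_coef hπ hz⟩ : ↥(T.sha2 (permRep k U))) = 0 := by
    rw [← Module.forall_dual_apply_eq_zero_iff k]
    intro f
    have hf : f ∈ T.annSha (permRep k U) (permRep k U') (pushMap hle k) hses.eqg := by
      rw [htop]; trivial
    exact hf z hz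
  exact congrArg Subtype.val h3

/-- For small `U` and any `V₀`, the maps `Ш²(Fun(G/U', V₀)) → Ш²(Fun(G/U, V₀))` and
`Ш¹(Fun(G/U, V₀)') → Ш¹(Fun(G/U', V₀)')` are zero. -/
lemma zero_fun {U' U : Subgroup G} (hle : U' ≤ U) [Fintype (G ⧸ U')]
    (h2 : ∀ z ∈ T.sha2 (permRep k U'), T.push2 hle z = 0)
    (h1 : ∀ z ∈ T.sha1 (dualT T.χ (permRep k U)), T.pull1 hle z = 0)
    (V₀ : Type) [AddCommGroup V₀] [Module k V₀] [FiniteDimensional k V₀] :
    (∀ z ∈ T.sha2 (funRep (G ⧸ U') (Representation.trivial k G V₀)),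
      H2coef T.𝓛 (σ := funRep (G ⧸ U) (Representation.trivial k G V₀)) (pushMap hle V₀)
        (pushMap_equivar hle V₀) z = 0) ∧
    (∀ z ∈ T.sha1 (dualT T.χ (funRep (G ⧸ U) (Representation.trivial k G V₀))),
      H1coef T.𝓛 (ρ := dualT T.χ (funRep (G ⧸ U) (Representation.trivial k G V₀)))
        (σ := dualT T.χ (funRep (G ⧸ U') (Representation.trivial k G V₀)))
        (LinearMap.dualMap (pushMap (k := k) hle V₀))
        (Equivar.dualMap (pushMap_equivar hle V₀)) z = 0) := by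
  let b := Module.finBasis k V₀
  constructor
  · intro z hz
    refine H2_eq_zero_of_coord b _ fun i => ?_
    rw [← H2coef_comp (prV_equivar (b.coord i)) (pushMap_equivar hle V₀),
      H2coef_congr _ ((pushMap_equivar hle k).comp (prV_equivar (b.coord i)))
        (prV_pushMap hle (b.coord i)),
      H2coef_comp (pushMap_equivar hle k) (prV_equivar (b.coord i))]
    exact h2 _ (T.sha2_coef (prV_equivar (b.coord i)) hz)
  · intro z hz
    -- decompose the identity of `P_U(V₀)'`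
    have hemb : ∀ i, Equivar (dualT T.χ (funRep (G ⧸ U) (Representation.trivial k G V₀)))
        (dualT T.χ (permRep k U)) (LinearMap.dualMap (embV (G ⧸ U) (b i))) := fun i =>
      Equivar.dualMap (embV_equivar (b i))
    have hpr : ∀ i, Equivar (dualT T.χ (permRep k U'))
        (dualT T.χ (funRep (G ⧸ U') (Representation.trivial k G V₀)))
        (LinearMap.dualMap (prV (G ⧸ U') (b.coord i))) := fun i =>
      Equivar.dualMap (prV_equivar (b.coord i))
    have hpush : Equivar (dualT T.χ (permRep k U)) (dualT T.χ (permRep k U'))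
      (LinearMap.dualMap (pushMap hle k)) := Equivar.dualMap (pushMap_equivar hle k)
    have hE : ∀ i, Equivar (dualT T.χ (funRep (G ⧸ U) (Representation.trivial k G V₀)))
        (dualT T.χ (funRep (G ⧸ U') (Representation.trivial k G V₀)))
        (LinearMap.dualMap (prV (G ⧸ U') (b.coord i)) ∘ₗ (LinearMap.dualMap (pushMap hle k) ∘ₗ
          LinearMap.dualMap (embV (G ⧸ U) (b i)))) := fun i =>
      (hpr i).comp (hpush.comp (hemb i))
    have hsum : LinearMap.dualMap (pushMap (k := k) hle V₀) =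
        ∑ i, LinearMap.dualMap (prV (G ⧸ U') (b.coord i)) ∘ₗ (LinearMap.dualMap (pushMap hle k) ∘ₗ
          LinearMap.dualMap (embV (G ⧸ U) (b i))) := by
      refine LinearMap.ext fun φ => LinearMap.ext fun f => ?_
      rw [LinearMap.sum_apply, LinearMap.sum_apply]
      show φ (pushMap (k := k) hle V₀ f) =
        ∑ i, φ (embV (G ⧸ U) (b i) (pushMap (k := k) hle k (prV (G ⧸ U') (b.coord i) f)))
      have h3 : ∀ i, pushMap (k := k) hle k (prV (G ⧸ U') (b.coord i) f) =
          prV (G ⧸ U) (b.coord i) (pushMap (k := k) hle V₀ f) := fun i =>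
        (LinearMap.congr_fun (prV_pushMap hle (b.coord i)) f).symm
      simp_rw [h3]
      rw [← map_sum]
      congr 1
      conv_lhs => rw [← LinearMap.id_apply (R := k) (pushMap (k := k) hle V₀ f),
        ← sum_embV_prV b]
      rw [LinearMap.sum_apply]; rfl
    rw [H1coef_congr _ (Equivar.sum Finset.univ hE) hsum, H1coef_sum _ _ hE]
    refine Finset.sum_eq_zero fun i _ => ?_
    rw [H1coef_comp (hpr i) (hpush.comp (hemb i)), H1coef_comp hpush (hemb i)]
    have h4 := h1 _ (T.sha1_coef (hemb i) hz)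
    rw [pull1] at h4
    rw [h4, map_zero]

/-- **The duality theorem**: `Ш¹(M') × Ш²(M) → k` perfect, for every finite discrete `M`. -/
theorem shaPairing (hI : T.Inputs) {M : Type} [AddCommGroup M] [Module k M]
    [FiniteDimensional k M] {ρ : Representation k G M} (hρ : Discrete T.𝓛 ρ) :
    FiniteDimensional k ↥(T.sha2 ρ) ∧
      Nonempty (↥(T.sha1 (dualT T.χ ρ)) ≃ₗ[k] Dual k ↥(T.sha2 ρ)) := by
  obtain ⟨U₀, hU₀, hglob⟩ := hI.glob
  obtain ⟨U₁, hU₁, hU₁t⟩ := hρ.exists_trivial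
  set U := U₁ ⊓ U₀ ⊓ T.χ.ker with hUdef
  have hU : U ∈ T.𝓛 := LevelSys.inf_mem (LevelSys.inf_mem hU₁ hU₀) T.χ_level
  have hUt : ∀ g ∈ U, ∀ m, ρ g m = m := fun g hg => hU₁t g hg.1.1
  have hUχ : U ≤ T.χ.ker := inf_le_right
  have := LevelSys.finiteIndex hU
  let _ : Fintype (G ⧸ U) := Fintype.ofFinite _
  obtain ⟨-, hf1, hf2, hd⟩ := hglob U hU (inf_le_left.trans inf_le_right)
  obtain ⟨U', hU', hle, hz⟩ := T.exists_zero_perm hI hU hUχ hf1 hf2 hd
  have := LevelSys.finiteIndex hU'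
  let _ : Fintype (G ⧸ U') := Fintype.ofFinite _
  obtain ⟨hz2, hz1⟩ := T.zero_fun hle (hz).1 (hz).2 M
  -- the presentation
  set τ := funRep (G ⧸ U) (Representation.trivial k G M) with hτ
  set τ' := funRep (G ⧸ U') (Representation.trivial k G M) with hτ'
  have hτd : Discrete T.𝓛 τ := funRep_triv_discrete hU M
  have hτd' : Discrete T.𝓛 τ' := funRep_triv_discrete hU' M
  have hp : Equivar τ' τ (pushMap hle M) := pushMap_equivar hle M
  have hi : Equivar τ ρ (indMap ρ U) := indMap_equivar hUt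
  have hπ : Equivar τ' ρ (indMap ρ U ∘ₗ pushMap hle M) := hi.comp hp
  have hs : Function.Surjective (indMap ρ U ∘ₗ pushMap hle M) :=
    (indMap_surjective hUt).comp (pushMap_surjective hle)
  have hses := ses_ker (𝓛 := T.𝓛) hτd' hπ hs
  obtain ⟨hfd, ⟨e⟩⟩ := T.snake hI.recip hses (hI.rightExact _ _ _ _ _ hπ hτd' hs)
    (T.locInj hI hρ) (T.locInj hI hτd') (T.exactX hI hτd') (T.exactX hI hses.discA)
  have hker : T.sha1 (dualT T.χ ρ) ⊓ LinearMap.ker (H1coef T.𝓛
      (LinearMap.dualMap (indMap ρ U ∘ₗ pushMap hle M)) (hses.eqg.dualMap (χ := T.χ))) =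
      T.sha1 (dualT T.χ ρ) := by
    refine inf_eq_left.2 fun z hz => ?_
    rw [LinearMap.mem_ker]
    have h1 : Equivar (dualT T.χ τ) (dualT T.χ τ') (LinearMap.dualMap (pushMap hle M)) :=
      Equivar.dualMap hp
    have h2 : Equivar (dualT T.χ ρ) (dualT T.χ τ) (LinearMap.dualMap (indMap ρ U)) :=
      Equivar.dualMap hi
    rw [H1coef_congr _ (h1.comp h2) (by rfl), H1coef_comp h1 h2]
    exact hz1 _ (T.sha1_coef h2 hz)
  have htop : T.annSha ρ τ' (indMap ρ U ∘ₗ pushMap hle M) hses.eqg = ⊤ := by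
    rw [eq_top_iff]
    intro f _ z hz
    have h3 : (⟨H2coef T.𝓛 (indMap ρ U ∘ₗ pushMap hle M) hses.eqg z,
        T.sha2_coef hses.eqg hz⟩ : ↥(T.sha2 ρ)) = 0 := by
      apply Subtype.ext
      show H2coef T.𝓛 (indMap ρ U ∘ₗ pushMap hle M) hses.eqg z = 0
      rw [H2coef_comp hi hp, hz2 z hz, map_zero]
    rw [h3, map_zero]
  rw [hker] at e
  rw [htop] at e hfd
  have e' : ↥(T.sha1 (dualT T.χ ρ)) ≃ₗ[k] Dual k ↥(T.sha2 ρ) := e.trans Submodule.topEquiv
  have hfd' : FiniteDimensional k (Dual k ↥(T.sha2 ρ)) :=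
    Module.Finite.equiv (Submodule.topEquiv (R := k) (M := Dual k ↥(T.sha2 ρ)))
  exact ⟨(Module.finite_dual_iff k).1 hfd', ⟨e'⟩⟩

/-- **S55 for `PlaceData`**. -/
theorem shaPairing' (hI : T.Inputs) {M : Type} [AddCommGroup M] [Module k M]
    [FiniteDimensional k M] {ρ : Representation k G M} (hρ : Discrete T.𝓛 ρ) :
    T.ShaPairing ρ := by
  obtain ⟨hfd, ⟨e⟩⟩ := T.shaPairing hI hρ
  refine ⟨e.toLinearMap, fun y hy => ?_, fun x hx => ?_⟩
  · apply e.injective
    rw [map_zero]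
    exact LinearMap.ext hy
  · rw [← Module.forall_dual_apply_eq_zero_iff k]
    intro f
    obtain ⟨y, rfl⟩ := e.surjective f
    exact hx y

end PlaceData

end Fermat.Agent.PT
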