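import Fermat.Agent.PT.ShaU
import Fermat.Agent.PT.Chase
import Fermat.Agent.CFT.Local.Frozen

/-!
# S55 from the global inputs
-/

set_option autoImplicit false

noncomputable section

namespace Fermat.Agent.PT.Frozen

open scoped NumberField
open Fermat.Agent.PT Fermat.Agent.CFT Fermat.Agent.CFT.SKummer Fermat.Agent.CFT.Bridge
  Fermat.Agent.Frob Fermat.Agent.Minkowski ExtCitation groupCohomology

variable {p : ℕ} [hp : Fact p.Prime] {S : Finset Nat.Primes}

/-- All the inputs of the formal duality theorem. -/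
theorem inputs_of (hp2 : p ≠ 2) (hpS : pPrime p ∈ S)
    (inv : ∀ v : ↥S, PT.H2 (rLevels (primeLocalToGlobal v.1))
      ((chiRep (cycloChar p)).comp (primeLocalToGlobal v.1)) →ₗ[ZMod p] ZMod p)
    (hrecip : (placeData S hpS inv).Recip) (hinv : ∀ v, inv v ≠ 0)
    (hL : ∀ (K : IntermediateField ℚ Qbar) [NumberField K], K ≤ Omega S →
      (∃ ζ : K, IsPrimitiveRoot ζ p) → LiftS p S K)
    (hC : ∀ (K : IntermediateField ℚ Qbar) [NumberField K], K ≤ Omega S →
      (∃ ζ : K, IsPrimitiveRoot ζ p) → (placeData S hpS inv).CodimLeOne K.fixingSubgroup) :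
    (placeData S hpS inv).Inputs where
  rightExact := rightExact_of_liftS hp2 hpS hL
  rightExact_loc v := CFTLocal.rightExact_rLevels hp2 v.1
  recip := hrecip
  inv_ne_zero := hinv
  loc_dim v := CFTLocal.loc_dim_rLevels hp2 v.1
  glob := by
    refine ⟨(cycloChar p).ker, ker_cycloChar_mem hpS, fun U hU hU' => ?_⟩
    obtain ⟨K, hKn, hK, rfl, ζ, hζ⟩ := exists_field hU hU'
    exact ⟨hC K hK ⟨ζ, hζ⟩, finrank_shaU2_le hpS inv hp2 hK hζ⟩

/-- **S55 from the inputs.** -/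
theorem s55_of_inputs (hp2 : p ≠ 2) (hpS : pPrime p ∈ S)
    (inv : ∀ v : ↥S, PT.H2 (rLevels (primeLocalToGlobal v.1))
      ((chiRep (cycloChar p)).comp (primeLocalToGlobal v.1)) →ₗ[ZMod p] ZMod p)
    (hI : (placeData S hpS inv).Inputs) (M : Rep (ZMod p) Γ) [FiniteDimensional (ZMod p) M]
    (hsm : ∀ m : M, ∃ F : IntermediateField ℚ (AlgebraicClosure ℚ), FiniteDimensional ℚ F ∧
      ∀ s ∈ F.fixingSubgroup, M.ρ s m = m)
    (hMur : ∀ q : Nat.Primes, q ∉ S → ∀ A : ValuationSubring (AlgebraicClosure ℚ),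
      A.LiesOverPrime (q : ℕ) → ∀ g ∈ A.inertiaSubgroupIn ℚ, M.ρ g = 1) :
    ∃ B : sha₁ S (M.dualTwist (cycloChar p)) →ₗ[ZMod p] sha₂ S M →ₗ[ZMod p] ZMod p,
      (∀ y, (∀ x, B y x = 0) → y = 0) ∧ (∀ x, (∀ y, B y x = 0) → x = 0) := by
  have hd := discrete_of_unramified M hsm hMur
  obtain ⟨B, h1, h2⟩ := (placeData S hpS inv).shaPairing' hI hd
  let e1 := sha1Equiv hpS inv hp2 (M.dualTwist (cycloChar p))
  let e2 := sha2Equiv hpS inv hp2 M
  refine ⟨(LinearMap.compl₂ B e2.toLinearMap).comp e1.symm.toLinearMap, fun y hy => ?_,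
    fun x hx => ?_⟩
  · have h3 : e1.symm y = 0 := h1 _ fun x => by
      have := hy (e2.symm x)
      simpa using this
    exact (LinearEquiv.map_eq_zero_iff e1.symm).1 h3
  · have h3 : e2 x = 0 := h2 _ fun y => by
      have := hx (e1 y)
      simpa using this
    exact (LinearEquiv.map_eq_zero_iff e2).1 h3

end Fermat.Agent.PT.Frozen
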