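import Fermat.Agent.PT.GlobalData
import Fermat.Agent.CFT.SKummer.FinalLift

/-!
# Right exactness of `H²(G_S, -)` on finite `𝔽_p`-modules
-/

set_option autoImplicit false

noncomputable section

namespace Fermat.Agent.PT.Frozen

open Fermat.Agent.PT Fermat.Agent.CFT Fermat.Agent.CFT.SKummer Fermat.Agent.CFT.Bridge
open Fermat.Agent.Frob Fermat.Agent.Minkowski ExtCitation

variable {p : ℕ} [hp : Fact p.Prime] {S : Finset Nat.Primes}

theorem liftS_holds {K : IntermediateField ℚ Qbar} [FiniteDimensional ℚ K] (hp2 : p ≠ 2)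
    (hpS : pPrime p ∈ S) (hK : K ≤ Omega S) {ζ : K} (hζ : IsPrimitiveRoot ζ p) : LiftS p S K :=
  fun x hx => liftS hp2 hpS hK hζ x hx

/-- **Right exactness** of `H²(G_S, -)`. -/
theorem rightExact_global (hp2 : p ≠ 2) (hpS : pPrime p ∈ S) :
    PlaceData.RightExact (ZMod p) (sLevels S) :=
  rightExact_of_liftS hp2 hpS fun _ _ hK ⟨_, hζ⟩ => liftS_holds hp2 hpS hK hζ

theorem globData {K : IntermediateField ℚ Qbar} [NumberField K] (hp2 : p ≠ 2)
    (hpS : pPrime p ∈ S) (hK : K ≤ Omega S) {ζ : K} (hζ : IsPrimitiveRoot ζ p) :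
    GlobData S K p :=
  globData_of_liftS hp2 hζ (liftS_holds hp2 hpS hK hζ)

end Fermat.Agent.PT.Frozen
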