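import Fermat.Agent.PT.KLevel
import Fermat.Agent.PT.FinalS55
import Fermat.Agent.PT.GlobalRight
import Fermat.Agent.CFT.Global.RecipFinal

/-!
# All the inputs of the duality theorem hold for the concrete place data
-/

set_option autoImplicit false

namespace Fermat.Agent.PT.Frozen

open Fermat.Agent.PT Fermat.Agent.CFT Fermat.Agent.CFT.SKummer Fermat.Agent.CFT.Bridge
open Fermat.Agent.Frob Fermat.Agent.Minkowski ExtCitation

variable {p : ℕ} [hp : Fact p.Prime]

/-- All the inputs, from reciprocity. -/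
theorem inputs_of_recip {S : Finset Nat.Primes} (hp2 : p ≠ 2) (hpS : pPrime p ∈ S)
    (inv : ∀ v : ↥S, PT.H2 (rLevels (primeLocalToGlobal v.1))
      ((chiRep (cycloChar p)).comp (primeLocalToGlobal v.1)) →ₗ[ZMod p] ZMod p)
    (hrecip : (placeData S hpS inv).Recip) (hinv : ∀ v, inv v ≠ 0) :
    (placeData S hpS inv).Inputs :=
  inputs_of hp2 hpS inv hrecip hinv (fun _ _ hK ⟨_, hζ⟩ => liftS_holds hp2 hpS hK hζ)
    (fun _ _ hK ⟨_, hζ⟩ => codimLeOne hpS inv hp2 hζ (liftS_holds hp2 hpS hK hζ))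

/-- **The inputs hold**, with local invariants independent of `S`. -/
theorem exists_inputs_all (hp2 : p ≠ 2) :
    ∃ inv : ∀ v : Nat.Primes, PT.H2 (rLevels (primeLocalToGlobal v))
      ((chiRep (cycloChar p)).comp (primeLocalToGlobal v)) →ₗ[ZMod p] ZMod p,
      (∀ v, inv v ≠ 0) ∧ ∀ (S : Finset Nat.Primes) (hpS : pPrime p ∈ S),
        (placeData S hpS (fun v => inv v.1)).Inputs := by
  obtain ⟨inv, h1, h2⟩ := Fermat.Agent.CFT.Global.exists_inv_recip (p := p) hp2
  exact ⟨inv, h1, fun S hpS => inputs_of_recip hp2 hpS _ (h2 S hpS) fun v => h1 v.1⟩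

end Fermat.Agent.PT.Frozen
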