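import Fermat.Agent.PT.Mackey1

/-!
# Local duality `H²(D, M) ≅ Hom_D(M, μ)^*` from right exactness and `dim H² ≤ 1`
-/

set_option autoImplicit false

namespace Fermat.Agent.PT

open Module

section Sum

variable {k : Type*} [CommRing k] {G : Type*} [Group G] {𝓛 : LevelSys G}
variable {M : Type*} [AddCommGroup M] [Module k M] {ρ : Representation k G M}
variable {N : Type*} [AddCommGroup N] [Module k N] {σ : Representation k G N}

lemma Equivar.sum {ι : Type*} (s : Finset ι) {f : ι → M →ₗ[k] N} (hf : ∀ i, Equivar ρ σ (f i)) :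
    Equivar ρ σ (∑ i ∈ s, f i) := fun g m => by
  rw [LinearMap.sum_apply, LinearMap.sum_apply, map_sum]
  exact Finset.sum_congr rfl fun i _ => hf i g m

lemma H2coef_sum {ι : Type*} (s : Finset ι) (f : ι → M →ₗ[k] N)
    (hf : ∀ i, Equivar ρ σ (f i)) (x : H2 𝓛 ρ) :
    H2coef 𝓛 (∑ i ∈ s, f i) (Equivar.sum s hf) x = ∑ i ∈ s, H2coef 𝓛 (f i) (hf i) x := by
  obtain ⟨y, rfl⟩ := H2mk_surjective x
  have h1 : ∀ i, H2coef 𝓛 (f i) (hf i) (H2mk 𝓛 ρ y) =
    H2mk 𝓛 σ (Z2map (MonoidHom.id G) LevelSys.compat_id (f i) (hf i) y) := fun _ => rfl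
  simp_rw [h1]
  rw [← map_sum, H2map_mk]
  congr 1
  apply Subtype.ext
  funext p
  rw [Z2map_apply, LinearMap.sum_apply]
  rw [AddSubmonoidClass.coe_finsetSum, Finset.sum_apply]
  rfl

lemma H1coef_sum {ι : Type*} (s : Finset ι) (f : ι → M →ₗ[k] N)
    (hf : ∀ i, Equivar ρ σ (f i)) (x : H1 𝓛 ρ) :
    H1coef 𝓛 (∑ i ∈ s, f i) (Equivar.sum s hf) x = ∑ i ∈ s, H1coef 𝓛 (f i) (hf i) x := by
  obtain ⟨y, rfl⟩ := H1mk_surjective x
  have h1 : ∀ i, H1coef 𝓛 (f i) (hf i) (H1mk 𝓛 ρ y) =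
    H1mk 𝓛 σ (Z1map (MonoidHom.id G) LevelSys.compat_id (f i) (hf i) y) := fun _ => rfl
  simp_rw [h1]
  rw [← map_sum, H1map_mk]
  congr 1
  apply Subtype.ext
  funext p
  rw [Z1map_apply, LinearMap.sum_apply]
  rw [AddSubmonoidClass.coe_finsetSum, Finset.sum_apply]
  rfl

end Sum

section Coord

variable {k : Type*} [Field k] {G : Type*} [Group G] {𝓛 : LevelSys G}
variable (X : Type*) [MulAction G X]
variable (V₀ : Type*) [AddCommGroup V₀] [Module k V₀]

/-- coordinate embedding `(X → k) → (X → V₀)`, `f ↦ f • e`. -/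
def embV {V₀ : Type*} [AddCommGroup V₀] [Module k V₀] (e : V₀) : (X → k) →ₗ[k] (X → V₀) :=
  (LinearMap.toSpanSingleton k V₀ e).compLeft X

/-- coordinate projection `(X → V₀) → (X → k)`. -/
def prV {V₀ : Type*} [AddCommGroup V₀] [Module k V₀] (φ : V₀ →ₗ[k] k) : (X → V₀) →ₗ[k] (X → k) :=
  φ.compLeft X

variable {X V₀}

@[simp] lemma embV_apply (e : V₀) (f : X → k) (x : X) : embV X e f x = f x • e := rfl
@[simp] lemma prV_apply (φ : V₀ →ₗ[k] k) (f : X → V₀) (x : X) : prV X φ f x = φ (f x) := rfl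

lemma embV_equivar (e : V₀) : Equivar (funRep X (trivRep k G))
    (funRep X (Representation.trivial k G V₀)) (embV X e) := fun _ _ => rfl

lemma prV_equivar (φ : V₀ →ₗ[k] k) : Equivar (funRep X (Representation.trivial k G V₀))
    (funRep X (trivRep k G)) (prV X φ) := fun _ _ => rfl

lemma sum_embV_prV {ι : Type*} [Fintype ι] (b : Basis ι k V₀) :
    ∑ i, embV X (b i) ∘ₗ prV X (b.coord i) = LinearMap.id := by
  refine LinearMap.ext fun f => funext fun x => ?_
  rw [LinearMap.sum_apply, Finset.sum_apply]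
  exact b.sum_repr (f x)

/-- A class of `H²(Fun(X, V₀))` is zero if all its coordinates are. -/
lemma H2_eq_zero_of_coord {ι : Type*} [Fintype ι] (b : Basis ι k V₀)
    (z : H2 𝓛 (funRep X (Representation.trivial k G V₀)))
    (hz : ∀ i, H2coef 𝓛 (prV X (b.coord i)) (prV_equivar _) z = 0) : z = 0 := by
  have h1 : Equivar (funRep X (Representation.trivial k G V₀))
    (funRep X (Representation.trivial k G V₀)) (LinearMap.id : (X → V₀) →ₗ[k] (X → V₀)) :=
    fun _ _ => rfl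
  have h2 : ∀ i, Equivar (funRep X (Representation.trivial k G V₀))
      (funRep X (Representation.trivial k G V₀)) (embV X (b i) ∘ₗ prV X (b.coord i)) :=
    fun i => (embV_equivar (G := G) (b i)).comp (prV_equivar (G := G) (b.coord i))
  rw [← H2coef_id h1 z, H2coef_congr h1 (Equivar.sum Finset.univ h2) (sum_embV_prV b).symm,
    H2coef_sum _ _ h2]
  refine Finset.sum_eq_zero fun i _ => ?_
  rw [H2coef_comp (embV_equivar (G := G) (b i)) (prV_equivar (G := G) (b.coord i)), hz,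
    map_zero]

end Coord

section Ind

variable {k : Type*} [Field k] {G : Type*} [Group G] {𝓛 : LevelSys G}
variable {M : Type*} [AddCommGroup M] [Module k M] {ρ : Representation k G M}

/-- The canonical map `Fun(G/U, M) → M`, `f ↦ ∑ x, x • f x`, for `U` acting trivially on `M`. -/
noncomputable def indMap (ρ : Representation k G M) (U : Subgroup G) [Fintype (G ⧸ U)] :
    (G ⧸ U → M) →ₗ[k] M where
  toFun f := ∑ x, ρ x.out (f x)
  map_add' f f' := by simp only [Pi.add_apply, map_add, Finset.sum_add_distrib]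
  map_smul' r f := by simp only [Pi.smul_apply, map_smul, Finset.smul_sum, RingHom.id_apply]

lemma indMap_apply (U : Subgroup G) [Fintype (G ⧸ U)] (f : G ⧸ U → M) :
    indMap ρ U f = ∑ x, ρ x.out (f x) := rfl

lemma rho_out {U : Subgroup G} (hU : ∀ u ∈ U, ∀ m, ρ u m = m) (g : G) (m : M) :
    ρ (QuotientGroup.mk g : G ⧸ U).out m = ρ g m := by
  have h2 : ((QuotientGroup.mk g : G ⧸ U).out : G ⧸ U) = (g : G ⧸ U) := Quotient.out_eq' _
  have h3 : g⁻¹ * (QuotientGroup.mk g : G ⧸ U).out ∈ U := QuotientGroup.eq.1 h2.symm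
  have h4 : (QuotientGroup.mk g : G ⧸ U).out = g * (g⁻¹ * (QuotientGroup.mk g : G ⧸ U).out) := by
    group
  rw [h4, map_mul, Module.End.mul_apply, hU _ h3]

lemma indMap_equivar {U : Subgroup G} [Fintype (G ⧸ U)] (hU : ∀ u ∈ U, ∀ m, ρ u m = m) :
    Equivar (funRep (G ⧸ U) (Representation.trivial k G M)) ρ (indMap ρ U) := by
  intro g f
  rw [indMap_apply, indMap_apply, map_sum]
  refine Fintype.sum_equiv (MulAction.toPerm g⁻¹) _ _ (fun x => ?_)
  obtain ⟨a, rfl⟩ := QuotientGroup.mk_surjective x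
  show ρ (QuotientGroup.mk a : G ⧸ U).out (f (g⁻¹ • (QuotientGroup.mk a : G ⧸ U))) =
    ρ g (ρ (g⁻¹ • (QuotientGroup.mk a : G ⧸ U)).out (f (g⁻¹ • (QuotientGroup.mk a : G ⧸ U))))
  rw [rho_out hU, MulAction.Quotient.smul_mk, smul_eq_mul, rho_out hU, ← Module.End.mul_apply,
    ← map_mul, mul_inv_cancel_left]

lemma indMap_surjective {U : Subgroup G} [Fintype (G ⧸ U)] (hU : ∀ u ∈ U, ∀ m, ρ u m = m) :
    Function.Surjective (indMap ρ U) := by
  classical
  intro m
  refine ⟨Pi.single (QuotientGroup.mk 1) m, ?_⟩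
  rw [indMap_apply, Finset.sum_eq_single (QuotientGroup.mk 1)]
  · rw [Pi.single_eq_same, rho_out hU, map_one, Module.End.one_apply]
  · intro x _ hx
    rw [Pi.single_eq_of_ne hx, map_zero]
  · intro h; exact absurd (Finset.mem_univ _) h

lemma funRep_triv_discrete {U : Subgroup G} (hU : U ∈ 𝓛) (V₀ : Type*) [AddCommGroup V₀]
    [Module k V₀] : Discrete 𝓛 (funRep (G ⧸ U) (Representation.trivial k G V₀)) := by
  have := LevelSys.finiteIndex hU
  exact funRep_discrete (fun m => ⟨⊤, 𝓛.top_mem, fun _ _ => rfl⟩)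
    (fun x => stab_quotient_mem hU x)

end Ind

/-- A functional vanishing on the kernel of `R` factors through `R`. -/
lemma exists_factor {k : Type*} [Field k] {V₁ V₂ : Type*} [AddCommMonoid V₁] [Module k V₁]
    [AddCommMonoid V₂] [Module k V₂] (R : V₁ →ₗ[k] V₂) (t : V₁ →ₗ[k] k)
    (h : ∀ x, R x = 0 → t x = 0) : ∃ s : V₂ →ₗ[k] k, ∀ x, s (R x) = t x := by
  let _ : AddCommGroup V₁ := Module.addCommMonoidToAddCommGroup k
  let _ : AddCommGroup V₂ := Module.addCommMonoidToAddCommGroup k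
  have ht : t ∈ LinearMap.range R.dualMap := by
    rw [LinearMap.range_dualMap_eq_dualAnnihilator_ker R, Submodule.mem_dualAnnihilator]
    exact fun x hx => h x hx
  obtain ⟨s, hs⟩ := ht
  exact ⟨s, fun x => LinearMap.congr_fun hs x⟩

section Local

variable {k : Type} [Field k] {D : Type} [Group D] {𝓛 : LevelSys D} {χ : D →* kˣ}
variable (inv : H2 𝓛 (chiRep χ) →ₗ[k] k)
variable {M : Type} [AddCommGroup M] [Module k M] {ρ : Representation k D M}

/-- The pairing `Hom_D(M, μ) × H²(D, M) → k`. -/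
noncomputable def lpair (ρ : Representation k D M) : ↥(homG χ ρ) →ₗ[k] H2 𝓛 ρ →ₗ[k] k where
  toFun f := inv ∘ₗ H2coef 𝓛 f.1 (homG_equivar χ ρ f.2)
  map_add' f f' := by
    refine LinearMap.ext fun x => ?_
    obtain ⟨y, rfl⟩ := H2mk_surjective x
    rw [LinearMap.comp_apply, LinearMap.add_apply, LinearMap.comp_apply, LinearMap.comp_apply,
      ← map_add]
    rfl
  map_smul' c f := by
    refine LinearMap.ext fun x => ?_
    obtain ⟨y, rfl⟩ := H2mk_surjective x
    rw [LinearMap.comp_apply, LinearMap.smul_apply, LinearMap.comp_apply, ← map_smul]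
    rfl

lemma lpair_apply (f : ↥(homG χ ρ)) (x : H2 𝓛 ρ) :
    lpair inv ρ f x = inv (H2coef 𝓛 f.1 (homG_equivar χ ρ f.2) x) := rfl

variable {inv}

/-- Left nondegeneracy. -/
lemma lpair_injective (hRE : PlaceData.RightExact k 𝓛) (hinv : inv ≠ 0) [FiniteDimensional k M]
    (hρ : Discrete 𝓛 ρ) : Function.Injective (lpair inv ρ) := by
  rw [injective_iff_map_eq_zero]
  intro f hf
  by_contra hne
  have hf0 : f.1 ≠ 0 := fun h => hne (Subtype.ext h)
  have hs : Function.Surjective f.1 := LinearMap.surjective hf0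
  have h1 := hRE M k ρ (chiRep χ) f.1 (homG_equivar χ ρ f.2) hρ hs
  apply hinv
  refine LinearMap.ext fun x => ?_
  obtain ⟨y, rfl⟩ := h1 x
  exact LinearMap.congr_fun hf y

/-- The map `H²(D, M) → Hom_D(M, μ)^*` is surjective. -/
lemma lpair_flip_surjective (hRE : PlaceData.RightExact k 𝓛) (hinv : inv ≠ 0) [FiniteDimensional k M]
    (hρ : Discrete 𝓛 ρ) : Function.Surjective (lpair inv ρ).flip := by
  have h1 : FiniteDimensional k ↥(homG χ ρ) := FiniteDimensional.finiteDimensional_submodule _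
  exact (LinearMap.flip_surjective_iff₁ (B := lpair inv ρ)).2 (lpair_injective hRE hinv hρ)

/-- A nonzero element of `Hom_D(k[D/W], μ)`. -/
lemma exists_homG_perm {W : Subgroup D} (hW : W ∈ 𝓛) (hχ : W ≤ χ.ker) :
    ∃ f ∈ homG χ (permRep k W), f ≠ 0 := by
  classical
  have := LevelSys.finiteIndex hW
  let _ : Fintype (D ⧸ W) := Fintype.ofFinite _
  -- use `indMap` for the one-dimensional representation `μ`
  have hU : ∀ u ∈ W, ∀ m, chiRep χ u m = m := fun u hu m => by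
    rw [chiRep_apply, MonoidHom.mem_ker.1 (hχ hu), Units.val_one, one_mul]
  refine ⟨indMap (chiRep χ) W, fun g m => ?_, fun h0 => ?_⟩
  · exact indMap_equivar hU g m
  · obtain ⟨f, hf⟩ := indMap_surjective hU (1 : k)
    rw [h0] at hf
    exact zero_ne_one hf

/-- Injectivity for `k[D/W]`. -/
lemma loc_inj_perm (hRE : PlaceData.RightExact k 𝓛) (hinv : inv ≠ 0) {W : Subgroup D} (hW : W ∈ 𝓛)
    (hχ : W ≤ χ.ker) (hfd : FiniteDimensional k (H2 (𝓛.restrict W) (trivRep k ↥W)))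
    (hdim : finrank k (H2 (𝓛.restrict W) (trivRep k ↥W)) ≤ 1)
    (z : H2 𝓛 (permRep k W)) (hz : ∀ f : ↥(homG χ (permRep k W)), lpair inv _ f z = 0) :
    z = 0 := by
  have := LevelSys.finiteIndex hW
  obtain ⟨f, hf, hf0⟩ := exists_homG_perm (k := k) hW hχ
  have hne : lpair inv (permRep k W) ⟨f, hf⟩ ≠ 0 := by
    intro h0
    have h1 := lpair_injective hRE hinv (permRep_discrete hW) (h0.trans (map_zero _).symm)
    exact hf0 (congrArg Subtype.val h1)
  -- transport to `H²(W)`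
  let e : H2 𝓛 (permRep k W) ≃ₗ[k] H2 (𝓛.restrict W) (trivRep k ↥W) :=
    LinearEquiv.ofBijective (shU2 k 𝓛 W) ⟨shU2_injective k hW, shU2_surjective k hW⟩
  have hfd' : FiniteDimensional k (H2 𝓛 (permRep k W)) := LinearEquiv.finiteDimensional e.symm
  have hdim' : finrank k (H2 𝓛 (permRep k W)) ≤ 1 := by rwa [e.finrank_eq]
  by_contra hz0
  apply hne
  refine LinearMap.ext fun y => ?_
  obtain ⟨v, hv⟩ := finrank_le_one_iff.1 hdim'
  obtain ⟨c, hc⟩ := hv z
  obtain ⟨d, hd⟩ := hv y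
  have hc0 : c ≠ 0 := by
    rintro rfl
    exact hz0 (by rw [← hc, zero_smul])
  have h1 : y = (d * c⁻¹) • z := by
    rw [← hc, smul_smul, mul_assoc, inv_mul_cancel₀ hc0, mul_one, hd]
  rw [h1, map_smul, hz ⟨f, hf⟩, smul_zero]; rfl

/-- Injectivity for `Fun(D/W, V₀)`. -/
lemma loc_inj_fun (hRE : PlaceData.RightExact k 𝓛) (hinv : inv ≠ 0) {W : Subgroup D} (hW : W ∈ 𝓛)
    (hχ : W ≤ χ.ker) (hfd : FiniteDimensional k (H2 (𝓛.restrict W) (trivRep k ↥W)))
    (hdim : finrank k (H2 (𝓛.restrict W) (trivRep k ↥W)) ≤ 1)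
    {V₀ : Type} [AddCommGroup V₀] [Module k V₀] [FiniteDimensional k V₀]
    (z : H2 𝓛 (funRep (D ⧸ W) (Representation.trivial k D V₀)))
    (hz : ∀ f : ↥(homG χ (funRep (D ⧸ W) (Representation.trivial k D V₀))),
      lpair inv _ f z = 0) : z = 0 := by
  refine H2_eq_zero_of_coord (Module.finBasis k V₀) z fun i => ?_
  refine loc_inj_perm hRE hinv hW hχ hfd hdim _ fun f => ?_
  have h1 := hz ⟨f.1 ∘ₗ prV (D ⧸ W) ((Module.finBasis k V₀).coord i), fun g m => by
    rw [LinearMap.comp_apply, prV_equivar, f.2, LinearMap.comp_apply]⟩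
  rw [lpair_apply] at h1 ⊢
  rw [← h1]
  congr 1
  exact (H2coef_comp (homG_equivar χ _ f.2) (prV_equivar _) z).symm

/-- **Local duality**: the map `H²(D, M) → Hom_D(M, μ)^*` is injective. -/
theorem loc_inj (hRE : PlaceData.RightExact k 𝓛) (hinv : inv ≠ 0) (hχ : χ.ker ∈ 𝓛)
    (hdim : ∃ W₀ ∈ 𝓛, ∀ W ∈ 𝓛, W ≤ W₀ →
      FiniteDimensional k (H2 (𝓛.restrict W) (trivRep k ↥W)) ∧
      finrank k (H2 (𝓛.restrict W) (trivRep k ↥W)) ≤ 1)
    [FiniteDimensional k M] (hρ : Discrete 𝓛 ρ) (z : H2 𝓛 ρ)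
    (hz : ∀ f : ↥(homG χ ρ), lpair inv ρ f z = 0) : z = 0 := by
  obtain ⟨W₀, hW₀, hdim⟩ := hdim
  obtain ⟨U, hU, hUt⟩ := hρ.exists_trivial
  set W := U ⊓ W₀ ⊓ χ.ker with hWdef
  have hW : W ∈ 𝓛 := LevelSys.inf_mem (LevelSys.inf_mem hU hW₀) hχ
  have hWχ : W ≤ χ.ker := inf_le_right
  have hWt : ∀ g ∈ W, ∀ m, ρ g m = m := fun g hg => hUt g hg.1.1
  obtain ⟨hfd, hd⟩ := hdim W hW (inf_le_left.trans inf_le_right)
  have := LevelSys.finiteIndex hW
  let _ : Fintype (D ⧸ W) := Fintype.ofFinite _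
  set τ := funRep (D ⧸ W) (Representation.trivial k D M) with hτ
  have hτd : Discrete 𝓛 τ := funRep_triv_discrete hW M
  have hπ : Equivar τ ρ (indMap ρ W) := indMap_equivar hWt
  have hs : Function.Surjective (indMap ρ W) := indMap_surjective hWt
  have hses := ses_ker hτd hπ hs
  set σ := subRep τ (LinearMap.ker (indMap ρ W)) (ker_stable hπ) with hσ
  obtain ⟨y, rfl⟩ := hRE _ _ τ ρ (indMap ρ W) hπ hτd hs z
  -- the functional `t₀` on `Hom(P, μ)`
  let t₀ : Dual k ↥(homG χ τ) := (lpair inv τ).flip y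
  let R : ↥(homG χ τ) →ₗ[k] ↥(homG χ σ) :=
    { toFun := fun f => ⟨f.1 ∘ₗ (LinearMap.ker (indMap ρ W)).subtype, fun g m => by
        rw [LinearMap.comp_apply, hses.eqf, f.2, LinearMap.comp_apply]⟩
      map_add' := fun _ _ => rfl
      map_smul' := fun _ _ => rfl }
  obtain ⟨t, ht⟩ : ∃ t : ↥(homG χ σ) →ₗ[k] k, ∀ f, t (R f) = t₀ f := by
    refine exists_factor R t₀ fun f hf => ?_
    have hf0 : ∀ n ∈ LinearMap.ker (indMap ρ W), f.1 n = 0 := fun n hn => by
      have h1 : (R f).1 ⟨n, hn⟩ = 0 := by rw [hf]; rfl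
      exact h1
    obtain ⟨f', hf'⟩ : f.1 ∈ LinearMap.range (indMap ρ W).dualMap := by
      rw [LinearMap.range_dualMap_eq_dualAnnihilator_ker_of_surjective _ hs,
        Submodule.mem_dualAnnihilator]
      exact hf0
    have hfG : f' ∈ homG χ ρ := by
      intro g m
      obtain ⟨m, rfl⟩ := hs m
      have h2 : ∀ m, f' (indMap ρ W m) = f.1 m := fun m => LinearMap.congr_fun hf' m
      rw [← hπ, h2, h2, f.2]
    have h3 := hz ⟨f', hfG⟩
    rw [lpair_apply, ← H2coef_comp] at h3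
    show inv (H2coef 𝓛 f.1 _ y) = 0
    rw [← h3]
    congr 1
    exact H2coef_congr _ _ hf'.symm y
  obtain ⟨y₁, hy₁⟩ := lpair_flip_surjective hRE hinv (ρ := σ) hses.discA t
  have key : y = H2coef 𝓛 (LinearMap.ker (indMap ρ W)).subtype hses.eqf y₁ := by
    rw [← sub_eq_zero]
    refine loc_inj_fun hRE hinv hW hWχ hfd hd _ fun f => ?_
    rw [map_sub, sub_eq_zero]
    have h4 : lpair inv τ f y = t (R f) := (ht f).symm
    have h5 : lpair inv σ (R f) y₁ = t (R f) := LinearMap.congr_fun hy₁ (R f)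
    rw [h4, ← h5, lpair_apply, lpair_apply]
    congr 1
    exact (H2coef_comp (homG_equivar χ τ f.2) hses.eqf y₁).trans rfl
  rw [key, ← H2coef_comp]
  have h0 : Equivar σ ρ (0 : ↥(LinearMap.ker (indMap ρ W)) →ₗ[k] M) := fun g m => by simp
  rw [H2coef_congr _ h0 (by ext n; exact n.2), H2coef_zero]

end Local

end Fermat.Agent.PT
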