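import Fermat.Agent.PT.GlobalData
import Fermat.Agent.CFT.Global.ShaCount

/-!
# `dim Ш²(K) ≤ dim Ш¹(K)` for trivial coefficients, `K ∋ ζ_p`
-/

set_option autoImplicit false

noncomputable section

namespace Fermat.Agent.PT.Frozen

open scoped NumberField
open Fermat.Agent.PT Fermat.Agent.CFT Fermat.Agent.CFT.SKummer Fermat.Agent.CFT.Bridge
  Fermat.Agent.CFT.Global Fermat.Agent.CFT.Kum Fermat.Agent.Frob Fermat.Agent.Minkowski
  IsDedekindDomain ExtCitation NumberField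

variable {p : ℕ} [hp : Fact p.Prime] {S : Finset Nat.Primes} {K : IntermediateField ℚ Qbar}
  [NumberField K]

/-- The `p`-th roots of elements of the Selmer group are in `Omega S`. -/
lemma root_mem_Omega (hpS : pPrime p ∈ S) (hK : K ≤ Omega S) {x : Kˣ}
    (hx : ∀ v ∉ SKf S K, (p : ℤ) ∣ SUnits.ord v x) {z : Qbar} (hz : z ^ p = ((x : K) : Qbar)) :
    z ∈ Omega S := by
  refine mem_Omega_of_pow (p := pPrime p) hpS ?_ fun P => ?_
  · rw [pPrime_coe, hz]
    exact hK (x : K).2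
  · rw [pPrime_coe, hz, ← ord_below hK]
    exact hx _ (fun h => below_notMem_SK P (mem_SKf.1 h))

/-- Kummer characters of elements of the Selmer group are `S`-level constant. -/
lemma kumG_lc (hpS : pPrime p ∈ S) (hK : K ≤ Omega S) {ζ : K} (hζ : IsPrimitiveRoot ζ p)
    {x : Kˣ} (hx : ∀ v ∉ SKf S K, (p : ℤ) ∣ SUnits.ord v x) :
    LC1 (levS S K) (kumG hζ x).1 := by
  set z := rootF (kumOf K hζ) x with hz
  have hzp : ((z : Qbarˣ) : Qbar) ^ p = algebraMap K Qbar x := rootF_pow (kumOf K hζ) x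
  have hzO : ((z : Qbarˣ) : Qbar) ∈ Omega S := root_mem_Omega hpS hK hx hzp
  have hF : IntermediateField.adjoin ℚ {((z : Qbarˣ) : Qbar)} ≤ Omega S := by
    rw [IntermediateField.adjoin_le_iff]
    intro y hy
    rw [Set.mem_singleton_iff.1 hy]
    exact hzO
  have : FiniteDimensional ℚ (IntermediateField.adjoin ℚ {((z : Qbarˣ) : Qbar)}) :=
    IntermediateField.adjoin.finiteDimensional (Algebra.IsIntegral.isIntegral _)
  refine ⟨_, LevelSys.comap_mem_comap K.fixingSubgroup.subtype (fixingSubgroup_mem_sLevels hF),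
    fun g s hs => ?_⟩
  have h1 : (s : Γ) (z : Qbar) = z := by
    have h2 : (s : Γ) ∈ (IntermediateField.adjoin ℚ {((z : Qbarˣ) : Qbar)}).fixingSubgroup := hs
    rw [IntermediateField.mem_fixingSubgroup_iff] at h2
    exact h2 _ (IntermediateField.mem_adjoin_simple_self ℚ _)
  have h3 : (kumG hζ x).1 s = 0 := by
    have h4 := smul_eq_kumF (kumOf K hζ) (isFixed_fixingSubgroup K) hzp s
    have h5 : uact s z = z := Units.ext h1
    rw [h5] at h4
    have h6 : (kumOf K hζ).zp ((kumG hζ x).1 s) = 1 := by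
      have h7 := h4.symm
      rwa [mul_eq_right] at h7
    apply (kumOf K hζ).zp_injective
    rw [h6, KumSet.zp_zero]
  rw [Xp_mul, h3, add_zero]

/-- The Kummer map on `shaSel`. -/
def kumSha (hpS : pPrime p ∈ S) (hK : K ≤ Omega S) {ζ : K} (hζ : IsPrimitiveRoot ζ p) :
    ↥(shaSel p (SKf S K)) →* Multiplicative (PT.H1 (levS S K) (triv p K.fixingSubgroup)) where
  toFun x := Multiplicative.ofAdd (H1mk (levS S K) (triv p K.fixingSubgroup)
    ⟨(kumG hζ x.1).1, mem_Z1.2 ⟨kumG_lc hpS hK hζ x.2.2, fun g h => by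
      rw [Xp_mul, Representation.trivial_apply, add_comm]⟩⟩)
  map_one' := by
    apply Multiplicative.toAdd.injective
    rw [toAdd_one, toAdd_ofAdd]
    refine H1mk_eq_zero.2 ⟨0, fun g => ?_⟩
    have h1 : kumG hζ (1 : Kˣ) = 0 := by
      change (kumF (kumOf K hζ) (isFixed_fixingSubgroup K) 1).toAdd = 0
      rw [map_one, toAdd_one]
    show (kumG hζ (1 : Kˣ)).1 g = _
    rw [h1]
    simp
  map_mul' x y := by
    apply Multiplicative.toAdd.injective
    rw [toAdd_mul, toAdd_ofAdd, toAdd_ofAdd, toAdd_ofAdd, ← map_add]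
    congr 1
    apply Subtype.ext
    have h1 : kumG hζ (x.1 * y.1) = kumG hζ x.1 + kumG hζ y.1 := by
      change (kumF (kumOf K hζ) (isFixed_fixingSubgroup K) (x.1 * y.1)).toAdd = _
      rw [map_mul, toAdd_mul]
    show (kumG hζ (x.1 * y.1)).1 = (kumG hζ x.1).1 + (kumG hζ y.1).1
    rw [h1]
    rfl

lemma kumSha_toAdd (hpS : pPrime p ∈ S) (hK : K ≤ Omega S) {ζ : K} (hζ : IsPrimitiveRoot ζ p)
    (x : ↥(shaSel p (SKf S K))) : (kumSha hpS hK hζ x).toAdd =
    H1mk (levS S K) (triv p K.fixingSubgroup)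
    ⟨(kumG hζ x.1).1, mem_Z1.2 ⟨kumG_lc hpS hK hζ x.2.2, fun g h => by
      rw [Xp_mul, Representation.trivial_apply, add_comm]⟩⟩ := rfl

lemma kumSha_eq_one_iff (hpS : pPrime p ∈ S) (hK : K ≤ Omega S) {ζ : K}
    (hζ : IsPrimitiveRoot ζ p) (x : ↥(shaSel p (SKf S K))) :
    kumSha hpS hK hζ x = 1 ↔ ∃ b : Kˣ, b ^ p = x.1 := by
  rw [← kumF_eq_one_iff (kumOf K hζ) (isFixed_fixingSubgroup K)]
  constructor
  · intro h
    have h1 := congrArg Multiplicative.toAdd h
    rw [kumSha_toAdd, toAdd_one, H1mk_eq_zero] at h1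
    obtain ⟨m, hm⟩ := h1
    apply Multiplicative.toAdd.injective
    apply Subtype.ext
    funext g
    have h2 := hm g
    rw [Representation.trivial_apply, sub_self] at h2
    exact h2
  · intro h
    apply Multiplicative.toAdd.injective
    rw [kumSha_toAdd, toAdd_one, H1mk_eq_zero]
    refine ⟨0, fun g => ?_⟩
    have h1 : kumG hζ x.1 = 0 := congrArg Multiplicative.toAdd h
    show (kumG hζ x.1).1 g = _
    rw [h1]
    simp

/-- Kummer characters of local `p`-th powers are locally trivial. -/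
lemma kumG_jw_eq_zero {ζ : K} (hζ : IsPrimitiveRoot ζ p) {x : Kˣ} {q : ℕ} [hq : Fact q.Prime]
    {g : Γ} (hx : x ∈ locPow p (placeOf (emb K q g)))
    (d : (locField (emb K q g)).fixingSubgroup) : (kumG hζ x).1 (jw K q g d) = 0 := by
  have h1 := pull_kumF (kumOf K hζ) (isFixed_fixingSubgroup K)
    (kumOf (locField (emb K q g)) (primitiveRoot_toLoc K q g hζ))
    (isFixed_fixingSubgroup (locField (emb K q g))) (jw K q g) (compat_jw K q g)
    (embBar q g).toRingHom (toLoc (emb K q g)).toRingHom (embBar_jw K q g) (fun _ => rfl) rfl x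
  have h2 : kumF (kumOf (locField (emb K q g)) (primitiveRoot_toLoc K q g hζ))
      (isFixed_fixingSubgroup (locField (emb K q g)))
      (Units.map (toLoc (emb K q g)).toRingHom.toMonoidHom x) = 1 := by
    rw [kumF_eq_one_iff, ← exists_unit_pow_iff]
    exact (mem_locPow_placeOf_iff hp.out.ne_zero _ _).1 hx
  rw [h2, toAdd_one] at h1
  exact congrFun (congrArg Subtype.val h1) d

section Abs

variable {k G : Type} [Field k] [Group G] (T : PlaceData k G)

lemma locU1_mk_eq_zero {U : Subgroup G} {v : T.V} {g : G}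
    (c : ↥(Z1 (T.𝓛.restrict U) (trivRep k ↥U))) (h : ∀ d, c.1 (T.locHom U v g d) = 0) :
    T.locU1 U v g (H1mk (T.𝓛.restrict U) (trivRep k ↥U) c) = 0 := by
  refine H1mk_eq_zero.2 ⟨0, fun d => ?_⟩
  rw [map_zero, sub_zero]
  exact h d

lemma locU2_mk_eq_zero {U : Subgroup G} {v : T.V} {g : G}
    (c : ↥(Z2 (T.𝓛.restrict U) (trivRep k ↥U)))
    (h : T.locU2 U v g (H2mk (T.𝓛.restrict U) (trivRep k ↥U) c) = 0) :
    ∃ e : ↥(T.locSub U v g) → k, LC1 ((T.𝓛v v).restrict (T.locSub U v g)) e ∧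
      ∀ a b, c.1 (T.locHom U v g a, T.locHom U v g b) = e b - e (a * b) + e a :=
  H2mk_eq_zero.1 h

end Abs

section T

variable (hpS : pPrime p ∈ S)
    (inv : ∀ v : ↥S, PT.H2 (rLevels (primeLocalToGlobal v.1))
      ((chiRep (cycloChar p)).comp (primeLocalToGlobal v.1)) →ₗ[ZMod p] ZMod p)

omit [NumberField K] in
lemma mem_locSub_iff (v : ↥S) (g : Γ) (d : primeLocalGaloisGroup v.1) :
    d ∈ (placeData S hpS inv).locSub K.fixingSubgroup v g ↔
      g⁻¹ * (primeLocalToGlobal v.1 d) * g ∈ K.fixingSubgroup :=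
  PlaceData.mem_locSub (placeData S hpS inv)

omit [NumberField K] in
lemma mem_locField_iff (v : Nat.Primes) (g : Γ) (d : primeLocalGaloisGroup v) :
    (letI : Fact ((v : ℕ).Prime) := ⟨v.2⟩
    (d : PadicAlgCl (v : ℕ) ≃ₐ[ℚ_[(v : ℕ)]] PadicAlgCl (v : ℕ)) ∈
      (locField (emb K (v : ℕ) g)).fixingSubgroup) ↔
      g⁻¹ * (primeLocalToGlobal v d) * g ∈ K.fixingSubgroup :=
  letI : Fact ((v : ℕ).Prime) := ⟨v.2⟩
  mem_fixing_locField_emb_iff K (v : ℕ)

omit [NumberField K] in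
lemma locHom_eq (v : ↥S) (g : Γ)
    (d : ↥((placeData S hpS inv).locSub K.fixingSubgroup v g)) :
    (letI : Fact ((v.1 : ℕ).Prime) := ⟨v.1.2⟩
    (placeData S hpS inv).locHom K.fixingSubgroup v g d = jw K (v.1 : ℕ) g
      ⟨(d.1 : primeLocalGaloisGroup v.1),
        (mem_locField_iff v.1 g d.1).2 ((mem_locSub_iff hpS inv v g d.1).1 d.2)⟩) :=
  Subtype.ext rfl

/-- Kummer classes of `shaSel` are in `Ш¹`. -/
lemma kumSha_mem (hK : K ≤ Omega S) {ζ : K} (hζ : IsPrimitiveRoot ζ p)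
    (x : ↥(shaSel p (SKf S K))) :
    (kumSha hpS hK hζ x).toAdd ∈ (placeData S hpS inv).shaU1 K.fixingSubgroup := by
  rw [PlaceData.mem_shaU1]
  intro v g
  rw [kumSha_toAdd]
  refine locU1_mk_eq_zero (placeData S hpS inv) _ fun d => ?_
  have : Fact ((v.1 : ℕ).Prime) := ⟨v.1.2⟩
  have hx : x.1 ∈ locPow p (placeOf (emb K (v.1 : ℕ) g)) :=
    x.2.1 _ (placeOf_emb_mem_SKf.2 v.2)
  have h1 := kumG_jw_eq_zero hζ hx ⟨(d.1 : primeLocalGaloisGroup v.1),
        (mem_locField_iff v.1 g d.1).2 ((mem_locSub_iff hpS inv v g d.1).1 d.2)⟩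
  rw [locHom_eq]
  exact h1

omit [NumberField K] in
/-- Restriction at the places of `S` : comparison of `locU2` and `resW`. -/
lemma resW_mk_eq_zero_of (q : ℕ) [Fact q.Prime] (g : Γ)
    (c : ↥(Z2 (levS S K) (triv p K.fixingSubgroup)))
    (D : Subgroup (PadicAlgCl q ≃ₐ[ℚ_[q]] PadicAlgCl q))
    (hD : ∀ d, d ∈ (locField (emb K q g)).fixingSubgroup → d ∈ D) (e : ↥D → ZMod p)
    (he : LC1 ((rLevels (localGaloisToGlobal q)).restrict D) e)
    (hce : ∀ a b : (locField (emb K q g)).fixingSubgroup, c.1 (jw K q g a, jw K q g b) =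
      e ⟨b.1, hD _ b.2⟩ - e (⟨a.1, hD _ a.2⟩ * ⟨b.1, hD _ b.2⟩) + e ⟨a.1, hD _ a.2⟩) :
    resW K q g (Formal.infl2 (levS_le_lev (S := S) (K := K))
      (triv p K.fixingSubgroup) (H2mk (levS S K) (triv p K.fixingSubgroup) c)) = 0 := by
  refine H2mk_eq_zero.2 ⟨fun d => e ⟨d.1, hD d.1 d.2⟩, ?_, fun a b => hce a b⟩
  obtain ⟨V, ⟨W, hW, hWV⟩, h⟩ := he
  have hW' : W ∈ galLevels ℚ_[q] (PadicAlgCl q) := by
    rw [← comap_localGaloisToGlobal_galLevels]
    exact hW
  refine ⟨_, LevelSys.comap_mem_comap _ hW', fun a s hs => ?_⟩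
  exact h ⟨a.1, hD a.1 a.2⟩ ⟨s.1, hD s.1 s.2⟩ (hWV hs)


omit [NumberField K] in
lemma resW_mk_eq_zero_of_locU2 (v : ↥S) (g : Γ)
    (c : ↥(Z2 (levS S K) (triv p K.fixingSubgroup)))
    (hx : (placeData S hpS inv).locU2 K.fixingSubgroup v g
      (H2mk (levS S K) (triv p K.fixingSubgroup) c) = 0) :
    (letI : Fact ((v.1 : ℕ).Prime) := ⟨v.1.2⟩
    resW K (v.1 : ℕ) g (Formal.infl2 (levS_le_lev (S := S) (K := K))
      (triv p K.fixingSubgroup) (H2mk (levS S K) (triv p K.fixingSubgroup) c))) = 0 :=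
  letI : Fact ((v.1 : ℕ).Prime) := ⟨v.1.2⟩
  have h1 := locU2_mk_eq_zero (placeData S hpS inv) c hx
  resW_mk_eq_zero_of (v.1 : ℕ) g c ((placeData S hpS inv).locSub K.fixingSubgroup v g)
    (fun d h => (mem_locSub_iff hpS inv v g d).2 ((mem_locField_iff v.1 g d).1 h))
    h1.choose h1.choose_spec.1
    (fun a b => h1.choose_spec.2
      ⟨a.1, (mem_locSub_iff hpS inv v g a.1).2 ((mem_locField_iff v.1 g a.1).1 a.2)⟩
      ⟨b.1, (mem_locSub_iff hpS inv v g b.1).2 ((mem_locField_iff v.1 g b.1).1 b.2)⟩)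

/-- `Ш²` dies in `H²(G_K)`. -/
theorem shaU2_le_ker (hp2 : p ≠ 2) {ζ : K} (hζ : IsPrimitiveRoot ζ p) :
    (placeData S hpS inv).shaU2 K.fixingSubgroup ≤
      LinearMap.ker (Formal.infl2 (levS_le_lev (S := S) (K := K)) (triv p K.fixingSubgroup)) := by
  intro x hx
  rw [PlaceData.mem_shaU2] at hx
  rw [LinearMap.mem_ker]
  refine hasse_principle hp2 (locH2 hp2) K hζ _ fun q hq g => ?_
  by_cases hqS : (⟨q, hq.out⟩ : Nat.Primes) ∈ S
  · obtain ⟨c, rfl⟩ := H2mk_surjective x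
    exact resW_mk_eq_zero_of_locU2 hpS inv ⟨⟨q, hq.out⟩, hqS⟩ g c (hx _ g)
  · exact resW_infl2 x q hqS g

/-- **The dimension inequality.** -/
theorem finrank_shaU2_le (hp2 : p ≠ 2) (hK : K ≤ Omega S) {ζ : K} (hζ : IsPrimitiveRoot ζ p) :
    FiniteDimensional (ZMod p) ↥((placeData S hpS inv).shaU1 K.fixingSubgroup) ∧
    FiniteDimensional (ZMod p) ↥((placeData S hpS inv).shaU2 K.fixingSubgroup) ∧
    Module.finrank (ZMod p) ↥((placeData S hpS inv).shaU2 K.fixingSubgroup) ≤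
      Module.finrank (ZMod p) ↥((placeData S hpS inv).shaU1 K.fixingSubgroup) := by
  have hm := SUnits.finrank_eq_two_mul (n := p)
    (lt_of_le_of_ne hp.out.two_le (Ne.symm hp2)) hζ
  -- finiteness of `H¹`
  have hc1 := card_H1_levS (p := pPrime p) hp2 hK hpS hζ hm
  have hH1 : Finite (PT.H1 (levS S K) (triv p K.fixingSubgroup)) :=
    Nat.finite_of_card_ne_zero (by
      have h1 : Nat.card (PT.H1 (levS S K) (triv p K.fixingSubgroup)) = _ := hc1
      rw [h1]
      exact mul_ne_zero (pow_ne_zero _ hp.out.ne_zero) clIdx_ne_zero)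
  have hS1 : Finite ↥((placeData S hpS inv).shaU1 K.fixingSubgroup) :=
    Finite.of_injective (fun x => (x.1 : PT.H1 (levS S K) (triv p K.fixingSubgroup)))
      (fun x y h => Subtype.ext h)
  have hfd1 : FiniteDimensional (ZMod p) ↥((placeData S hpS inv).shaU1 K.fixingSubgroup) :=
    Module.Finite.of_finite
  -- `Ш²`
  have hker : Nat.card ↥(LinearMap.ker (Formal.infl2 (levS_le_lev (S := S) (K := K))
      (triv p K.fixingSubgroup))) = clIdx S K p := card_ker_infl (p := pPrime p) hK hpS hζ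
  have hfk : Finite ↥(LinearMap.ker (Formal.infl2 (levS_le_lev (S := S) (K := K))
      (triv p K.fixingSubgroup))) := Nat.finite_of_card_ne_zero (by
    rw [hker]; exact clIdx_ne_zero (p := pPrime p))
  have hle := shaU2_le_ker (K := K) hpS inv hp2 hζ
  have hS2 : Finite ↥((placeData S hpS inv).shaU2 K.fixingSubgroup) :=
    Finite.of_injective (Submodule.inclusion hle) (Submodule.inclusion_injective hle)
  have hfd2 : FiniteDimensional (ZMod p) ↥((placeData S hpS inv).shaU2 K.fixingSubgroup) :=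
    Module.Finite.of_finite
  refine ⟨hfd1, hfd2, ?_⟩
  have h2 : Nat.card ↥((placeData S hpS inv).shaU2 K.fixingSubgroup) ≤ clIdx S K p := by
    rw [← hker]
    exact Nat.card_le_card_of_injective _ (Submodule.inclusion_injective hle)
  -- the Kummer map
  let Φ := kumSha (K := K) hpS hK hζ
  have hΦker : Φ.ker = ((powMonoidHom p : Kˣ →* Kˣ).range).subgroupOf (shaSel p (SKf S K)) := by
    ext x
    rw [MonoidHom.mem_ker, kumSha_eq_one_iff, Subgroup.mem_subgroupOf]
    rfl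
  have hΦfin : Finite Φ.range := inferInstance
  have hΦc : Nat.card Φ.range =
      (powMonoidHom p : Kˣ →* Kˣ).range.relIndex (shaSel p (SKf S K)) := by
    rw [← Subgroup.index_ker, hΦker]
    rfl
  have hrel0 : (powMonoidHom p : Kˣ →* Kˣ).range.relIndex (shaSel p (SKf S K)) ≠ 0 := by
    rw [← hΦc]
    exact Nat.card_pos.ne'
  obtain ⟨c, hc, hr⟩ := exists_reciprocity hp2 hζ
  have In : Inputs p := inputs_of_locH2 hp2 (locH2 hp2)
  have h3 := clIndex_le_relIndex In (symG hp2 hζ) hζ c hc (fun a x => by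
    rw [← invVec_cupX hp2 hζ]
    exact (hr _).1 ⟨_, rfl⟩) (SKf S K) (fun v hv => mem_SKf.2 ⟨pPrime p, hpS, hv⟩) hrel0
  have h4 : clIdx S K p ≤
      (powMonoidHom p : Kˣ →* Kˣ).range.relIndex (shaSel p (SKf S K)) := by
    have h5 : ∀ T : Set (HeightOneSpectrum (𝓞 K)), T = SK S K →
        (powMonoidHom p : (ClassGroup (𝓞 K) ⧸ SUnits.classSubgroup T) →* _).range.index =
          clIdx S K p := by
      rintro _ rfl
      rfl
    rw [← h5 _ coe_SKf]
    exact h3
  have h5 : Nat.card Φ.range ≤ Nat.card ↥((placeData S hpS inv).shaU1 K.fixingSubgroup) := by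
    refine Nat.card_le_card_of_injective
      (fun y : Φ.range => (⟨y.1.toAdd, ?_⟩ : ↥((placeData S hpS inv).shaU1 K.fixingSubgroup))) ?_
    · obtain ⟨y, x, rfl⟩ := y
      exact kumSha_mem hpS inv hK hζ x
    · intro y y' h
      apply Subtype.ext
      apply Multiplicative.toAdd.injective
      exact congrArg (fun z : ↥((placeData S hpS inv).shaU1 K.fixingSubgroup) => z.1) h
  have h6 := h2.trans (h4.trans (hΦc ▸ h5))
  rw [Module.natCard_eq_pow_finrank (K := ZMod p), Nat.card_zmod,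
    Module.natCard_eq_pow_finrank (K := ZMod p), Nat.card_zmod] at h6
  exact (Nat.pow_le_pow_iff_right hp.out.one_lt).1 h6

end T

end Fermat.Agent.PT.Frozen
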