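import Fermat.Agent.CFT.SKummer.Count
import Fermat.Agent.CFT.SClass
import Fermat.Agent.PT.RightExact
import Fermat.Agent.PT.Frozen
import Fermat.Agent.PT.Setting
import Fermat.Agent.CFT.Bridge.GlobPlace

/-!
# The Euler characteristic of `G_{K,S}` and right exactness of `H²(G_{ℚ,S}, -)`
-/

set_option autoImplicit false

noncomputable section

namespace Fermat.Agent.PT.Frozen

open scoped NumberField
open Fermat.Agent.PT Fermat.Agent.CFT Fermat.Agent.CFT.SKummer Fermat.Agent.CFT.Bridge
  Fermat.Agent.Frob Fermat.Agent.Minkowski IsDedekindDomain ExtCitation NumberField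

/-! ### Linear algebra -/

section LinAlg

variable {p : ℕ} [hp : Fact p.Prime]

lemma finrank_of_card {V : Type*} [AddCommGroup V] [Module (ZMod p) V] {n : ℕ}
    (h : Nat.card V = p ^ n) : Module.Finite (ZMod p) V ∧ Module.finrank (ZMod p) V = n := by
  have : Finite V := Nat.finite_of_card_ne_zero (by
    rw [h]; exact pow_ne_zero _ hp.out.ne_zero)
  have h1 : Module.Finite (ZMod p) V := Module.Finite.of_finite
  refine ⟨h1, ?_⟩
  have h2 := Module.natCard_eq_pow_finrank (K := ZMod p) (V := V)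
  rw [h, Nat.card_zmod] at h2
  exact (Nat.pow_right_injective hp.out.two_le h2).symm

lemma finrank_supported {k : Type*} [Field k] {I V : Type*} [AddCommGroup V] [Module k V]
    (L : V →ₗ[k] (I →₀ k)) (hL : Function.Injective L) (c : I → k) (hc : ∀ v, c v ≠ 0)
    (hr : ∀ t : I →₀ k, (∃ x, L x = t) ↔ t.sum (fun v n => c v * n) = 0)
    (T : Finset I) (hT : T.Nonempty) (R : Submodule k V)
    (hR : ∀ x, x ∈ R ↔ ∀ v ∉ T, L x v = 0) :
    Module.Finite k R ∧ Module.finrank k R + 1 = T.card := by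
  classical
  let Φ : R →ₗ[k] (T → k) :=
    { toFun := fun x v => L x.1 v.1
      map_add' := fun x y => by funext v; simp
      map_smul' := fun a x => by funext v; simp }
  have hΦi : Function.Injective Φ := by
    rw [← LinearMap.ker_eq_bot, LinearMap.ker_eq_bot']
    intro x hx
    apply Subtype.ext
    apply hL
    rw [Submodule.coe_zero, map_zero]
    ext v
    by_cases hv : v ∈ T
    · exact congrFun hx ⟨v, hv⟩
    · rw [(hR x.1).1 x.2 v hv]; rfl
  let φ : (T → k) →ₗ[k] k := ∑ v : T, c v.1 • LinearMap.proj v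
  have hφ : ∀ f, φ f = ∑ v : T, c v.1 * f v := fun f => by simp [φ]
  have hrange : LinearMap.range Φ = LinearMap.ker φ := by
    ext f
    rw [LinearMap.mem_range, LinearMap.mem_ker, hφ]
    have hsum : ∀ t : I →₀ k, (∀ v ∉ T, t v = 0) →
        t.sum (fun v n => c v * n) = ∑ v : T, c v.1 * t v.1 := by
      intro t ht
      rw [Finset.sum_coe_sort T (fun v => c v * t v)]
      refine Finsupp.sum_of_support_subset t (fun v hv => ?_) _ (fun v _ => mul_zero _)
      by_contra hv'
      exact (Finsupp.mem_support_iff.1 hv) (ht v hv')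
    constructor
    · rintro ⟨x, rfl⟩
      rw [← (hr (L x.1)).1 ⟨_, rfl⟩, hsum _ ((hR x.1).1 x.2)]
      rfl
    · intro hf
      let t : I →₀ k := Finsupp.onFinset T (fun v => if h : v ∈ T then f ⟨v, h⟩ else 0) (by
        intro v hv
        by_contra h
        exact hv (by rw [dif_neg h]))
      have ht : ∀ v ∉ T, t v = 0 := fun v hv => by
        simp [t, hv]
      have ht' : ∀ v : T, t v.1 = f v := fun v => by
        simp [t]
      obtain ⟨x, hx⟩ := (hr t).2 (by
        rw [hsum t ht, ← hf]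
        exact Finset.sum_congr rfl fun v _ => by rw [ht'])
      refine ⟨⟨x, (hR x).2 fun v hv => by rw [hx]; exact ht v hv⟩, ?_⟩
      funext v
      show L x v.1 = f v
      rw [hx, ht']
  have hfin : Module.Finite k R := Module.Finite.of_injective Φ hΦi
  refine ⟨hfin, ?_⟩
  have h1 : Module.finrank k R = Module.finrank k (LinearMap.ker φ) := by
    rw [← hrange]
    exact (LinearEquiv.ofInjective Φ hΦi).finrank_eq
  have h2 : LinearMap.range φ = ⊤ := by
    obtain ⟨v, hv⟩ := hT
    refine LinearMap.range_eq_top.2 fun a => ⟨Pi.single ⟨v, hv⟩ ((c v)⁻¹ * a), ?_⟩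
    rw [hφ, Finset.sum_eq_single ⟨v, hv⟩]
    · rw [Pi.single_eq_same, mul_inv_cancel_left₀ (hc v)]
    · intro w _ hw
      rw [Pi.single_eq_of_ne hw, mul_zero]
    · intro h
      exact absurd (Finset.mem_univ _) h
  have h3 := LinearMap.finrank_range_add_finrank_ker φ
  rw [h2, _root_.finrank_top, Module.finrank_self, Module.finrank_fintype_fun_eq_card, Fintype.card_coe] at h3
  omega

end LinAlg

section H1count

variable {S : Finset Nat.Primes} {K : IntermediateField ℚ Qbar} [NumberField K]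

lemma finite_SK : (SK S K).Finite := by
  have h1 : SK S K ⊆ ⋃ q ∈ S, {v : HeightOneSpectrum (𝓞 K) | ((q : ℕ) : 𝓞 K) ∈ v.asIdeal} := by
    rintro v ⟨q, hq, hv⟩
    exact Set.mem_biUnion hq hv
  refine Set.Finite.subset (S.finite_toSet.biUnion fun q _ => ?_) h1
  have h1 : Ideal.span {((q : ℕ) : 𝓞 K)} ≠ ⊥ := by
    rw [Ne, Ideal.span_singleton_eq_bot]
    exact Nat.cast_ne_zero.mpr q.2.ne_zero
  have h2 := Ideal.finite_factors h1
  refine h2.subset fun v hv => ?_
  simpa [Ideal.dvd_span_singleton] using hv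

/-- The places above `S`. -/
def SKf (S : Finset Nat.Primes) (K : IntermediateField ℚ Qbar) [NumberField K] :
    Finset (HeightOneSpectrum (𝓞 K)) := (finite_SK (S := S) (K := K)).toFinset

lemma coe_SKf : (SKf S K : Set (HeightOneSpectrum (𝓞 K))) = SK S K := by
  simp [SKf]

lemma mem_SKf {v : HeightOneSpectrum (𝓞 K)} : v ∈ SKf S K ↔ v ∈ SK S K := by
  simp [SKf]

/-- order of `Cl_S(K) / p`. -/
def clIdx (S : Finset Nat.Primes) (K : IntermediateField ℚ Qbar) [NumberField K] (p : ℕ) : ℕ :=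
  (powMonoidHom p : (ClassGroup (𝓞 K) ⧸ SUnits.classSubgroup (SK S K)) →* _).range.index

variable {p : Nat.Primes}

theorem card_H1_levS (hp2 : (p : ℕ) ≠ 2) (hK : K ≤ Omega S) (hpS : p ∈ S) {ζ : K}
    (hζ : IsPrimitiveRoot ζ (p : ℕ)) {m : ℕ} (hm : Module.finrank ℚ K = 2 * m) :
    Nat.card (PT.H1 (levS S K) (triv (p : ℕ) K.fixingSubgroup)) =
      (p : ℕ) ^ (m + (SKf S K).card) * clIdx S K p := by
  rw [card_H1 hK hpS hζ, SUnits.relIndex_selS _ p.2.ne_zero, SUnits.card_ker_pow_clS, clIdx]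
  congr 1
  have h1 : ∀ T : Set (HeightOneSpectrum (𝓞 K)), T = (SKf S K : Set (HeightOneSpectrum (𝓞 K))) →
      (powMonoidHom (p : ℕ) : T.unit K →* T.unit K).range.index =
        (p : ℕ) ^ (Units.rank K + 1 + (SKf S K).card) := by
    rintro _ rfl
    exact SUnits.index_pow_sunits_of_isPrimitiveRoot (SKf S K) p.2.ne_zero hζ
  have h2 := SUnits.finrank_eq_two_mul (n := p) (lt_of_le_of_ne p.2.two_le (Ne.symm hp2)) hζ
  have h3 : Units.rank K + 1 = m := by omega
  rw [h1 _ coe_SKf.symm, h3]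

lemma clIdx_ne_zero : clIdx S K p ≠ 0 := Subgroup.FiniteIndex.index_ne_zero

local instance : Fact ((p : ℕ).Prime) := ⟨p.2⟩

lemma finrank_invariants_triv {k G : Type*} [Field k] [Group G] :
    Module.finrank k (Representation.trivial k G k).invariants = 1 := by
  have h : (Representation.trivial k G k).invariants = ⊤ := by
    ext x
    simp
  rw [h, _root_.finrank_top, Module.finrank_self]

/-- **The Euler characteristic of `G_{K,S}`.** -/
theorem hfin_chi_levS (hp2 : (p : ℕ) ≠ 2) (hK : K ≤ Omega S) (hpS : p ∈ S) {ζ : K}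
    (hζ : IsPrimitiveRoot ζ (p : ℕ)) {m : ℕ} (hm : Module.finrank ℚ K = 2 * m)
    (L : PT.H2 (lev K) (triv (p : ℕ) K.fixingSubgroup) →ₗ[ZMod p]
      (HeightOneSpectrum (𝓞 K) →₀ ZMod p)) (hL : Function.Injective L)
    (c : HeightOneSpectrum (𝓞 K) → ZMod p) (hc : ∀ v, c v ≠ 0)
    (hr : ∀ t : HeightOneSpectrum (𝓞 K) →₀ ZMod p, (∃ x, L x = t) ↔
      t.sum (fun v n => c v * n) = 0)
    (hT : (SKf S K).Nonempty)
    (hR : ∀ x, x ∈ LinearMap.range (Formal.infl2 (levS_le_lev (S := S) (K := K))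
      (triv (p : ℕ) K.fixingSubgroup)) ↔ ∀ v ∉ SKf S K, L x v = 0) :
    HFin (levS S K) (triv (p : ℕ) K.fixingSubgroup) ∧
      chi (levS S K) (triv (p : ℕ) K.fixingSubgroup) = -(m : ℤ) := by
  set f := Formal.infl2 (levS_le_lev (S := S) (K := K)) (triv (p : ℕ) K.fixingSubgroup) with hf
  obtain ⟨hR1, hR2⟩ := finrank_supported L hL c hc hr (SKf S K) hT (LinearMap.range f) hR
  have hker := card_ker_infl hK hpS hζ
  change Nat.card ↥(LinearMap.ker f) = clIdx S K p at hker
  have h1 : Finite ↥(LinearMap.ker f) := Nat.finite_of_card_ne_zero (by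
    rw [hker]; exact clIdx_ne_zero)
  have h2 : Module.Finite (ZMod p) ↥(LinearMap.ker f) := Module.Finite.of_finite
  have h3 := Module.natCard_eq_pow_finrank (K := ZMod p) (V := ↥(LinearMap.ker f))
  rw [hker, Nat.card_zmod] at h3
  have h4 := card_H1_levS hp2 hK hpS hζ hm
  rw [h3, ← pow_add] at h4
  obtain ⟨h5, h6⟩ := finrank_of_card h4
  have h7 : Module.Finite (ZMod p) (PT.H2 (levS S K) (triv (p : ℕ) K.fixingSubgroup) ⧸
      LinearMap.ker f) := Module.Finite.equiv f.quotKerEquivRange.symm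
  have h8 : Module.Finite (ZMod p) (PT.H2 (levS S K) (triv (p : ℕ) K.fixingSubgroup)) :=
    Module.Finite.of_submodule_quotient (LinearMap.ker f)
  have h9 := LinearMap.finrank_range_add_finrank_ker f
  have h10 : Module.Finite (ZMod p) (triv (p : ℕ) K.fixingSubgroup).invariants := inferInstance
  refine ⟨⟨h10, h5, h8⟩, ?_⟩
  rw [chi, finrank_invariants_triv, h6, ← h9]
  push_cast
  omega

variable (S K) in
/-- What is needed from class field theory about `H²(G_K, μ_p)`. -/
def GlobData (p : ℕ) : Prop :=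
  ∃ (L : PT.H2 (lev K) (triv p K.fixingSubgroup) →ₗ[ZMod p] (HeightOneSpectrum (𝓞 K) →₀ ZMod p))
    (c : HeightOneSpectrum (𝓞 K) → ZMod p), Function.Injective L ∧ (∀ v, c v ≠ 0) ∧
    (∀ t : HeightOneSpectrum (𝓞 K) →₀ ZMod p, (∃ x, L x = t) ↔
      t.sum (fun v n => c v * n) = 0) ∧
    (∀ x, x ∈ LinearMap.range (Formal.infl2 (levS_le_lev (S := S) (K := K))
      (triv p K.fixingSubgroup)) ↔ ∀ v ∉ SKf S K, L x v = 0)

lemma SKf_nonempty {q : Nat.Primes} (hq : q ∈ S) : (SKf S K).Nonempty := by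
  have : Fact (q : ℕ).Prime := ⟨q.2⟩
  exact ⟨placeOf (emb K q 1), mem_SKf.2 ⟨q, hq, q_mem_placeOf _⟩⟩

end H1count

section final

variable {p : ℕ} [hp : Fact p.Prime] {S : Finset Nat.Primes}

/-- Every `S`-level below the kernel of the cyclotomic character comes from a field. -/
lemma exists_field {U : Subgroup Γ} (hU : U ∈ sLevels S) (hU' : U ≤ (cycloChar p).ker) :
    ∃ K : IntermediateField ℚ Qbar, NumberField K ∧ K ≤ Omega S ∧ K.fixingSubgroup = U ∧
      ∃ ζ : K, IsPrimitiveRoot ζ p := by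
  have h1 := sLevels_le hU
  have h2 := fixedField_finite_of_mem h1
  have h3 := fixingSubgroup_fixedField_of_mem h1
  refine ⟨IntermediateField.fixedField U, ⟨⟩, ?_, h3, ?_⟩
  · obtain ⟨F, hF, hFU⟩ := hU
    have h4 : IntermediateField.fixedField U ≤ F := by
      have h5 := IntermediateField.fixedField_antitone hFU
      rwa [InfiniteGalois.fixedField_fixingSubgroup] at h5
    exact h4.trans (le_Omega hF)
  · obtain ⟨ζ, hζ⟩ := exists_primitive p
    have h4 : ζ ∈ IntermediateField.fixedField U := by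
      rw [IntermediateField.mem_fixedField_iff]
      intro g hg
      exact (cycloChar_eq_one_iff hζ g).1 (hU' hg)
    refine ⟨⟨ζ, h4⟩, ?_⟩
    have h5 : Function.Injective (IntermediateField.fixedField U).val :=
      (IntermediateField.fixedField U).val.injective
    exact IsPrimitiveRoot.of_map_of_injective (f := (IntermediateField.fixedField U).val) hζ h5

/-- **Right exactness of `H²(G_S, -)`.** -/
theorem rightExact_sLevels (hp2 : p ≠ 2) (hpS : pPrime p ∈ S)
    (H : ∀ (K : IntermediateField ℚ Qbar) [NumberField K], K ≤ Omega S →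
      (∃ ζ : K, IsPrimitiveRoot ζ p) → GlobData S K p) : PlaceData.RightExact (ZMod p) (sLevels S) := by
  have key : ∀ U ∈ sLevels S, U ≤ (cycloChar p).ker →
      HFin ((sLevels S).restrict U) ((trivRep (ZMod p) Γ).comp U.subtype) ∧
      2 * chi ((sLevels S).restrict U) ((trivRep (ZMod p) Γ).comp U.subtype) = -(U.index : ℤ) := by
    intro U hU hU'
    obtain ⟨K, hKn, hK, rfl, ζ, hζ⟩ := exists_field hU hU'
    obtain ⟨L, c, hL, hc, hr, hR⟩ := H K hK ⟨ζ, hζ⟩
    have hm := SUnits.finrank_eq_two_mul (n := p)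
      (lt_of_le_of_ne hp.out.two_le (Ne.symm hp2)) hζ
    obtain ⟨h1, h2⟩ := hfin_chi_levS (p := pPrime p) hp2 hK hpS hζ hm L hL c hc hr
      (SKf_nonempty hpS) hR
    refine ⟨h1, ?_⟩
    have h3 : K.fixingSubgroup.index = Module.finrank ℚ K := by
      rw [← IntermediateField.finrank_eq_fixingSubgroup_index]
    rw [h3, hm]
    have h4 : chi ((sLevels S).restrict K.fixingSubgroup)
      ((trivRep (ZMod p) Γ).comp K.fixingSubgroup.subtype) = _ := h2
    rw [h4]
    push_cast
    ring
  intro M N _ _ _ _ _ ρ σ f hf hρ hfs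
  refine rightExact (cycloChar p).ker (ker_cycloChar_mem hpS) ?_ (trivRep (ZMod p) Γ)
    (fun _ _ _ => rfl) (fun U hU hU' => (key U hU hU').1) ?_ ρ hρ σ f hf hfs
  · exact ((Nat.Prime.coprime_iff_not_dvd hp.out).2 index_ker_cycloChar).symm
  · intro U hU V hV hVU hU'
    have h1 := (key U hU hU').2
    have h2 := (key V hV (hVU.trans hU')).2
    have h3 : V.relIndex U * U.index = V.index := Subgroup.relIndex_mul_index hVU
    have h4 : ((V.relIndex U : ℤ)) * U.index = V.index := by exact_mod_cast h3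
    rw [← h4] at h2
    nlinarith

end final

end Fermat.Agent.PT.Frozen
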