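import Fermat.Agent.PT.Exact

/-!
# Cup products `H¹ × H¹ → H²` for level-constant cohomology
-/

set_option autoImplicit false

namespace Fermat.Agent.PT

section Cup

variable {k : Type*} [CommRing k] {G : Type*} [Group G] {𝓛 : LevelSys G}
variable {M : Type*} [AddCommGroup M] [Module k M] {ρ : Representation k G M}
variable {N : Type*} [AddCommGroup N] [Module k N] {σ : Representation k G N}
variable {P : Type*} [AddCommGroup P] [Module k P] {τ : Representation k G P}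

variable (ρ σ τ) in
/-- An equivariant bilinear map. -/
def Bilin (B : M →ₗ[k] N →ₗ[k] P) : Prop := ∀ g m n, B (ρ g m) (σ g n) = τ g (B m n)

/-- Cup product of cocycles. -/
def cupZ (hσ : Discrete 𝓛 σ) (B : M →ₗ[k] N →ₗ[k] P) (hB : Bilin ρ σ τ B)
    (a : ↥(Z1 𝓛 ρ)) (b : ↥(Z1 𝓛 σ)) : ↥(Z2 𝓛 τ) :=
  ⟨fun p => B (a.1 p.1) (σ p.1 (b.1 p.2)),
    ((a.2.1.fst).prodMk (b.2.1.act hσ)).comp (fun q => B q.1 q.2), fun g h j => by
      show B (a.1 (g * h)) (σ (g * h) (b.1 j)) + B (a.1 g) (σ g (b.1 h)) =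
        τ g (B (a.1 h) (σ h (b.1 j))) + B (a.1 g) (σ g (b.1 (h * j)))
      rw [a.2.2, b.2.2, ← hB]
      simp only [map_add, map_mul, Module.End.mul_apply, LinearMap.add_apply]
      abel⟩

@[simp] lemma cupZ_apply (hσ : Discrete 𝓛 σ) (B : M →ₗ[k] N →ₗ[k] P) (hB : Bilin ρ σ τ B)
    (a : ↥(Z1 𝓛 ρ)) (b : ↥(Z1 𝓛 σ)) (p : G × G) :
    (cupZ hσ B hB a b).1 p = B (a.1 p.1) (σ p.1 (b.1 p.2)) := rfl

/-- cup product with a fixed cocycle, as a map on `H¹`. -/
def cupAux (hσ : Discrete 𝓛 σ) (B : M →ₗ[k] N →ₗ[k] P) (hB : Bilin ρ σ τ B)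
    (a : ↥(Z1 𝓛 ρ)) : H1 𝓛 σ →ₗ[k] H2 𝓛 τ :=
  Submodule.liftQ _
    { toFun := fun b => H2mk 𝓛 τ (cupZ hσ B hB a b)
      map_add' := fun b b' => by
        rw [← map_add]
        congr 1
        apply Subtype.ext
        funext p
        simp
      map_smul' := fun r b => by
        rw [RingHom.id_apply, ← map_smul]
        congr 1
        apply Subtype.ext
        funext p
        simp }
    (by
      rintro ⟨b, hb⟩ ⟨n, hn⟩
      have hn' : ∀ s, b s = σ s n - n := fun s => (congrFun hn s).symm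
      rw [LinearMap.mem_ker, LinearMap.coe_mk, AddHom.coe_mk, H2mk_eq_zero]
      have hlc : LC1 𝓛 (fun g => σ g n) := by
        obtain ⟨U, hU, h⟩ := hσ n
        refine ⟨U, hU, fun g s hs => ?_⟩
        show σ (g * s) n = σ g n
        rw [map_mul, Module.End.mul_apply, h s hs]
      refine ⟨fun g => -(B (a.1 g) (σ g n)),
        ((a.2.1.prodMk hlc).comp (fun q => -(B q.1 q.2))), fun g h => ?_⟩
      show B (a.1 g) (σ g (b h)) = τ g (-(B (a.1 h) (σ h n))) - -(B (a.1 (g * h)) (σ (g * h) n)) +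
        -(B (a.1 g) (σ g n))
      rw [hn', a.2.2, map_neg, ← hB g (a.1 h)]
      simp only [map_sub, map_add, map_mul, Module.End.mul_apply, LinearMap.add_apply]
      abel)

/-- The cup product `H¹ × H¹ → H²`. -/
def cup11 (hσ : Discrete 𝓛 σ) (B : M →ₗ[k] N →ₗ[k] P) (hB : Bilin ρ σ τ B) :
    H1 𝓛 ρ →ₗ[k] H1 𝓛 σ →ₗ[k] H2 𝓛 τ :=
  Submodule.liftQ _
    { toFun := fun a => cupAux hσ B hB a
      map_add' := fun a a' => by
        apply LinearMap.ext
        intro y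
        obtain ⟨b, rfl⟩ := H1mk_surjective y
        show H2mk 𝓛 τ (cupZ hσ B hB (a + a') b) =
          H2mk 𝓛 τ (cupZ hσ B hB a b) + H2mk 𝓛 τ (cupZ hσ B hB a' b)
        rw [← map_add]
        congr 1
        apply Subtype.ext
        funext p
        simp
      map_smul' := fun r a => by
        apply LinearMap.ext
        intro y
        obtain ⟨b, rfl⟩ := H1mk_surjective y
        show H2mk 𝓛 τ (cupZ hσ B hB (r • a) b) = r • H2mk 𝓛 τ (cupZ hσ B hB a b)
        rw [← map_smul]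
        congr 1
        apply Subtype.ext
        funext p
        simp }
    (by
      rintro ⟨a, ha⟩ ⟨m, hm⟩
      have hm' : ∀ s, a s = ρ s m - m := fun s => (congrFun hm s).symm
      rw [LinearMap.mem_ker, LinearMap.coe_mk, AddHom.coe_mk]
      apply LinearMap.ext
      intro y
      obtain ⟨b, rfl⟩ := H1mk_surjective y
      show H2mk 𝓛 τ (cupZ hσ B hB ⟨a, ha⟩ b) = 0
      rw [H2mk_eq_zero]
      refine ⟨fun g => B m (b.1 g), b.2.1.comp (fun x => B m x), fun g h => ?_⟩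
      show B (a g) (σ g (b.1 h)) = τ g (B m (b.1 h)) - B m (b.1 (g * h)) + B m (b.1 g)
      rw [hm', b.2.2, ← hB g m]
      simp only [map_sub, map_add, LinearMap.sub_apply]
      abel)

@[simp] lemma cup11_mk (hσ : Discrete 𝓛 σ) (B : M →ₗ[k] N →ₗ[k] P) (hB : Bilin ρ σ τ B)
    (a : ↥(Z1 𝓛 ρ)) (b : ↥(Z1 𝓛 σ)) :
    cup11 hσ B hB (H1mk 𝓛 ρ a) (H1mk 𝓛 σ b) = H2mk 𝓛 τ (cupZ hσ B hB a b) := rfl

end Cup

section Natural

variable {k : Type*} [CommRing k] {G : Type*} [Group G] {𝓛 : LevelSys G}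
variable {H : Type*} [Group H] {𝓛' : LevelSys H}
variable {M : Type*} [AddCommGroup M] [Module k M] {ρ : Representation k G M}
variable {N : Type*} [AddCommGroup N] [Module k N] {σ : Representation k G N}
variable {P : Type*} [AddCommGroup P] [Module k P] {τ : Representation k G P}
variable {M' : Type*} [AddCommGroup M'] [Module k M'] {ρ' : Representation k H M'}
variable {N' : Type*} [AddCommGroup N'] [Module k N'] {σ' : Representation k H N'}
variable {P' : Type*} [AddCommGroup P'] [Module k P'] {τ' : Representation k H P'}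

/-- Naturality of the cup product for compatible pairs. -/
lemma cup11_natural (hσ : Discrete 𝓛 σ) (B : M →ₗ[k] N →ₗ[k] P) (hB : Bilin ρ σ τ B)
    (hσ' : Discrete 𝓛' σ') (B' : M' →ₗ[k] N' →ₗ[k] P') (hB' : Bilin ρ' σ' τ' B')
    (u : H →* G) (hu : 𝓛.Compat u 𝓛')
    (m : M →ₗ[k] M') (hm : ∀ h x, m (ρ (u h) x) = ρ' h (m x))
    (n : N →ₗ[k] N') (hn : ∀ h x, n (σ (u h) x) = σ' h (n x))
    (p : P →ₗ[k] P') (hp : ∀ h x, p (τ (u h) x) = τ' h (p x))
    (h : ∀ x y, p (B x y) = B' (m x) (n y)) (x : H1 𝓛 ρ) (y : H1 𝓛 σ) :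
    H2map u hu p hp (cup11 hσ B hB x y) =
      cup11 hσ' B' hB' (H1map u hu m hm x) (H1map u hu n hn y) := by
  obtain ⟨a, rfl⟩ := H1mk_surjective x
  obtain ⟨b, rfl⟩ := H1mk_surjective y
  simp only [cup11_mk, H2map_mk, H1map_mk]
  congr 1
  apply Subtype.ext
  funext q
  simp [h, hn]

/-- Adjointness of the cup product for a change of coefficients. -/
lemma cup11_adjoint {ρ' : Representation k G M'} {σ' : Representation k G N'}
    (hσ : Discrete 𝓛 σ) (B : M →ₗ[k] N →ₗ[k] P) (hB : Bilin ρ σ τ B)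
    (hσ' : Discrete 𝓛 σ') (B' : M' →ₗ[k] N' →ₗ[k] P) (hB' : Bilin ρ' σ' τ B')
    (f : M →ₗ[k] M') (hf : Equivar ρ ρ' f) (f' : N' →ₗ[k] N) (hf' : Equivar σ' σ f')
    (h : ∀ x y, B' (f x) y = B x (f' y)) (x : H1 𝓛 ρ) (y : H1 𝓛 σ') :
    cup11 hσ' B' hB' (H1coef 𝓛 f hf x) y = cup11 hσ B hB x (H1coef 𝓛 f' hf' y) := by
  obtain ⟨a, rfl⟩ := H1mk_surjective x
  obtain ⟨b, rfl⟩ := H1mk_surjective y
  show H2mk 𝓛 τ (cupZ hσ' B' hB' (Z1map (MonoidHom.id G) LevelSys.compat_id f hf a) b) =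
    H2mk 𝓛 τ (cupZ hσ B hB a (Z1map (MonoidHom.id G) LevelSys.compat_id f' hf' b))
  congr 1
  apply Subtype.ext
  funext q
  show B' (f (a.1 q.1)) (σ' q.1 (b.1 q.2)) = B (a.1 q.1) (σ q.1 (f' (b.1 q.2)))
  rw [h, hf']

end Natural

section Delta

variable {k : Type*} [CommRing k] {G : Type*} [Group G] {𝓛 : LevelSys G}
variable {A : Type*} [AddCommGroup A] [Module k A] {ρA : Representation k G A}
variable {B : Type*} [AddCommGroup B] [Module k B] {ρB : Representation k G B}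
variable {C : Type*} [AddCommGroup C] [Module k C] {ρC : Representation k G C}
variable {A' : Type*} [AddCommGroup A'] [Module k A'] {ρA' : Representation k G A'}
variable {B' : Type*} [AddCommGroup B'] [Module k B'] {ρB' : Representation k G B'}
variable {C' : Type*} [AddCommGroup C'] [Module k C'] {ρC' : Representation k G C'}
variable {P : Type*} [AddCommGroup P] [Module k P] {τ : Representation k G P}

/-- Compatibility of the cup product with the connecting maps: for `0 → A → B → C → 0` and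
`0 → C' → B' → A' → 0` in duality with values in `P`, `z ∈ H⁰(A')`, `y ∈ H¹(C)` :
`(δ⁰ z) ∪ y = - z_* (δ¹ y)`. -/
lemma cup11_delta0 {f : A →ₗ[k] B} {g : B →ₗ[k] C} (h : SES 𝓛 ρA ρB ρC f g)
    {f' : C' →ₗ[k] B'} {g' : B' →ₗ[k] A'} (h' : SES 𝓛 ρC' ρB' ρA' f' g')
    (hC : Discrete 𝓛 ρC)
    (BB : B' →ₗ[k] B →ₗ[k] P) (hBB : Bilin ρB' ρB τ BB)
    (BC : C' →ₗ[k] C →ₗ[k] P) (hBC : Bilin ρC' ρC τ BC)
    (BA : A' →ₗ[k] A →ₗ[k] P)
    (hgc : ∀ c' b, BB (f' c') b = BC c' (g b)) (hfa : ∀ b' a, BB b' (f a) = BA (g' b') a)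
    (z : ↥(ρA'.invariants)) (hz : Equivar ρA τ (BA z.1)) (y : H1 𝓛 ρC) :
    cup11 hC BC hBC (h'.delta0 z) y = - H2coef 𝓛 (BA z.1) hz (h.delta1 y) := by
  obtain ⟨y, rfl⟩ := H1mk_surjective y
  obtain ⟨b, w, hbl, hbc, hw, he⟩ := h.exists_delta1 y
  obtain ⟨b', hb'⟩ := h'.surj z.1
  obtain ⟨v, hv⟩ := h'.exists_cocycle0 b' (fun s => by rw [hb']; exact z.2 s)
  rw [he, h'.delta0_eq z b' hb' v hv, cup11_mk]
  show H2mk 𝓛 τ (cupZ hC BC hBC v y) =
    - H2mk 𝓛 τ (Z2map (MonoidHom.id G) LevelSys.compat_id (BA z.1) hz w)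
  rw [← sub_eq_zero, sub_neg_eq_add, ← map_add, H2mk_eq_zero]
  refine ⟨fun s => BB b' (b s), hbl.comp (fun x => BB b' x), fun s t => ?_⟩
  show BC (v.1 s) (ρC s (y.1 t)) + BA z.1 (w.1 (s, t)) = _
  have h1 : BC (v.1 s) (ρC s (y.1 t)) = BB (ρB' s b' - b') (ρB s (b t)) := by
    rw [← hv, hgc, h.eqg, hbc]
  have h2 : BA z.1 (w.1 (s, t)) = BB b' (ρB s (b t) - b (s * t) + b s) := by
    rw [← hb', ← hfa, hw (s, t)]
    rfl
  rw [h1, h2, ← hBB]
  simp only [map_add, map_sub, LinearMap.sub_apply]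
  abel

end Delta

end Fermat.Agent.PT
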