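import Mathlib

/-!
# Level-constant ("continuous") cohomology in degrees 0, 1, 2

`LevelSys G` : a filter basis (upward closed) of finite-index subgroups of a group `G`.
Cochains are required to be constant modulo some level subgroup.  The definitions match the frozen
ones (`levelCocyclesS₂`, `continuousH2`, ...) for `A.ρ`.
-/

set_option autoImplicit false

namespace Fermat.Agent.PT

/-- An (upward closed) filter basis of finite-index subgroups of `G`, with a basis of normal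
subgroups. -/
structure LevelSys (G : Type*) [Group G] where
  carrier : Set (Subgroup G)
  top_mem' : ⊤ ∈ carrier
  inf_mem' : ∀ {U V : Subgroup G}, U ∈ carrier → V ∈ carrier → U ⊓ V ∈ carrier
  mono' : ∀ {U V : Subgroup G}, U ∈ carrier → U ≤ V → V ∈ carrier
  exists_normal' : ∀ {U : Subgroup G}, U ∈ carrier → ∃ V ∈ carrier, V ≤ U ∧ V.Normal
  finiteIndex' : ∀ {U : Subgroup G}, U ∈ carrier → U.FiniteIndex

namespace LevelSys

variable {G : Type*} [Group G]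

instance : Membership (Subgroup G) (LevelSys G) := ⟨fun 𝓛 U => U ∈ 𝓛.carrier⟩

variable (𝓛 : LevelSys G)

lemma mem_carrier_iff {U : Subgroup G} : U ∈ 𝓛.carrier ↔ U ∈ 𝓛 := Iff.rfl

lemma top_mem : (⊤ : Subgroup G) ∈ 𝓛 := 𝓛.top_mem'

variable {𝓛}

lemma inf_mem {U V : Subgroup G} (hU : U ∈ 𝓛) (hV : V ∈ 𝓛) : U ⊓ V ∈ 𝓛 := 𝓛.inf_mem' hU hV

lemma mono {U V : Subgroup G} (hU : U ∈ 𝓛) (h : U ≤ V) : V ∈ 𝓛 := 𝓛.mono' hU h

lemma exists_normal {U : Subgroup G} (hU : U ∈ 𝓛) : ∃ V ∈ 𝓛, V ≤ U ∧ V.Normal :=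
  𝓛.exists_normal' hU

lemma finiteIndex {U : Subgroup G} (hU : U ∈ 𝓛) : U.FiniteIndex := 𝓛.finiteIndex' hU

lemma iInf_mem {ι : Type*} (s : Finset ι) (U : ι → Subgroup G) (h : ∀ i ∈ s, U i ∈ 𝓛) :
    (⨅ i ∈ s, U i) ∈ 𝓛 := by
  classical
  induction s using Finset.induction_on with
  | empty => simpa using 𝓛.top_mem
  | insert a s ha ih =>
    rw [Finset.iInf_insert]
    exact inf_mem (h a (Finset.mem_insert_self a s))
      (ih fun i hi => h i (Finset.mem_insert_of_mem hi))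

lemma exists_le_of_finite {ι : Type*} [Finite ι] (P : ι → Subgroup G → Prop)
    (hP : ∀ i U V, V ≤ U → P i U → P i V) (h : ∀ i, ∃ U ∈ 𝓛, P i U) :
    ∃ U ∈ 𝓛, ∀ i, P i U := by
  classical
  cases nonempty_fintype ι
  choose U hU hPU using h
  exact ⟨⨅ i ∈ Finset.univ, U i, iInf_mem _ _ fun i _ => hU i,
    fun i => hP i (U i) _ (iInf₂_le i (Finset.mem_univ i)) (hPU i)⟩

variable (𝓛) in
/-- Pull back a level system along a homomorphism. -/
def comap {H : Type*} [Group H] (u : H →* G) : LevelSys H where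
  carrier := {V | ∃ W ∈ 𝓛, W.comap u ≤ V}
  top_mem' := ⟨⊤, 𝓛.top_mem, le_top⟩
  inf_mem' := by
    rintro U V ⟨W, hW, hWU⟩ ⟨W', hW', hWV⟩
    refine ⟨W ⊓ W', inf_mem hW hW', ?_⟩
    rw [Subgroup.comap_inf]
    exact inf_le_inf hWU hWV
  mono' := by
    rintro U V ⟨W, hW, hWU⟩ h
    exact ⟨W, hW, hWU.trans h⟩
  exists_normal' := by
    rintro U ⟨W, hW, hWU⟩
    obtain ⟨V, hV, hVW, hn⟩ := exists_normal hW
    exact ⟨V.comap u, ⟨V, hV, le_rfl⟩, (Subgroup.comap_mono hVW).trans hWU, hn.comap u⟩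
  finiteIndex' := by
    rintro U ⟨W, hW, hWU⟩
    have := finiteIndex hW
    have h2 : (W.comap u).FiniteIndex := ⟨by
      rw [Subgroup.index_comap]
      exact fun h => Subgroup.FiniteIndex.index_ne_zero (H := W)
        (Subgroup.index_eq_zero_of_relIndex_eq_zero h)⟩
    exact Subgroup.finiteIndex_of_le hWU

lemma mem_comap {H : Type*} [Group H] {u : H →* G} {V : Subgroup H} :
    V ∈ 𝓛.comap u ↔ ∃ W ∈ 𝓛, W.comap u ≤ V := Iff.rfl

lemma comap_mem_comap {H : Type*} [Group H] (u : H →* G) {W : Subgroup G} (hW : W ∈ 𝓛) :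
    W.comap u ∈ 𝓛.comap u := ⟨W, hW, le_rfl⟩

variable (𝓛) in
/-- `u : H →* G` is continuous for the level systems. -/
def Compat {H : Type*} [Group H] (u : H →* G) (𝓛' : LevelSys H) : Prop :=
  ∀ W ∈ 𝓛, W.comap u ∈ 𝓛'

lemma compat_comap {H : Type*} [Group H] (u : H →* G) : 𝓛.Compat u (𝓛.comap u) :=
  fun _ hW => comap_mem_comap u hW

lemma compat_id : 𝓛.Compat (MonoidHom.id G) 𝓛 := fun W hW => by
  simpa using hW

variable (𝓛) in
/-- The level system induced on a subgroup. -/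
abbrev restrict (U : Subgroup G) : LevelSys U := 𝓛.comap U.subtype

end LevelSys

section Cochains

variable {G : Type*} [Group G] (𝓛 : LevelSys G)

/-- Level-constant functions of one variable. -/
def LC1 {X : Type*} (f : G → X) : Prop := ∃ U ∈ 𝓛, ∀ g, ∀ s ∈ U, f (g * s) = f g

/-- Level-constant functions of two variables. -/
def LC2 {X : Type*} (f : G × G → X) : Prop :=
  ∃ U ∈ 𝓛, ∀ g g' s s', s ∈ U → s' ∈ U → f (g * s, g' * s') = f (g, g')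

variable {𝓛}

lemma LC1.comp {X Y : Type*} {f : G → X} (hf : LC1 𝓛 f) (φ : X → Y) :
    LC1 𝓛 (fun g => φ (f g)) := by
  obtain ⟨U, hU, h⟩ := hf
  exact ⟨U, hU, fun g s hs => by simp only [h g s hs]⟩

lemma LC2.comp {X Y : Type*} {f : G × G → X} (hf : LC2 𝓛 f) (φ : X → Y) :
    LC2 𝓛 (fun g => φ (f g)) := by
  obtain ⟨U, hU, h⟩ := hf
  exact ⟨U, hU, fun g g' s s' hs hs' => by simp only [h g g' s s' hs hs']⟩

lemma LC1.prodMk {X Y : Type*} {f : G → X} {f' : G → Y} (hf : LC1 𝓛 f) (hf' : LC1 𝓛 f') :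
    LC1 𝓛 (fun g => (f g, f' g)) := by
  obtain ⟨U, hU, h⟩ := hf
  obtain ⟨U', hU', h'⟩ := hf'
  exact ⟨U ⊓ U', LevelSys.inf_mem hU hU', fun g s hs => by
    simp only [h g s hs.1, h' g s hs.2]⟩

lemma LC2.prodMk {X Y : Type*} {f : G × G → X} {f' : G × G → Y} (hf : LC2 𝓛 f)
    (hf' : LC2 𝓛 f') : LC2 𝓛 (fun g => (f g, f' g)) := by
  obtain ⟨U, hU, h⟩ := hf
  obtain ⟨U', hU', h'⟩ := hf'
  exact ⟨U ⊓ U', LevelSys.inf_mem hU hU', fun g g' s s' hs hs' => by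
    simp only [h g g' s s' hs.1 hs'.1, h' g g' s s' hs.2 hs'.2]⟩

lemma LC1.const {X : Type*} (x : X) : LC1 𝓛 (fun _ : G => x) :=
  ⟨⊤, 𝓛.top_mem, fun _ _ _ => rfl⟩

lemma LC2.const {X : Type*} (x : X) : LC2 𝓛 (fun _ : G × G => x) :=
  ⟨⊤, 𝓛.top_mem, fun _ _ _ _ _ _ => rfl⟩

lemma LC1.fst {X : Type*} {f : G → X} (hf : LC1 𝓛 f) : LC2 𝓛 (fun p : G × G => f p.1) := by
  obtain ⟨U, hU, h⟩ := hf
  exact ⟨U, hU, fun g g' s s' hs _ => h g s hs⟩

lemma LC1.snd {X : Type*} {f : G → X} (hf : LC1 𝓛 f) : LC2 𝓛 (fun p : G × G => f p.2) := by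
  obtain ⟨U, hU, h⟩ := hf
  exact ⟨U, hU, fun g g' s s' _ hs' => h g' s' hs'⟩

/-- A level for `f` which is a normal subgroup; `f` is then constant on left and right cosets. -/
lemma LC1.exists_normal {X : Type*} {f : G → X} (hf : LC1 𝓛 f) :
    ∃ U ∈ 𝓛, U.Normal ∧ (∀ g, ∀ s ∈ U, f (g * s) = f g) ∧ (∀ g, ∀ s ∈ U, f (s * g) = f g) := by
  obtain ⟨U, hU, h⟩ := hf
  obtain ⟨V, hV, hVU, hn⟩ := LevelSys.exists_normal hU
  refine ⟨V, hV, hn, fun g s hs => h g s (hVU hs), fun g s hs => ?_⟩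
  have h1 : s * g = g * (g⁻¹ * s * g) := by group
  rw [h1]
  exact h g _ (hVU (by simpa using hn.conj_mem s hs g⁻¹))

lemma LC2.exists_normal {X : Type*} {f : G × G → X} (hf : LC2 𝓛 f) :
    ∃ U ∈ 𝓛, U.Normal ∧ ∀ g g' s s', s ∈ U → s' ∈ U → f (g * s, g' * s') = f (g, g') := by
  obtain ⟨U, hU, h⟩ := hf
  obtain ⟨V, hV, hVU, hn⟩ := LevelSys.exists_normal hU
  exact ⟨V, hV, hn, fun g g' s s' hs hs' => h g g' s s' (hVU hs) (hVU hs')⟩

lemma LC1.mul {X : Type*} {f : G → X} (hf : LC1 𝓛 f) : LC2 𝓛 (fun p : G × G => f (p.1 * p.2)) := by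
  obtain ⟨U, hU, hn, hr, hl⟩ := hf.exists_normal
  refine ⟨U, hU, fun g g' s s' hs hs' => ?_⟩
  show f (g * s * (g' * s')) = f (g * g')
  have h1 : g * s * (g' * s') = (g * g') * ((g'⁻¹ * s * g') * s') := by group
  rw [h1]
  exact hr _ _ (U.mul_mem (by simpa using hn.conj_mem s hs g'⁻¹) hs')

/-- A level-constant function has finite range. -/
lemma LC1.finite_range {X : Type*} {f : G → X} (hf : LC1 𝓛 f) : (Set.range f).Finite := by
  obtain ⟨U, hU, h⟩ := hf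
  have := LevelSys.finiteIndex hU
  have : Set.range f ⊆ Set.range (fun q : G ⧸ U => f q.out) := by
    rintro _ ⟨g, rfl⟩
    refine ⟨(g : G ⧸ U), ?_⟩
    have h1 : ((g : G ⧸ U).out : G ⧸ U) = (g : G ⧸ U) := Quotient.out_eq' _
    have h2 : (((g : G ⧸ U).out)⁻¹ * g) ∈ U := QuotientGroup.eq.1 h1
    show f (g : G ⧸ U).out = f g
    rw [← h _ _ h2]
    congr 1
    group
  exact (Set.finite_range _).subset this

lemma LC2.finite_range {X : Type*} {f : G × G → X} (hf : LC2 𝓛 f) : (Set.range f).Finite := by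
  obtain ⟨U, hU, h⟩ := hf
  have := LevelSys.finiteIndex hU
  have : Set.range f ⊆ Set.range (fun q : (G ⧸ U) × (G ⧸ U) => f (q.1.out, q.2.out)) := by
    rintro _ ⟨⟨g, g'⟩, rfl⟩
    refine ⟨((g : G ⧸ U), (g' : G ⧸ U)), ?_⟩
    have h1 : (((g : G ⧸ U).out)⁻¹ * g) ∈ U := QuotientGroup.eq.1 (Quotient.out_eq' _)
    have h2 : (((g' : G ⧸ U).out)⁻¹ * g') ∈ U := QuotientGroup.eq.1 (Quotient.out_eq' _)
    show f ((g : G ⧸ U).out, (g' : G ⧸ U).out) = f (g, g')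
    rw [← h _ _ _ _ h1 h2]
    congr 1
    ext <;> simp
  exact (Set.finite_range _).subset this

/-- Precomposition with a continuous homomorphism. -/
lemma LC1.precomp {H : Type*} [Group H] {𝓛' : LevelSys H} {u : H →* G} (hu : 𝓛.Compat u 𝓛')
    {X : Type*} {f : G → X} (hf : LC1 𝓛 f) : LC1 𝓛' (fun h => f (u h)) := by
  obtain ⟨U, hU, h⟩ := hf
  exact ⟨U.comap u, hu U hU, fun g s hs => by simpa using h (u g) (u s) hs⟩

lemma LC2.precomp {H : Type*} [Group H] {𝓛' : LevelSys H} {u : H →* G} (hu : 𝓛.Compat u 𝓛')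
    {X : Type*} {f : G × G → X} (hf : LC2 𝓛 f) : LC2 𝓛' (fun p => f (u p.1, u p.2)) := by
  obtain ⟨U, hU, h⟩ := hf
  exact ⟨U.comap u, hu U hU, fun g g' s s' hs hs' => by
    simpa using h (u g) (u g') (u s) (u s') hs hs'⟩

end Cochains

section Rep

variable {k : Type*} [CommRing k] {G : Type*} [Group G] (𝓛 : LevelSys G)
variable {M : Type*} [AddCommGroup M] [Module k M] (ρ : Representation k G M)
variable {N : Type*} [AddCommGroup N] [Module k N] (σ : Representation k G N)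

/-- The representation is discrete: every vector is fixed by a level subgroup. -/
def Discrete : Prop := ∀ m : M, ∃ U ∈ 𝓛, ∀ s ∈ U, ρ s m = m

/-- Equivariance of a linear map. -/
def Equivar (f : M →ₗ[k] N) : Prop := ∀ g m, f (ρ g m) = σ g (f m)

/-- The differential `C⁰ → C¹`. -/
def d01 : M →ₗ[k] (G → M) where
  toFun m g := ρ g m - m
  map_add' x y := by ext g; simp only [map_add, Pi.add_apply]; abel
  map_smul' r x := by ext g; simp [smul_sub]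

/-- The differential `C¹ → C²`. -/
def d12 : (G → M) →ₗ[k] (G × G → M) where
  toFun f p := ρ p.1 (f p.2) - f (p.1 * p.2) + f p.1
  map_add' x y := by ext g; simp only [map_add, Pi.add_apply]; abel
  map_smul' r x := by ext g; simp [smul_sub, smul_add]

@[simp] lemma d01_apply (m : M) (g : G) : d01 ρ m g = ρ g m - m := rfl
@[simp] lemma d12_apply (f : G → M) (p : G × G) :
    d12 ρ f p = ρ p.1 (f p.2) - f (p.1 * p.2) + f p.1 := rfl

variable (k M) in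
/-- Level-constant 1-cochains. -/
def C1 : Submodule k (G → M) where
  carrier := {f | LC1 𝓛 f}
  add_mem' hf hf' := (hf.prodMk hf').comp (fun p => p.1 + p.2)
  zero_mem' := LC1.const 0
  smul_mem' c _ hf := hf.comp (c • ·)

variable (k M) in
/-- Level-constant 2-cochains. -/
def C2 : Submodule k (G × G → M) where
  carrier := {f | LC2 𝓛 f}
  add_mem' hf hf' := (hf.prodMk hf').comp (fun p => p.1 + p.2)
  zero_mem' := LC2.const 0
  smul_mem' c _ hf := hf.comp (c • ·)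

/-- Level-constant 1-cocycles. -/
def Z1 : Submodule k (G → M) where
  carrier := {f | LC1 𝓛 f ∧ ∀ g h, f (g * h) = ρ g (f h) + f g}
  add_mem' {f f'} hf hf' := ⟨(C1 k 𝓛 M).add_mem hf.1 hf'.1, fun g h => by
    simp only [Pi.add_apply, hf.2, hf'.2, map_add]; abel⟩
  zero_mem' := ⟨(C1 k 𝓛 M).zero_mem, fun g h => by simp⟩
  smul_mem' c f hf := ⟨(C1 k 𝓛 M).smul_mem c hf.1, fun g h => by
    simp only [Pi.smul_apply, hf.2, map_smul, smul_add]⟩

/-- 1-coboundaries. -/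
def B1 : Submodule k (G → M) := LinearMap.range (d01 ρ)

/-- Level-constant 2-cocycles. -/
def Z2 : Submodule k (G × G → M) where
  carrier := {f | LC2 𝓛 f ∧ ∀ g h j, f (g * h, j) + f (g, h) = ρ g (f (h, j)) + f (g, h * j)}
  add_mem' {f f'} hf hf' := ⟨(C2 k 𝓛 M).add_mem hf.1 hf'.1, fun g h j => by
    have h1 := hf.2 g h j
    have h2 := hf'.2 g h j
    simp only [Pi.add_apply, map_add]
    calc _ = (f (g * h, j) + f (g, h)) + (f' (g * h, j) + f' (g, h)) := by abel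
      _ = _ := by rw [h1, h2]; abel⟩
  zero_mem' := ⟨(C2 k 𝓛 M).zero_mem, fun g h j => by simp⟩
  smul_mem' c f hf := ⟨(C2 k 𝓛 M).smul_mem c hf.1, fun g h j => by
    have h1 := hf.2 g h j
    simp only [Pi.smul_apply, map_smul, ← smul_add, h1]⟩

/-- Coboundaries of level-constant 1-cochains. -/
def B2 : Submodule k (G × G → M) := (C1 k 𝓛 M).map (d12 ρ)

/-- `H¹` with level-constant cochains. -/
abbrev H1 : Type _ := ↥(Z1 𝓛 ρ) ⧸ (B1 ρ).comap (Z1 𝓛 ρ).subtype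

/-- `H²` with level-constant cochains. -/
abbrev H2 : Type _ := ↥(Z2 𝓛 ρ) ⧸ (B2 𝓛 ρ).comap (Z2 𝓛 ρ).subtype

/-- Class of a 1-cocycle. -/
abbrev H1mk : ↥(Z1 𝓛 ρ) →ₗ[k] H1 𝓛 ρ := Submodule.mkQ _

/-- Class of a 2-cocycle. -/
abbrev H2mk : ↥(Z2 𝓛 ρ) →ₗ[k] H2 𝓛 ρ := Submodule.mkQ _

variable {𝓛 ρ}

lemma mem_C1 {f : G → M} : f ∈ C1 k 𝓛 M ↔ LC1 𝓛 f := Iff.rfl
lemma mem_C2 {f : G × G → M} : f ∈ C2 k 𝓛 M ↔ LC2 𝓛 f := Iff.rfl
lemma mem_Z1 {f : G → M} : f ∈ Z1 𝓛 ρ ↔ LC1 𝓛 f ∧ ∀ g h, f (g * h) = ρ g (f h) + f g := Iff.rfl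
lemma mem_Z2 {f : G × G → M} : f ∈ Z2 𝓛 ρ ↔ LC2 𝓛 f ∧
    ∀ g h j, f (g * h, j) + f (g, h) = ρ g (f (h, j)) + f (g, h * j) := Iff.rfl

lemma H1mk_eq_zero {f : ↥(Z1 𝓛 ρ)} :
    H1mk 𝓛 ρ f = 0 ↔ ∃ m : M, ∀ g, (f : G → M) g = ρ g m - m := by
  rw [Submodule.mkQ_apply, Submodule.Quotient.mk_eq_zero, Submodule.mem_comap,
    Submodule.subtype_apply, B1, LinearMap.mem_range]
  constructor
  · rintro ⟨m, hm⟩
    exact ⟨m, fun g => by rw [← hm]; rfl⟩
  · rintro ⟨m, hm⟩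
    exact ⟨m, by ext g; exact (hm g).symm⟩

lemma H2mk_eq_zero {f : ↥(Z2 𝓛 ρ)} :
    H2mk 𝓛 ρ f = 0 ↔ ∃ c : G → M, LC1 𝓛 c ∧
      ∀ g h, (f : G × G → M) (g, h) = ρ g (c h) - c (g * h) + c g := by
  rw [Submodule.mkQ_apply, Submodule.Quotient.mk_eq_zero, Submodule.mem_comap,
    Submodule.subtype_apply, B2, Submodule.mem_map]
  constructor
  · rintro ⟨c, hc, hf⟩
    exact ⟨c, hc, fun g h => by rw [← hf]; rfl⟩
  · rintro ⟨c, hc, hf⟩
    exact ⟨c, hc, by ext ⟨g, h⟩; exact (hf g h).symm⟩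

lemma H1mk_surjective : Function.Surjective (H1mk 𝓛 ρ) := Submodule.mkQ_surjective _
lemma H2mk_surjective : Function.Surjective (H2mk 𝓛 ρ) := Submodule.mkQ_surjective _

/-- A finite set of vectors of a discrete representation is fixed by a level subgroup. -/
lemma Discrete.exists_of_finite (hρ : Discrete 𝓛 ρ) {s : Set M} (hs : s.Finite) :
    ∃ U ∈ 𝓛, ∀ g ∈ U, ∀ m ∈ s, ρ g m = m := by
  have := hs.to_subtype
  obtain ⟨U, hU, h⟩ := LevelSys.exists_le_of_finite (𝓛 := 𝓛) (ι := s)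
    (fun m U => ∀ g ∈ U, ρ g (m : M) = m) (fun i U V hVU h g hg => h g (hVU hg))
    (fun m => hρ m)
  exact ⟨U, hU, fun g hg m hm => h ⟨m, hm⟩ g hg⟩

/-- For a discrete representation `(g, h) ↦ ρ g (f h)` is level-constant. -/
lemma LC1.act (hρ : Discrete 𝓛 ρ) {f : G → M} (hf : LC1 𝓛 f) :
    LC2 𝓛 (fun p : G × G => ρ p.1 (f p.2)) := by
  obtain ⟨U, hU, h⟩ := hρ.exists_of_finite hf.finite_range
  obtain ⟨V, hV, h'⟩ := hf
  refine ⟨U ⊓ V, LevelSys.inf_mem hU hV, fun g g' s s' hs hs' => ?_⟩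
  show ρ (g * s) (f (g' * s')) = ρ g (f g')
  rw [h' g' s' hs'.2, map_mul, Module.End.mul_apply, h s hs.1 _ ⟨g', rfl⟩]

lemma LC1.d12 (hρ : Discrete 𝓛 ρ) {f : G → M} (hf : LC1 𝓛 f) : LC2 𝓛 (d12 ρ f) :=
  ((((hf.act hρ).prodMk hf.mul).comp (fun p => p.1 - p.2)).prodMk hf.fst).comp
    (fun p => p.1 + p.2)

lemma LC1.d01 (hρ : Discrete 𝓛 ρ) (m : M) : LC1 𝓛 (d01 ρ m) := by
  obtain ⟨U, hU, h⟩ := hρ m
  refine ⟨U, hU, fun g s hs => ?_⟩
  show ρ (g * s) m - m = ρ g m - m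
  rw [map_mul, Module.End.mul_apply, h s hs]

lemma d01_mem_Z1 (hρ : Discrete 𝓛 ρ) (m : M) : d01 ρ m ∈ Z1 𝓛 ρ :=
  ⟨LC1.d01 hρ m, fun g h => by
    simp only [d01_apply, map_mul, Module.End.mul_apply, map_sub]; abel⟩

lemma d12_mem_Z2 (hρ : Discrete 𝓛 ρ) {f : G → M} (hf : LC1 𝓛 f) : d12 ρ f ∈ Z2 𝓛 ρ :=
  ⟨LC1.d12 hρ hf, fun g h j => by
    simp only [d12_apply, map_mul, Module.End.mul_apply, map_sub, map_add, mul_assoc]; abel⟩

end Rep

section Functoriality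

variable {k : Type*} [CommRing k] {G : Type*} [Group G] {𝓛 : LevelSys G}
variable {H : Type*} [Group H] {𝓛' : LevelSys H}
variable {M : Type*} [AddCommGroup M] [Module k M] {ρ : Representation k G M}
variable {N : Type*} [AddCommGroup N] [Module k N] {σ : Representation k H N}

/-- `Z1` functoriality for a compatible pair `(u, f)`. -/
def Z1map (u : H →* G) (hu : 𝓛.Compat u 𝓛') (f : M →ₗ[k] N)
    (hf : ∀ h m, f (ρ (u h) m) = σ h (f m)) : ↥(Z1 𝓛 ρ) →ₗ[k] ↥(Z1 𝓛' σ) where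
  toFun c := ⟨fun h => f (c.1 (u h)), (c.2.1.precomp hu).comp f, fun g h => by
    show f (c.1 (u (g * h))) = σ g (f (c.1 (u h))) + f (c.1 (u g))
    rw [map_mul, c.2.2, map_add, hf]⟩
  map_add' c c' := by ext h; simp
  map_smul' r c := by ext h; simp

/-- `Z2` functoriality for a compatible pair `(u, f)`. -/
def Z2map (u : H →* G) (hu : 𝓛.Compat u 𝓛') (f : M →ₗ[k] N)
    (hf : ∀ h m, f (ρ (u h) m) = σ h (f m)) : ↥(Z2 𝓛 ρ) →ₗ[k] ↥(Z2 𝓛' σ) where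
  toFun c := ⟨fun p => f (c.1 (u p.1, u p.2)), (c.2.1.precomp hu).comp f, fun g h j => by
    have h1 := congrArg f (c.2.2 (u g) (u h) (u j))
    rw [map_add, map_add, hf] at h1
    simpa only [map_mul] using h1⟩
  map_add' c c' := by ext h; simp
  map_smul' r c := by ext h; simp

@[simp] lemma Z1map_apply (u : H →* G) (hu : 𝓛.Compat u 𝓛') (f : M →ₗ[k] N)
    (hf : ∀ h m, f (ρ (u h) m) = σ h (f m)) (c : ↥(Z1 𝓛 ρ)) (h : H) :
    (Z1map u hu f hf c : H → N) h = f ((c : G → M) (u h)) := rfl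

@[simp] lemma Z2map_apply (u : H →* G) (hu : 𝓛.Compat u 𝓛') (f : M →ₗ[k] N)
    (hf : ∀ h m, f (ρ (u h) m) = σ h (f m)) (c : ↥(Z2 𝓛 ρ)) (p : H × H) :
    (Z2map u hu f hf c : H × H → N) p = f ((c : G × G → M) (u p.1, u p.2)) := rfl

/-- `H¹` functoriality for a compatible pair `(u : H →* G, f : M → N)`. -/
def H1map (u : H →* G) (hu : 𝓛.Compat u 𝓛') (f : M →ₗ[k] N)
    (hf : ∀ h m, f (ρ (u h) m) = σ h (f m)) : H1 𝓛 ρ →ₗ[k] H1 𝓛' σ :=
  Submodule.mapQ _ _ (Z1map u hu f hf) (by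
    rintro ⟨c, hc⟩ ⟨m, hm⟩
    refine ⟨f m, ?_⟩
    ext h
    have : c (u h) = ρ (u h) m - m := (congrFun hm (u h)).symm
    simp [this, hf])

/-- `H²` functoriality for a compatible pair `(u : H →* G, f : M → N)`. -/
def H2map (u : H →* G) (hu : 𝓛.Compat u 𝓛') (f : M →ₗ[k] N)
    (hf : ∀ h m, f (ρ (u h) m) = σ h (f m)) : H2 𝓛 ρ →ₗ[k] H2 𝓛' σ :=
  Submodule.mapQ _ _ (Z2map u hu f hf) (by
    rintro ⟨c, hc⟩ ⟨b, hb, hm⟩
    refine ⟨fun h => f (b (u h)), (LC1.precomp hu hb).comp f, ?_⟩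
    ext ⟨g, h⟩
    have : c (u g, u h) = ρ (u g) (b (u h)) - b (u g * u h) + b (u g) :=
      (congrFun hm (u g, u h)).symm
    simp [this, hf])

@[simp] lemma H1map_mk (u : H →* G) (hu : 𝓛.Compat u 𝓛') (f : M →ₗ[k] N)
    (hf : ∀ h m, f (ρ (u h) m) = σ h (f m)) (c : ↥(Z1 𝓛 ρ)) :
    H1map u hu f hf (H1mk 𝓛 ρ c) = H1mk 𝓛' σ (Z1map u hu f hf c) := rfl

@[simp] lemma H2map_mk (u : H →* G) (hu : 𝓛.Compat u 𝓛') (f : M →ₗ[k] N)
    (hf : ∀ h m, f (ρ (u h) m) = σ h (f m)) (c : ↥(Z2 𝓛 ρ)) :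
    H2map u hu f hf (H2mk 𝓛 ρ c) = H2mk 𝓛' σ (Z2map u hu f hf c) := rfl

/-- Restriction of `H²` along a homomorphism. -/
abbrev res2 (u : H →* G) (hu : 𝓛.Compat u 𝓛') (ρ : Representation k G M) :
    H2 𝓛 ρ →ₗ[k] H2 𝓛' (ρ.comp u) :=
  H2map u hu LinearMap.id (fun _ _ => rfl)

/-- Restriction of `H¹` along a homomorphism. -/
abbrev res1 (u : H →* G) (hu : 𝓛.Compat u 𝓛') (ρ : Representation k G M) :
    H1 𝓛 ρ →ₗ[k] H1 𝓛' (ρ.comp u) :=
  H1map u hu LinearMap.id (fun _ _ => rfl)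

end Functoriality

section Coeff

variable {k : Type*} [CommRing k] {G : Type*} [Group G] (𝓛 : LevelSys G)
variable {M : Type*} [AddCommGroup M] [Module k M] {ρ : Representation k G M}
variable {N : Type*} [AddCommGroup N] [Module k N] {σ : Representation k G N}
variable {P : Type*} [AddCommGroup P] [Module k P] {τ : Representation k G P}

/-- Change of coefficients on `H¹`. -/
abbrev H1coef (f : M →ₗ[k] N) (hf : Equivar ρ σ f) : H1 𝓛 ρ →ₗ[k] H1 𝓛 σ :=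
  H1map (MonoidHom.id G) LevelSys.compat_id f hf

/-- Change of coefficients on `H²`. -/
abbrev H2coef (f : M →ₗ[k] N) (hf : Equivar ρ σ f) : H2 𝓛 ρ →ₗ[k] H2 𝓛 σ :=
  H2map (MonoidHom.id G) LevelSys.compat_id f hf

variable {𝓛}

lemma Equivar.comp {f : M →ₗ[k] N} {g : N →ₗ[k] P} (hg : Equivar σ τ g) (hf : Equivar ρ σ f) :
    Equivar ρ τ (g ∘ₗ f) := fun a m => by simp [hf a m, hg a (f m)]

lemma H2coef_comp {f : M →ₗ[k] N} {g : N →ₗ[k] P} (hg : Equivar σ τ g) (hf : Equivar ρ σ f)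
    (x : H2 𝓛 ρ) : H2coef 𝓛 (g ∘ₗ f) (hg.comp hf) x = H2coef 𝓛 g hg (H2coef 𝓛 f hf x) := by
  obtain ⟨c, rfl⟩ := H2mk_surjective x
  rfl

lemma H1coef_comp {f : M →ₗ[k] N} {g : N →ₗ[k] P} (hg : Equivar σ τ g) (hf : Equivar ρ σ f)
    (x : H1 𝓛 ρ) : H1coef 𝓛 (g ∘ₗ f) (hg.comp hf) x = H1coef 𝓛 g hg (H1coef 𝓛 f hf x) := by
  obtain ⟨c, rfl⟩ := H1mk_surjective x
  rfl

end Coeff

end Fermat.Agent.PT
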