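import Fermat.Agent.PT.Defs

/-!
# Long exact sequence in degrees 0, 1, 2 for level-constant cohomology
-/

set_option autoImplicit false

namespace Fermat.Agent.PT

variable {k : Type*} [CommRing k] {G : Type*} [Group G] (𝓛 : LevelSys G)
variable {A : Type*} [AddCommGroup A] [Module k A] (ρA : Representation k G A)
variable {B : Type*} [AddCommGroup B] [Module k B] (ρB : Representation k G B)
variable {C : Type*} [AddCommGroup C] [Module k C] (ρC : Representation k G C)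

/-- A short exact sequence of discrete representations. -/
structure SES (f : A →ₗ[k] B) (g : B →ₗ[k] C) : Prop where
  inj : Function.Injective f
  surj : Function.Surjective g
  exact : ∀ b, g b = 0 → ∃ a, f a = b
  zero : ∀ a, g (f a) = 0
  eqf : Equivar ρA ρB f
  eqg : Equivar ρB ρC g
  disc : Discrete 𝓛 ρB

variable {𝓛 ρA ρB ρC} {f : A →ₗ[k] B} {g : B →ₗ[k] C}

namespace SES

variable (h : SES 𝓛 ρA ρB ρC f g)

include h

lemma discA : Discrete 𝓛 ρA := fun a => by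
  obtain ⟨U, hU, hs⟩ := h.disc (f a)
  exact ⟨U, hU, fun s hs' => h.inj (by rw [h.eqf, hs s hs'])⟩

lemma discC : Discrete 𝓛 ρC := fun c => by
  obtain ⟨b, rfl⟩ := h.surj c
  obtain ⟨U, hU, hs⟩ := h.disc b
  exact ⟨U, hU, fun s hs' => by rw [← h.eqg, hs s hs']⟩

/-- Lift of a level-constant function along `g`. -/
lemma exists_lift1 {X : Type*} {c : X → C} : ∃ φ : C → B, (∀ x, g (φ x) = x) ∧
    (∀ x, g (φ (c x)) = c x) :=
  ⟨Function.surjInv h.surj, Function.surjInv_eq h.surj, fun _ => Function.surjInv_eq h.surj _⟩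

lemma exists_section : ∃ φ : C → B, ∀ x, g (φ x) = x :=
  ⟨Function.surjInv h.surj, Function.surjInv_eq h.surj⟩

/-- set-theoretic inverse of `f` on its range. -/
lemma exists_retract : ∃ ψ : B → A, (∀ a, ψ (f a) = a) ∧ ∀ b, g b = 0 → f (ψ b) = b := by
  classical
  refine ⟨Function.invFun f, Function.leftInverse_invFun h.inj, fun b hb => ?_⟩
  obtain ⟨a, rfl⟩ := h.exact b hb
  rw [Function.leftInverse_invFun h.inj a]

/-! ### Exactness at `H¹(B)` and `H²(B)` -/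

lemma exact_H1 (x : H1 𝓛 ρB) (hx : H1coef 𝓛 g h.eqg x = 0) :
    ∃ y : H1 𝓛 ρA, H1coef 𝓛 f h.eqf y = x := by
  obtain ⟨z, rfl⟩ := H1mk_surjective x
  obtain ⟨c, hc⟩ := H1mk_eq_zero.1 hx
  obtain ⟨φ, hφ⟩ := h.exists_section
  obtain ⟨ψ, hψ, hψ'⟩ := h.exists_retract
  -- `z' = z - d01 (φ c)` has values in `A`.
  set z' : G → B := fun s => z.1 s - (ρB s (φ c) - φ c) with hz'
  have hz'0 : ∀ s, g (z' s) = 0 := fun s => by
    have h1 : g (z.1 s) = ρC s c - c := hc s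
    simp [hz', h1, h.eqg s, hφ]
  have hz'c : ∀ s t, z' (s * t) = ρB s (z' t) + z' s := fun s t => by
    simp only [hz', z.2.2 s t, map_mul, Module.End.mul_apply, map_sub]
    abel
  have hz'l : LC1 𝓛 z' := (z.2.1.prodMk (LC1.d01 h.disc (φ c))).comp (fun p => p.1 - p.2)
  refine ⟨H1mk 𝓛 ρA ⟨fun s => ψ (z' s), hz'l.comp ψ, fun s t => h.inj ?_⟩, ?_⟩
  · rw [map_add, h.eqf, hψ' _ (hz'0 _), hψ' _ (hz'0 _), hψ' _ (hz'0 _), hz'c]
  · rw [H1map_mk, ← sub_eq_zero, ← map_sub, H1mk_eq_zero]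
    refine ⟨-(φ c), fun s => ?_⟩
    show f (ψ (z' s)) - z.1 s = _
    rw [hψ' _ (hz'0 _)]
    simp only [hz', map_neg]
    abel

lemma exact_H2 (x : H2 𝓛 ρB) (hx : H2coef 𝓛 g h.eqg x = 0) :
    ∃ y : H2 𝓛 ρA, H2coef 𝓛 f h.eqf y = x := by
  obtain ⟨z, rfl⟩ := H2mk_surjective x
  obtain ⟨c, hcl, hc⟩ := H2mk_eq_zero.1 hx
  obtain ⟨φ, hφ⟩ := h.exists_section
  obtain ⟨ψ, hψ, hψ'⟩ := h.exists_retract
  have hcl' : LC1 𝓛 (fun s => φ (c s)) := hcl.comp φ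
  set z' : G × G → B := fun p => z.1 p - d12 ρB (fun s => φ (c s)) p with hz'
  have hz'0 : ∀ p, g (z' p) = 0 := fun p => by
    have h1 : g (z.1 (p.1, p.2)) = ρC p.1 (c p.2) - c (p.1 * p.2) + c p.1 := hc p.1 p.2
    simp [hz', h1, h.eqg p.1, hφ]
  have hz'z : z' ∈ Z2 𝓛 ρB := (Z2 𝓛 ρB).sub_mem z.2 (d12_mem_Z2 h.disc hcl')
  refine ⟨H2mk 𝓛 ρA ⟨fun p => ψ (z' p), hz'z.1.comp ψ, fun s t u => h.inj ?_⟩, ?_⟩
  · rw [map_add, map_add, h.eqf, hψ' _ (hz'0 _), hψ' _ (hz'0 _), hψ' _ (hz'0 _),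
      hψ' _ (hz'0 _), hz'z.2]
  · rw [H2map_mk, ← sub_eq_zero, ← map_sub, H2mk_eq_zero]
    refine ⟨fun s => -(φ (c s)), hcl'.comp (fun b => -b), fun s t => ?_⟩
    show f (ψ (z' (s, t))) - z.1 (s, t) = _
    rw [hψ' _ (hz'0 _)]
    simp only [hz', map_neg, d12_apply]
    abel

/-! ### The connecting map `H⁰(C) → H¹(A)` -/

lemma exists_cocycle0 (b : B) (hb : ∀ s, ρC s (g b) = g b) :
    ∃ z : ↥(Z1 𝓛 ρA), ∀ s, f (z.1 s) = ρB s b - b := by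
  obtain ⟨ψ, hψ, hψ'⟩ := h.exists_retract
  have h0 : ∀ s, g (ρB s b - b) = 0 := fun s => by rw [map_sub, h.eqg, hb, sub_self]
  refine ⟨⟨fun s => ψ (ρB s b - b), (LC1.d01 h.disc b).comp ψ, fun s t => h.inj ?_⟩, fun s => ?_⟩
  · rw [map_add, h.eqf, hψ' _ (h0 _), hψ' _ (h0 _), hψ' _ (h0 _), map_mul,
      Module.End.mul_apply, map_sub]
    abel
  · exact hψ' _ (h0 s)

lemma H1mk_eq_of_lift (b b' : B) (hbb : g b = g b') (z z' : ↥(Z1 𝓛 ρA))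
    (hz : ∀ s, f (z.1 s) = ρB s b - b) (hz' : ∀ s, f (z'.1 s) = ρB s b' - b') :
    H1mk 𝓛 ρA z = H1mk 𝓛 ρA z' := by
  rw [← sub_eq_zero, ← map_sub, H1mk_eq_zero]
  obtain ⟨a, ha⟩ := h.exact (b - b') (by rw [map_sub, hbb, sub_self])
  refine ⟨a, fun s => h.inj ?_⟩
  show f (z.1 s - z'.1 s) = _
  rw [map_sub, map_sub, h.eqf, ha, hz, hz', map_sub]
  abel

lemma exists_z0 (c : ↥(ρC.invariants)) : ∃ z : ↥(Z1 𝓛 ρA), ∃ b : B, g b = c.1 ∧
    ∀ s, f (z.1 s) = ρB s b - b := by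
  obtain ⟨b, hb⟩ := h.surj c.1
  obtain ⟨z, hz⟩ := h.exists_cocycle0 b (fun s => by rw [hb]; exact c.2 s)
  exact ⟨z, b, hb, hz⟩

end SES

/-- The connecting map `H⁰(C) → H¹(A)`. -/
noncomputable def SES.delta0 (h : SES 𝓛 ρA ρB ρC f g) :
    ↥(ρC.invariants) →ₗ[k] H1 𝓛 ρA where
  toFun c := H1mk 𝓛 ρA (h.exists_z0 c).choose
  map_add' c c' := by
    obtain ⟨b1, hb1, hz1⟩ := (h.exists_z0 (c + c')).choose_spec
    obtain ⟨b2, hb2, hz2⟩ := (h.exists_z0 c).choose_spec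
    obtain ⟨b3, hb3, hz3⟩ := (h.exists_z0 c').choose_spec
    rw [← map_add]
    refine h.H1mk_eq_of_lift b1 (b2 + b3) ?_ _ _ hz1 ?_
    · rw [map_add, hb1, hb2, hb3]; rfl
    · intro s
      rw [Submodule.coe_add, Pi.add_apply, map_add, hz2, hz3, map_add]
      abel
  map_smul' r c := by
    obtain ⟨b1, hb1, hz1⟩ := (h.exists_z0 (r • c)).choose_spec
    obtain ⟨b2, hb2, hz2⟩ := (h.exists_z0 c).choose_spec
    rw [RingHom.id_apply, ← map_smul]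
    refine h.H1mk_eq_of_lift b1 (r • b2) ?_ _ _ hz1 ?_
    · rw [map_smul, hb1, hb2]; rfl
    · intro s
      rw [Submodule.coe_smul, Pi.smul_apply, map_smul, hz2, map_smul, smul_sub]

namespace SES

variable (h : SES 𝓛 ρA ρB ρC f g)
include h

lemma delta0_eq (c : ↥(ρC.invariants)) (b : B) (hb : g b = c.1) (z : ↥(Z1 𝓛 ρA))
    (hz : ∀ s, f (z.1 s) = ρB s b - b) : h.delta0 c = H1mk 𝓛 ρA z := by
  obtain ⟨b1, hb1, hz1⟩ := (h.exists_z0 c).choose_spec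
  exact h.H1mk_eq_of_lift b1 b (by rw [hb1, hb]) _ _ hz1 hz

/-- Exactness at `H¹(A)`. -/
lemma exact_H1A (x : H1 𝓛 ρA) : H1coef 𝓛 f h.eqf x = 0 ↔ ∃ c, h.delta0 c = x := by
  constructor
  · intro hx
    obtain ⟨z, rfl⟩ := H1mk_surjective x
    obtain ⟨b, hb⟩ := H1mk_eq_zero.1 hx
    refine ⟨⟨g b, fun s => ?_⟩, h.delta0_eq _ b rfl z hb⟩
    have h1 : f (z.1 s) = ρB s b - b := hb s
    have h2 := congrArg g h1
    rw [h.zero, map_sub, h.eqg] at h2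
    exact (sub_eq_zero.1 h2.symm)
  · rintro ⟨c, rfl⟩
    obtain ⟨b, hb⟩ := h.surj c.1
    obtain ⟨z, hz⟩ := h.exists_cocycle0 b (fun s => by rw [hb]; exact c.2 s)
    rw [h.delta0_eq c b hb z hz, H1map_mk, H1mk_eq_zero]
    exact ⟨b, hz⟩

/-- Exactness at `H⁰(C)`. -/
lemma exact_H0C (c : ↥(ρC.invariants)) :
    h.delta0 c = 0 ↔ ∃ b : B, (∀ s, ρB s b = b) ∧ g b = c.1 := by
  obtain ⟨b, hb⟩ := h.surj c.1
  obtain ⟨z, hz⟩ := h.exists_cocycle0 b (fun s => by rw [hb]; exact c.2 s)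
  rw [h.delta0_eq c b hb z hz, H1mk_eq_zero]
  constructor
  · rintro ⟨a, ha⟩
    refine ⟨b - f a, fun s => ?_, by rw [map_sub, h.zero, sub_zero, hb]⟩
    have h1 : ρB s b - b = ρB s (f a) - f a := by
      rw [← hz s]
      have h2 : z.1 s = ρA s a - a := ha s
      rw [h2, map_sub, h.eqf]
    rw [map_sub]
    rw [sub_eq_sub_iff_add_eq_add] at h1
    rw [sub_eq_sub_iff_add_eq_add, h1]; abel
  · rintro ⟨b', hb', hbb⟩
    obtain ⟨a, ha⟩ := h.exact (b - b') (by rw [map_sub, hbb, hb, sub_self])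
    refine ⟨a, fun s => h.inj ?_⟩
    show f (z.1 s) = _
    rw [hz, map_sub, h.eqf, ha, map_sub, hb']
    abel

/-! ### The connecting map `H¹(C) → H²(A)` -/

lemma exists_cocycle1 {b : G → B} (hb : LC1 𝓛 b)
    (hb' : ∀ s t, g (b (s * t)) = ρC s (g (b t)) + g (b s)) :
    ∃ z : ↥(Z2 𝓛 ρA), ∀ p, f (z.1 p) = d12 ρB b p := by
  obtain ⟨ψ, hψ, hψ'⟩ := h.exists_retract
  have h0 : ∀ p, g (d12 ρB b p) = 0 := fun p => by
    simp only [d12_apply, map_add, map_sub, h.eqg p.1, hb']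
    abel
  have hz := d12_mem_Z2 (ρ := ρB) h.disc hb
  refine ⟨⟨fun p => ψ (d12 ρB b p), hz.1.comp ψ, fun s t u => h.inj ?_⟩, fun p => hψ' _ (h0 p)⟩
  rw [map_add, map_add, h.eqf, hψ' _ (h0 _), hψ' _ (h0 _), hψ' _ (h0 _), hψ' _ (h0 _), hz.2]

lemma H2mk_eq_of_lift {b b' : G → B} (hb : LC1 𝓛 b) (hb' : LC1 𝓛 b')
    {m : C} (hbb : ∀ s, g (b s) = g (b' s) + (ρC s m - m)) (z z' : ↥(Z2 𝓛 ρA))
    (hz : ∀ p, f (z.1 p) = d12 ρB b p) (hz' : ∀ p, f (z'.1 p) = d12 ρB b' p) :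
    H2mk 𝓛 ρA z = H2mk 𝓛 ρA z' := by
  rw [← sub_eq_zero, ← map_sub, H2mk_eq_zero]
  obtain ⟨n, hn⟩ := h.surj m
  obtain ⟨ψ, hψ, hψ'⟩ := h.exists_retract
  have hl : LC1 𝓛 (fun s => b s - b' s - (ρB s n - n)) :=
    (((hb.prodMk hb').comp (fun p => p.1 - p.2)).prodMk (LC1.d01 h.disc n)).comp
      (fun p => p.1 - p.2)
  have h0 : ∀ s, g (b s - b' s - (ρB s n - n)) = 0 := fun s => by
    rw [map_sub, map_sub, map_sub, h.eqg, hbb, hn]; abel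
  refine ⟨fun s => ψ (b s - b' s - (ρB s n - n)), hl.comp ψ, fun s t => h.inj ?_⟩
  show f (z.1 (s, t) - z'.1 (s, t)) = _
  rw [map_sub, map_add, map_sub, h.eqf, hz, hz', hψ' _ (h0 _), hψ' _ (h0 _), hψ' _ (h0 _)]
  simp only [d12_apply, map_sub, map_mul, Module.End.mul_apply]
  abel

lemma exists_z1 (c : ↥(Z1 𝓛 ρC)) : ∃ z : ↥(Z2 𝓛 ρA), ∃ b : G → B, LC1 𝓛 b ∧
    (∀ s, g (b s) = c.1 s) ∧ ∀ p, f (z.1 p) = d12 ρB b p := by
  obtain ⟨φ, hφ⟩ := h.exists_section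
  have hb : LC1 𝓛 (fun s => φ (c.1 s)) := c.2.1.comp φ
  obtain ⟨z, hz⟩ := h.exists_cocycle1 hb (fun s t => by simp only [hφ]; exact c.2.2 s t)
  exact ⟨z, _, hb, fun s => hφ _, hz⟩

end SES

/-- The connecting map on cocycles `Z¹(C) → H²(A)`. -/
noncomputable def SES.delta1aux (h : SES 𝓛 ρA ρB ρC f g) : ↥(Z1 𝓛 ρC) →ₗ[k] H2 𝓛 ρA where
  toFun c := H2mk 𝓛 ρA (h.exists_z1 c).choose
  map_add' c c' := by
    obtain ⟨b1, hl1, hb1, hz1⟩ := (h.exists_z1 (c + c')).choose_spec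
    obtain ⟨b2, hl2, hb2, hz2⟩ := (h.exists_z1 c).choose_spec
    obtain ⟨b3, hl3, hb3, hz3⟩ := (h.exists_z1 c').choose_spec
    rw [← map_add]
    refine h.H2mk_eq_of_lift (b := b1) (b' := fun s => b2 s + b3 s) hl1
      ((hl2.prodMk hl3).comp (fun p => p.1 + p.2)) (m := 0) ?_ _ _ hz1 ?_
    · intro s
      rw [map_add, hb1, hb2, hb3]; simp
    · intro s
      rw [Submodule.coe_add, Pi.add_apply, map_add, hz2, hz3]
      simp only [d12_apply, map_add]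
      abel
  map_smul' r c := by
    obtain ⟨b1, hl1, hb1, hz1⟩ := (h.exists_z1 (r • c)).choose_spec
    obtain ⟨b2, hl2, hb2, hz2⟩ := (h.exists_z1 c).choose_spec
    rw [RingHom.id_apply, ← map_smul]
    refine h.H2mk_eq_of_lift (b := b1) (b' := fun s => r • b2 s) hl1
      (hl2.comp (fun x => r • x)) (m := 0) ?_ _ _ hz1 ?_
    · intro s
      rw [map_smul, hb1, hb2]; simp
    · intro s
      rw [Submodule.coe_smul, Pi.smul_apply, map_smul, hz2]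
      simp only [d12_apply, map_smul, smul_add, smul_sub]

namespace SES

variable (h : SES 𝓛 ρA ρB ρC f g)
include h

lemma delta1aux_eq (c : ↥(Z1 𝓛 ρC)) (b : G → B) (hb : LC1 𝓛 b) (m : C)
    (hbc : ∀ s, g (b s) = c.1 s + (ρC s m - m)) (z : ↥(Z2 𝓛 ρA))
    (hz : ∀ p, f (z.1 p) = d12 ρB b p) : h.delta1aux c = H2mk 𝓛 ρA z := by
  obtain ⟨b1, hl1, hb1, hz1⟩ := (h.exists_z1 c).choose_spec
  refine h.H2mk_eq_of_lift hl1 hb (m := -m) ?_ _ _ hz1 hz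
  intro s
  rw [hb1, hbc, map_neg]
  abel

end SES

/-- The connecting map `H¹(C) → H²(A)`. -/
noncomputable def SES.delta1 (h : SES 𝓛 ρA ρB ρC f g) : H1 𝓛 ρC →ₗ[k] H2 𝓛 ρA :=
  Submodule.liftQ _ h.delta1aux (by
    rintro ⟨c, hc⟩ ⟨m, hm⟩
    have hm' : ∀ s, c s = ρC s m - m := fun s => (congrFun hm s).symm
    rw [LinearMap.mem_ker, h.delta1aux_eq ⟨c, hc⟩ (fun _ => 0) (LC1.const 0) (-m)
      (fun s => by simp only [map_zero, hm', map_neg]; abel) 0 (fun p => by simp)]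
    exact map_zero _)

namespace SES

variable (h : SES 𝓛 ρA ρB ρC f g)
include h

/-- Characterisation of `δ¹`. -/
lemma delta1_eq (c : ↥(Z1 𝓛 ρC)) (b : G → B) (hb : LC1 𝓛 b)
    (hbc : ∀ s, g (b s) = c.1 s) (z : ↥(Z2 𝓛 ρA))
    (hz : ∀ p, f (z.1 p) = d12 ρB b p) : h.delta1 (H1mk 𝓛 ρC c) = H2mk 𝓛 ρA z :=
  h.delta1aux_eq c b hb 0 (fun s => by rw [hbc]; simp) z hz

lemma exists_delta1 (c : ↥(Z1 𝓛 ρC)) : ∃ (b : G → B) (z : ↥(Z2 𝓛 ρA)), LC1 𝓛 b ∧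
    (∀ s, g (b s) = c.1 s) ∧ (∀ p, f (z.1 p) = d12 ρB b p) ∧
    h.delta1 (H1mk 𝓛 ρC c) = H2mk 𝓛 ρA z := by
  obtain ⟨z, b, hb, hbc, hz⟩ := h.exists_z1 c
  exact ⟨b, z, hb, hbc, hz, h.delta1_eq c _ hb hbc z hz⟩

/-- Exactness at `H²(A)`. -/
lemma exact_H2A (x : H2 𝓛 ρA) : H2coef 𝓛 f h.eqf x = 0 ↔ ∃ c, h.delta1 c = x := by
  constructor
  · intro hx
    obtain ⟨z, rfl⟩ := H2mk_surjective x
    obtain ⟨b, hbl, hb⟩ := H2mk_eq_zero.1 hx
    have hb' : ∀ p, f (z.1 p) = d12 ρB b p := fun p => hb p.1 p.2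
    have hc : ∀ s t, g (b (s * t)) = ρC s (g (b t)) + g (b s) := fun s t => by
      have h2 := congrArg g (hb' (s, t))
      rw [h.zero, d12_apply, map_add, map_sub, h.eqg] at h2
      rw [eq_comm, sub_add_eq_add_sub, sub_eq_zero] at h2
      exact h2.symm
    exact ⟨H1mk 𝓛 ρC ⟨fun s => g (b s), hbl.comp g, hc⟩,
      h.delta1_eq _ b hbl (fun s => rfl) z hb'⟩
  · rintro ⟨c, rfl⟩
    obtain ⟨c, rfl⟩ := H1mk_surjective c
    obtain ⟨b, z, hb, hbc, hz, he⟩ := h.exists_delta1 c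
    rw [he, H2map_mk, H2mk_eq_zero]
    exact ⟨b, hb, fun s t => hz (s, t)⟩

/-- Exactness at `H¹(C)`. -/
lemma exact_H1C (x : H1 𝓛 ρC) : h.delta1 x = 0 ↔ ∃ y, H1coef 𝓛 g h.eqg y = x := by
  constructor
  · intro hx
    obtain ⟨c, rfl⟩ := H1mk_surjective x
    obtain ⟨b, z, hb, hbc, hz, he⟩ := h.exists_delta1 c
    rw [he, H2mk_eq_zero] at hx
    obtain ⟨a, hal, ha⟩ := hx
    refine ⟨H1mk 𝓛 ρB ⟨fun s => b s - f (a s),
      (hb.prodMk (hal.comp f)).comp (fun p => p.1 - p.2), fun s t => ?_⟩, ?_⟩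
    · have h1 := hz (s, t)
      rw [show z.1 (s, t) = ρA s (a t) - a (s * t) + a s from ha s t, map_add, map_sub,
        h.eqf, d12_apply] at h1
      dsimp only at h1
      rw [map_sub]
      have h2 : b (s * t) = ρB s (b t) + b s - (ρB s (f (a t)) - f (a (s * t)) + f (a s)) := by
        rw [h1]; abel
      dsimp only
      rw [h2]; abel
    · rw [H1map_mk]
      congr 1
      apply Subtype.ext
      funext s
      show g (b s - f (a s)) = c.1 s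
      rw [map_sub, h.zero, sub_zero, hbc]
  · rintro ⟨y, rfl⟩
    obtain ⟨b, rfl⟩ := H1mk_surjective y
    rw [H1map_mk, h.delta1_eq _ b.1 b.2.1 (fun s => rfl) 0 (fun p => by
      simp only [d12_apply, ZeroMemClass.coe_zero, Pi.zero_apply, map_zero, b.2.2 p.1 p.2]
      abel)]
    exact map_zero _

end SES

section Naturality

variable {H : Type*} [Group H] {𝓛' : LevelSys H}
variable {A' : Type*} [AddCommGroup A'] [Module k A'] {ρA' : Representation k H A'}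
variable {B' : Type*} [AddCommGroup B'] [Module k B'] {ρB' : Representation k H B'}
variable {C' : Type*} [AddCommGroup C'] [Module k C'] {ρC' : Representation k H C'}
variable {f' : A' →ₗ[k] B'} {g' : B' →ₗ[k] C'}

/-- Naturality of `δ¹` for compatible pairs. -/
lemma SES.delta1_natural (h : SES 𝓛 ρA ρB ρC f g) (h' : SES 𝓛' ρA' ρB' ρC' f' g')
    (u : H →* G) (hu : 𝓛.Compat u 𝓛') (a : A →ₗ[k] A') (b : B →ₗ[k] B') (c : C →ₗ[k] C')
    (ha : ∀ s m, a (ρA (u s) m) = ρA' s (a m)) (hb : ∀ s m, b (ρB (u s) m) = ρB' s (b m))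
    (hc : ∀ s m, c (ρC (u s) m) = ρC' s (c m))
    (hab : ∀ x, b (f x) = f' (a x)) (hbc : ∀ x, c (g x) = g' (b x)) (x : H1 𝓛 ρC) :
    H2map u hu a ha (h.delta1 x) = h'.delta1 (H1map u hu c hc x) := by
  obtain ⟨x, rfl⟩ := H1mk_surjective x
  obtain ⟨y, z, hy, hyc, hz, he⟩ := h.exists_delta1 x
  rw [he, H2map_mk, H1map_mk]
  symm
  refine h'.delta1_eq _ (fun s => b (y (u s))) ((hy.precomp hu).comp b) (fun s => ?_) _
    (fun p => ?_)
  · rw [← hbc, hyc]; rfl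
  · show f' (a (z.1 (u p.1, u p.2))) = _
    rw [← hab, hz]
    simp only [d12_apply, map_add, map_sub, hb, map_mul]

/-- Naturality of `δ⁰` for compatible pairs. -/
lemma SES.delta0_natural (h : SES 𝓛 ρA ρB ρC f g) (h' : SES 𝓛' ρA' ρB' ρC' f' g')
    (u : H →* G) (hu : 𝓛.Compat u 𝓛') (a : A →ₗ[k] A') (b : B →ₗ[k] B') (c : C →ₗ[k] C')
    (ha : ∀ s m, a (ρA (u s) m) = ρA' s (a m)) (hb : ∀ s m, b (ρB (u s) m) = ρB' s (b m))
    (hab : ∀ x, b (f x) = f' (a x)) (hbc : ∀ x, c (g x) = g' (b x)) (x : ↥(ρC.invariants))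
    (x' : ↥(ρC'.invariants)) (hx : c x.1 = x'.1) :
    H1map u hu a ha (h.delta0 x) = h'.delta0 x' := by
  obtain ⟨y, hy⟩ := h.surj x.1
  obtain ⟨z, hz⟩ := h.exists_cocycle0 y (fun s => by rw [hy]; exact x.2 s)
  rw [h.delta0_eq x y hy z hz, H1map_mk]
  symm
  refine h'.delta0_eq _ (b y) (by rw [← hbc, hy, hx]) _ (fun s => ?_)
  show f' (a (z.1 (u s))) = _
  rw [← hab, hz, map_sub, hb]

end Naturality

end Fermat.Agent.PT
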