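import Fermat.Agent.PT.Frozen
import Fermat.Agent.PT.Setting
import Fermat.Agent.CFT.Bridge.RepChange
import Fermat.Agent.CFT.Bridge.UnramRes
import Fermat.Agent.CFT.SKummer.Lifting
import Fermat.Agent.PT.GlobalData

/-!
# The `K`-level objects of the concrete place data

For `K` finite over `ℚ`, `U = K.fixingSubgroup`, a prime `v ∈ S` and `g : Γ`:

* `locIso` : `(locField (emb K v g)).fixingSubgroup ≃* T.locSub U v g`;
* `theta2`, `theta1` : the local cohomology groups; `theta2_locU2`, `theta1_locU1`.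
* `placeReps` : the places of `K` above `v`;
* `shaU2_eq_ker` : `Ш²` is the kernel of inflation;
* `codimLeOne` : `CodimLeOne` from `LiftS`.
-/

set_option autoImplicit false

namespace Fermat.Agent.PT.Frozen

open Fermat.Agent.PT Fermat.Agent.CFT.Bridge Fermat.Agent.CFT.SKummer ExtCitation
open IsDedekindDomain NumberField

local instance factPrimes (q : Nat.Primes) : Fact ((q : ℕ).Prime) := ⟨q.2⟩

variable {p : ℕ} [hp : Fact p.Prime] {S : Finset Nat.Primes} (hpS : pPrime p ∈ S)
    (inv : ∀ v : ↥S, PT.H2 (rLevels (primeLocalToGlobal v.1))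
      ((chiRep (cycloChar p)).comp (primeLocalToGlobal v.1)) →ₗ[ZMod p] ZMod p)

lemma rLevels_prime (q : Nat.Primes) :
    (rLevels (primeLocalToGlobal q) : LevelSys (primeLocalGaloisGroup q)) =
      galLevels ℚ_[(q : ℕ)] (PadicAlgCl (q : ℕ)) :=
  comap_localGaloisToGlobal_galLevels (q : ℕ)

section

variable (K : IntermediateField ℚ (AlgebraicClosure ℚ)) (v : ↥S) (g : Γ)

/-- The local group of the place `(v, g)` of `K`. -/
noncomputable def locIso : ↥(locField (emb K (v.1 : ℕ) g)).fixingSubgroup ≃*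
    ↥((placeData S hpS inv).locSub K.fixingSubgroup v g) where
  toFun h := ⟨h.1, (placeData S hpS inv).mem_locSub.2
    ((mem_fixing_locField_emb_iff K (v.1 : ℕ)).1 h.2)⟩
  invFun h := ⟨h.1, (mem_fixing_locField_emb_iff K (v.1 : ℕ)).2
    ((placeData S hpS inv).mem_locSub.1 h.2)⟩
  left_inv _ := rfl
  right_inv _ := rfl
  map_mul' _ _ := rfl

lemma locIso_compat : (((placeData S hpS inv).𝓛v v).restrict
    ((placeData S hpS inv).locSub K.fixingSubgroup v g)).Compat
      (locIso hpS inv K v g).toMonoidHom (lev (locField (emb K (v.1 : ℕ) g))) := by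
  rintro W ⟨V, hV, hVW⟩
  have hV' : V ∈ galLevels ℚ_[(v.1 : ℕ)] (PadicAlgCl (v.1 : ℕ)) := by
    rw [← rLevels_prime]
    exact hV
  exact ⟨V, hV', fun h hh => hVW hh⟩

lemma locIso_compat_symm : (lev (locField (emb K (v.1 : ℕ) g))).Compat
      (locIso hpS inv K v g).symm.toMonoidHom (((placeData S hpS inv).𝓛v v).restrict
    ((placeData S hpS inv).locSub K.fixingSubgroup v g)) := by
  rintro W ⟨V, hV, hVW⟩
  have hV' : V ∈ (rLevels (primeLocalToGlobal v.1) : LevelSys (primeLocalGaloisGroup v.1)) := by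
    rw [rLevels_prime]
    exact hV
  exact ⟨V, hV', fun h hh => hVW hh⟩

/-- Local `H²` at the place `(v, g)` of `K`. -/
noncomputable def theta2 : H2 (((placeData S hpS inv).𝓛v v).restrict
    ((placeData S hpS inv).locSub K.fixingSubgroup v g))
      (trivRep (ZMod p) ↥((placeData S hpS inv).locSub K.fixingSubgroup v g)) ≃ₗ[ZMod p]
    H2 (lev (locField (emb K (v.1 : ℕ) g)))
      (triv p ↥(locField (emb K (v.1 : ℕ) g)).fixingSubgroup) :=
  H2equiv (locIso hpS inv K v g) (locIso_compat hpS inv K v g) (locIso_compat_symm hpS inv K v g)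
    (fun _ _ => rfl)

/-- Local `H¹` at the place `(v, g)` of `K`. -/
noncomputable def theta1 : H1 (((placeData S hpS inv).𝓛v v).restrict
    ((placeData S hpS inv).locSub K.fixingSubgroup v g))
      (trivRep (ZMod p) ↥((placeData S hpS inv).locSub K.fixingSubgroup v g)) ≃ₗ[ZMod p]
    H1 (lev (locField (emb K (v.1 : ℕ) g)))
      (triv p ↥(locField (emb K (v.1 : ℕ) g)).fixingSubgroup) :=
  H1equiv (locIso hpS inv K v g) (locIso_compat hpS inv K v g) (locIso_compat_symm hpS inv K v g)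
    (fun _ _ => rfl)

/-- Restriction in degree one. -/
noncomputable def resW1 (q : ℕ) [Fact q.Prime] :
    H1 (lev K) (triv p K.fixingSubgroup) →ₗ[ZMod p]
    H1 (lev (locField (emb K q g))) (triv p (locField (emb K q g)).fixingSubgroup) :=
  H1map (jw K q g) (compat_jw K q g) LinearMap.id (fun _ _ => rfl)

/-- Inflation in degree one. -/
noncomputable def inflK1 (S : Finset Nat.Primes) (K : IntermediateField ℚ (AlgebraicClosure ℚ))
    (p : ℕ) : H1 (levS S K) (triv p K.fixingSubgroup) →ₗ[ZMod p]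
      H1 (lev K) (triv p K.fixingSubgroup) :=
  H1map (MonoidHom.id _) (fun V hV => levS_le_lev V hV) LinearMap.id (fun _ _ => rfl)

lemma theta2_locU2 (x : H2 ((sLevels S).restrict K.fixingSubgroup)
    (trivRep (ZMod p) K.fixingSubgroup)) :
    theta2 hpS inv K v g ((placeData S hpS inv).locU2 K.fixingSubgroup v g x) =
      resW K (v.1 : ℕ) g (inflK S K p x) := by
  obtain ⟨c, rfl⟩ := H2mk_surjective x
  rfl

lemma theta1_locU1 (x : H1 ((sLevels S).restrict K.fixingSubgroup)
    (trivRep (ZMod p) K.fixingSubgroup)) :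
    theta1 hpS inv K v g ((placeData S hpS inv).locU1 K.fixingSubgroup v g x) =
      resW1 K g (v.1 : ℕ) (inflK1 S K p x) := by
  obtain ⟨c, rfl⟩ := H1mk_surjective x
  rfl

lemma locU2_eq_zero_iff (x : H2 ((sLevels S).restrict K.fixingSubgroup)
    (trivRep (ZMod p) K.fixingSubgroup)) :
    (placeData S hpS inv).locU2 K.fixingSubgroup v g x = 0 ↔
      resW K (v.1 : ℕ) g (inflK S K p x) = 0 := by
  rw [← theta2_locU2 hpS inv K v g x]
  exact (LinearEquiv.map_eq_zero_iff (theta2 hpS inv K v g)).symm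

lemma locU1_eq_zero_iff (x : H1 ((sLevels S).restrict K.fixingSubgroup)
    (trivRep (ZMod p) K.fixingSubgroup)) :
    (placeData S hpS inv).locU1 K.fixingSubgroup v g x = 0 ↔
      resW1 K g (v.1 : ℕ) (inflK1 S K p x) = 0 := by
  rw [← theta1_locU1 hpS inv K v g x]
  exact (LinearEquiv.map_eq_zero_iff (theta1 hpS inv K v g)).symm

end

section places

variable (K : IntermediateField ℚ (AlgebraicClosure ℚ)) [FiniteDimensional ℚ K]

/-- The places of `K` above `v`. -/
abbrev PlAbove (K : IntermediateField ℚ (AlgebraicClosure ℚ)) [FiniteDimensional ℚ K] (v : ↥S) :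
    Type := {w : HeightOneSpectrum (𝓞 K) // ((v.1 : ℕ) : 𝓞 K) ∈ w.asIdeal}

/-- A chosen representative of a place above `v`. -/
noncomputable def plRep (v : ↥S) (w : PlAbove K v) : Γ := (exists_emb (q := (v.1 : ℕ)) K w.1 w.2).choose

lemma placeOf_plRep (v : ↥S) (w : PlAbove K v) :
    placeOf (emb K (v.1 : ℕ) (plRep K v w)) = w.1 :=
  (exists_emb (q := (v.1 : ℕ)) K w.1 w.2).choose_spec

theorem placeReps (v : ↥S) :
    (placeData S hpS inv).PlaceReps K.fixingSubgroup v (plRep K v) where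
  surj x := by
    let w : PlAbove K v := ⟨placeOf (emb K (v.1 : ℕ) x), q_mem_placeOf _⟩
    obtain ⟨σ, u, hu, h⟩ := (placeOf_emb_eq_iff K (q := (v.1 : ℕ)) (plRep K v w) x).1
      (placeOf_plRep K v w)
    exact ⟨w, σ, u, hu, h⟩
  inj i j d u hu h := by
    have h1 := (placeOf_emb_eq_iff K (q := (v.1 : ℕ)) (plRep K v i) (plRep K v j)).2 ⟨d, u, hu, h⟩
    rw [placeOf_plRep, placeOf_plRep] at h1
    exact Subtype.ext h1

end places

section sha

variable (K : IntermediateField ℚ (AlgebraicClosure ℚ)) [FiniteDimensional ℚ K]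

omit hp in
lemma inertia_le_of_mem_sLevels {V : Subgroup Γ} (hV : V ∈ sLevels S) {q : Nat.Primes} (hq : q ∉ S)
    {A : ValuationSubring (AlgebraicClosure ℚ)} (hA : A.LiesOverPrime (q : ℕ)) :
    A.inertiaSubgroupIn ℚ ≤ V := by
  obtain ⟨F, hF, hFV⟩ := mem_sLevels.1 hV
  exact (hF.2 q hq A hA).trans hFV

/-- Classes unramified outside `S` are trivial at the places outside `S`. -/
theorem resW_inflK_eq_zero (q : Nat.Primes) (hq : q ∉ S) (g : Γ)
    (x : H2 (levS S K) (triv p K.fixingSubgroup)) : resW K (q : ℕ) g (inflK S K p x) = 0 := by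
  obtain ⟨c, rfl⟩ := H2mk_surjective x
  obtain ⟨W, hW, hWc⟩ := c.2.1
  obtain ⟨V, hV, hVW⟩ := LevelSys.mem_comap.mp hW
  obtain ⟨W₀, hW₀, hW₀V, hn⟩ := LevelSys.exists_normal hV
  exact resW_eq_zero_of_unramified K (q : ℕ) g W₀ (sLevels_le hW₀)
    (inertia_le_of_mem_sLevels hW₀ hq (placeW_liesOverPrime (q : ℕ) g)) _
    (fun x y u v hu hv => hWc x y u v (hVW (hW₀V hu)) (hVW (hW₀V hv)))

/-- **`Ш²` of `K` is the kernel of inflation.** -/
theorem shaU2_eq_ker (hp2 : p ≠ 2) {ζ : K} (hζ : IsPrimitiveRoot ζ p) :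
    (placeData S hpS inv).shaU2 K.fixingSubgroup = LinearMap.ker (inflK S K p) := by
  ext x
  rw [PlaceData.mem_shaU2, LinearMap.mem_ker]
  constructor
  · intro h
    refine Fermat.Agent.CFT.Global.hasse_principle hp2 (Fermat.Agent.CFT.Global.locH2 hp2) K hζ _
      fun q hq g => ?_
    by_cases hqS : (⟨q, hq.out⟩ : Nat.Primes) ∈ S
    · exact (locU2_eq_zero_iff hpS inv K ⟨⟨q, hq.out⟩, hqS⟩ g x).1 (h ⟨⟨q, hq.out⟩, hqS⟩ g)
    · exact resW_inflK_eq_zero K ⟨q, hq.out⟩ hqS g x
  · intro h v g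
    refine (locU2_eq_zero_iff hpS inv K v g x).2 ?_
    rw [h]
    exact map_zero _

end sha

section codim

variable {K : IntermediateField ℚ (AlgebraicClosure ℚ)} [FiniteDimensional ℚ K]

noncomputable instance finite_plAbove (v : ↥S) : Finite (PlAbove K v) := by
  have h1 : Ideal.span {((v.1 : ℕ) : 𝓞 K)} ≠ ⊥ := by
    rw [Ne, Ideal.span_singleton_eq_bot]
    exact Nat.cast_ne_zero.mpr v.1.2.ne_zero
  refine Set.Finite.to_subtype ((Ideal.finite_factors h1).subset ?_)
  intro w hw
  rw [Set.mem_ofPred_eq, Ideal.dvd_iff_le, Ideal.span_singleton_le_iff_mem]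
  exact hw

/-- The places of `K` above `S`. -/
abbrev PlS (S : Finset Nat.Primes) (K : IntermediateField ℚ (AlgebraicClosure ℚ))
    [FiniteDimensional ℚ K] : Type := Σ v : ↥S, PlAbove K v

noncomputable instance fintype_plS : Fintype (PlS S K) := Fintype.ofFinite _

/-- The embedding of the places above `S` in the set of places. -/
def plSEmb (S : Finset Nat.Primes) (K : IntermediateField ℚ (AlgebraicClosure ℚ))
    [FiniteDimensional ℚ K] : PlS S K ↪ HeightOneSpectrum (𝓞 K) where
  toFun w := w.2.1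
  inj' := by
    rintro ⟨v, w⟩ ⟨v', w'⟩ h
    have h0 : w.1 = w'.1 := h
    have h1 : (v.1 : ℕ) = (v'.1 : ℕ) := prime_unique v.1.2 v'.1.2 w.2 (h0 ▸ w'.2)
    obtain rfl : v = v' := Subtype.ext (Subtype.ext h1)
    obtain rfl : w = w' := Subtype.ext h0
    rfl

omit hp in
lemma notMem_range_plSEmb (q : Nat.Primes) (hq : q ∉ S) (g : Γ) :
    placeOf (emb K (q : ℕ) g) ∉ Set.range (plSEmb S K) := fun ⟨w, h⟩ => by
  have h1 : (w.1.1 : ℕ) = (q : ℕ) := prime_unique w.1.1.2 q.2 w.2.2 (by
    have h0 : w.2.1 = placeOf (emb K (q : ℕ) g) := h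
    rw [h0]
    exact q_mem_placeOf _)
  apply hq
  rw [← Subtype.ext h1]
  exact w.1.2

/-- The chosen representation of a place above `v ∈ S`. -/
noncomputable def plP (v : ↥S) (w : PlAbove K v) : PlaceRep K w.1 where
  q := v.1
  hq := ⟨v.1.2⟩
  g := plRep K v w
  h := placeOf_plRep K v w

/-- The change of representative. -/
noncomputable def plE (p : ℕ) [Fact p.Prime] (v : ↥S) (w : PlAbove K v) :
    (plP v w).H2loc p ≃ₗ[ZMod p] (placeRep K w.1).H2loc p :=
  (PlaceRep.exists_equiv (p := p) (plP v w) (placeRep K w.1)).choose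

lemma plE_res (v : ↥S) (w : PlAbove K v) (x : H2 (lev K) (triv p K.fixingSubgroup)) :
    plE p v w ((plP v w).res p x) = (placeRep K w.1).res p x :=
  (PlaceRep.exists_equiv (p := p) (plP v w) (placeRep K w.1)).choose_spec x

variable (hp2 : p ≠ 2) {ζ : K} (hζ : IsPrimitiveRoot ζ p)

lemma invVec_eq (w : HeightOneSpectrum (𝓞 K)) (x : H2 (lev K) (triv p K.fixingSubgroup)) :
    Fermat.Agent.CFT.Global.invVec hp2 hζ x w =
      (Fermat.Agent.CFT.Global.locI hp2 hζ w).toLocFunc.inv ((placeRep K w).res p x) := rfl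

/-- The local invariant at a place above `v`. -/
noncomputable def lamP (v : ↥S) (w : PlAbove K v) : (plP v w).H2loc p →+ ZMod p :=
  (Fermat.Agent.CFT.Global.locI hp2 hζ w.1).toLocFunc.inv.comp
    (plE p v w).toLinearMap.toAddMonoidHom

lemma lamP_apply (v : ↥S) (w : PlAbove K v) (y : (plP v w).H2loc p) :
    lamP hp2 hζ v w y =
      (Fermat.Agent.CFT.Global.locI hp2 hζ w.1).toLocFunc.inv (plE p v w y) := rfl

lemma res_eq_of_inv (v : ↥S) (w : PlAbove K v) (y : (plP v w).H2loc p)
    (x : H2 (lev K) (triv p K.fixingSubgroup))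
    (h : Fermat.Agent.CFT.Global.invAt hp2 hζ w.1 x = lamP hp2 hζ v w y) :
    (plP v w).res p x = y :=
  (plE p v w).injective ((plE_res v w x).trans
    ((Fermat.Agent.CFT.Global.locI hp2 hζ w.1).toLocFunc.inj h))

/-- The abstract form of the existence theorem. -/
theorem exists_of_functional {A V : Type} {i : V → A → ZMod p} {c : V → ZMod p}
    (hR : ∀ t : V →₀ ZMod p, t.sum (fun v n => c v * n) = 0 → ∃ x, ∀ v, i v x = t v)
    {I : Type} [Fintype I] (e : I ↪ V) (s : I → ZMod p) (hs : ∑ j, c (e j) * s j = 0) :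
    ∃ x : A, (∀ j, i (e j) x = s j) ∧ ∀ v, v ∉ Set.range e → i v x = 0 := by
  obtain ⟨x, hx⟩ := hR ((Finsupp.equivFunOnFinite.symm s).embDomain e) (by
    rw [Finsupp.sum_embDomain, Finsupp.sum_fintype _ _ (fun _ => mul_zero _)]
    exact hs)
  refine ⟨x, fun j => ?_, fun v hv => ?_⟩
  · rw [hx, Finsupp.embDomain_apply_self]
    rfl
  · rw [hx, Finsupp.embDomain_of_notMem_range _ _ _ hv]

theorem exists_glob' : ∃ c : HeightOneSpectrum (𝓞 K) → ZMod p, (∀ v, c v ≠ 0) ∧
    ∀ s : PlS S K → ZMod p, ∑ w : PlS S K, c w.2.1 * s w = 0 →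
      ∃ x : H2 (lev K) (triv p K.fixingSubgroup),
        (∀ w : PlS S K, Fermat.Agent.CFT.Global.invAt hp2 hζ w.2.1 x = s w) ∧
        ∀ v, v ∉ Set.range (plSEmb S K) → Fermat.Agent.CFT.Global.invAt hp2 hζ v x = 0 :=
  Exists.imp (fun c hc => ⟨hc.1, fun s hs => exists_of_functional
    (i := fun v x => Fermat.Agent.CFT.Global.invAt hp2 hζ v x)
    (fun t ht => Exists.imp (fun x hx v => DFunLike.congr_fun hx v) ((hc.2 t).2 ht))
    (plSEmb S K) s hs⟩) (Fermat.Agent.CFT.Global.exists_reciprocity hp2 hζ)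

/-- The local `H²` of the concrete place data at a place above `v`. -/
noncomputable abbrev LocT (v : ↥S) (w : PlAbove K v) : Type :=
  H2 (((placeData S hpS inv).𝓛v v).restrict
      ((placeData S hpS inv).locSub K.fixingSubgroup v (plRep K v w)))
        (trivRep (ZMod p) ↥((placeData S hpS inv).locSub K.fixingSubgroup v (plRep K v w)))

/-- Comparison of the local groups. -/
noncomputable def thetaP (v : ↥S) (w : PlAbove K v) :
    LocT hpS inv v w ≃ₗ[ZMod p] (plP v w).H2loc p :=
  theta2 hpS inv K v (plRep K v w)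

lemma thetaP_locU2 (v : ↥S) (w : PlAbove K v) (x : H2 ((sLevels S).restrict K.fixingSubgroup)
    (trivRep (ZMod p) K.fixingSubgroup)) :
    thetaP hpS inv v w ((placeData S hpS inv).locU2 K.fixingSubgroup v (plRep K v w) x) =
      (plP v w).res p (inflK S K p x) :=
  theta2_locU2 hpS inv K v (plRep K v w) x

/-- The local invariant at a place above `v`. -/
noncomputable def lamW (v : ↥S) (w : PlAbove K v) : LocT hpS inv v w →ₗ[ZMod p] ZMod p :=
  AddMonoidHom.toZModLinearMap p
    ((lamP hp2 hζ v w).comp (thetaP hpS inv v w).toLinearMap.toAddMonoidHom)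

lemma lamW_apply (v : ↥S) (w : PlAbove K v) (y : LocT hpS inv v w) :
    lamW hpS inv hp2 hζ v w y = lamP hp2 hζ v w (thetaP hpS inv v w y) := rfl

/-- The sum of the local invariants, with weights. -/
noncomputable def lamTot (c : HeightOneSpectrum (𝓞 K) → ZMod p) :
    (∀ (v : ↥S) (w : PlAbove K v), LocT hpS inv v w) →ₗ[ZMod p] ZMod p where
  toFun y := ∑ w : PlS S K, c w.2.1 * lamW hpS inv hp2 hζ w.1 w.2 (y w.1 w.2)
  map_add' y y' := by
    rw [← Finset.sum_add_distrib]
    refine Finset.sum_congr rfl fun w _ => ?_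
    rw [Pi.add_apply, Pi.add_apply, map_add, mul_add]
  map_smul' a y := by
    rw [RingHom.id_apply, smul_eq_mul, Finset.mul_sum]
    refine Finset.sum_congr rfl fun w _ => ?_
    rw [Pi.smul_apply, Pi.smul_apply, map_smul, smul_eq_mul]
    ring

include hp2 hζ in
/-- The codimension of the image of `H²(U)` in `⊕_w H²(U_w)` is at most one. -/
theorem codimLeOne_of_lift
    (hlift : ∀ x : H2 (lev K) (triv p K.fixingSubgroup),
      (∀ q : Nat.Primes, q ∉ S → ∀ g : Γ, resW K (q : ℕ) g x = 0) →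
        x ∈ LinearMap.range (inflK S K p)) :
    (placeData S hpS inv).CodimLeOne K.fixingSubgroup :=
  Exists.elim (exists_glob' (S := S) hp2 hζ) fun _ hc =>
    ⟨fun v => PlAbove K v, fun v => plRep K v, fun v => placeReps hpS inv K v,
      lamTot hpS inv hp2 hζ _, fun y hy =>
        Exists.elim (hc.2 (fun w => lamW hpS inv hp2 hζ w.1 w.2 (y w.1 w.2)) hy) fun x hx =>
          Exists.elim (hlift x fun q hq g =>
            (Fermat.Agent.CFT.Global.invAt_eq_zero_iff hp2 hζ (q : ℕ) g rfl x).1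
              (hx.2 _ (notMem_range_plSEmb q hq g))) fun z hz =>
            ⟨z, fun v w => (thetaP hpS inv v w).injective
              ((thetaP_locU2 hpS inv v w z).trans
                ((congrArg ((plP v w).res p) hz).trans
                  (res_eq_of_inv hp2 hζ v w _ x (hx.1 ⟨v, w⟩))))⟩⟩

/-- The codimension of the image of `H²(U)` in `⊕_w H²(U_w)` is at most one. -/
theorem codimLeOne (hp2 : p ≠ 2) {ζ : K} (hζ : IsPrimitiveRoot ζ p) (hlift : LiftS p S K) :
    (placeData S hpS inv).CodimLeOne K.fixingSubgroup :=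
  codimLeOne_of_lift hpS inv hp2 hζ fun x hx => hlift x fun _ hq hqS g => hx ⟨_, hq.out⟩ hqS g

end codim

end Fermat.Agent.PT.Frozen
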