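import Fermat.Agent.PT.Setting
import Fermat.Agent.PT.RightExact

/-!
# Module-level statements from K-level statements (Shapiro and Mackey squares)
-/

set_option autoImplicit false

namespace Fermat.Agent.PT

open Module

section EvMap

variable {k : Type*} [CommRing k] {H : Type*} [Group H] {𝓛 : LevelSys H}
variable {A : Type*} [AddCommGroup A] [Module k A] {X : Type*}

/-- Restrict to a subgroup and evaluate at a point (degree 2). -/
def evMap2 {σ : Representation k H (X → A)} (W : Subgroup H) (τ : Representation k W A) (x : X)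
    (h : ∀ (w : W) (f : X → A), σ w f x = τ w (f x)) : H2 𝓛 σ →ₗ[k] H2 (𝓛.restrict W) τ :=
  H2map W.subtype (LevelSys.compat_comap _) (LinearMap.proj x) h

/-- Restrict to a subgroup and evaluate at a point (degree 1). -/
def evMap1 {σ : Representation k H (X → A)} (W : Subgroup H) (τ : Representation k W A) (x : X)
    (h : ∀ (w : W) (f : X → A), σ w f x = τ w (f x)) : H1 𝓛 σ →ₗ[k] H1 (𝓛.restrict W) τ :=
  H1map W.subtype (LevelSys.compat_comap _) (LinearMap.proj x) h

variable [MulAction H X] (ρ : Representation k H A) {σ : Representation k H (X → A)}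
  (hσ : ∀ (h : H) (f : X → A) (x : X), σ h f x = ρ h (f (h⁻¹ • x)))
  {J : Type*} {x : J → X} (hx : OrbitReps H x) (W : J → Subgroup H)
  (hW : ∀ j, W j = MulAction.stabilizer H (x j))
  (τ : ∀ j, Representation k (W j) A) (hτ : ∀ j (w : W j), τ j w = ρ w)

include hσ hx hW hτ

lemma evMap2_injective [Finite X] (hX : ∀ x : X, MulAction.stabilizer H x ∈ 𝓛)
    (hev : ∀ j, ∀ (w : W j) (f : X → A), σ w f (x j) = τ j w (f (x j))) (z : H2 𝓛 σ)
    (hz : ∀ j, evMap2 (W j) (τ j) (x j) (hev j) z = 0) : z = 0 := by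
  obtain rfl : σ = funRep X ρ := by
    refine MonoidHom.ext fun h => LinearMap.ext fun f => funext fun y => hσ h f y
  obtain rfl : W = fun j => MulAction.stabilizer H (x j) := funext hW
  obtain rfl : τ = fun j => ρ.comp (MulAction.stabilizer H (x j)).subtype := by
    funext j
    exact MonoidHom.ext fun w => hτ j w
  exact sh2_injective hx hX z hz

lemma evMap2_surjective [Finite X] (hX : ∀ x : X, MulAction.stabilizer H x ∈ 𝓛)
    (hev : ∀ j, ∀ (w : W j) (f : X → A), σ w f (x j) = τ j w (f (x j)))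
    (y : ∀ j, H2 (𝓛.restrict (W j)) (τ j)) :
    ∃ z : H2 𝓛 σ, ∀ j, evMap2 (W j) (τ j) (x j) (hev j) z = y j := by
  obtain rfl : σ = funRep X ρ := by
    refine MonoidHom.ext fun h => LinearMap.ext fun f => funext fun y => hσ h f y
  obtain rfl : W = fun j => MulAction.stabilizer H (x j) := funext hW
  obtain rfl : τ = fun j => ρ.comp (MulAction.stabilizer H (x j)).subtype := by
    funext j
    exact MonoidHom.ext fun w => hτ j w
  exact sh2_surjective hx hX y

lemma evMap1_injective
    (hev : ∀ j, ∀ (w : W j) (f : X → A), σ w f (x j) = τ j w (f (x j))) (z : H1 𝓛 σ)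
    (hz : ∀ j, evMap1 (W j) (τ j) (x j) (hev j) z = 0) : z = 0 := by
  obtain rfl : σ = funRep X ρ := by
    refine MonoidHom.ext fun h => LinearMap.ext fun f => funext fun y => hσ h f y
  obtain rfl : W = fun j => MulAction.stabilizer H (x j) := funext hW
  obtain rfl : τ = fun j => ρ.comp (MulAction.stabilizer H (x j)).subtype := by
    funext j
    exact MonoidHom.ext fun w => hτ j w
  exact sh1_injective hx z hz

lemma evMap1_surjective [Finite X] (hX : ∀ x : X, MulAction.stabilizer H x ∈ 𝓛)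
    (hev : ∀ j, ∀ (w : W j) (f : X → A), σ w f (x j) = τ j w (f (x j)))
    (y : ∀ j, H1 (𝓛.restrict (W j)) (τ j)) :
    ∃ z : H1 𝓛 σ, ∀ j, evMap1 (W j) (τ j) (x j) (hev j) z = y j := by
  obtain rfl : σ = funRep X ρ := by
    refine MonoidHom.ext fun h => LinearMap.ext fun f => funext fun y => hσ h f y
  obtain rfl : W = fun j => MulAction.stabilizer H (x j) := funext hW
  obtain rfl : τ = fun j => ρ.comp (MulAction.stabilizer H (x j)).subtype := by
    funext j
    exact MonoidHom.ext fun w => hτ j w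
  exact sh1_surjective hx hX y

end EvMap

/-- The permutation representation on functions `G ⧸ U → k`. -/
abbrev permRep (k : Type*) {G : Type*} [CommRing k] [Group G] (U : Subgroup G) :
    Representation k G (G ⧸ U → k) := funRep (G ⧸ U) (trivRep k G)

lemma stabilizer_one_quotient {G : Type*} [Group G] (U : Subgroup G) :
    MulAction.stabilizer G (QuotientGroup.mk (1 : G) : G ⧸ U) = U := by
  ext g
  rw [MulAction.mem_stabilizer_iff, MulAction.Quotient.smul_mk, smul_eq_mul, mul_one,
    QuotientGroup.eq]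
  simp

lemma permRep_discrete {k : Type*} {G : Type*} [CommRing k] [Group G] {𝓛 : LevelSys G}
    {U : Subgroup G} (hU : U ∈ 𝓛) : Discrete 𝓛 (permRep k U) := by
  have := LevelSys.finiteIndex hU
  exact funRep_discrete (fun m => ⟨⊤, 𝓛.top_mem, fun _ _ => rfl⟩)
    (fun x => stab_quotient_mem hU x)

/-- Every group action has a system of orbit representatives. -/
lemma exists_orbitReps (H X : Type*) [Group H] [MulAction H X] :
    OrbitReps H (fun j : MulAction.orbitRel.Quotient H X => (Quotient.out j : X)) where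
  surj y := by
    refine ⟨Quotient.mk'' y, ?_⟩
    have h1 : (MulAction.orbitRel H X).r ((Quotient.mk'' y :
        MulAction.orbitRel.Quotient H X).out) y := Quotient.mk_out' (s₁ := MulAction.orbitRel H X) y
    obtain ⟨g, hg⟩ := h1
    exact ⟨g⁻¹, by rw [← hg]; simp⟩
  inj i j g hg := by
    rw [← Quotient.out_eq' i, ← Quotient.out_eq' j]
    apply Quotient.sound'
    exact ⟨g⁻¹, by show g⁻¹ • Quotient.out j = Quotient.out i; rw [← hg]; simp⟩

section Shapiro

variable (k : Type*) [CommRing k] {G : Type*} [Group G] (𝓛 : LevelSys G) (U : Subgroup G)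

lemma shU_aux (w : U) (f : G ⧸ U → k) :
    permRep k U w f (QuotientGroup.mk 1) = trivRep k ↥U w (f (QuotientGroup.mk 1)) := by
  show f ((w : G)⁻¹ • (QuotientGroup.mk 1 : G ⧸ U)) = f (QuotientGroup.mk 1)
  congr 1
  rw [MulAction.Quotient.smul_mk, smul_eq_mul, mul_one]
  exact (QuotientGroup.eq.2 (by simp)).symm

/-- Shapiro map for `permRep`, degree 2. -/
def shU2 : H2 𝓛 (permRep k U) →ₗ[k] H2 (𝓛.restrict U) (trivRep k ↥U) :=
  evMap2 U (trivRep k ↥U) (QuotientGroup.mk 1) (shU_aux k U)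

variable {U 𝓛}

lemma shU2_injective (hU : U ∈ 𝓛) : Function.Injective (shU2 k 𝓛 U) := by
  have := LevelSys.finiteIndex hU
  rw [injective_iff_map_eq_zero]
  intro z hz
  exact evMap2_injective (trivRep k G) (fun h f x => rfl) (orbitReps_quotient U) (fun _ => U)
    (fun _ => (stabilizer_one_quotient U).symm) (fun _ => trivRep k ↥U) (fun _ _ => rfl)
    (fun x => stab_quotient_mem hU x) _ z (fun _ => hz)

lemma shU2_surjective (hU : U ∈ 𝓛) : Function.Surjective (shU2 k 𝓛 U) := by
  have := LevelSys.finiteIndex hU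
  intro y
  obtain ⟨z, hz⟩ := evMap2_surjective (trivRep k G) (σ := permRep k U) (fun h f x => rfl)
    (orbitReps_quotient U) (fun _ => U)
    (fun _ => (stabilizer_one_quotient U).symm) (fun _ => trivRep k ↥U) (fun _ _ => rfl)
    (fun x => stab_quotient_mem hU x) (fun _ => shU_aux k U) (fun _ => y)
  exact ⟨z, hz ()⟩

end Shapiro

namespace PlaceData

variable {k G : Type} [Field k] [Group G] (T : PlaceData k G) (U : Subgroup G)

lemma locSub_smul {U : Subgroup G} {v : T.V} {g : G} {d : T.D v} (hd : d ∈ T.locSub U v g) :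
    T.r v d • (QuotientGroup.mk g : G ⧸ U) = QuotientGroup.mk g := by
  rw [MulAction.Quotient.smul_mk, smul_eq_mul]
  refine (QuotientGroup.eq.2 ?_).symm
  rw [← mul_assoc]
  exact (T.mem_locSub).1 hd

lemma evL2_aux (v : T.V) (g : G) (w : T.locSub U v g) (f : G ⧸ U → k) :
    (permRep k U).comp (T.r v) w f (QuotientGroup.mk g) =
      trivRep k ↥(T.locSub U v g) w (f (QuotientGroup.mk g)) := by
  show f ((T.r v w)⁻¹ • (QuotientGroup.mk g : G ⧸ U)) = f (QuotientGroup.mk g)
  rw [← map_inv]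
  exact congrArg f (T.locSub_smul ((T.locSub U v g).inv_mem w.2))

/-- Local evaluation map in degree 2. -/
def evL2 (v : T.V) (g : G) : H2 (T.𝓛v v) ((permRep k U).comp (T.r v)) →ₗ[k]
    H2 ((T.𝓛v v).restrict (T.locSub U v g)) (trivRep k ↥(T.locSub U v g)) :=
  evMap2 (T.locSub U v g) (trivRep k _) (QuotientGroup.mk g) (T.evL2_aux U v g)

/-- **Mackey square** in degree 2. -/
lemma evL2_loc2 (v : T.V) (g : G) (z : H2 T.𝓛 (permRep k U)) :
    T.evL2 U v g (T.loc2 (permRep k U) v z) = T.locU2 U v g (shU2 k T.𝓛 U z) := by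
  obtain ⟨z, rfl⟩ := H2mk_surjective z
  rw [← sub_eq_zero]
  have e0 : T.evL2 U v g (T.loc2 (permRep k U) v (H2mk T.𝓛 (permRep k U) z)) -
      T.locU2 U v g (shU2 k T.𝓛 U (H2mk T.𝓛 (permRep k U) z)) =
      H2mk ((T.𝓛v v).restrict (T.locSub U v g)) (trivRep k ↥(T.locSub U v g))
        (Z2map (T.locSub U v g).subtype (LevelSys.compat_comap _)
          (LinearMap.proj (QuotientGroup.mk g)) (T.evL2_aux U v g)
          (Z2map (T.r v) (T.hr v) LinearMap.id (fun _ _ => rfl) z) -
        Z2map (T.locHom U v g) (T.locHom_compat U v g) LinearMap.id (fun _ _ => rfl)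
          (Z2map U.subtype (LevelSys.compat_comap _) (LinearMap.proj (QuotientGroup.mk 1))
            (shU_aux k U) z)) := rfl
  rw [e0, H2mk_eq_zero]
  -- the homotopy
  let b : G → (G ⧸ U → k) := fun s => z.1 (s, g) - z.1 (g, g⁻¹ * s * g)
  have hbl : LC1 T.𝓛 b := by
    obtain ⟨W, hW, hn, hz⟩ := z.2.1.exists_normal
    refine ⟨W, hW, fun s w hw => ?_⟩
    simp only [b]
    have h1 := hz s g w 1 hw W.one_mem
    have h2 := hz g (g⁻¹ * s * g) 1 (g⁻¹ * w * g) W.one_mem (by simpa using hn.conj_mem w hw g⁻¹)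
    rw [mul_one] at h1 h2
    have e : g⁻¹ * (s * w) * g = g⁻¹ * s * g * (g⁻¹ * w * g) := by group
    rw [e, h1, h2]
  refine ⟨fun d => b (T.r v d) (QuotientGroup.mk g), ?_, fun d e => ?_⟩
  · exact ((hbl.precomp (T.hr v)).comp (fun f => f (QuotientGroup.mk g))).precomp
      (LevelSys.compat_comap _)
  · -- the cocycle identity
    set s := T.r v (d : T.D v) with hs
    set t := T.r v (e : T.D v) with ht
    have hst : T.r v ((d * e : ↥(T.locSub U v g)) : T.D v) = s * t := by
      rw [Subgroup.coe_mul, map_mul]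
    have c1 := congrFun (z.2.2 g (g⁻¹ * s * g) (g⁻¹ * t * g)) (QuotientGroup.mk g)
    have c2 := congrFun (z.2.2 s g (g⁻¹ * t * g)) (QuotientGroup.mk g)
    have c3 := congrFun (z.2.2 s t g) (QuotientGroup.mk g)
    have e1 : g * (g⁻¹ * s * g) = s * g := by group
    have e2 : g⁻¹ * s * g * (g⁻¹ * t * g) = g⁻¹ * (s * t) * g := by group
    have e3 : g * (g⁻¹ * t * g) = t * g := by group
    have e4 : (g : G)⁻¹ • (QuotientGroup.mk g : G ⧸ U) = QuotientGroup.mk 1 := by
      rw [MulAction.Quotient.smul_mk, smul_eq_mul, inv_mul_cancel]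
    have e5 : s⁻¹ • (QuotientGroup.mk g : G ⧸ U) = QuotientGroup.mk g := by
      rw [hs, ← map_inv]
      exact T.locSub_smul ((T.locSub U v g).inv_mem d.2)
    simp only [Pi.add_apply, funRep_apply, e1, e2, e3, e4, e5] at c1 c2 c3
    show z.1 (s, t) (QuotientGroup.mk g) -
      z.1 (g⁻¹ * s * g, g⁻¹ * t * g) (QuotientGroup.mk 1) =
      b t (QuotientGroup.mk g) - b (T.r v ((d * e : ↥(T.locSub U v g)) : T.D v))
        (QuotientGroup.mk g) + b s (QuotientGroup.mk g)
    rw [hst]
    simp only [b, Pi.sub_apply]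
    simp only [Representation.isTrivial_def, LinearMap.id_coe, id_eq] at c1 c2 c3
    linear_combination c1 - c2 + c3

lemma placeReps_orbitReps {U : Subgroup G} {v : T.V} {J : Type} {g : J → G}
    (hg : T.PlaceReps U v g) :
    @OrbitReps (T.D v) _ (G ⧸ U) (MulAction.compHom _ (T.r v)) J
      (fun j => (QuotientGroup.mk (g j) : G ⧸ U)) := by
  let _ := MulAction.compHom (G ⧸ U) (T.r v)
  constructor
  · intro y
    obtain ⟨a, rfl⟩ := QuotientGroup.mk_surjective y
    obtain ⟨j, d, u, hu, he⟩ := hg.surj a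
    refine ⟨j, d, ?_⟩
    show T.r v d • (QuotientGroup.mk (g j) : G ⧸ U) = QuotientGroup.mk a
    rw [MulAction.Quotient.smul_mk, smul_eq_mul, QuotientGroup.eq, he]
    convert hu using 1
    group
  · intro i j d hd
    have h1 : T.r v d • (QuotientGroup.mk (g i) : G ⧸ U) = QuotientGroup.mk (g j) := hd
    rw [MulAction.Quotient.smul_mk, smul_eq_mul, QuotientGroup.eq] at h1
    exact hg.inj i j d _ h1 (by group)

lemma locSub_eq_stabilizer (v : T.V) (g : G) :
    T.locSub U v g = @MulAction.stabilizer (T.D v) (G ⧸ U) _ (MulAction.compHom _ (T.r v))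
      (QuotientGroup.mk g) := by
  let _ := MulAction.compHom (G ⧸ U) (T.r v)
  ext d
  constructor
  · intro hd
    exact T.locSub_smul hd
  · intro hd
    have h1 : T.r v d • (QuotientGroup.mk g : G ⧸ U) = QuotientGroup.mk g := hd
    rw [MulAction.Quotient.smul_mk, smul_eq_mul, eq_comm, QuotientGroup.eq] at h1
    rw [mem_locSub, mul_assoc]
    exact h1

lemma locSub_mem {U : Subgroup G} (hU : U ∈ T.𝓛) (v : T.V) (g : G) :
    T.locSub U v g ∈ T.𝓛v v := by
  obtain ⟨N, hN, hNU, hn⟩ := LevelSys.exists_normal hU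
  refine LevelSys.mono (T.hr v N hN) fun d hd => ?_
  rw [mem_locSub]
  have hd' : T.r v d ∈ N := hd
  exact hNU (by simpa using hn.conj_mem _ hd' g⁻¹)

variable {U}

lemma evL2_injective (hU : U ∈ T.𝓛) {v : T.V} {J : Type} {g : J → G}
    (hg : T.PlaceReps U v g) (z : H2 (T.𝓛v v) ((permRep k U).comp (T.r v)))
    (hz : ∀ j, T.evL2 U v (g j) z = 0) : z = 0 := by
  have := LevelSys.finiteIndex hU
  let _ := MulAction.compHom (G ⧸ U) (T.r v)
  refine evMap2_injective (trivRep k (T.D v)) (fun h f x => ?_) (T.placeReps_orbitReps hg)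
    (fun j => T.locSub U v (g j)) (fun j => T.locSub_eq_stabilizer U v (g j))
    (fun j => trivRep k _) (fun _ _ => rfl) (fun x => ?_) _ z hz
  · show f ((T.r v h)⁻¹ • x) = f (T.r v h⁻¹ • x)
    rw [map_inv]
  · obtain ⟨a, rfl⟩ := QuotientGroup.mk_surjective x
    rw [← T.locSub_eq_stabilizer U v a]
    exact T.locSub_mem hU v a

lemma evL2_surjective (hU : U ∈ T.𝓛) {v : T.V} {J : Type} {g : J → G}
    (hg : T.PlaceReps U v g) (y : ∀ j, H2 ((T.𝓛v v).restrict (T.locSub U v (g j)))
      (trivRep k ↥(T.locSub U v (g j)))) :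
    ∃ z : H2 (T.𝓛v v) ((permRep k U).comp (T.r v)), ∀ j, T.evL2 U v (g j) z = y j := by
  have := LevelSys.finiteIndex hU
  let _ := MulAction.compHom (G ⧸ U) (T.r v)
  refine evMap2_surjective (trivRep k (T.D v)) (fun h f x => ?_) (T.placeReps_orbitReps hg)
    (fun j => T.locSub U v (g j)) (fun j => T.locSub_eq_stabilizer U v (g j))
    (fun j => trivRep k _) (fun _ _ => rfl) (fun x => ?_) _ y
  · show f ((T.r v h)⁻¹ • x) = f (T.r v h⁻¹ • x)
    rw [map_inv]
  · obtain ⟨a, rfl⟩ := QuotientGroup.mk_surjective x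
    rw [← T.locSub_eq_stabilizer U v a]
    exact T.locSub_mem hU v a

lemma exists_placeReps (U : Subgroup G) (v : T.V) : ∃ (J : Type) (g : J → G),
    T.PlaceReps U v g := by
  let _ := MulAction.compHom (G ⧸ U) (T.r v)
  have h := exists_orbitReps (T.D v) (G ⧸ U)
  refine ⟨MulAction.orbitRel.Quotient (T.D v) (G ⧸ U), fun j => (Quotient.out j : G ⧸ U).out,
    ?_, ?_⟩
  · intro x
    obtain ⟨j, d, hd⟩ := h.surj (QuotientGroup.mk x)
    have h1 : T.r v d • (Quotient.out j : G ⧸ U) = QuotientGroup.mk x := hd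
    rw [← QuotientGroup.out_eq' (Quotient.out j : G ⧸ U), MulAction.Quotient.smul_mk,
      smul_eq_mul, QuotientGroup.eq] at h1
    exact ⟨j, d, _, h1, by group⟩
  · intro i j d u hu hij
    refine h.inj i j d ?_
    show T.r v d • (Quotient.out i : G ⧸ U) = Quotient.out j
    rw [← QuotientGroup.out_eq' (Quotient.out i : G ⧸ U),
      ← QuotientGroup.out_eq' (Quotient.out j : G ⧸ U), MulAction.Quotient.smul_mk,
      smul_eq_mul, QuotientGroup.eq, hij]
    convert hu using 1
    group

/-- `Ш²` at the module level and at the level of `U`. -/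
lemma mem_sha2_permRep (hU : U ∈ T.𝓛) (z : H2 T.𝓛 (permRep k U)) :
    z ∈ T.sha2 (permRep k U) ↔ shU2 k T.𝓛 U z ∈ T.shaU2 U := by
  rw [mem_sha2, mem_shaU2]
  constructor
  · intro h v g
    rw [← evL2_loc2, h v, map_zero]
  · intro h v
    obtain ⟨J, g, hg⟩ := T.exists_placeReps U v
    exact T.evL2_injective hU hg _ (fun j => by rw [evL2_loc2, h])

/-- The isomorphism `Ш²(P_U) ≅ Ш²(U)`. -/
noncomputable def sha2Equiv (hU : U ∈ T.𝓛) : ↥(T.sha2 (permRep k U)) ≃ₗ[k] ↥(T.shaU2 U) :=
  LinearEquiv.ofBijective ((shU2 k T.𝓛 U).restrict (fun z hz => (T.mem_sha2_permRep hU z).1 hz))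
    ⟨fun a b hab => Subtype.ext (shU2_injective k hU (congrArg Subtype.val hab)), fun y => by
      obtain ⟨z, hz⟩ := shU2_surjective k hU y.1
      exact ⟨⟨z, (T.mem_sha2_permRep hU z).2 (hz ▸ y.2)⟩, Subtype.ext hz⟩⟩

end PlaceData

end Fermat.Agent.PT
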