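import Fermat.Agent.PT.Mackey

/-!
# `Ш¹` of the dual of a permutation representation, in terms of `U`
-/

set_option autoImplicit false

namespace Fermat.Agent.PT

open Module

section CoefEquiv

variable {k : Type*} [CommRing k] {G : Type*} [Group G] {𝓛 : LevelSys G}
variable {M : Type*} [AddCommGroup M] [Module k M] {ρ : Representation k G M}
variable {N : Type*} [AddCommGroup N] [Module k N] {σ : Representation k G N}

lemma Equivar.symm {e : M ≃ₗ[k] N} (he : Equivar ρ σ e.toLinearMap) :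
    Equivar σ ρ e.symm.toLinearMap := fun g n => by
  apply e.injective
  have := he g (e.symm n)
  simpa using this.symm

lemma H1coef_id (h : Equivar ρ ρ (LinearMap.id : M →ₗ[k] M)) (x : H1 𝓛 ρ) :
    H1coef 𝓛 LinearMap.id h x = x := by
  obtain ⟨c, rfl⟩ := H1mk_surjective x
  rfl

lemma H2coef_id (h : Equivar ρ ρ (LinearMap.id : M →ₗ[k] M)) (x : H2 𝓛 ρ) :
    H2coef 𝓛 LinearMap.id h x = x := by
  obtain ⟨c, rfl⟩ := H2mk_surjective x
  rfl

lemma H1coef_equiv_bijective (e : M ≃ₗ[k] N) (he : Equivar ρ σ e.toLinearMap) :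
    Function.Bijective (H1coef 𝓛 e.toLinearMap he) := by
  have h1 : Equivar ρ ρ (LinearMap.id : M →ₗ[k] M) := fun _ _ => rfl
  have h2 : Equivar σ σ (LinearMap.id : N →ₗ[k] N) := fun _ _ => rfl
  refine Function.bijective_iff_has_inverse.2 ⟨H1coef 𝓛 e.symm.toLinearMap he.symm,
    fun x => ?_, fun x => ?_⟩
  · rw [← H1coef_comp, H1coef_congr _ h1 (by ext; simp), H1coef_id]
  · rw [← H1coef_comp, H1coef_congr _ h2 (by ext; simp), H1coef_id]

end CoefEquiv

section DualFun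

variable {k : Type*} [Field k] {X : Type*} [Finite X]

open Classical in
/-- `Dual (X → k) ≃ (X → k)`, `φ ↦ (x ↦ φ δ_x)`. -/
noncomputable def dualFunEquiv (k : Type*) [Field k] (X : Type*) [Finite X] :
    Dual k (X → k) ≃ₗ[k] (X → k) :=
  letI := Fintype.ofFinite X
  { toFun := fun φ x => φ (Pi.single x 1)
    invFun := fun c => ∑ x, c x • LinearMap.proj x
    map_add' := fun _ _ => rfl
    map_smul' := fun _ _ => rfl
    left_inv := fun φ => by
      refine LinearMap.pi_ext' fun x => LinearMap.ext_ring ?_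
      simp [LinearMap.sum_apply, Pi.single_apply]
    right_inv := fun c => by
      funext x
      simp [Pi.single_apply] }

open Classical in
lemma dualFunEquiv_apply (φ : Dual k (X → k)) (x : X) :
    dualFunEquiv k X φ x = φ (Pi.single x 1) := rfl

lemma dualFunEquiv_equivar {G : Type*} [Group G] [MulAction G X] (χ : G →* kˣ) :
    Equivar (dualT χ (funRep X (trivRep k G))) (funRep X (chiRep χ))
      (dualFunEquiv k X).toLinearMap := by
  classical
  intro g φ
  funext x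
  show (χ g : k) * φ (funRep X (trivRep k G) g⁻¹ (Pi.single x 1)) =
    (χ g : k) * φ (Pi.single (g⁻¹ • x) 1)
  congr 2
  funext y
  show (Pi.single x (1 : k) : X → k) (g⁻¹⁻¹ • y) = _
  rw [inv_inv, Pi.single_apply, Pi.single_apply]
  simp only [eq_inv_smul_iff]

end DualFun

namespace PlaceData

variable {k G : Type} [Field k] [Group G] (T : PlaceData k G) (U : Subgroup G)

lemma shF_aux (hU : U ≤ T.χ.ker) (w : U) (f : G ⧸ U → k) :
    funRep (G ⧸ U) (chiRep T.χ) w f (QuotientGroup.mk 1) =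
      trivRep k ↥U w (f (QuotientGroup.mk 1)) := by
  show (T.χ (w : G) : k) * f ((w : G)⁻¹ • (QuotientGroup.mk 1 : G ⧸ U)) = f (QuotientGroup.mk 1)
  rw [MonoidHom.mem_ker.1 (hU w.2), Units.val_one, one_mul]
  congr 1
  rw [MulAction.Quotient.smul_mk, smul_eq_mul, mul_one]
  exact (QuotientGroup.eq.2 (by simp)).symm

/-- Shapiro map for `funRep (G/U) μ` in degree 1. -/
def shF1 (hU : U ≤ T.χ.ker) : H1 T.𝓛 (funRep (G ⧸ U) (chiRep T.χ)) →ₗ[k]
    H1 (T.𝓛.restrict U) (trivRep k ↥U) :=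
  evMap1 U (trivRep k ↥U) (QuotientGroup.mk 1) (T.shF_aux U hU)

variable {U}

lemma chi_locSub (hχ : U ≤ T.χ.ker) {v : T.V} {g : G} {d : T.D v}
    (hd : d ∈ T.locSub U v g) : T.χ (T.r v d) = 1 := by
  have h1 := MonoidHom.mem_ker.1 (hχ ((T.mem_locSub).1 hd))
  simpa [map_mul] using h1

variable (U) in
lemma evF1_aux (hχ : U ≤ T.χ.ker) (v : T.V) (g : G) (w : T.locSub U v g) (f : G ⧸ U → k) :
    (funRep (G ⧸ U) (chiRep T.χ)).comp (T.r v) w f (QuotientGroup.mk g) =
      trivRep k ↥(T.locSub U v g) w (f (QuotientGroup.mk g)) := by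
  show (T.χ (T.r v w) : k) * f ((T.r v w)⁻¹ • (QuotientGroup.mk g : G ⧸ U)) =
    f (QuotientGroup.mk g)
  rw [T.chi_locSub hχ w.2, Units.val_one, one_mul, ← map_inv]
  exact congrArg f (T.locSub_smul ((T.locSub U v g).inv_mem w.2))

variable (U) in
/-- Local evaluation map in degree 1. -/
def evF1 (hχ : U ≤ T.χ.ker) (v : T.V) (g : G) :
    H1 (T.𝓛v v) ((funRep (G ⧸ U) (chiRep T.χ)).comp (T.r v)) →ₗ[k]
    H1 ((T.𝓛v v).restrict (T.locSub U v g)) (trivRep k ↥(T.locSub U v g)) :=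
  evMap1 (T.locSub U v g) (trivRep k _) (QuotientGroup.mk g) (T.evF1_aux U hχ v g)

lemma shF1_injective (hχ : U ≤ T.χ.ker) : Function.Injective (T.shF1 U hχ) := by
  rw [injective_iff_map_eq_zero]
  intro z hz
  exact evMap1_injective (chiRep T.χ) (fun h f x => rfl) (orbitReps_quotient U) (fun _ => U)
    (fun _ => (stabilizer_one_quotient U).symm) (fun _ => trivRep k ↥U)
    (fun _ w => by
      refine LinearMap.ext fun a => ?_
      show a = (T.χ (w : G) : k) * a
      rw [MonoidHom.mem_ker.1 (hχ w.2), Units.val_one, one_mul])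
    (fun _ => T.shF_aux U hχ) z (fun _ => hz)

lemma shF1_surjective (hU : U ∈ T.𝓛) (hχ : U ≤ T.χ.ker) :
    Function.Surjective (T.shF1 U hχ) := by
  have := LevelSys.finiteIndex hU
  intro y
  obtain ⟨z, hz⟩ := evMap1_surjective (chiRep T.χ) (σ := funRep (G ⧸ U) (chiRep T.χ))
    (fun h f x => rfl) (orbitReps_quotient U) (fun _ => U)
    (fun _ => (stabilizer_one_quotient U).symm) (fun _ => trivRep k ↥U)
    (fun _ w => by
      refine LinearMap.ext fun a => ?_
      show a = (T.χ (w : G) : k) * a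
      rw [MonoidHom.mem_ker.1 (hχ w.2), Units.val_one, one_mul])
    (fun x => stab_quotient_mem hU x) (fun _ => T.shF_aux U hχ) (fun _ => y)
  exact ⟨z, hz ()⟩

lemma evF1_injective (hχ : U ≤ T.χ.ker) {v : T.V} {J : Type} {g : J → G}
    (hg : T.PlaceReps U v g)
    (z : H1 (T.𝓛v v) ((funRep (G ⧸ U) (chiRep T.χ)).comp (T.r v)))
    (hz : ∀ j, T.evF1 U hχ v (g j) z = 0) : z = 0 := by
  let _ := MulAction.compHom (G ⧸ U) (T.r v)
  refine evMap1_injective ((chiRep T.χ).comp (T.r v)) (fun h f x => ?_)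
    (T.placeReps_orbitReps hg)
    (fun j => T.locSub U v (g j)) (fun j => T.locSub_eq_stabilizer U v (g j))
    (fun j => trivRep k _) (fun j w => ?_) _ z hz
  · show (T.χ (T.r v h) : k) * f ((T.r v h)⁻¹ • x) = (T.χ (T.r v h) : k) * f (T.r v h⁻¹ • x)
    rw [map_inv]
  · refine LinearMap.ext fun a => ?_
    show a = (T.χ (T.r v w) : k) * a
    rw [T.chi_locSub hχ w.2, Units.val_one, one_mul]

/-- Mackey square in degree 1. -/
lemma evF1_loc1 (hχ : U ≤ T.χ.ker) (v : T.V) (g : G)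
    (z : H1 T.𝓛 (funRep (G ⧸ U) (chiRep T.χ))) :
    T.evF1 U hχ v g (T.loc1 (funRep (G ⧸ U) (chiRep T.χ)) v z) =
      (T.χ g : k) • T.locU1 U v g (T.shF1 U hχ z) := by
  obtain ⟨z, rfl⟩ := H1mk_surjective z
  have e0 : T.evF1 U hχ v g (T.loc1 (funRep (G ⧸ U) (chiRep T.χ)) v (H1mk T.𝓛 (funRep (G ⧸ U) (chiRep T.χ)) z)) =
      H1mk ((T.𝓛v v).restrict (T.locSub U v g)) (trivRep k ↥(T.locSub U v g))
        (Z1map (T.locSub U v g).subtype (LevelSys.compat_comap _)
          (LinearMap.proj (QuotientGroup.mk g)) (T.evF1_aux U hχ v g)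
          (Z1map (T.r v) (T.hr v) LinearMap.id (fun _ _ => rfl) z)) := rfl
  have e1 : (T.χ g : k) • T.locU1 U v g (T.shF1 U hχ (H1mk T.𝓛 (funRep (G ⧸ U) (chiRep T.χ)) z)) =
      H1mk ((T.𝓛v v).restrict (T.locSub U v g)) (trivRep k ↥(T.locSub U v g))
        ((T.χ g : k) • Z1map (T.locHom U v g) (T.locHom_compat U v g) LinearMap.id
          (fun _ _ => rfl)
          (Z1map U.subtype (LevelSys.compat_comap _) (LinearMap.proj (QuotientGroup.mk 1))
            (T.shF_aux U hχ) z)) := rfl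
  rw [e0, e1]
  congr 1
  apply Subtype.ext
  funext d
  show z.1 (T.r v d) (QuotientGroup.mk g) =
    (T.χ g : k) * z.1 (g⁻¹ * T.r v d * g) (QuotientGroup.mk 1)
  set s := T.r v (d : T.D v) with hs
  have c1 := congrFun (z.2.2 g (g⁻¹ * s * g)) (QuotientGroup.mk g)
  have c2 := congrFun (z.2.2 s g) (QuotientGroup.mk g)
  have e1 : g * (g⁻¹ * s * g) = s * g := by group
  have e4 : (g : G)⁻¹ • (QuotientGroup.mk g : G ⧸ U) = QuotientGroup.mk 1 := by
    rw [MulAction.Quotient.smul_mk, smul_eq_mul, inv_mul_cancel]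
  have e5 : s⁻¹ • (QuotientGroup.mk g : G ⧸ U) = QuotientGroup.mk g := by
    rw [hs, ← map_inv]
    exact T.locSub_smul ((T.locSub U v g).inv_mem d.2)
  have e6 : T.χ s = 1 := T.chi_locSub hχ d.2
  simp only [Pi.add_apply, funRep_apply, chiRep_apply, e1, e4, e5, e6, Units.val_one,
    one_mul] at c1 c2
  linear_combination c1 - c2

/-- The Shapiro map for the dual of `permRep`, degree 1. -/
noncomputable def shD1 [Finite (G ⧸ U)] (hχ : U ≤ T.χ.ker) :
    H1 T.𝓛 (dualT T.χ (permRep k U)) →ₗ[k] H1 (T.𝓛.restrict U) (trivRep k ↥U) :=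
  T.shF1 U hχ ∘ₗ H1coef T.𝓛 (dualFunEquiv k (G ⧸ U)).toLinearMap (dualFunEquiv_equivar T.χ)

lemma shD1_injective [Finite (G ⧸ U)] (hχ : U ≤ T.χ.ker) : Function.Injective (T.shD1 hχ) :=
  (T.shF1_injective hχ).comp (H1coef_equiv_bijective _ (dualFunEquiv_equivar T.χ)).1

lemma shD1_surjective [Finite (G ⧸ U)] (hU : U ∈ T.𝓛) (hχ : U ≤ T.χ.ker) :
    Function.Surjective (T.shD1 hχ) :=
  (T.shF1_surjective hU hχ).comp (H1coef_equiv_bijective _ (dualFunEquiv_equivar T.χ)).2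

/-- `Ш¹` at the module level and at the level of `U`. -/
lemma mem_sha1_dual [Finite (G ⧸ U)] (hχ : U ≤ T.χ.ker)
    (z : H1 T.𝓛 (dualT T.χ (permRep k U))) :
    z ∈ T.sha1 (dualT T.χ (permRep k U)) ↔ T.shD1 hχ z ∈ T.shaU1 U := by
  have h0 : ∀ z : H1 T.𝓛 (funRep (G ⧸ U) (chiRep T.χ)),
      z ∈ T.sha1 (funRep (G ⧸ U) (chiRep T.χ)) ↔ T.shF1 U hχ z ∈ T.shaU1 U := by
    intro z
    rw [mem_sha1, mem_shaU1]
    constructor
    · intro h v g
      have h1 := T.evF1_loc1 hχ v g z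
      rw [h v, map_zero] at h1
      exact (smul_eq_zero.1 h1.symm).resolve_left (Units.ne_zero _)
    · intro h v
      obtain ⟨J, g, hg⟩ := T.exists_placeReps U v
      exact T.evF1_injective hχ hg _ (fun j => by rw [evF1_loc1, h, smul_zero])
  rw [shD1, LinearMap.comp_apply, ← h0]
  constructor
  · intro hz
    exact T.sha1_coef (dualFunEquiv_equivar T.χ) hz
  · intro hz
    have h1 := T.sha1_coef (Equivar.symm (dualFunEquiv_equivar (X := G ⧸ U) T.χ)) hz
    have h2 : Equivar (dualT T.χ (permRep k U)) (dualT T.χ (permRep k U))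
        (LinearMap.id : Dual k (G ⧸ U → k) →ₗ[k] Dual k (G ⧸ U → k)) := fun _ _ => rfl
    rw [← H1coef_comp, H1coef_congr _ h2 (by ext; simp), H1coef_id] at h1
    exact h1

/-- The isomorphism `Ш¹(P_U') ≅ Ш¹(U)`. -/
noncomputable def sha1Equiv [Finite (G ⧸ U)] (hU : U ∈ T.𝓛) (hχ : U ≤ T.χ.ker) :
    ↥(T.sha1 (dualT T.χ (permRep k U))) ≃ₗ[k] ↥(T.shaU1 U) :=
  LinearEquiv.ofBijective ((T.shD1 hχ).restrict (fun z hz => (T.mem_sha1_dual hχ z).1 hz))
    ⟨fun a b hab => Subtype.ext (T.shD1_injective hχ (congrArg Subtype.val hab)), fun y => by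
      obtain ⟨z, hz⟩ := T.shD1_surjective hU hχ y.1
      exact ⟨⟨z, (T.mem_sha1_dual hχ z).2 (hz ▸ y.2)⟩, Subtype.ext hz⟩⟩

end PlaceData

end Fermat.Agent.PT
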