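import Fermat.Agent.PT.Dual

/-!
# The snake argument: `ker(Ш¹(M') → Ш¹(P')) ≅ (Ш²(M)/Ш²(P))^*`
-/

set_option autoImplicit false

namespace Fermat.Agent.PT

open Module

/-- Restricting a short exact sequence along a compatible homomorphism. -/
lemma SES.comp_hom {k : Type*} [CommRing k] {G : Type*} [Group G] {𝓛 : LevelSys G}
    {A : Type*} [AddCommGroup A] [Module k A] {ρA : Representation k G A}
    {B : Type*} [AddCommGroup B] [Module k B] {ρB : Representation k G B}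
    {C : Type*} [AddCommGroup C] [Module k C] {ρC : Representation k G C}
    {f : A →ₗ[k] B} {g : B →ₗ[k] C} (h : SES 𝓛 ρA ρB ρC f g)
    {H : Type*} [Group H] {𝓛' : LevelSys H} (u : H →* G) (hu : 𝓛.Compat u 𝓛') :
    SES 𝓛' (ρA.comp u) (ρB.comp u) (ρC.comp u) f g where
  inj := h.inj
  surj := h.surj
  exact := h.exact
  zero := h.zero
  eqf := h.eqf.comp_hom u
  eqg := h.eqg.comp_hom u
  disc := h.disc.comp hu

section DualSES

variable {k : Type*} [Field k] {G : Type*} [Group G] {𝓛 : LevelSys G} {χ : G →* kˣ}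
variable {M : Type*} [AddCommGroup M] [Module k M] {ρ : Representation k G M}
variable {N : Type*} [AddCommGroup N] [Module k N] {σ : Representation k G N}
variable {P : Type*} [AddCommGroup P] [Module k P] {τ : Representation k G P}

lemma Equivar.dualMap {f : M →ₗ[k] N} (hf : Equivar ρ σ f) :
    Equivar (dualT χ σ) (dualT χ ρ) f.dualMap := by
  intro g φ
  ext m
  show (χ g : k) * φ (σ g⁻¹ (f m)) = (χ g : k) * φ (f (ρ g⁻¹ m))
  rw [hf]

/-- The dual of a short exact sequence. -/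
lemma SES.dual [FiniteDimensional k P] (hχ : χ.ker ∈ 𝓛) {ι : N →ₗ[k] P} {π : P →ₗ[k] M}
    (h : SES 𝓛 σ τ ρ ι π) :
    SES 𝓛 (dualT χ ρ) (dualT χ τ) (dualT χ σ) π.dualMap ι.dualMap where
  inj := LinearMap.dualMap_injective_of_surjective h.surj
  surj := LinearMap.dualMap_surjective_of_injective h.inj
  exact := by
    intro φ hφ
    have h1 : LinearMap.ker π ≤ LinearMap.ker φ := by
      intro x hx
      obtain ⟨n, rfl⟩ := h.exact x hx
      exact LinearMap.congr_fun hφ n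
    have h2 : φ ∈ LinearMap.range π.dualMap := by
      rw [LinearMap.range_dualMap_eq_dualAnnihilator_ker_of_surjective π h.surj,
        Submodule.mem_dualAnnihilator]
      exact fun w hw => h1 hw
    exact h2
  zero := by
    intro φ
    ext n
    show φ (π (ι n)) = 0
    rw [h.zero, map_zero]
  eqf := h.eqg.dualMap
  eqg := h.eqf.dualMap
  disc := dualT_discrete h.disc hχ

end DualSES

namespace PlaceData

variable {k G : Type} [Field k] [Group G] (T : PlaceData k G)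
variable {M : Type} [AddCommGroup M] [Module k M] {ρ : Representation k G M}
variable {N : Type} [AddCommGroup N] [Module k N] {σ : Representation k G N}
variable {P : Type} [AddCommGroup P] [Module k P] {τ : Representation k G P}

/-- The image of `γ_M` is the annihilator of `Ш²(M)`. -/
lemma exists_gam_eq [FiniteDimensional k M] (hM : T.LocInj ρ) (f : Dual k (H2 T.𝓛 ρ))
    (hf : ∀ x ∈ T.sha2 ρ, f x = 0) : ∃ c : T.X ρ, T.gam c = f := by
  classical
  set W : Submodule k (Dual k (H2 T.𝓛 ρ)) := LinearMap.range (T.gam (ρ := ρ)) with hW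
  have h1 : f ∈ W.dualCoannihilator.dualAnnihilator := by
    rw [Submodule.mem_dualAnnihilator]
    intro x hx
    refine hf x ((T.mem_sha2).2 fun v => hM v _ fun g => ?_)
    rw [Submodule.mem_dualCoannihilator] at hx
    have h2 := hx _ ⟨Pi.single v g, rfl⟩
    rw [gam_apply, Finset.sum_eq_single v] at h2
    · rwa [Pi.single_eq_same] at h2
    · intro w _ hw
      rw [Pi.single_eq_of_ne hw, map_zero, LinearMap.zero_apply]
    · intro h; exact absurd (Finset.mem_univ v) h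
  rw [Subspace.dualCoannihilator_dualAnnihilator_eq] at h1
  exact h1

lemma gam_sha2 (c : T.X ρ) {x : H2 T.𝓛 ρ} (hx : x ∈ T.sha2 ρ) : T.gam c x = 0 := by
  rw [gam_apply]
  refine Finset.sum_eq_zero fun v _ => ?_
  rw [(T.mem_sha2).1 hx v, map_zero]

variable {ι : N →ₗ[k] P} {π : P →ₗ[k] M}

/-- Pairs `(φ, c)` with `φ ∈ Hom_G(N, μ)` and `c ∈ X(P)` restricting to `φ` everywhere. -/
def KK (h : SES T.𝓛 σ τ ρ ι π) : Submodule k (↥(homG T.χ σ) × T.X τ) where
  carrier := {x | T.XComp h.eqf x.2 = T.diag x.1}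
  add_mem' {x y} hx hy := by
    simp only [Set.mem_ofPred_eq, Prod.fst_add, Prod.snd_add, map_add] at hx hy ⊢
    rw [hx, hy]
  zero_mem' := by simp
  smul_mem' c x hx := by
    simp only [Set.mem_ofPred_eq, Prod.smul_fst, Prod.smul_snd, map_smul] at hx ⊢
    rw [hx]

variable (h : SES T.𝓛 σ τ ρ ι π)

/-- `(φ, c) ↦ δ⁰ φ`. -/
noncomputable def mapA [FiniteDimensional k P] : ↥(T.KK h) →ₗ[k] H1 T.𝓛 (dualT T.χ ρ) :=
  (h.dual T.χ_level).delta0 ∘ₗ
    { toFun := fun x => ⟨x.1.1.1, (mem_homG_iff_invariants T.χ σ).1 x.1.1.2⟩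
      map_add' := fun _ _ => rfl
      map_smul' := fun _ _ => rfl }

lemma range_mapA [FiniteDimensional k P] : LinearMap.range (T.mapA h) =
    T.sha1 (dualT T.χ ρ) ⊓ LinearMap.ker (H1coef T.𝓛 π.dualMap (h.eqg.dualMap (χ := T.χ))) := by
  apply le_antisymm
  · rintro _ ⟨⟨⟨φ, c⟩, hx⟩, rfl⟩
    refine ⟨(T.mem_sha1).2 fun v => ?_, ?_⟩
    · -- local triviality
      have hloc := (h.dual T.χ_level).comp_hom (T.r v) (T.hr v)
      have h1 := SES.delta0_natural (h.dual T.χ_level) hloc (T.r v) (T.hr v) LinearMap.id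
        LinearMap.id LinearMap.id (fun _ _ => rfl) (fun _ _ => rfl) (fun _ => rfl)
        (fun _ => rfl) ⟨φ.1, (mem_homG_iff_invariants T.χ σ).1 φ.2⟩
        ⟨φ.1, (T.mem_homv_iff_invariants).1 (T.homG_le_homv v φ.2)⟩ rfl
      refine h1.trans ?_
      rw [hloc.exact_H0C]
      refine ⟨(c v).1, fun s => (T.mem_homv_iff_invariants).1 (c v).2 s, ?_⟩
      have h2 := congrArg (fun d : T.X σ => (d v : Dual k N)) hx
      exact h2
    · exact ((h.dual T.χ_level).exact_H1A _).2 ⟨_, rfl⟩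
  · rintro y ⟨hy1, hy2⟩
    obtain ⟨φ, hφ⟩ := ((h.dual T.χ_level).exact_H1A y).1 hy2
    have hφ' : φ.1 ∈ homG T.χ σ := (mem_homG_iff_invariants T.χ σ).2 φ.2
    have h3 : ∀ v, ∃ c : ↥(T.homv τ v), c.1 ∘ₗ ι = φ.1 := by
      intro v
      have hloc := (h.dual T.χ_level).comp_hom (T.r v) (T.hr v)
      have h1 := SES.delta0_natural (h.dual T.χ_level) hloc (T.r v) (T.hr v) LinearMap.id
        LinearMap.id LinearMap.id (fun _ _ => rfl) (fun _ _ => rfl) (fun _ => rfl)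
        (fun _ => rfl) φ
        ⟨φ.1, (T.mem_homv_iff_invariants).1 (T.homG_le_homv v hφ')⟩ rfl
      rw [hφ] at h1
      have h2 := h1.symm.trans ((T.mem_sha1).1 hy1 v)
      rw [hloc.exact_H0C] at h2
      obtain ⟨b, hb, hb'⟩ := h2
      exact ⟨⟨b, (T.mem_homv_iff_invariants).2 hb⟩, hb'⟩
    choose c hc using h3
    refine ⟨⟨⟨⟨φ.1, hφ'⟩, c⟩, ?_⟩, hφ⟩
    show T.XComp h.eqf c = T.diag _
    funext v
    exact Subtype.ext (hc v)

/-- A linear section of `H²(P) → H²(M)`. -/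
lemma exists_section2 (hπ : Function.Surjective (H2coef T.𝓛 π h.eqg)) :
    ∃ s : H2 T.𝓛 ρ →ₗ[k] H2 T.𝓛 τ, ∀ x, H2coef T.𝓛 π h.eqg (s x) = x := by
  obtain ⟨s, hs⟩ := (H2coef T.𝓛 π h.eqg).exists_rightInverse_of_surjective
    (LinearMap.range_eq_top.2 hπ)
  exact ⟨s, fun x => LinearMap.congr_fun hs x⟩

/-- `(φ, c) ↦ γ_P(c)` descended to `H²(M)` and restricted to `Ш²(M)`. -/
noncomputable def mapB (s : H2 T.𝓛 ρ →ₗ[k] H2 T.𝓛 τ) : ↥(T.KK h) →ₗ[k] Dual k ↥(T.sha2 ρ) where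
  toFun x := T.gam x.1.2 ∘ₗ s ∘ₗ (T.sha2 ρ).subtype
  map_add' x y := by
    refine LinearMap.ext fun z => ?_
    simp
  map_smul' c x := by
    refine LinearMap.ext fun z => ?_
    simp

variable {h} {s : H2 T.𝓛 ρ →ₗ[k] H2 T.𝓛 τ}

include h in
lemma gam_eq_of_KK (hR : T.Recip) (hs : ∀ x, H2coef T.𝓛 π h.eqg (s x) = x) (x : ↥(T.KK h))
    (z : H2 T.𝓛 τ) : T.gam x.1.2 (s (H2coef T.𝓛 π h.eqg z)) = T.gam x.1.2 z := by
  obtain ⟨y, hy⟩ := h.exact_H2 (z - s (H2coef T.𝓛 π h.eqg z)) (by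
    rw [map_sub, hs, sub_self])
  have h1 : T.gam x.1.2 (z - s (H2coef T.𝓛 π h.eqg z)) = 0 := by
    rw [← hy, ← gam_comp, show T.XComp h.eqf x.1.2 = T.diag x.1.1 from x.2, gam_diag T hR,
      LinearMap.zero_apply]
  rw [map_sub, sub_eq_zero] at h1
  exact h1.symm

lemma ker_mapA [FiniteDimensional k P] (x : ↥(T.KK h)) : T.mapA h x = 0 ↔
    ∃ ψ : ↥(homG T.χ τ), ∃ c' : T.X ρ, x.1.2 = T.diag ψ + T.XComp h.eqg c' := by
  show (h.dual T.χ_level).delta0 ⟨x.1.1.1, _⟩ = 0 ↔ _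
  rw [(h.dual T.χ_level).exact_H0C]
  have hx : T.XComp h.eqf x.1.2 = T.diag x.1.1 := x.2
  constructor
  · rintro ⟨ψ, hψ, hψ'⟩
    have hψG : ψ ∈ homG T.χ τ := (mem_homG_iff_invariants T.χ τ).2 hψ
    have h1 : ∀ v, ∃ c' : ↥(T.homv ρ v), (x.1.2 v : Dual k P) = ψ + c'.1 ∘ₗ π := by
      intro v
      have hv : (x.1.2 v : Dual k P) ∘ₗ ι = x.1.1.1 :=
        congrArg (fun d : T.X σ => (d v : Dual k N)) hx
      obtain ⟨c', hc'⟩ := (h.dual T.χ_level).exact ((x.1.2 v : Dual k P) - ψ) (by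
        rw [map_sub, sub_eq_zero]
        exact hv.trans hψ'.symm)
      refine ⟨⟨c', fun d m => ?_⟩, ?_⟩
      · obtain ⟨m, rfl⟩ := h.surj m
        have h2 : ∀ m, c' (π m) = (x.1.2 v : Dual k P) m - ψ m := fun m =>
          LinearMap.congr_fun hc' m
        rw [← h.eqg, h2, h2, (x.1.2 v).2, hψG, mul_sub]
      · have h2 : c' ∘ₗ π = (x.1.2 v : Dual k P) - ψ := hc'
        show (x.1.2 v : Dual k P) = ψ + c' ∘ₗ π
        rw [h2]; abel
    choose c' hc' using h1
    refine ⟨⟨ψ, hψG⟩, c', ?_⟩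
    funext v
    exact Subtype.ext (hc' v)
  · rintro ⟨ψ, c', hc⟩
    refine ⟨ψ.1, (mem_homG_iff_invariants T.χ τ).1 ψ.2, ?_⟩
    obtain ⟨v₀⟩ := T.ne
    have hv : (x.1.2 v₀ : Dual k P) ∘ₗ ι = x.1.1.1 :=
      congrArg (fun d : T.X σ => (d v₀ : Dual k N)) hx
    have h3 : (x.1.2 v₀ : Dual k P) = ψ.1 + (c' v₀).1 ∘ₗ π :=
      congrArg (fun d : T.X τ => (d v₀ : Dual k P)) hc
    show ψ.1 ∘ₗ ι = x.1.1.1
    rw [← hv, h3]
    ext n
    simp [h.zero]

include h in
lemma ker_mapA_eq_ker_mapB [FiniteDimensional k P] (hR : T.Recip) (hM : T.LocInj ρ)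
    (hP : T.ExactX τ) (hs : ∀ x, H2coef T.𝓛 π h.eqg (s x) = x) :
    LinearMap.ker (T.mapA h) = LinearMap.ker (T.mapB h s) := by
  have : FiniteDimensional k M := Module.Finite.of_surjective π h.surj
  ext x
  rw [LinearMap.mem_ker, LinearMap.mem_ker, T.ker_mapA x]
  constructor
  · rintro ⟨ψ, c', hc⟩
    refine LinearMap.ext fun y => ?_
    show T.gam x.1.2 (s y.1) = 0
    rw [hc, map_add, LinearMap.add_apply, gam_diag T hR, LinearMap.zero_apply, zero_add,
      gam_comp, hs, gam_sha2 T c' y.2]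
  · intro hx
    -- the descended functional
    obtain ⟨c', hc'⟩ := T.exists_gam_eq hM (T.gam x.1.2 ∘ₗ s) (fun y hy =>
      LinearMap.congr_fun hx ⟨y, hy⟩)
    have key : T.gam x.1.2 = T.gam (T.XComp h.eqg c') := by
      refine LinearMap.ext fun z => ?_
      rw [gam_comp, hc', LinearMap.comp_apply, T.gam_eq_of_KK hR hs]
    have key2 : T.gam (x.1.2 + (-1 : k) • T.XComp h.eqg c') = 0 := by
      rw [map_add, map_smul, key]
      refine LinearMap.ext fun z => ?_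
      show T.gam (T.XComp h.eqg c') z + (-1) * T.gam (T.XComp h.eqg c') z = 0
      ring
    obtain ⟨ψ, hψ⟩ := hP _ key2
    refine ⟨ψ, c', ?_⟩
    rw [hψ, add_assoc, ← one_smul k (T.XComp h.eqg c'), smul_smul, ← add_smul]
    simp

include h in
lemma range_mapB [FiniteDimensional k P] (hR : T.Recip) (hPl : T.LocInj τ)
    (hN : T.ExactX σ) (hs : ∀ x, H2coef T.𝓛 π h.eqg (s x) = x) (f : Dual k ↥(T.sha2 ρ)) :
    f ∈ LinearMap.range (T.mapB h s) ↔
      ∀ z (hz : z ∈ T.sha2 τ), f ⟨H2coef T.𝓛 π h.eqg z, T.sha2_coef h.eqg hz⟩ = 0 := by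
  constructor
  · rintro ⟨x, rfl⟩ z hz
    show T.gam x.1.2 (s (H2coef T.𝓛 π h.eqg z)) = 0
    rw [T.gam_eq_of_KK hR hs, gam_sha2 T _ hz]
  · intro hf
    obtain ⟨F, hF⟩ : ∃ F : Dual k (H2 T.𝓛 ρ), F ∘ₗ (T.sha2 ρ).subtype = f := by
      obtain ⟨F, hF⟩ := LinearMap.dualMap_surjective_of_injective
        (Submodule.injective_subtype (T.sha2 ρ)) f
      exact ⟨F, hF⟩
    obtain ⟨c, hc⟩ := T.exists_gam_eq hPl (F ∘ₗ H2coef T.𝓛 π h.eqg) (fun z hz => by
      have h1 := hf z hz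
      rw [← hF] at h1
      exact h1)
    obtain ⟨φ, hφ⟩ := hN (T.XComp h.eqf c) (by
      refine LinearMap.ext fun y => ?_
      have h0 : Equivar σ ρ (0 : N →ₗ[k] M) := fun g m => by simp
      rw [gam_comp, hc, LinearMap.comp_apply, ← H2coef_comp,
        H2coef_congr (h.eqg.comp h.eqf) h0 (by ext n; simp [h.zero]), H2coef_zero,
        map_zero, LinearMap.zero_apply])
    refine ⟨⟨(φ, c), hφ.symm⟩, ?_⟩
    rw [← hF]
    refine LinearMap.ext fun y => ?_
    show T.gam c (s y.1) = F y.1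
    rw [hc, LinearMap.comp_apply, hs]

variable (ρ τ π) in
/-- The functionals on `Ш²(M)` killing the image of `Ш²(P)`. -/
def annSha (hπ : Equivar τ ρ π) : Submodule k (Dual k ↥(T.sha2 ρ)) where
  carrier := {f | ∀ z (hz : z ∈ T.sha2 τ), f ⟨H2coef T.𝓛 π hπ z, T.sha2_coef hπ hz⟩ = 0}
  add_mem' {f f'} hf hf' z hz := by rw [LinearMap.add_apply, hf z hz, hf' z hz, add_zero]
  zero_mem' z hz := rfl
  smul_mem' c f hf z hz := by rw [LinearMap.smul_apply, hf z hz, smul_zero]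

lemma finiteDimensional_X [FiniteDimensional k P] : FiniteDimensional k (T.X τ) := by
  have h1 : FiniteDimensional k (Dual k P) := inferInstance
  have h2 : ∀ v, FiniteDimensional k ↥(T.homv τ v) := fun v =>
    FiniteDimensional.finiteDimensional_submodule _
  exact Module.Finite.pi

lemma finiteDimensional_KK [FiniteDimensional k P] (h : SES T.𝓛 σ τ ρ ι π) :
    FiniteDimensional k ↥(T.KK h) := by
  have hNf : FiniteDimensional k N := Module.Finite.of_injective ι h.inj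
  have h1 : FiniteDimensional k (T.X τ) := T.finiteDimensional_X
  have h2 : FiniteDimensional k ↥(homG T.χ σ) := FiniteDimensional.finiteDimensional_submodule _
  have h3 : FiniteDimensional k (↥(homG T.χ σ) × T.X τ) := Module.Finite.prod
  exact FiniteDimensional.finiteDimensional_submodule _

/-- **Snake theorem**: `ker(Ш¹(M') → H¹(P')) ≅ {f ∈ Ш²(M)^* : f ∘ π_* = 0 on Ш²(P)}`,
and both are finite-dimensional. -/
theorem snake [FiniteDimensional k P] (hR : T.Recip) (h : SES T.𝓛 σ τ ρ ι π)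
    (hsurj : Function.Surjective (H2coef T.𝓛 π h.eqg)) (hM : T.LocInj ρ) (hPl : T.LocInj τ)
    (hP : T.ExactX τ) (hN : T.ExactX σ) :
    FiniteDimensional k ↥(T.annSha ρ τ π h.eqg) ∧
    Nonempty (↥(T.sha1 (dualT T.χ ρ) ⊓
      LinearMap.ker (H1coef T.𝓛 π.dualMap (h.eqg.dualMap (χ := T.χ)))) ≃ₗ[k]
      ↥(T.annSha ρ τ π h.eqg)) := by
  obtain ⟨s, hs⟩ := T.exists_section2 h hsurj
  have hA := T.range_mapA h
  have hB : LinearMap.range (T.mapB h s) = T.annSha ρ τ π h.eqg := by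
    ext f
    exact T.range_mapB hR hPl hN hs f
  have hK := T.ker_mapA_eq_ker_mapB hR hM hP hs (h := h)
  have hfd : FiniteDimensional k ↥(T.KK h) := T.finiteDimensional_KK h
  have hfB : FiniteDimensional k ↥(LinearMap.range (T.mapB h s)) := LinearMap.finiteDimensional_range _
  refine ⟨hB ▸ hfB, ⟨?_⟩⟩
  have e1 := LinearEquiv.ofEq _ _ hA.symm
  have e2 := (LinearMap.quotKerEquivRange (T.mapA h)).symm
  have e3 := Submodule.quotEquivOfEq _ _ hK
  have e4 := LinearMap.quotKerEquivRange (T.mapB h s)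
  have e5 := LinearEquiv.ofEq _ _ hB
  exact e1.trans (e2.trans (e3.trans (e4.trans e5)))

end PlaceData

end Fermat.Agent.PT
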